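/-
S55 / LOCAL block (helper59): FUNDAMENTAL CLASSES from cyclicity + orders + restriction–
corestriction, and the resulting `H³ = 0` via the Tate block.

ABSTRACT (pure group cohomology): `G` a finite group, `C : Rep ℤ G`.  If `H²(G, C)` is cyclic of
order `|G|`, and for every subgroup `H ≤ G` the group `H²(H, C)` has order `|H|`, then a
generator `u` of `H²(G, C)` is a *fundamental class*: `res_H u` generates `H²(H, C)` for every `H`
(`exists_fundamental_class`; uses only `res_S x = 0 ⇒ [G : S] • x = 0`, helper39's
`Tate/ResCor.lean`).  With `H¹(H, C) = 0` for all `H` and `Tate.Blocks.TateH3` this gives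
`H³(G, C) = 0` (`isZero_H3_of_cyclic_H2`).
-/
import Mathlib
import Fermat.Agent.S55.Tate.Blocks
import Fermat.Agent.S55.Tate.ResCor

set_option autoImplicit false

namespace Fermat.Agent.S55.Local.FundClass

open CategoryTheory CategoryTheory.Limits groupCohomology Rep
open Fermat.Agent.S55.Tate.Blocks

/-- In a finite additive group, an element whose order is the cardinality generates. -/
lemma exists_zsmul_eq_of_addOrderOf_eq_card {M : Type*} [AddCommGroup M] [Finite M] (y : M)
    (hy : addOrderOf y = Nat.card M) (x : M) : ∃ n : ℤ, x = n • y := by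
  have h : AddSubgroup.zmultiples y = ⊤ := by
    apply AddSubgroup.eq_top_of_card_eq
    rw [Nat.card_zmultiples, hy]
  have hx : x ∈ AddSubgroup.zmultiples y := h ▸ AddSubgroup.mem_top x
  obtain ⟨n, hn⟩ := AddSubgroup.mem_zmultiples_iff.mp hx
  exact ⟨n, hn.symm⟩

variable {G : Type} [Group G] [Finite G] (C : Rep ℤ G)

/-- **Existence of a fundamental class.** -/
theorem exists_fundamental_class
    (hcycG : IsAddCyclic (groupCohomology C 2))
    (hcardG : Nat.card (groupCohomology C 2) = Nat.card G)
    (hcard : ∀ H : Subgroup G, Nat.card (groupCohomology (resSub H C) 2) = Nat.card H) :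
    ∃ u : groupCohomology C 2, ∀ H : Subgroup G, ∀ x : groupCohomology (resSub H C) 2,
      ∃ n : ℤ, x = n • resMap H C 2 u := by
  classical
  obtain ⟨u, hu⟩ := hcycG.exists_generator
  have hfinG : Finite (groupCohomology C 2) := by
    apply Nat.finite_of_card_ne_zero
    rw [hcardG]; exact Nat.card_pos.ne'
  have hordu : addOrderOf u = Nat.card G := by
    rw [← hcardG]
    exact addOrderOf_eq_card_of_forall_mem_zmultiples hu
  refine ⟨u, fun H x => ?_⟩
  have hfinH : Finite (groupCohomology (resSub H C) 2) := by
    apply Nat.finite_of_card_ne_zero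
    rw [hcard H]; exact Nat.card_pos.ne'
  set y := resMap H C 2 u with hy
  apply exists_zsmul_eq_of_addOrderOf_eq_card y _ x
  -- the order of `y` divides `|H|` and is divisible by `|H|`
  have hd1 : addOrderOf y ∣ Nat.card H := by
    rw [← hcard H]; exact addOrderOf_dvd_natCard y
  have hres : resMap H C 2 (addOrderOf y • u) = 0 := by
    rw [map_nsmul]; exact addOrderOf_nsmul_eq_zero y
  have hkill : H.index • (addOrderOf y • u) = 0 :=
    Fermat.Agent.S55.Tate.ResCor.index_smul_eq_zero_of_res_eq_zero₂ C H _ hres
  rw [← mul_nsmul'] at hkill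
  have hd2 : Nat.card G ∣ addOrderOf y * H.index := by
    rw [← hordu, mul_comm]; exact addOrderOf_dvd_of_nsmul_eq_zero hkill
  rw [← H.card_mul_index] at hd2
  have hidx : 0 < H.index := Nat.pos_of_ne_zero Subgroup.FiniteIndex.index_ne_zero
  have hd3 : Nat.card H ∣ addOrderOf y := Nat.dvd_of_mul_dvd_mul_right hidx hd2
  rw [hcard H]
  exact Nat.dvd_antisymm hd1 hd3

/-- **`H³ = 0` from cyclic `H²` of the right orders** (with the Tate block). -/
theorem isZero_H3_of_cyclic_H2 (hT : TateH3)
    (h1 : ∀ H : Subgroup G, IsZero (groupCohomology (resSub H C) 1))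
    (hcycG : IsAddCyclic (groupCohomology C 2))
    (hcardG : Nat.card (groupCohomology C 2) = Nat.card G)
    (hcard : ∀ H : Subgroup G, Nat.card (groupCohomology (resSub H C) 2) = Nat.card H) :
    IsZero (groupCohomology C 3) := by
  obtain ⟨u, hu⟩ := exists_fundamental_class C hcycG hcardG hcard
  exact hT G C u h1 hcard hu

end Fermat.Agent.S55.Local.FundClass
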