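/-
S55 / LOCAL block (helper43): field-level ↔ `Rep`-level dictionaries for Galois cohomology of units.

`E/K` a finite Galois extension of fields (`K E : Type`), `G = Gal(E/K) = E ≃ₐ[K] E`,
`A = Rep.ofAlgebraAutOnUnits K E` (Mathlib: `G` acting on `Additive Eˣ`).

* `resSubIso H n` : `Hⁿ(H, A|_H) ≅ Hⁿ(Gal(E/E^H), Eˣ)` for a subgroup `H ≤ G`
  (`Rep.res H.subtype A` vs `Rep.ofAlgebraAutOnUnits (fixedField H) E`);
* `quotientIso N n` : `Hⁿ(G ⧸ N, A^N) ≅ Hⁿ(Gal(E^N/K), (E^N)ˣ)` for a normal subgroup `N`
  (`A.quotientToInvariants N` vs `Rep.ofAlgebraAutOnUnits K (fixedField N)`);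
* `invariantsEquiv`, `invariantsEquiv_smul` : the underlying identification `(Eˣ)^N = (E^N)ˣ`;
* `card_resSub`, `card_quotient`, `isZero_resSub_iff`, `isZero_quotient_iff` : consequences.
-/
import Mathlib

set_option autoImplicit false

namespace Fermat.Agent.S55.Local.Transport

open CategoryTheory groupCohomology Rep IntermediateField

variable (K E : Type) [Field K] [Field E] [Algebra K E] [FiniteDimensional K E]

/-- `Hⁿ(H, Eˣ|_H) ≅ Hⁿ(Gal(E/E^H), Eˣ)`. -/
noncomputable def resSubIso (H : Subgroup (E ≃ₐ[K] E)) (n : ℕ) :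
    groupCohomology (Rep.res H.subtype (Rep.ofAlgebraAutOnUnits K E)) n ≅
      groupCohomology (Rep.ofAlgebraAutOnUnits (fixedField H) E) n :=
  groupCohomology.mapIso (A := Rep.ofAlgebraAutOnUnits (fixedField H) E)
    (B := Rep.res H.subtype (Rep.ofAlgebraAutOnUnits K E))
    (subgroupEquivAlgEquiv H) (LinearEquiv.refl ℤ _) (by
      intro g
      ext x
      rfl) n

theorem card_resSub (H : Subgroup (E ≃ₐ[K] E)) (n : ℕ) :
    Nat.card (groupCohomology (Rep.res H.subtype (Rep.ofAlgebraAutOnUnits K E)) n) =
      Nat.card (groupCohomology (Rep.ofAlgebraAutOnUnits (fixedField H) E) n) :=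
  Nat.card_congr (resSubIso K E H n).toLinearEquiv.toEquiv

theorem isZero_resSub_iff (H : Subgroup (E ≃ₐ[K] E)) (n : ℕ) :
    Limits.IsZero (groupCohomology (Rep.res H.subtype (Rep.ofAlgebraAutOnUnits K E)) n) ↔
      Limits.IsZero (groupCohomology (Rep.ofAlgebraAutOnUnits (fixedField H) E) n) :=
  (resSubIso K E H n).isZero_iff

variable [IsGalois K E]

/-- Units of the fixed field of `N` are the `N`-invariant units. -/
noncomputable def invariantsEquiv (N : Subgroup (E ≃ₐ[K] E)) [N.Normal] :
    Additive (fixedField N)ˣ ≃+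
      Representation.invariants ((Rep.ofAlgebraAutOnUnits K E).ρ.comp N.subtype) where
  toFun y := ⟨Additive.ofMul (Units.map (algebraMap (fixedField N) E : fixedField N →* E) y.toMul),
    by
      intro s
      apply Additive.toMul.injective
      apply Units.ext
      exact (y.toMul : fixedField N).2 s⟩
  invFun x := Additive.ofMul (Units.mk0 ⟨((Additive.toMul x.1 : Eˣ) : E), fun s => by
        have := x.2 s
        exact congrArg (fun z : Additive Eˣ => ((Additive.toMul z : Eˣ) : E)) this⟩
      (fun h => (Additive.toMul x.1 : Eˣ).ne_zero (congrArg Subtype.val h)))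
  left_inv y := by
    apply Additive.toMul.injective
    apply Units.ext
    apply Subtype.ext
    rfl
  right_inv x := by
    apply Subtype.ext
    apply Additive.toMul.injective
    apply Units.ext
    rfl
  map_add' y z := by
    apply Subtype.ext
    apply Additive.toMul.injective
    apply Units.ext
    rfl

omit [FiniteDimensional K E] [IsGalois K E] in
theorem invariantsEquiv_coe (N : Subgroup (E ≃ₐ[K] E)) [N.Normal]
    (y : Additive (fixedField N)ˣ) :
    ((Additive.toMul ((invariantsEquiv K E N y).1 : Additive Eˣ) : Eˣ) : E) =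
      ((Additive.toMul y : (fixedField N)ˣ) : fixedField N) := rfl

omit [FiniteDimensional K E] in
theorem invariantsEquiv_smul (N : Subgroup (E ≃ₐ[K] E)) [N.Normal] (σ : E ≃ₐ[K] E)
    (y : Additive (fixedField N)ˣ) :
    ((Rep.ofAlgebraAutOnUnits K E).ρ.quotientToInvariants N) (σ : (E ≃ₐ[K] E) ⧸ N)
        (invariantsEquiv K E N y) =
      invariantsEquiv K E N ((Rep.ofAlgebraAutOnUnits K (fixedField N)).ρ
        (AlgEquiv.restrictNormalHom (fixedField N) σ) y) := by
  apply Subtype.ext
  apply Additive.toMul.injective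
  apply Units.ext
  exact (AlgEquiv.restrictNormal_commutes σ (fixedField N) (y.toMul : fixedField N)).symm

/-- `Hⁿ(G ⧸ N, (Eˣ)^N) ≅ Hⁿ(Gal(E^N/K), (E^N)ˣ)`. -/
noncomputable def quotientIso (N : Subgroup (E ≃ₐ[K] E)) [N.Normal] (n : ℕ) :
    groupCohomology ((Rep.ofAlgebraAutOnUnits K E).quotientToInvariants N) n ≅
      groupCohomology (Rep.ofAlgebraAutOnUnits K (fixedField N)) n :=
  groupCohomology.mapIso (A := Rep.ofAlgebraAutOnUnits K (fixedField N))
    (B := (Rep.ofAlgebraAutOnUnits K E).quotientToInvariants N)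
    (IsGalois.normalAutEquivQuotient N) (invariantsEquiv K E N).symm.toIntLinearEquiv (by
      intro g
      induction g using QuotientGroup.induction_on with
      | H σ =>
        ext x
        obtain ⟨y, rfl⟩ := (invariantsEquiv K E N).surjective x
        have h := invariantsEquiv_smul K E N σ y
        change (invariantsEquiv K E N).symm
            (((Rep.ofAlgebraAutOnUnits K E).ρ.quotientToInvariants N) (σ : (E ≃ₐ[K] E) ⧸ N)
              (invariantsEquiv K E N y)) =
          (Rep.ofAlgebraAutOnUnits K (fixedField N)).ρ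
            (AlgEquiv.restrictNormalHom (fixedField N) σ)
            ((invariantsEquiv K E N).symm (invariantsEquiv K E N y))
        rw [h]
        exact ((invariantsEquiv K E N).symm_apply_apply _).trans
          (congrArg _ ((invariantsEquiv K E N).symm_apply_apply y).symm)) n

theorem card_quotient (N : Subgroup (E ≃ₐ[K] E)) [N.Normal] (n : ℕ) :
    Nat.card (groupCohomology ((Rep.ofAlgebraAutOnUnits K E).quotientToInvariants N) n) =
      Nat.card (groupCohomology (Rep.ofAlgebraAutOnUnits K (fixedField N)) n) :=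
  Nat.card_congr (quotientIso K E N n).toLinearEquiv.toEquiv

theorem isZero_quotient_iff (N : Subgroup (E ≃ₐ[K] E)) [N.Normal] (n : ℕ) :
    Limits.IsZero (groupCohomology ((Rep.ofAlgebraAutOnUnits K E).quotientToInvariants N) n) ↔
      Limits.IsZero (groupCohomology (Rep.ofAlgebraAutOnUnits K (fixedField N)) n) :=
  (quotientIso K E N n).isZero_iff

omit [IsGalois K E] in
/-- Hilbert 90 for every subgroup: `H¹(H, Eˣ|_H) = 0`. -/
theorem isZero_H1_resSub (H : Subgroup (E ≃ₐ[K] E)) :
    Limits.IsZero (groupCohomology (Rep.res H.subtype (Rep.ofAlgebraAutOnUnits K E)) 1) := by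
  rw [isZero_resSub_iff]
  have : Subsingleton (H1 (Rep.ofAlgebraAutOnUnits (fixedField H) E)) :=
    Unique.instSubsingleton
  exact ModuleCat.isZero_of_subsingleton _

end Fermat.Agent.S55.Local.Transport
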