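/-
S55 — LOCAL block, foundational layer (sub-architect: helper43).

Setting (LF): a *nonarchimedean local field* is a `NontriviallyNormedField E` with
`IsUltrametricDist E` and `ProperSpace E` (Mathlib-native; covers finite extensions of `ℚ_[q]`
inside `PadicAlgCl q`, see `Local/PadicExt.lean`).  A finite Galois extension of local fields is
`E / K` with `[NormedAlgebra K E] [FiniteDimensional K E] [IsGalois K E]`.

This file: DVR / finite residue field / completeness, a uniformizer `unif E`, the normalised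
valuation `ord E : Eˣ → ℤ`, `ordHom E : Eˣ →* Multiplicative ℤ`, and the fact that `Gal(E/K)` acts
by isometries (`norm_algEquiv_apply`, `ord_map_algEquiv`).

The valuation ring is Mathlib's `𝒪[E]` for the `Valued E ℝ≥0` structure `NormedField.toValued`
(`open scoped NormedField Valued`... only `NormedField` must be opened as a scope for instances).
-/
import Mathlib

set_option autoImplicit false

open scoped NormedField NNReal

namespace Fermat.Agent.S55.Local

section OneField

variable (E : Type*) [NontriviallyNormedField E] [IsUltrametricDist E] [ProperSpace E]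

open Valued in
theorem compactSpace_integer : CompactSpace 𝒪[E] := by
  rw [← isCompact_univ_iff, Subtype.isCompact_iff, Set.image_univ, Subtype.range_coe_subtype]
  have : {x : E | x ∈ 𝒪[E]} = Metric.closedBall 0 1 := by
    ext x
    simp [Valued.integer.mem_iff]
  rw [this]
  exact isCompact_closedBall 0 1

open Valued in
theorem completeSpace_and_isDVR_and_finite :
    CompleteSpace 𝒪[E] ∧ IsDiscreteValuationRing 𝒪[E] ∧ Finite 𝓀[E] := by
  let _ : (Valued.v (R := E) (Γ₀ := ℝ≥0)).RankOne :=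
    (inferInstance : (NormedField.valuation (K := E)).RankOne)
  have := compactSpace_integer E
  exact Valued.integer.compactSpace_iff_completeSpace_and_isDiscreteValuationRing_and_finite_residueField.mp
    inferInstance

open Valued in
instance instIsDVR : IsDiscreteValuationRing 𝒪[E] := (completeSpace_and_isDVR_and_finite E).2.1

open Valued in
instance instFiniteResidue : Finite 𝓀[E] := (completeSpace_and_isDVR_and_finite E).2.2

open Valued in
instance instCompleteInteger : CompleteSpace 𝒪[E] := (completeSpace_and_isDVR_and_finite E).1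

instance instCompleteSpace : CompleteSpace E := inferInstance

open Valued in
/-- A uniformizer: every nonzero element has norm an integral power of `‖ϖ‖`. -/
theorem exists_uniformizer :
    ∃ ϖ : E, 0 < ‖ϖ‖ ∧ ‖ϖ‖ < 1 ∧ ∀ x : E, x ≠ 0 → ∃ n : ℤ, ‖x‖ = ‖ϖ‖ ^ n := by
  obtain ⟨ϖ, hϖ⟩ := IsDiscreteValuationRing.exists_irreducible 𝒪[E]
  have h0 : 0 < ‖(ϖ : E)‖ := Valued.integer.norm_irreducible_pos hϖ
  have h1 : ‖(ϖ : E)‖ < 1 := Valued.integer.norm_irreducible_lt_one hϖ
  have key : ∀ x : E, x ≠ 0 → ‖x‖ ≤ 1 → ∃ n : ℕ, ‖x‖ = ‖(ϖ : E)‖ ^ n := by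
    intro x hx hx1
    have hxO : x ∈ 𝒪[E] := Valued.integer.mem_iff.mpr hx1
    have hx0 : (⟨x, hxO⟩ : 𝒪[E]) ≠ 0 := fun h => hx (congrArg Subtype.val h)
    obtain ⟨n, u, hu⟩ := IsDiscreteValuationRing.eq_unit_mul_pow_irreducible hx0 hϖ
    refine ⟨n, ?_⟩
    have := congrArg (fun y : 𝒪[E] => ‖(y : E)‖) hu
    simp only [Subring.coe_mul, SubmonoidClass.coe_pow, norm_mul, norm_pow] at this
    rw [this, Valued.integer.norm_coe_unit, one_mul]
  refine ⟨ϖ, h0, h1, fun x hx => ?_⟩
  rcases le_or_gt ‖x‖ 1 with h | h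
  · obtain ⟨n, hn⟩ := key x hx h
    exact ⟨n, by rw [hn, zpow_natCast]⟩
  · have hx' : x⁻¹ ≠ 0 := inv_ne_zero hx
    have : ‖x⁻¹‖ ≤ 1 := by
      rw [norm_inv]
      exact inv_le_one_of_one_le₀ h.le
    obtain ⟨n, hn⟩ := key x⁻¹ hx' this
    refine ⟨-n, ?_⟩
    rw [zpow_neg, zpow_natCast, ← hn, norm_inv, inv_inv]

/-- A chosen uniformizer of `E`. -/
noncomputable def unif : E := (exists_uniformizer E).choose

theorem norm_unif_pos : 0 < ‖unif E‖ := (exists_uniformizer E).choose_spec.1

theorem norm_unif_lt_one : ‖unif E‖ < 1 := (exists_uniformizer E).choose_spec.2.1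

theorem unif_ne_zero : unif E ≠ 0 := norm_pos_iff.mp (norm_unif_pos E)

theorem exists_norm_eq_zpow {x : E} (hx : x ≠ 0) : ∃ n : ℤ, ‖x‖ = ‖unif E‖ ^ n :=
  (exists_uniformizer E).choose_spec.2.2 x hx

theorem zpow_norm_unif_injective : Function.Injective fun n : ℤ => ‖unif E‖ ^ n :=
  zpow_right_injective₀ (norm_unif_pos E) (norm_unif_lt_one E).ne

/-- The normalised (additive) valuation of a nonzero element. -/
noncomputable def ord (x : Eˣ) : ℤ := (exists_norm_eq_zpow E x.ne_zero).choose

theorem norm_eq_zpow_ord (x : Eˣ) : ‖(x : E)‖ = ‖unif E‖ ^ ord E x :=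
  (exists_norm_eq_zpow E x.ne_zero).choose_spec

variable {E} in
theorem ord_eq_of_norm_eq {x : Eˣ} {n : ℤ} (h : ‖(x : E)‖ = ‖unif E‖ ^ n) : ord E x = n :=
  zpow_norm_unif_injective E ((norm_eq_zpow_ord E x).symm.trans h)

theorem ord_mul (x y : Eˣ) : ord E (x * y) = ord E x + ord E y := by
  apply ord_eq_of_norm_eq
  rw [Units.val_mul, norm_mul, norm_eq_zpow_ord E x, norm_eq_zpow_ord E y,
    zpow_add₀ (norm_unif_pos E).ne']

theorem ord_one : ord E (1 : Eˣ) = 0 := ord_eq_of_norm_eq (by simp)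

/-- The normalised valuation as a monoid hom `Eˣ →* Multiplicative ℤ`. -/
noncomputable def ordHom : Eˣ →* Multiplicative ℤ where
  toFun x := Multiplicative.ofAdd (ord E x)
  map_one' := by rw [ord_one]; rfl
  map_mul' x y := by rw [ord_mul]; rfl

@[simp] theorem ordHom_apply (x : Eˣ) : ordHom E x = Multiplicative.ofAdd (ord E x) := rfl

/-- The chosen uniformizer as a unit of `E`. -/
noncomputable def unifUnit : Eˣ := Units.mk0 (unif E) (unif_ne_zero E)

@[simp] theorem coe_unifUnit : ((unifUnit E : Eˣ) : E) = unif E := rfl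

theorem ord_unifUnit : ord E (unifUnit E) = 1 :=
  ord_eq_of_norm_eq (by simp)

theorem ord_zpow (x : Eˣ) (n : ℤ) : ord E (x ^ n) = n * ord E x := by
  have h := map_zpow (ordHom E) x n
  simp only [ordHom_apply] at h
  have h2 := congrArg Multiplicative.toAdd h
  simpa using h2

theorem ordHom_surjective : Function.Surjective (ordHom E) := by
  intro n
  refine ⟨unifUnit E ^ (Multiplicative.toAdd n), ?_⟩
  rw [ordHom_apply, ord_zpow, ord_unifUnit, mul_one]
  rfl

theorem ord_eq_zero_iff (x : Eˣ) : ord E x = 0 ↔ ‖(x : E)‖ = 1 := by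
  constructor
  · intro h
    rw [norm_eq_zpow_ord E x, h, zpow_zero]
  · intro h
    exact ord_eq_of_norm_eq (by rw [h, zpow_zero])

theorem ordHom_eq_one_iff (x : Eˣ) : ordHom E x = 1 ↔ ‖(x : E)‖ = 1 := by
  rw [← ord_eq_zero_iff]
  exact Iff.rfl

theorem ord_nonneg_iff (x : Eˣ) : 0 ≤ ord E x ↔ ‖(x : E)‖ ≤ 1 := by
  rw [norm_eq_zpow_ord E x]
  exact (zpow_le_one_iff_right_of_lt_one₀ (norm_unif_pos E) (norm_unif_lt_one E)).symm

/-- Every unit is `ϖ ^ ord x` times a unit of norm one. -/
theorem exists_eq_zpow_mul (x : Eˣ) :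
    ∃ u : Eˣ, ‖(u : E)‖ = 1 ∧ x = unifUnit E ^ ord E x * u := by
  refine ⟨(unifUnit E ^ ord E x)⁻¹ * x, ?_, by group⟩
  rw [← ord_eq_zero_iff, ord_mul, ← zpow_neg, ord_zpow, ord_unifUnit]
  ring

end OneField

section Galois

variable (K E : Type*) [NontriviallyNormedField K] [IsUltrametricDist K] [ProperSpace K]
  [NontriviallyNormedField E] [IsUltrametricDist E] [ProperSpace E]
  [NormedAlgebra K E] [Algebra.IsAlgebraic K E]

omit [IsUltrametricDist E] [ProperSpace E] in
/-- The norm of `E` is the spectral norm over `K`. -/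
theorem norm_eq_spectralNorm (x : E) : ‖x‖ = spectralNorm K E x :=
  spectralNorm_unique_field_norm_ext (K := K) (L := E) (f := NormedField.toAbsoluteValue E)
    (fun k => norm_algebraMap' E k) x

variable {K E}

omit [IsUltrametricDist E] [ProperSpace E] in
/-- `K`-automorphisms of `E` are isometries. -/
theorem norm_algEquiv_apply (σ : E ≃ₐ[K] E) (x : E) : ‖σ x‖ = ‖x‖ := by
  rw [norm_eq_spectralNorm K E, norm_eq_spectralNorm K E]
  exact (spectralNorm_eq_of_equiv σ x).symm

theorem ord_map_algEquiv (σ : E ≃ₐ[K] E) (x : Eˣ) :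
    ord E (Units.map (σ : E →* E) x) = ord E x :=
  ord_eq_of_norm_eq (by
    rw [Units.coe_map, MonoidHom.coe_coe, norm_algEquiv_apply, norm_eq_zpow_ord])

end Galois

end Fermat.Agent.S55.Local
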