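import Mathlib

/-!
# S55, local block: Galois groups of local fields are solvable

Abstract ring form.  Let a finite group `G` act faithfully by ring automorphisms on a commutative
domain `O`, let `π : O` be such that every `g` maps `π` to a unit multiple of `π`, assume
`⋂ πⁿ O = 0`, and assume that the induced actions on `O / π` commute pairwise (automatic when
`O / π` is a finite field).  Then `G` is solvable.

The proof uses the filtration `G ⊇ G₀ ⊇ N₁ ⊇ N₂ ⊇ …` where `G₀` acts trivially on `O / π` and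
`N i = {g | ∀ j, (g - 1) (π^j O) ⊆ π^(j+i) O}`; commutators drop one step, and the intersection is
trivial.  No completeness and no monogenicity `O = O₀[π]` is needed.
-/

set_option autoImplicit false

namespace Fermat.Agent.S55.Local.Solvable

open scoped commutatorElement

section Ring

variable {G O : Type*} [Group G] [CommRing O] [MulSemiringAction G O]

/-- `P π i g`: the operator `g - 1` raises the `π`-adic filtration by `i` steps. -/
def Raises (π : O) (i : ℕ) (g : G) : Prop :=
  ∀ (j : ℕ) (x : O), π ^ j ∣ x → π ^ (j + i) ∣ g • x - x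

variable {π : O}

/-- Every `g` preserves the ideals `π^j O`. -/
theorem pow_dvd_smul (hπ : ∀ g : G, ∃ u : Oˣ, g • π = u * π) (g : G) {j : ℕ} {x : O}
    (hx : π ^ j ∣ x) : π ^ j ∣ g • x := by
  obtain ⟨z, rfl⟩ := hx
  obtain ⟨u, hu⟩ := hπ g
  rw [smul_mul', smul_pow', hu, mul_pow]
  exact Dvd.intro _ (by ring : π ^ j * ((u : O) ^ j * g • z) = (u : O) ^ j * π ^ j * g • z)

theorem raises_zero (hπ : ∀ g : G, ∃ u : Oˣ, g • π = u * π) (g : G) : Raises π 0 g := by
  intro j x hx
  exact dvd_sub (pow_dvd_smul hπ g hx) hx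

theorem Raises.mono {i i' : ℕ} (h : i' ≤ i) {g : G} (hg : Raises π i g) : Raises π i' g := by
  intro j x hx
  exact (pow_dvd_pow π (by omega)).trans (hg j x hx)

theorem raises_one (i : ℕ) : Raises π i (1 : G) := by
  intro j x _
  simp

theorem Raises.mul (hπ : ∀ g : G, ∃ u : Oˣ, g • π = u * π) {i : ℕ} {g h : G}
    (hg : Raises π i g) (hh : Raises π i h) : Raises π i (g * h) := by
  intro j x hx
  have h1 : π ^ (j + i) ∣ h • x - x := hh j x hx
  have h2 : π ^ (j + i) ∣ g • (h • x) - h • x := by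
    have : π ^ j ∣ h • x := pow_dvd_smul hπ h hx
    exact hg j _ this
  have : (g * h) • x - x = (g • (h • x) - h • x) + (h • x - x) := by
    rw [mul_smul]; ring
  rw [this]
  exact dvd_add h2 h1

theorem Raises.inv (hπ : ∀ g : G, ∃ u : Oˣ, g • π = u * π) {i : ℕ} {g : G}
    (hg : Raises π i g) : Raises π i g⁻¹ := by
  intro j x hx
  have h1 : π ^ (j + i) ∣ g • x - x := hg j x hx
  have h2 : π ^ (j + i) ∣ g⁻¹ • (g • x - x) := pow_dvd_smul hπ g⁻¹ h1
  have : g⁻¹ • x - x = -(g⁻¹ • (g • x - x)) := by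
    rw [smul_sub, inv_smul_smul]; ring
  rw [this]
  exact (dvd_neg).mpr h2

/-- The subgroup `N i`. -/
def raisesSubgroup (hπ : ∀ g : G, ∃ u : Oˣ, g • π = u * π) (i : ℕ) : Subgroup G where
  carrier := {g | Raises π i g}
  mul_mem' hg hh := hg.mul hπ hh
  one_mem' := raises_one i
  inv_mem' hg := hg.inv hπ

theorem mem_raisesSubgroup (hπ : ∀ g : G, ∃ u : Oˣ, g • π = u * π) {i : ℕ} {g : G} :
    g ∈ raisesSubgroup hπ i ↔ Raises π i g := Iff.rfl

/-- The inertia-type subgroup `G₀`: trivial action on `O / π`. -/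
def inertia (hπ : ∀ g : G, ∃ u : Oˣ, g • π = u * π) : Subgroup G where
  carrier := {g | ∀ x : O, π ∣ g • x - x}
  mul_mem' := by
    intro g h hg hh x
    have : (g * h) • x - x = (g • (h • x) - h • x) + (h • x - x) := by
      rw [mul_smul]; ring
    rw [this]
    exact dvd_add (hg _) (hh x)
  one_mem' := by intro x; simp
  inv_mem' := by
    intro g hg x
    have h2 : π ^ 1 ∣ g⁻¹ • (g • x - x) := pow_dvd_smul hπ g⁻¹ (by simpa using hg x)
    have : g⁻¹ • x - x = -(g⁻¹ • (g • x - x)) := by
      rw [smul_sub, inv_smul_smul]; ring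
    rw [this]
    simpa using (dvd_neg).mpr h2

theorem mem_inertia (hπ : ∀ g : G, ∃ u : Oˣ, g • π = u * π) {g : G} :
    g ∈ inertia hπ ↔ ∀ x : O, π ∣ g • x - x := Iff.rfl

/-- A commutator `⁅g, h⁆` acts as `x ↦ x + (g h y - h g y)` with `y = g⁻¹ h⁻¹ x`. -/
theorem commutator_smul_sub (g h : G) (x : O) :
    ⁅g, h⁆ • x - x = g • h • (g⁻¹ • h⁻¹ • x) - h • g • (g⁻¹ • h⁻¹ • x) := by
  have h1 : ⁅g, h⁆ • x = g • h • (g⁻¹ • h⁻¹ • x) := by
    rw [commutatorElement_def, mul_smul, mul_smul, mul_smul]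
  have h2 : h • g • (g⁻¹ • h⁻¹ • x) = x := by
    rw [smul_inv_smul, smul_inv_smul]
  rw [h1, h2]

/-- Step (a): commutators act trivially on `O / π` when the induced actions commute. -/
theorem commutator_mem_inertia (hπ : ∀ g : G, ∃ u : Oˣ, g • π = u * π)
    (hab : ∀ (g h : G) (x : O), π ∣ g • h • x - h • g • x) (g h : G) :
    ⁅g, h⁆ ∈ inertia hπ := by
  intro x
  rw [commutator_smul_sub]
  exact hab g h _

/-- For `g` in the inertia subgroup and `y ∈ π^j O`: `g y ≡ u_g^j y mod π^(j+1)`. -/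
theorem inertia_smul_sub (hπ : ∀ g : G, ∃ u : Oˣ, g • π = u * π) {g : G} (hg : g ∈ inertia hπ)
    {u : Oˣ} (hu : g • π = u * π) {j : ℕ} {y : O} (hy : π ^ j ∣ y) :
    π ^ (j + 1) ∣ g • y - (u : O) ^ j * y := by
  obtain ⟨z, rfl⟩ := hy
  obtain ⟨w, hw⟩ := hg z
  have : g • (π ^ j * z) - (u : O) ^ j * (π ^ j * z) = π ^ (j + 1) * ((u : O) ^ j * w) := by
    rw [smul_mul', smul_pow', hu, mul_pow]
    have : g • z = z + π * w := by rw [← hw]; ring
    rw [this]; ring
  rw [this]
  exact Dvd.intro _ rfl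

/-- Step (b): commutators of the inertia subgroup raise the filtration by one. -/
theorem commutator_mem_raises_one (hπ : ∀ g : G, ∃ u : Oˣ, g • π = u * π) {g h : G}
    (hg : g ∈ inertia hπ) (hh : h ∈ inertia hπ) : Raises π 1 ⁅g, h⁆ := by
  intro j x hx
  rw [commutator_smul_sub]
  set y := g⁻¹ • h⁻¹ • x with hy
  have hyj : π ^ j ∣ y := pow_dvd_smul hπ g⁻¹ (pow_dvd_smul hπ h⁻¹ hx)
  obtain ⟨u, hu⟩ := hπ g
  obtain ⟨v, hv⟩ := hπ h
  -- `g h y ≡ u^j v^j y` and `h g y ≡ v^j u^j y`
  have key : ∀ {a b : G} (_ : a ∈ inertia hπ) (_ : b ∈ inertia hπ) {ua ub : Oˣ}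
      (_ : a • π = ua * π) (_ : b • π = ub * π),
      π ^ (j + 1) ∣ a • b • y - (ua : O) ^ j * ((ub : O) ^ j * y) := by
    intro a b ha hb ua ub hua hub
    have h1 : π ^ (j + 1) ∣ b • y - (ub : O) ^ j * y := inertia_smul_sub hπ hb hub hyj
    have h2 : π ^ (j + 1) ∣ a • (b • y - (ub : O) ^ j * y) := pow_dvd_smul hπ a h1
    have h3 : π ^ (j + 1) ∣ a • ((ub : O) ^ j * y) - (ua : O) ^ j * ((ub : O) ^ j * y) :=
      inertia_smul_sub hπ ha hua (Dvd.dvd.mul_left hyj _)
    have : a • b • y - (ua : O) ^ j * ((ub : O) ^ j * y)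
        = a • (b • y - (ub : O) ^ j * y)
          + (a • ((ub : O) ^ j * y) - (ua : O) ^ j * ((ub : O) ^ j * y)) := by
      rw [smul_sub]; ring
    rw [this]
    exact dvd_add h2 h3
  have k1 := key hg hh hu hv
  have k2 := key hh hg hv hu
  have : g • h • y - h • g • y
      = (g • h • y - (u : O) ^ j * ((v : O) ^ j * y))
        - (h • g • y - (v : O) ^ j * ((u : O) ^ j * y)) := by ring
  rw [this]
  exact dvd_sub k1 k2

/-- Step (c): commutators of `N i` (`i ≥ 1`) lie in `N (i+1)`. -/
theorem commutator_mem_raises_succ (hπ : ∀ g : G, ∃ u : Oˣ, g • π = u * π) {i : ℕ} (hi : 1 ≤ i)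
    {g h : G} (hg : Raises π i g) (hh : Raises π i h) : Raises π (i + 1) ⁅g, h⁆ := by
  intro j x hx
  rw [commutator_smul_sub]
  set y := g⁻¹ • h⁻¹ • x with hy
  have hyj : π ^ j ∣ y := pow_dvd_smul hπ g⁻¹ (pow_dvd_smul hπ h⁻¹ hx)
  -- D_g D_h y and D_h D_g y are divisible by π^(j+2i)
  have e1 : π ^ (j + i + i) ∣ g • (h • y - y) - (h • y - y) := hg (j + i) _ (hh j y hyj)
  have e2 : π ^ (j + i + i) ∣ h • (g • y - y) - (g • y - y) := hh (j + i) _ (hg j y hyj)
  have : g • h • y - h • g • y
      = (g • (h • y - y) - (h • y - y)) - (h • (g • y - y) - (g • y - y)) := by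
    rw [smul_sub, smul_sub]; ring
  rw [this]
  exact (pow_dvd_pow π (by omega)).trans (dvd_sub e1 e2)

end Ring

section Main

variable {G O : Type*} [Group G] [Finite G] [CommRing O] [MulSemiringAction G O]
  [FaithfulSMul G O]

/-- The filtration `⊤ ⊇ G₀ ⊇ N₁ ⊇ N₂ ⊇ …`. -/
def filt {π : O} (hπ : ∀ g : G, ∃ u : Oˣ, g • π = u * π) : ℕ → Subgroup G
  | 0 => ⊤
  | 1 => inertia hπ
  | (k + 2) => raisesSubgroup hπ (k + 1)

theorem derivedSeries_le_filt {π : O} (hπ : ∀ g : G, ∃ u : Oˣ, g • π = u * π)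
    (hab : ∀ (g h : G) (x : O), π ∣ g • h • x - h • g • x) (k : ℕ) :
    derivedSeries G k ≤ filt hπ k := by
  induction k with
  | zero => exact le_top
  | succ k ih =>
    rw [derivedSeries_succ]
    refine (Subgroup.commutator_mono ih ih).trans ?_
    rw [Subgroup.commutator_le]
    intro g hg h hh
    match k, hg, hh with
    | 0, _, _ => exact commutator_mem_inertia hπ hab g h
    | 1, hg, hh => exact commutator_mem_raises_one hπ hg hh
    | (k + 2), hg, hh => exact commutator_mem_raises_succ hπ (by omega) hg hh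

/-- **Solvability, abstract ring form.** -/
theorem isSolvable_of_filtration {π : O} (hπ : ∀ g : G, ∃ u : Oˣ, g • π = u * π)
    (hsep : ∀ x : O, (∀ n : ℕ, π ^ n ∣ x) → x = 0)
    (hab : ∀ (g h : G) (x : O), π ∣ g • h • x - h • g • x) : Group.IsSolvable G := by
  classical
  have := Fintype.ofFinite G
  -- for every `g ≠ 1` there is `i` with `¬ Raises π (i+1) g`
  have hex : ∀ g : G, g ≠ 1 → ∃ i : ℕ, ¬ Raises π (i + 1) g := by
    intro g hg
    by_contra hcon
    push Not at hcon
    apply hg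
    apply FaithfulSMul.eq_of_smul_eq_smul (α := O)
    intro x
    rw [one_smul]
    have : g • x - x = 0 := by
      apply hsep
      intro n
      have := hcon n 0 x (by simp)
      exact (pow_dvd_pow π (by omega)).trans this
    exact sub_eq_zero.mp this
  choose! f hf using hex
  set K : ℕ := Finset.univ.sup f with hK
  have hbot : filt hπ (K + 2) = ⊥ := by
    rw [eq_bot_iff]
    intro g hg
    rw [Subgroup.mem_bot]
    by_contra hne
    have h1 : Raises π (K + 1) g := hg
    have h2 : f g ≤ K := Finset.le_sup (f := f) (Finset.mem_univ g)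
    exact hf g hne (h1.mono (by omega))
  exact ⟨⟨K + 2, eq_bot_iff.mpr ((derivedSeries_le_filt hπ hab (K + 2)).trans hbot.le)⟩⟩

end Main

/-! ### Finite residue field: the induced actions commute -/

section FiniteField

/-- Any two ring endomorphisms of a finite field commute (both are determined by the image of a
generator of the cyclic group of units). -/
theorem ringHom_comm_of_finite_field {l : Type*} [Field l] [Finite l] (σ τ : l →+* l) (x : l) :
    σ (τ x) = τ (σ x) := by
  obtain ⟨ζ, hζ⟩ := IsCyclic.exists_generator (α := lˣ)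
  rcases eq_or_ne x 0 with rfl | hx
  · simp
  obtain ⟨a, ha⟩ := Subgroup.mem_zpowers_iff.mp (hζ (Units.map (σ : l →* l) ζ))
  obtain ⟨b, hb⟩ := Subgroup.mem_zpowers_iff.mp (hζ (Units.map (τ : l →* l) ζ))
  obtain ⟨n, hn⟩ := Subgroup.mem_zpowers_iff.mp (hζ (Units.mk0 x hx))
  have hσ : ∀ m : ℤ, Units.map (σ : l →* l) (ζ ^ m) = ζ ^ (a * m) := by
    intro m; rw [map_zpow, ← ha, ← zpow_mul]
  have hτ : ∀ m : ℤ, Units.map (τ : l →* l) (ζ ^ m) = ζ ^ (b * m) := by
    intro m; rw [map_zpow, ← hb, ← zpow_mul]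
  have h1 : Units.map (σ : l →* l) (Units.map (τ : l →* l) (Units.mk0 x hx))
      = Units.map (τ : l →* l) (Units.map (σ : l →* l) (Units.mk0 x hx)) := by
    rw [← hn, hτ, hσ, hσ, hτ]
    congr 1; ring
  have := congrArg (fun u : lˣ => (u : l)) h1
  simpa using this

end FiniteField

section FiniteResidue

variable {G O : Type*} [Group G] [Finite G] [CommRing O] [MulSemiringAction G O]
  [FaithfulSMul G O]

/-- **Solvability, ring form with finite residue field.** -/
theorem isSolvable_of_finite_residue {π : O} (hπ : ∀ g : G, ∃ u : Oˣ, g • π = u * π)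
    (hsep : ∀ x : O, (∀ n : ℕ, π ^ n ∣ x) → x = 0)
    (hmax : (Ideal.span {π} : Ideal O).IsMaximal) [Finite (O ⧸ (Ideal.span {π} : Ideal O))] :
    Group.IsSolvable G := by
  refine isSolvable_of_filtration hπ hsep ?_
  set I : Ideal O := Ideal.span {π} with hI
  letI : Field (O ⧸ I) := Ideal.Quotient.field I
  -- the induced endomorphisms of the residue field
  have hstab : ∀ (g : G) (x : O), x ∈ I → g • x ∈ I := by
    intro g x hx
    rw [hI, Ideal.mem_span_singleton] at hx ⊢
    simpa using pow_dvd_smul (j := 1) hπ g (by simpa using hx)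
  let bar : G → (O ⧸ I →+* O ⧸ I) := fun g =>
    Ideal.Quotient.lift I ((Ideal.Quotient.mk I).comp (MulSemiringAction.toRingHom G O g))
      (fun x hx => by
        rw [RingHom.comp_apply, Ideal.Quotient.eq_zero_iff_mem]
        exact hstab g x hx)
  have hbar : ∀ (g : G) (x : O), bar g (Ideal.Quotient.mk I x) = Ideal.Quotient.mk I (g • x) := by
    intro g x
    simp [bar]
  intro g h x
  have := ringHom_comm_of_finite_field (bar g) (bar h) (Ideal.Quotient.mk I x)
  rw [hbar, hbar, hbar, hbar, ← sub_eq_zero, ← map_sub, Ideal.Quotient.eq_zero_iff_mem, hI,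
    Ideal.mem_span_singleton] at this
  exact this

end FiniteResidue

/-! ### Field form: a stable discrete valuation subring with finite residue field -/

section Field

variable {E G : Type*} [Field E] [Group G] [MulSemiringAction G E]

/-- The action of `G` on a stable valuation subring. -/
@[reducible] def actionOn (A : ValuationSubring E) (hA : ∀ (g : G) (x : E), x ∈ A → g • x ∈ A) :
    MulSemiringAction G A where
  smul g x := ⟨g • (x : E), hA g x x.2⟩
  one_smul x := Subtype.ext (one_smul G (x : E))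
  mul_smul g h x := Subtype.ext (mul_smul g h (x : E))
  smul_zero g := Subtype.ext (smul_zero g)
  smul_add g x y := Subtype.ext (smul_add g (x : E) (y : E))
  smul_one g := Subtype.ext (smul_one g)
  smul_mul g x y := Subtype.ext (smul_mul' g (x : E) (y : E))

theorem isSolvable_of_valuationSubring [Finite G] [FaithfulSMul G E] (A : ValuationSubring E)
    (hA : ∀ (g : G) (x : E), x ∈ A → g • x ∈ A) [IsDiscreteValuationRing A]
    [Finite (IsLocalRing.ResidueField A)] : Group.IsSolvable G := by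
  letI : MulSemiringAction G A := actionOn A hA
  have hcoe : ∀ (g : G) (x : A), ((g • x : A) : E) = g • (x : E) := fun _ _ => rfl
  have : FaithfulSMul G A := by
    refine ⟨fun {g h} hgh => ?_⟩
    apply FaithfulSMul.eq_of_smul_eq_smul (α := E)
    intro x
    rcases A.mem_or_inv_mem x with hx | hx
    · have := congrArg (fun y : A => (y : E)) (hgh ⟨x, hx⟩)
      simpa [hcoe] using this
    · have := congrArg (fun y : A => (y : E)) (hgh ⟨x⁻¹, hx⟩)
      simp only [hcoe, smul_inv''] at this
      exact inv_injective this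
  obtain ⟨ϖ, hϖ⟩ := IsDiscreteValuationRing.exists_irreducible A
  -- every `g` maps `ϖ` to an associate
  have hπ : ∀ g : G, ∃ u : (A)ˣ, g • ϖ = u * ϖ := by
    intro g
    have hirr : Irreducible (g • ϖ) := by
      exact (MulEquiv.irreducible_iff (MulSemiringAction.toRingEquiv G A g)).mpr hϖ
    obtain ⟨u, hu⟩ := (IsDiscreteValuationRing.associated_of_irreducible A hϖ hirr)
    exact ⟨u, by rw [← hu, mul_comm]⟩
  have hsep : ∀ x : A, (∀ n : ℕ, ϖ ^ n ∣ x) → x = 0 := by
    intro x hx
    by_contra hx0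
    obtain ⟨n, u, rfl⟩ := IsDiscreteValuationRing.eq_unit_mul_pow_irreducible hx0 hϖ
    obtain ⟨c, hc⟩ := hx (n + 1)
    have h1 : (u : A) * ϖ ^ n = ϖ ^ n * (ϖ * c) := by rw [hc]; ring
    have h2 : ϖ ^ n ≠ 0 := pow_ne_zero _ hϖ.ne_zero
    have h3 : (u : A) = ϖ * c := by
      have : ϖ ^ n * (u : A) = ϖ ^ n * (ϖ * c) := by rw [← h1]; ring
      exact mul_left_cancel₀ h2 this
    exact hϖ.not_isUnit (isUnit_of_mul_isUnit_left (h3 ▸ u.isUnit))
  have hspan : (Ideal.span {ϖ} : Ideal A) = IsLocalRing.maximalIdeal A :=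
    (Irreducible.maximalIdeal_eq hϖ).symm
  have hmax : (Ideal.span {ϖ} : Ideal A).IsMaximal := by
    rw [hspan]; infer_instance
  have : Finite (A ⧸ (Ideal.span {ϖ} : Ideal A)) := by
    rw [hspan]
    exact (inferInstance : Finite (IsLocalRing.ResidueField A))
  exact isSolvable_of_finite_residue hπ hsep hmax

/-- **Galois groups of local fields are solvable** (AlgEquiv form): `E / K` finite, `A` a discrete
valuation subring of `E` with finite residue field, stable under `Gal(E/K)`. -/
theorem isSolvable_algEquiv {K E : Type*} [Field K] [Field E] [Algebra K E]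
    [FiniteDimensional K E] (A : ValuationSubring E)
    (hA : ∀ (σ : E ≃ₐ[K] E) (x : E), x ∈ A → σ x ∈ A) [IsDiscreteValuationRing A]
    [Finite (IsLocalRing.ResidueField A)] : Group.IsSolvable (E ≃ₐ[K] E) :=
  isSolvable_of_valuationSubring (G := E ≃ₐ[K] E) A (fun σ x hx => hA σ x hx)

end Field

end Fermat.Agent.S55.Local.Solvable
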