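/-
S55 / Local block: Galois groups of finite extensions of (LF) local fields are solvable.
Instantiates `Local/Solvable.lean` (`isSolvable_algEquiv`) with the valuation ring `𝒪[E]` of an
(LF) field `E` (`Local/Basic.lean`).
-/
import Mathlib
import Fermat.Agent.S55.Local.Basic
import Fermat.Agent.S55.Local.Solvable

set_option autoImplicit false

open scoped NormedField NNReal

namespace Fermat.Agent.S55.Local.SolvableLF

open Fermat.Agent.S55.Local

section

variable (K E : Type*) [NontriviallyNormedField K] [IsUltrametricDist K] [ProperSpace K]
  [NontriviallyNormedField E] [IsUltrametricDist E] [ProperSpace E]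
  [NormedAlgebra K E] [FiniteDimensional K E]

open Valued in
/-- **Galois groups of local fields are solvable**: for a finite extension `E/K` of (LF) fields the
group `E ≃ₐ[K] E` is solvable (no normality/separability needed). -/
theorem isSolvable_gal : Group.IsSolvable (E ≃ₐ[K] E) := by
  let A : ValuationSubring E := (Valued.v (R := E) (Γ₀ := ℝ≥0)).valuationSubring
  have hDVR : IsDiscreteValuationRing A := instIsDVR E
  have hfin : Finite (IsLocalRing.ResidueField A) := instFiniteResidue E
  refine Solvable.isSolvable_algEquiv (K := K) (E := E) A (fun σ x hx => ?_)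
  have hx' : ‖x‖ ≤ 1 := Valued.integer.mem_iff.mp hx
  have : ‖σ x‖ ≤ 1 := by rw [norm_algEquiv_apply σ x]; exact hx'
  exact Valued.integer.mem_iff.mpr this

end

end Fermat.Agent.S55.Local.SolvableLF
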