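/-
S55 / Local block: the "ugly lemma" (order bound `|H²(G, A)| ∣ |G|`) by the SOLVABLE route.

Input: a hereditary class `P` of pairs `(H, A : Rep k H)` (closed under restriction to subgroups)
such that for every member `H¹(H, A) = 0` and, for every normal `S` with cyclic quotient,
`|H²(H ⧸ S, A^S)| ∣ |H ⧸ S|`.
Output: for every member with `H` finite solvable, `H²(H, A)` is finite of order dividing `|H|`.

The induction uses the inflation-restriction sequence in degree 2 (`Tate/InfRes2`, helper6).
-/
import Mathlib
import Fermat.Agent.S55.Tate.InfRes2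

namespace Fermat.Agent.S55.Local.UglyLemma

open CategoryTheory groupCohomology Rep
open Fermat.Agent.S55.Tate.InfRes2

universe u

/-- `H¹(H, A) = 0` in cocycle form (for the whole group). -/
def H1Trivial {k H : Type u} [CommRing k] [Group H] (A : Rep k H) : Prop :=
  ∀ x : H → A, (∀ s t : H, x (s * t) = A.ρ s (x t) + x s) → ∃ a : A, ∀ s : H, x s = A.ρ s a - a

/-- `H¹(S, res A) = 0` in the whole-group cocycle form gives `H1ResTrivial A S`. -/
theorem h1ResTrivial_of_h1Trivial_res {k H : Type u} [CommRing k] [Group H] (A : Rep k H)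
    (S : Subgroup H) (h : H1Trivial (res S.subtype A)) : H1ResTrivial A S := by
  intro x hx
  exact h x hx

/-- A nontrivial finite solvable group has a normal subgroup of prime index (so the quotient is
cyclic of prime order). -/
theorem exists_normal_prime_index (G : Type u) [Group G] [Finite G] [Group.IsSolvable G]
    [Nontrivial G] : ∃ (S : Subgroup G) (_ : S.Normal), (Nat.card (G ⧸ S)).Prime := by
  have hlt : _root_.commutator G < ⊤ := Group.IsSolvable.commutator_lt_top_of_nontrivial G
  obtain ⟨M, hM, hle⟩ := (eq_top_or_exists_le_coatom (_root_.commutator G)).resolve_left hlt.ne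
  have hMn : M.Normal := Subgroup.Normal.of_commutator_le (h := hle)
  refine ⟨M, hMn, ?_⟩
  -- the quotient is commutative and simple
  have hcomm : IsMulCommutative (G ⧸ M) :=
    Subgroup.Normal.quotient_commutative_iff_commutator_le.2 hle
  have hnt : Nontrivial (G ⧸ M) := by
    by_contra hcon
    rw [not_nontrivial_iff_subsingleton] at hcon
    exact hM.1 (QuotientGroup.subsingleton_iff.1 hcon)
  have hsimple : IsSimpleGroup (G ⧸ M) := by
    refine ⟨fun K _ => ?_⟩
    have hsurj : Function.Surjective (QuotientGroup.mk' M) := QuotientGroup.mk'_surjective M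
    have hK : K = (K.comap (QuotientGroup.mk' M)).map (QuotientGroup.mk' M) :=
      (Subgroup.map_comap_eq_self_of_surjective hsurj K).symm
    have hMle : M ≤ K.comap (QuotientGroup.mk' M) := by
      intro m hm
      rw [Subgroup.mem_comap, QuotientGroup.mk'_apply, (QuotientGroup.eq_one_iff m).2 hm]
      exact K.one_mem
    rcases hM.le_iff.1 hMle with h | h
    · right
      rw [hK, h, ← MonoidHom.range_eq_map, MonoidHom.range_eq_top]
      exact hsurj
    · left
      rw [hK, h, QuotientGroup.map_mk'_self]
  exact Group.is_simple_iff_prime_card.1 hsimple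

/-- A nontrivial finite solvable group has a proper normal subgroup with cyclic quotient. -/
theorem exists_normal_cyclic_quotient (G : Type u) [Group G] [Finite G] [Group.IsSolvable G]
    [Nontrivial G] : ∃ (S : Subgroup G) (_ : S.Normal), S ≠ ⊤ ∧ IsCyclic (G ⧸ S) := by
  obtain ⟨S, hSn, hp⟩ := exists_normal_prime_index G
  refine ⟨S, hSn, ?_, isCyclic_of_prime_card (hp := ⟨hp⟩) rfl⟩
  rintro rfl
  have : Nat.card (G ⧸ (⊤ : Subgroup G)) = 1 := by
    rw [Nat.card_eq_one_iff_unique]
    exact ⟨QuotientGroup.subsingleton_quotient_top, ⟨1⟩⟩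
  rw [this] at hp
  exact Nat.not_prime_one hp

section Main

variable {k : Type u} [CommRing k]

/-- **Ugly lemma, solvable route (prime layers).** Let `P` be a class of pairs
`(H, A : Rep k H)` which is closed under restriction to subgroups, all of whose members have
`H¹ = 0`, and such that for every member with `H` finite and every normal `S ≤ H` of PRIME index
the group `H²(H ⧸ S, A^S)` is finite of order dividing `|H ⧸ S|`. Then for every member with `H`
finite solvable, `H²(H, A)` is finite of order dividing `|H|`. -/
theorem finite_and_card_H2_dvd_card_of_isSolvable_of_prime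
    (P : ∀ (H : Type u) [Group H], Rep k H → Prop)
    (hres : ∀ (H : Type u) [Group H] (A : Rep k H), P H A →
      ∀ S : Subgroup H, P S (res S.subtype A))
    (hH1 : ∀ (H : Type u) [Group H] (A : Rep k H), P H A → H1Trivial A)
    (hprime : ∀ (H : Type u) [Group H] [Finite H] (A : Rep k H), P H A →
      ∀ (S : Subgroup H) [S.Normal], (Nat.card (H ⧸ S)).Prime →
        Finite (groupCohomology (A.quotientToInvariants S) 2) ∧
          Nat.card (groupCohomology (A.quotientToInvariants S) 2) ∣ Nat.card (H ⧸ S))
    (G : Type u) [Group G] [Finite G] [Group.IsSolvable G] (A : Rep k G) (hA : P G A) :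
    Finite (groupCohomology A 2) ∧ Nat.card (groupCohomology A 2) ∣ Nat.card G := by
  -- strong induction on `|G|`
  suffices key : ∀ n : ℕ, ∀ (G : Type u) [Group G] [Finite G] [Group.IsSolvable G] (A : Rep k G),
      Nat.card G = n → P G A →
        Finite (groupCohomology A 2) ∧ Nat.card (groupCohomology A 2) ∣ Nat.card G from
    key _ G A rfl hA
  intro n
  induction n using Nat.strong_induction_on with | _ n ih =>
  intro G _ _ _ A hn hA
  rcases subsingleton_or_nontrivial G with hG | hG
  · -- trivial group: `H² = 0`
    have hz : Limits.IsZero (groupCohomology A 2) :=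
      isZero_groupCohomology_succ_of_subsingleton A 1
    have : Subsingleton (groupCohomology A 2) := ModuleCat.subsingleton_of_isZero hz
    refine ⟨inferInstance, ?_⟩
    rw [Nat.card_unique]
    exact one_dvd _
  · obtain ⟨S, hSn, hSp⟩ := exists_normal_prime_index G
    have hStop : S ≠ ⊤ := by
      rintro rfl
      have : Nat.card (G ⧸ (⊤ : Subgroup G)) = 1 := by
        rw [Nat.card_eq_one_iff_unique]
        exact ⟨QuotientGroup.subsingleton_quotient_top, ⟨1⟩⟩
      rw [this] at hSp
      exact Nat.not_prime_one hSp
    have hlt : Nat.card S < Nat.card G := by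
      refine lt_of_le_of_ne (Subgroup.card_le_card_group S) fun h => ?_
      exact hStop (Subgroup.eq_top_of_card_eq S h)
    obtain ⟨hfS, hdS⟩ := ih (Nat.card S) (hn ▸ hlt) S (res S.subtype A) rfl (hres G A hA S)
    obtain ⟨hfQ, hdQ⟩ := hprime G A hA S hSp
    have hS1 : H1ResTrivial A S :=
      h1ResTrivial_of_h1Trivial_res A S (hH1 S _ (hres G A hA S))
    obtain ⟨hf, hd⟩ := finite_and_card_H2_dvd hS1
    refine ⟨hf, hd.trans ?_⟩
    rw [Subgroup.card_eq_card_quotient_mul_card_subgroup S]
    exact Nat.mul_dvd_mul hdQ hdS

/-- **Ugly lemma, solvable route (cyclic layers).** Same as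
`finite_and_card_H2_dvd_card_of_isSolvable_of_prime`, with the order bound assumed for all normal
`S` with CYCLIC quotient. -/
theorem finite_and_card_H2_dvd_card_of_isSolvable
    (P : ∀ (H : Type u) [Group H], Rep k H → Prop)
    (hres : ∀ (H : Type u) [Group H] (A : Rep k H), P H A →
      ∀ S : Subgroup H, P S (res S.subtype A))
    (hH1 : ∀ (H : Type u) [Group H] (A : Rep k H), P H A → H1Trivial A)
    (hcyc : ∀ (H : Type u) [Group H] [Finite H] (A : Rep k H), P H A →
      ∀ (S : Subgroup H) [S.Normal], IsCyclic (H ⧸ S) →
        Finite (groupCohomology (A.quotientToInvariants S) 2) ∧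
          Nat.card (groupCohomology (A.quotientToInvariants S) 2) ∣ Nat.card (H ⧸ S))
    (G : Type u) [Group G] [Finite G] [Group.IsSolvable G] (A : Rep k G) (hA : P G A) :
    Finite (groupCohomology A 2) ∧ Nat.card (groupCohomology A 2) ∣ Nat.card G :=
  finite_and_card_H2_dvd_card_of_isSolvable_of_prime P hres hH1
    (fun H _ _ A hA S _ hp => hcyc H A hA S (isCyclic_of_prime_card (hp := ⟨hp⟩) rfl)) G A hA

end Main

end Fermat.Agent.S55.Local.UglyLemma
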