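/-
S55 / Local block, row L8 (assembly): for every finite Galois extension `E/K` of (LF) local fields,
`H²(Gal(E/K), Eˣ)` is finite of order dividing `[E : K]`.

Direct strong induction on `[E : K]` in field language: `Gal(E/K)` is solvable
(`Local/SolvableLF`), so it has a normal subgroup `S` of prime index
(`Local/UglyLemma.exists_normal_prime_index`); `F := E^S` is again an (LF) field; apply the order
bound from inflation-restriction (`Tate/InfRes2.finite_and_card_H2_dvd`, Hilbert 90 for `S`), the
induction hypothesis to `E/F` and the cyclic prime-degree case to `F/K`.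

The two transport facts `(T1)`, `(T2)` (cohomology of `Rep.res S.subtype`, resp. of
`quotientToInvariants S`, of `ofAlgebraAutOnUnits K E` in terms of fixed fields; owner: helper43,
`Local/Transport.lean`) and the cyclic prime-degree case `(C)` (owner: helper59) enter as
hypotheses of the main theorem.
-/
import Mathlib
import Fermat.Agent.S55.Local.Basic
import Fermat.Agent.S55.Local.SolvableLF
import Fermat.Agent.S55.Local.UglyLemma
import Fermat.Agent.S55.Tate.InfRes2

set_option autoImplicit false

namespace Fermat.Agent.S55.Local.UglyLF

open groupCohomology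
open Fermat.Agent.S55.Tate.InfRes2

/-! ## Hilbert 90 for subgroups of `Gal(E/K)` -/

section Hilbert90

variable {K E : Type} [Field K] [Field E] [Algebra K E] [FiniteDimensional K E]

/-- Multiplicative Hilbert 90 (Noether's form) for a subgroup `S ≤ Gal(E/K)`: every 1-cocycle
`S → Eˣ` is a coboundary. -/
theorem exists_units_of_cocycle (S : Subgroup (E ≃ₐ[K] E)) (f : S → Eˣ)
    (hf : ∀ s t : S, f (s * t) = (s : E ≃ₐ[K] E) • f t * f s) :
    ∃ β : Eˣ, ∀ s : S, f s = (s : E ≃ₐ[K] E) • β / β := by
  classical
  have := Fintype.ofFinite S
  -- linear independence of the characters `s : E → E`, `s ∈ S`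
  have hli : LinearIndependent E (fun s : S => (((s : E ≃ₐ[K] E) : E →* E) : E → E)) :=
    LinearIndependent.comp (ι' := S) (linearIndependent_monoidHom E E)
      (fun s => (((s : E ≃ₐ[K] E) : E →* E))) (fun x y h => by
        apply Subtype.ext
        ext z
        exact DFunLike.ext_iff.1 h z)
  obtain ⟨z, hz⟩ : ∃ z : E, ∑ s : S, (f s : E) * (s : E ≃ₐ[K] E) z ≠ 0 := by
    by_contra hcon
    push Not at hcon
    have h0 : ∑ s : S, (f s : E) • (((s : E ≃ₐ[K] E) : E →* E) : E → E) = 0 := by
      funext z
      simpa using hcon z
    have := Fintype.linearIndependent_iff.1 hli (fun s => (f s : E)) h0 1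
    exact (f 1).ne_zero this
  set w : E := ∑ s : S, (f s : E) * (s : E ≃ₐ[K] E) z with hw
  have key : ∀ g : S, (g : E ≃ₐ[K] E) w * (f g : E) = w := by
    intro g
    rw [hw, map_sum, Finset.sum_mul]
    refine (Fintype.sum_bijective (fun s : S => g * s) (Group.mulLeft_bijective g) _ _ fun s => ?_)
    have h1 := congrArg (fun u : Eˣ => (u : E)) (hf g s)
    simp only [Units.val_mul, AlgEquiv.smul_units_def, Units.coe_map, MonoidHom.coe_coe] at h1
    rw [h1, map_mul, Subgroup.coe_mul, AlgEquiv.mul_apply]
    ring
  refine ⟨(Units.mk0 w hz)⁻¹, fun g => ?_⟩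
  rw [Units.ext_iff]
  have hgw : (g : E ≃ₐ[K] E) w ≠ 0 := by
    intro h0
    have := key g
    rw [h0, zero_mul] at this
    exact hz this.symm
  simp only [AlgEquiv.smul_units_def, map_inv, div_inv_eq_mul, Units.val_mul,
    Units.val_inv_eq_inv_val, Units.coe_map, MonoidHom.coe_coe, Units.val_mk0]
  have hk := key g
  field_simp
  linear_combination hk

/-- Hilbert 90 for subgroups, in the form consumed by inflation-restriction:
`H¹(S, Eˣ) = 0` for every subgroup `S ≤ Gal(E/K)`. -/
theorem h1ResTrivial_units (S : Subgroup (E ≃ₐ[K] E)) :
    H1ResTrivial (Rep.ofAlgebraAutOnUnits K E) S := by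
  intro x hx
  obtain ⟨β, hβ⟩ := exists_units_of_cocycle S (fun s => Additive.toMul (x s : Additive Eˣ))
    (fun s t => by
      have := hx s t
      exact congrArg Additive.toMul this)
  refine ⟨Additive.ofMul β, fun s => ?_⟩
  exact congrArg Additive.ofMul (hβ s)

end Hilbert90

/-! ## Intermediate fields of (LF) extensions are (LF) -/

section Intermediate

variable {K E : Type} [NontriviallyNormedField K] [IsUltrametricDist K] [ProperSpace K]
  [NontriviallyNormedField E] [NormedAlgebra K E] [FiniteDimensional K E]

omit [IsUltrametricDist K] in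
/-- An intermediate field of a finite extension of a locally compact field is a proper space. -/
theorem properSpace_intermediateField (F : IntermediateField K E) : ProperSpace F :=
  FiniteDimensional.proper K F

/-- `E` is a normed algebra over each of its intermediate fields (same algebra structure as the
standard one). -/
noncomputable abbrev normedAlgebraIntermediateField (F : IntermediateField K E) :
    NormedAlgebra F E :=
  { (inferInstance : Algebra F E) with
    norm_smul_le := fun x y => by
      rw [Algebra.smul_def, norm_mul]
      exact le_of_eq rfl }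

end Intermediate

/-! ## The assembly -/

section Main

/-- `(T1)`: restriction to a subgroup `S` computes the cohomology of `E / E^S`. -/
def TransportRes : Prop :=
  ∀ (K E : Type) [Field K] [Field E] [Algebra K E] [FiniteDimensional K E] [IsGalois K E]
    (S : Subgroup (E ≃ₐ[K] E)),
    Nonempty (groupCohomology (Rep.res S.subtype (Rep.ofAlgebraAutOnUnits K E)) 2 ≃
      groupCohomology (Rep.ofAlgebraAutOnUnits (IntermediateField.fixedField S) E) 2)

/-- `(T2)`: the `S`-invariants, as a representation of the quotient by a normal subgroup `S`,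
compute the cohomology of `E^S / K`. -/
def TransportQuot : Prop :=
  ∀ (K E : Type) [Field K] [Field E] [Algebra K E] [FiniteDimensional K E] [IsGalois K E]
    (S : Subgroup (E ≃ₐ[K] E)) [S.Normal],
    Nonempty (groupCohomology ((Rep.ofAlgebraAutOnUnits K E).quotientToInvariants S) 2 ≃
      groupCohomology (Rep.ofAlgebraAutOnUnits K (IntermediateField.fixedField S)) 2)

/-- `(C)`: the order bound in the Galois case of PRIME degree (then the group is cyclic). -/
def PrimeDegreeBound : Prop :=
  ∀ (K E : Type) [NontriviallyNormedField K] [IsUltrametricDist K] [ProperSpace K]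
    [NontriviallyNormedField E] [IsUltrametricDist E] [ProperSpace E]
    [NormedAlgebra K E] [FiniteDimensional K E] [IsGalois K E],
    (Module.finrank K E).Prime →
    Finite (groupCohomology (Rep.ofAlgebraAutOnUnits K E) 2) ∧
      Nat.card (groupCohomology (Rep.ofAlgebraAutOnUnits K E) 2) ∣ Module.finrank K E

/-- The statement of row L8: `H²(Gal(E/K), Eˣ)` is finite of order dividing `[E : K]`, for every
finite Galois extension of (LF) fields. -/
def H2CardDvd : Prop :=
  ∀ (K E : Type) [NontriviallyNormedField K] [IsUltrametricDist K] [ProperSpace K]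
    [NontriviallyNormedField E] [IsUltrametricDist E] [ProperSpace E]
    [NormedAlgebra K E] [FiniteDimensional K E] [IsGalois K E],
    Finite (groupCohomology (Rep.ofAlgebraAutOnUnits K E) 2) ∧
      Nat.card (groupCohomology (Rep.ofAlgebraAutOnUnits K E) 2) ∣ Module.finrank K E

/-- **Row L8 (ugly lemma for local fields).** -/
theorem h2CardDvd (T1 : TransportRes) (T2 : TransportQuot) (C : PrimeDegreeBound) : H2CardDvd := by
  suffices key : ∀ n : ℕ, ∀ (K E : Type) [NontriviallyNormedField K] [IsUltrametricDist K]
      [ProperSpace K] [NontriviallyNormedField E] [IsUltrametricDist E] [ProperSpace E]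
      [NormedAlgebra K E] [FiniteDimensional K E] [IsGalois K E], Module.finrank K E = n →
      Finite (groupCohomology (Rep.ofAlgebraAutOnUnits K E) 2) ∧
        Nat.card (groupCohomology (Rep.ofAlgebraAutOnUnits K E) 2) ∣ Module.finrank K E by
    intro K E _ _ _ _ _ _ _ _ _
    exact key _ K E rfl
  intro n
  induction n using Nat.strong_induction_on with | _ n ih =>
  intro K E _ _ _ _ _ _ _ _ _ hn
  set A := Rep.ofAlgebraAutOnUnits K E with hA
  have hcardG : Nat.card (E ≃ₐ[K] E) = Module.finrank K E := IsGalois.card_aut_eq_finrank K E
  rcases subsingleton_or_nontrivial (E ≃ₐ[K] E) with hG | hG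
  · have hz : CategoryTheory.Limits.IsZero (groupCohomology A 2) :=
      isZero_groupCohomology_succ_of_subsingleton A 1
    have : Subsingleton (groupCohomology A 2) := ModuleCat.subsingleton_of_isZero hz
    refine ⟨inferInstance, ?_⟩
    rw [Nat.card_unique]
    exact one_dvd _
  · have hsolv : Group.IsSolvable (E ≃ₐ[K] E) := SolvableLF.isSolvable_gal K E
    obtain ⟨S, hSn, hSp⟩ := UglyLemma.exists_normal_prime_index (E ≃ₐ[K] E)
    -- the fixed field and its (LF) structure
    set F : IntermediateField K E := IntermediateField.fixedField S with hF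
    have hFprop : ProperSpace F := properSpace_intermediateField F
    let _ : NormedAlgebra F E := normedAlgebraIntermediateField F
    have hFE : Module.finrank F E = Nat.card S := IntermediateField.finrank_fixedField_eq_card S
    have hmul : Nat.card ((E ≃ₐ[K] E) ⧸ S) * Nat.card S = Module.finrank K E := by
      rw [← hcardG]
      exact (Subgroup.card_eq_card_quotient_mul_card_subgroup S).symm
    have htower : Module.finrank K F * Module.finrank F E = Module.finrank K E :=
      Module.finrank_mul_finrank K F E
    have hSpos : 0 < Nat.card S := Nat.card_pos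
    have hKF : Module.finrank K F = Nat.card ((E ≃ₐ[K] E) ⧸ S) := by
      rw [hFE, ← hmul] at htower
      exact Nat.eq_of_mul_eq_mul_right hSpos htower
    have hlt : Module.finrank F E < n := by
      rw [← hn, ← htower, hKF]
      have h2 : 2 ≤ Nat.card ((E ≃ₐ[K] E) ⧸ S) := hSp.two_le
      have hpos : 0 < Module.finrank F E := by rw [hFE]; exact hSpos
      nlinarith
    -- induction hypothesis on `E / F`
    obtain ⟨hfR, hdR⟩ := ih (Module.finrank F E) hlt F E rfl
    -- prime case on `F / K`
    have hgalKF : IsGalois K F := IsGalois.of_fixedField_normal_subgroup S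
    obtain ⟨hfQ, hdQ⟩ := C K F (hKF ▸ hSp)
    -- transport
    obtain ⟨e1⟩ := T1 K E S
    obtain ⟨e2⟩ := T2 K E S
    have hfR' : Finite (groupCohomology (Rep.res S.subtype A) 2) := Finite.of_equiv _ e1.symm
    have hfQ' : Finite (groupCohomology (A.quotientToInvariants S) 2) := Finite.of_equiv _ e2.symm
    obtain ⟨hf, hd⟩ := finite_and_card_H2_dvd (h1ResTrivial_units S)
    refine ⟨hf, hd.trans ?_⟩
    rw [Nat.card_congr e1, Nat.card_congr e2, ← htower]
    exact Nat.mul_dvd_mul hdQ hdR

end Main

end Fermat.Agent.S55.Local.UglyLF
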