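/-
S55 / LOCAL block (helper43): the two transport Props of `Local/UglyLF.lean` (helper34, row L8),
from `Local/Transport.lean`.
-/
import Mathlib
import Fermat.Agent.S55.Local.Transport
import Fermat.Agent.S55.Local.UglyLF

set_option autoImplicit false

namespace Fermat.Agent.S55.Local.TransportProof

open Fermat.Agent.S55.Local

theorem transportRes : UglyLF.TransportRes := by
  intro K E _ _ _ _ _ S
  exact ⟨(Transport.resSubIso K E S 2).toLinearEquiv.toEquiv⟩

theorem transportQuot : UglyLF.TransportQuot := by
  intro K E _ _ _ _ _ S _
  exact ⟨(Transport.quotientIso K E S 2).toLinearEquiv.toEquiv⟩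

/-- Row L8 with the transports discharged. -/
theorem h2CardDvd_of_primeDegreeBound (C : UglyLF.PrimeDegreeBound) : UglyLF.H2CardDvd :=
  UglyLF.h2CardDvd transportRes transportQuot C

end Fermat.Agent.S55.Local.TransportProof
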