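/-
S55 / local class formation, piece `Local.Concrete` (helper30).

Generic field theory: for an automorphism `σ` of a finite extension `E/F`, the extension
`E / E^⟨σ⟩` is Galois with a normal basis `(σ ^ j) θ`, `j < orderOf σ`.
-/
import Mathlib

set_option autoImplicit false

namespace Fermat.Agent.S55.Local.NormalBasisCyclic

open IntermediateField

variable {F E : Type*} [Field F] [Field E] [Algebra F E]

/-- The fixed field of `⟨σ⟩`. -/
abbrev fixedK (σ : E ≃ₐ[F] E) : IntermediateField F E := fixedField (Subgroup.zpowers σ)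

theorem mem_fixedK_iff (σ : E ≃ₐ[F] E) (x : E) : x ∈ fixedK σ ↔ σ x = x := by
  rw [IntermediateField.mem_fixedField_iff]
  constructor
  · intro h
    exact h σ (Subgroup.mem_zpowers σ)
  · intro h τ hτ
    obtain ⟨k, rfl⟩ := Subgroup.mem_zpowers_iff.mp hτ
    clear hτ
    have hinv : σ⁻¹ x = x := by
      conv_lhs => rw [← h]
      exact σ.symm_apply_apply x
    induction k using Int.induction_on with
    | zero => simp
    | succ i ih =>
      rw [zpow_add_one, AlgEquiv.mul_apply, h, ih]
    | pred i ih =>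
      rw [zpow_sub_one, AlgEquiv.mul_apply, hinv, ih]

theorem pow_apply_of_fixed (σ : E ≃ₐ[F] E) {x : E} (hx : σ x = x) (j : ℕ) :
    (σ ^ j) x = x := by
  induction j with
  | zero => simp
  | succ j ih => rw [pow_succ, AlgEquiv.mul_apply, hx, ih]

variable [FiniteDimensional F E]

theorem isGalois_fixedField (H : Subgroup (E ≃ₐ[F] E)) : IsGalois (fixedField H) E := by
  apply IsGalois.of_card_aut_eq_finrank
  rw [IntermediateField.finrank_fixedField_eq_card]
  have e1 := (fixingSubgroupEquiv (fixedField H)).toEquiv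
  rw [← Nat.card_congr e1, IntermediateField.fixingSubgroup_fixedField]

theorem orderOf_pos' (σ : E ≃ₐ[F] E) : 0 < orderOf σ := orderOf_pos σ

/-- The indexing bijection `Fin (orderOf σ) ≃ Gal(E / E^⟨σ⟩)`, `j ↦ σ ^ j`. -/
noncomputable def idx (σ : E ≃ₐ[F] E) : Fin (orderOf σ) ≃ (E ≃ₐ[fixedK σ] E) :=
  ((finEquivZPowers (isOfFinOrder_of_finite σ)).trans
    (Equiv.setCongr (by rw [IntermediateField.fixingSubgroup_fixedField]) :
      Subgroup.zpowers σ ≃ (fixedK σ).fixingSubgroup)).trans
    (fixingSubgroupEquiv (fixedK σ)).toEquiv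

theorem idx_apply (σ : E ≃ₐ[F] E) (j : Fin (orderOf σ)) (y : E) :
    (idx σ j) y = (σ ^ (j : ℕ)) y := rfl

/-- The normal basis generator. -/
noncomputable def theta (σ : E ≃ₐ[F] E) : E :=
  haveI := isGalois_fixedField (Subgroup.zpowers σ)
  IsGalois.normalBasis (fixedK σ) E 1

/-- The normal basis `j ↦ (σ ^ j) θ` of `E` over the fixed field of `σ`. -/
noncomputable def cycBasis (σ : E ≃ₐ[F] E) : Module.Basis (Fin (orderOf σ)) (fixedK σ) E :=
  haveI := isGalois_fixedField (Subgroup.zpowers σ)
  (IsGalois.normalBasis (fixedK σ) E).reindex (idx σ).symm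

theorem cycBasis_apply (σ : E ≃ₐ[F] E) (j : Fin (orderOf σ)) :
    cycBasis σ j = (σ ^ (j : ℕ)) (theta σ) := by
  have := isGalois_fixedField (Subgroup.zpowers σ)
  change (IsGalois.normalBasis (fixedK σ) E).reindex (idx σ).symm j = _
  rw [Module.Basis.reindex_apply, Equiv.symm_symm, IsGalois.normalBasis_apply, idx_apply]
  rfl

end Fermat.Agent.S55.Local.NormalBasisCyclic
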