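/-
S55 / local class formation, piece `Local.Concrete`, abstract (LF) form (helper30).

`F` a complete nontrivially normed field, `E` a finite extension of `F` which is a normed field
with ultrametric norm extending that of `F`, `σ` an isometric `F`-automorphism of `E`,
`K = E^⟨σ⟩`, `ϖ ∈ F` with `0 < ‖ϖ‖ < 1`.  We construct the normal-basis lattices
`Lat k = ⊕ ϖ^k O_K σ^j θ` and the unit groups `1 + Lat k`, and prove that `1 + Lat k` (k large) is
a subgroup of finite index of the norm-one units of `E` which is cohomologically trivial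
(`qa D N = qa N D = 1` in the language of `S14/HerbrandPrime`), by successive approximation
(`S55/CohTrivialApprox`).  This is the port of `Local/UnitLattice.lean` (where `F = ℚ_[q]`,
`ϖ = q`, `E ⊆ PadicAlgCl q`) to the abstract setting of `Local/Basic.lean`.
-/
import Mathlib
import Fermat.Agent.S55.Local.NormalBasisCyclic
import Fermat.Agent.S55.CohTrivialApprox

set_option autoImplicit false
set_option linter.unusedSectionVars false

namespace Fermat.Agent.S55.Local.UnitLatticeLF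

open Fermat.Agent.S55.Local.NormalBasisCyclic

/-- The datum: an isometric automorphism `σ` of `E/F` and a scaling element `ϖ` of `F`. -/
structure Datum (F E : Type*) [NontriviallyNormedField F] [NormedField E] [NormedAlgebra F E] where
  /-- the automorphism -/
  σ : E ≃ₐ[F] E
  /-- `σ` is an isometry -/
  isom : ∀ x : E, ‖σ x‖ = ‖x‖
  /-- the scaling element -/
  ϖ : F
  /-- `ϖ ≠ 0` -/
  ϖ_pos : 0 < ‖ϖ‖
  /-- `ϖ` is topologically nilpotent -/
  ϖ_lt : ‖ϖ‖ < 1

/-! ### Generalities on ultrametric normed fields -/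

section General

variable (E : Type*) [NormedField E] [IsUltrametricDist E]

theorem norm_sub_le_max' (a b : E) : ‖a - b‖ ≤ max ‖a‖ ‖b‖ := by
  have h := IsUltrametricDist.norm_add_le_max a (-b)
  rwa [norm_neg, ← sub_eq_add_neg] at h

theorem norm_eq_one_of_norm_sub_one_lt {x : E} (h : ‖x - 1‖ < 1) : ‖x‖ = 1 := by
  have h1 : x = (x - 1) + 1 := by ring
  have h2 : ‖(x - 1) + 1‖ = max ‖x - 1‖ ‖(1 : E)‖ :=
    IsUltrametricDist.norm_add_eq_max_of_norm_ne_norm (by rw [norm_one]; exact h.ne)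
  rw [h1, h2, norm_one, max_eq_right h.le]

/-- The norm-one units of `E`, written additively. -/
def unitKer : AddSubgroup (Additive Eˣ) where
  carrier := {u | ‖((u.toMul : Eˣ) : E)‖ = 1}
  zero_mem' := by
    change ‖(((1 : Eˣ) : E))‖ = 1
    simp
  add_mem' := by
    intro u v hu hv
    change ‖((u.toMul * v.toMul : Eˣ) : E)‖ = 1
    have hu' : ‖((u.toMul : Eˣ) : E)‖ = 1 := hu
    have hv' : ‖((v.toMul : Eˣ) : E)‖ = 1 := hv
    rw [Units.val_mul, norm_mul, hu', hv', one_mul]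
  neg_mem' := by
    intro u hu
    change ‖(((u.toMul)⁻¹ : Eˣ) : E)‖ = 1
    have hu' : ‖((u.toMul : Eˣ) : E)‖ = 1 := hu
    rw [Units.val_inv_eq_inv_val, norm_inv, hu', inv_one]

theorem mem_unitKer_iff (u : Additive Eˣ) : u ∈ unitKer E ↔ ‖((u.toMul : Eˣ) : E)‖ = 1 := Iff.rfl

/-- The subgroup `{u : ‖u - 1‖ ≤ r}` of `Eˣ` (written additively), for `r < 1`. -/
def ballSubgroup (r : ℝ) (hr0 : 0 ≤ r) (hr : r < 1) : AddSubgroup (Additive Eˣ) where
  carrier := {u | ‖((u.toMul : Eˣ) : E) - 1‖ ≤ r}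
  zero_mem' := by
    change ‖(((1 : Eˣ) : E)) - 1‖ ≤ r
    simpa using hr0
  add_mem' := by
    intro u v hu hv
    change ‖((u.toMul * v.toMul : Eˣ) : E) - 1‖ ≤ r
    set a := ((u.toMul : Eˣ) : E) with ha
    set b := ((v.toMul : Eˣ) : E) with hb
    have hu' : ‖a - 1‖ ≤ r := hu
    have hv' : ‖b - 1‖ ≤ r := hv
    have h1 : a * b - 1 = (a - 1) * (b - 1) + ((a - 1) + (b - 1)) := by ring
    rw [Units.val_mul, h1]
    refine (IsUltrametricDist.norm_add_le_max _ _).trans (max_le ?_ ?_)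
    · rw [norm_mul]
      calc ‖a - 1‖ * ‖b - 1‖ ≤ r * 1 :=
            mul_le_mul hu' (hv'.trans hr.le) (norm_nonneg _) hr0
        _ = r := mul_one r
    · exact (IsUltrametricDist.norm_add_le_max _ _).trans (max_le hu' hv')
  neg_mem' := by
    intro u hu
    change ‖(((u.toMul)⁻¹ : Eˣ) : E) - 1‖ ≤ r
    set a := ((u.toMul : Eˣ) : E) with ha
    have hu' : ‖a - 1‖ ≤ r := hu
    have ha1 : ‖a‖ = 1 := norm_eq_one_of_norm_sub_one_lt E (hu'.trans_lt hr)
    have ha0 : a ≠ 0 := (u.toMul).ne_zero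
    have h1 : a⁻¹ - 1 = -(a - 1) * a⁻¹ := by field_simp; ring
    rw [Units.val_inv_eq_inv_val, h1, norm_mul, norm_neg, norm_inv, ha1, inv_one, mul_one]
    exact hu'

theorem mem_ballSubgroup_iff {r : ℝ} (hr0 : 0 ≤ r) (hr : r < 1) (u : Additive Eˣ) :
    u ∈ ballSubgroup E r hr0 hr ↔ ‖((u.toMul : Eˣ) : E) - 1‖ ≤ r := Iff.rfl

theorem ballSubgroup_le_unitKer {r : ℝ} (hr0 : 0 ≤ r) (hr : r < 1) :
    ballSubgroup E r hr0 hr ≤ unitKer E := by
  intro u hu
  rw [mem_unitKer_iff]
  exact norm_eq_one_of_norm_sub_one_lt E (lt_of_le_of_lt hu hr)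

/-- The principal unit subgroups have finite index in the norm-one units. -/
theorem relIndex_ballSubgroup_ne_zero [ProperSpace E] {r : ℝ} (hr0 : 0 < r) (hr : r < 1) :
    (ballSubgroup E r hr0.le hr).relIndex (unitKer E) ≠ 0 := by
  classical
  set U := unitKer E with hU
  set W := (ballSubgroup E r hr0.le hr).addSubgroupOf U with hW
  obtain ⟨t, -, htfin, hcover⟩ := (isCompact_closedBall (0 : E) 1).finite_cover_balls hr0
  have : Finite t := htfin
  -- the coordinate of an element of `U`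
  let val : U → E := fun u => (((u : Additive Eˣ).toMul : Eˣ) : E)
  have hval1 : ∀ u : U, ‖val u‖ = 1 := fun u => (mem_unitKer_iff E _).mp u.2
  let S : (U ⧸ W) → Set t := fun c => {x | ∃ u : U, (QuotientAddGroup.mk u : U ⧸ W) = c ∧
    ‖val u - (x : E)‖ < r}
  have hinj : Function.Injective S := by
    intro c c' hcc
    obtain ⟨u, rfl⟩ := QuotientAddGroup.mk_surjective c
    obtain ⟨u', rfl⟩ := QuotientAddGroup.mk_surjective c'
    -- a point of `t` near `u`
    have hu : val u ∈ Metric.closedBall (0 : E) 1 := by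
      rw [mem_closedBall_zero_iff, hval1]
    obtain ⟨x, hxt, hx⟩ := Set.mem_iUnion₂.mp (hcover hu)
    have hxS : (⟨x, hxt⟩ : t) ∈ S (QuotientAddGroup.mk u) :=
      ⟨u, rfl, by simpa [dist_eq_norm] using hx⟩
    rw [hcc] at hxS
    obtain ⟨u'', hu'', hx''⟩ := hxS
    rw [← hu'']
    rw [QuotientAddGroup.eq]
    -- `-u + u'' ∈ W`
    change (-u + u'' : U) ∈ W
    rw [hW, AddSubgroup.mem_addSubgroupOf, mem_ballSubgroup_iff]
    have hclose : ‖val u'' - val u‖ < r := by
      have h1 : val u'' - val u = (val u'' - x) - (val u - x) := by ring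
      rw [h1]
      refine lt_of_le_of_lt (norm_sub_le_max' E _ _) (max_lt hx'' ?_)
      simpa [dist_eq_norm] using hx
    have hu0 : val u ≠ 0 := fun h => by
      have := hval1 u; rw [h, norm_zero] at this; exact zero_ne_one this
    have hcoe : ((((-u + u'' : U) : Additive Eˣ).toMul : Eˣ) : E) = (val u)⁻¹ * val u'' := by
      simp [val]
    rw [hcoe]
    have h2 : (val u)⁻¹ * val u'' - 1 = (val u)⁻¹ * (val u'' - val u) := by
      field_simp
    rw [h2, norm_mul, norm_inv, hval1, inv_one, one_mul]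
    exact hclose.le
  have hfin : Finite (U ⧸ W) := Finite.of_injective S hinj
  rw [AddSubgroup.relIndex]
  exact AddSubgroup.index_ne_zero_of_finite

/-- The value of a unit (written additively) in `E`. -/
def uval (u : Additive Eˣ) : E := ((u.toMul : Eˣ) : E)

theorem uval_zero : uval E (0 : Additive Eˣ) = 1 := rfl

theorem uval_add (u v : Additive Eˣ) : uval E (u + v) = uval E u * uval E v := rfl

theorem uval_neg (u : Additive Eˣ) : uval E (-u) = (uval E u)⁻¹ := by
  unfold uval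
  rw [toMul_neg, Units.val_inv_eq_inv_val]

theorem uval_sub (u v : Additive Eˣ) : uval E (u - v) = uval E u / uval E v := by
  rw [sub_eq_add_neg, uval_add, uval_neg, div_eq_mul_inv]

theorem uval_ne_zero (u : Additive Eˣ) : uval E u ≠ 0 := (u.toMul).ne_zero


theorem uval_injective : Function.Injective (uval E) := by
  intro u v h
  have : (u.toMul : Eˣ) = v.toMul := Units.ext h
  exact Additive.toMul.injective this


theorem uval_sum {ι : Type*} (s : Finset ι) (f : ι → Additive Eˣ) :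
    uval E (∑ j ∈ s, f j) = ∏ j ∈ s, uval E (f j) := by
  classical
  induction s using Finset.induction_on with
  | empty => simp [uval_zero]
  | insert a s ha ih => rw [Finset.sum_insert ha, Finset.prod_insert ha, uval_add, ih]


/-! ### A product expansion -/

theorem norm_prod_one_add_sub {ι : Type*} (s : Finset ι) (a : ι → E) {r : ℝ} (hr0 : 0 ≤ r)
    (hr1 : r ≤ 1) (ha : ∀ j ∈ s, ‖a j‖ ≤ r) :
    ‖∏ j ∈ s, (1 + a j) - 1 - ∑ j ∈ s, a j‖ ≤ r ^ 2 := by
  classical
  induction s using Finset.induction_on with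
  | empty => simp; positivity
  | insert k s hk ih =>
    have hak : ‖a k‖ ≤ r := ha k (Finset.mem_insert_self k s)
    have has : ∀ j ∈ s, ‖a j‖ ≤ r := fun j hj => ha j (Finset.mem_insert_of_mem hj)
    have hR := ih has
    set R := ∏ j ∈ s, (1 + a j) - 1 - ∑ j ∈ s, a j with hRdef
    have hsum : ‖∑ j ∈ s, a j‖ ≤ r :=
      IsUltrametricDist.norm_sum_le_of_forall_le_of_nonneg hr0 has
    have h1 : ∏ j ∈ insert k s, (1 + a j) - 1 - ∑ j ∈ insert k s, a j =
        R + (a k * ∑ j ∈ s, a j + a k * R) := by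
      rw [Finset.prod_insert hk, Finset.sum_insert hk, hRdef]
      ring
    rw [h1]
    refine (IsUltrametricDist.norm_add_le_max _ _).trans (max_le hR ?_)
    refine (IsUltrametricDist.norm_add_le_max _ _).trans (max_le ?_ ?_)
    · rw [norm_mul, pow_two]
      exact mul_le_mul hak hsum (norm_nonneg _) hr0
    · rw [norm_mul]
      calc ‖a k‖ * ‖R‖ ≤ 1 * r ^ 2 :=
            mul_le_mul (hak.trans hr1) hR (norm_nonneg _) zero_le_one
        _ = r ^ 2 := one_mul _


end General

variable {F E : Type*} [NontriviallyNormedField F] [CompleteSpace F] [NormedField E]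
  [NormedAlgebra F E] [IsUltrametricDist E] [FiniteDimensional F E]
variable (D : Datum F E)

/-- `ρ = ‖ϖ‖`. -/
noncomputable def rho : ℝ := ‖D.ϖ‖

theorem rho_pos : 0 < rho D := D.ϖ_pos

theorem rho_lt_one : rho D < 1 := D.ϖ_lt

theorem rho_inv_pos : 0 < (rho D)⁻¹ := inv_pos.mpr (rho_pos D)

theorem one_lt_rho_inv : 1 < (rho D)⁻¹ := (one_lt_inv₀ (rho_pos D)).mpr (rho_lt_one D)

/-- The scaling element as an element of `E`. -/
noncomputable def pi : E := algebraMap F E D.ϖ

theorem norm_q : ‖(pi D)‖ = rho D := norm_algebraMap' E D.ϖ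

theorem norm_q_pow (a : ℕ) : ‖(pi D) ^ a‖ = rho D ^ a := by
  rw [norm_pow, norm_q]

theorem q_ne_zero : (pi D) ≠ 0 := by
  have h : (0 : ℝ) < ‖(pi D)‖ := by rw [norm_q]; exact (rho_pos D)
  exact norm_pos_iff.mp h

theorem sigma_q : D.σ (pi D) = (pi D) := D.σ.commutes D.ϖ

theorem sigma_q_pow (a : ℕ) : D.σ ((pi D) ^ a) = (pi D) ^ a := by
  rw [map_pow, sigma_q]

theorem norm_pow_sigma (j : ℕ) (x : E) : ‖(D.σ ^ j) x‖ = ‖x‖ := by
  induction j generalizing x with
  | zero => simp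
  | succ j ih => rw [pow_succ, AlgEquiv.mul_apply, ih, D.isom]

include D in
theorem completeSpace_of_datum : CompleteSpace E := FiniteDimensional.complete F E

/-- A scaling exponent making the normal basis generator integral. -/
theorem exists_scale : ∃ a : ℕ, ‖(pi D) ^ a * theta D.σ‖ ≤ 1 := by
  obtain ⟨a, ha⟩ := exists_pow_lt_of_lt_one (show (0 : ℝ) < 1 / (‖theta D.σ‖ + 1) by positivity)
    (rho_lt_one D)
  refine ⟨a, ?_⟩
  rw [norm_mul, norm_q_pow]
  have h1 : 0 < ‖theta D.σ‖ + 1 := by positivity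
  have h2 : rho D ^ a * (‖theta D.σ‖ + 1) < 1 := by
    rwa [lt_div_iff₀ h1] at ha
  have h3 : rho D ^ a * ‖theta D.σ‖ ≤ rho D ^ a * (‖theta D.σ‖ + 1) :=
    mul_le_mul_of_nonneg_left (by linarith) (pow_nonneg (rho_pos D).le a)
  linarith

/-- The scaling exponent. -/
noncomputable def sc : ℕ := (exists_scale D).choose

/-- The scaled normal basis generator, of norm `≤ 1`. -/
noncomputable def theta1 : E := (pi D) ^ sc D * theta D.σ

theorem norm_theta1_le : ‖theta1 D‖ ≤ 1 := (exists_scale D).choose_spec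

/-- The scaling unit of `K`. -/
noncomputable def scUnit : (fixedK D.σ)ˣ :=
  Units.mk0 (⟨(pi D) ^ sc D, (mem_fixedK_iff D.σ _).mpr (sigma_q_pow D _)⟩ : fixedK D.σ)
    (by
      intro h
      have := congrArg Subtype.val h
      exact pow_ne_zero _ (q_ne_zero D) this)

/-- The scaled normal basis. -/
noncomputable def bas : Module.Basis (Fin (orderOf D.σ)) (fixedK D.σ) E :=
  (cycBasis D.σ).unitsSMul (fun _ => scUnit D)

theorem bas_apply (j : Fin (orderOf D.σ)) : bas D j = (D.σ ^ (j : ℕ)) (theta1 D) := by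
  unfold bas theta1
  rw [Module.Basis.unitsSMul_apply, cycBasis_apply, map_mul]
  have : (D.σ ^ (j : ℕ)) ((pi D) ^ sc D) = (pi D) ^ sc D :=
    pow_apply_of_fixed D.σ (sigma_q_pow D _) _
  rw [this]
  rfl

theorem norm_bas_le (j : Fin (orderOf D.σ)) : ‖bas D j‖ ≤ 1 := by
  rw [bas_apply, norm_pow_sigma]
  exact norm_theta1_le D

theorem pow_sigma_theta1 (i : ℕ) :
    ∃ l : Fin (orderOf D.σ), (D.σ ^ i) (theta1 D) = bas D l := by
  refine ⟨⟨i % orderOf D.σ, Nat.mod_lt _ (orderOf_pos' D.σ)⟩, ?_⟩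
  rw [bas_apply]
  simp only
  rw [pow_mod_orderOf]

/-! ### Coordinates -/

/-- The `j`-th coordinate of `x` with respect to the scaled normal basis, as an element of `E`. -/
noncomputable def co (x : E) (j : Fin (orderOf D.σ)) : E := (((bas D).repr x j : fixedK D.σ) : E)

theorem sigma_co (x : E) (j : Fin (orderOf D.σ)) : D.σ (co D x j) = co D x j :=
  (mem_fixedK_iff D.σ _).mp ((bas D).repr x j).2

theorem sum_co (x : E) : ∑ j, co D x j * bas D j = x := by
  conv_rhs => rw [← (bas D).sum_repr x]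
  rfl

theorem co_unique {x : E} {c : Fin (orderOf D.σ) → E} (hc : ∀ j, D.σ (c j) = c j)
    (hx : x = ∑ j, c j * bas D j) (j : Fin (orderOf D.σ)) : co D x j = c j := by
  have hcK : ∀ j, c j ∈ fixedK D.σ := fun j => (mem_fixedK_iff D.σ _).mpr (hc j)
  have h1 : x = ∑ j, (⟨c j, hcK j⟩ : fixedK D.σ) • bas D j := by
    rw [hx]; rfl
  have h2 : ⇑((bas D).repr x) = fun j => (⟨c j, hcK j⟩ : fixedK D.σ) := by
    rw [h1]
    exact (bas D).repr_sum_self _
  unfold co
  rw [h2]

theorem co_add (x y : E) (j : Fin (orderOf D.σ)) : co D (x + y) j = co D x j + co D y j := by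
  unfold co
  rw [map_add]
  rfl

theorem co_neg (x : E) (j : Fin (orderOf D.σ)) : co D (-x) j = -co D x j := by
  unfold co
  rw [map_neg]
  rfl

theorem co_zero (j : Fin (orderOf D.σ)) : co D 0 j = 0 := by
  unfold co
  rw [map_zero]
  rfl

theorem co_mul_fixed {a : E} (ha : D.σ a = a) (x : E) (j : Fin (orderOf D.σ)) :
    co D (a * x) j = a * co D x j := by
  apply co_unique D (c := fun j => a * co D x j)
  · intro j
    rw [map_mul, ha, sigma_co]
  · conv_lhs => rw [← sum_co D x, Finset.mul_sum]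
    refine Finset.sum_congr rfl fun j _ => ?_
    ring

/-- Coordinates of a multiple of a basis vector. -/
theorem co_mul_bas {a : E} (ha : D.σ a = a) (l j : Fin (orderOf D.σ)) :
    co D (a * bas D l) j = if j = l then a else 0 := by
  classical
  apply co_unique D (c := fun j => if j = l then a else 0)
  · intro j
    split_ifs
    · exact ha
    · exact map_zero D.σ
  · simp

theorem norm_le_of_co {x : E} {r : ℝ} (hr : 0 ≤ r) (h : ∀ j, ‖co D x j‖ ≤ r) : ‖x‖ ≤ r := by
  rw [← sum_co D x]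
  apply IsUltrametricDist.norm_sum_le_of_forall_le_of_nonneg hr
  intro j _
  rw [norm_mul]
  calc ‖co D x j‖ * ‖bas D j‖ ≤ r * 1 :=
        mul_le_mul (h j) (norm_bas_le D j) (norm_nonneg _) hr
    _ = r := mul_one r

/-- The `j`-th coordinate as a `F`-linear map. -/
noncomputable def coLin (j : Fin (orderOf D.σ)) : E →ₗ[F] E where
  toFun x := co D x j
  map_add' x y := co_add D x y j
  map_smul' c x := by
    simp only [RingHom.id_apply]
    rw [Algebra.smul_def, Algebra.smul_def]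
    exact co_mul_fixed D (D.σ.commutes c) x j

theorem coLin_apply (j : Fin (orderOf D.σ)) (x : E) : coLin D j x = co D x j := rfl

theorem continuous_co (j : Fin (orderOf D.σ)) : Continuous fun x => co D x j :=
  (coLin D j).continuous_of_finiteDimensional

/-- Boundedness of the coordinates. -/
theorem exists_co_bound : ∃ c₀ : ℕ, ∀ (x : E) (j : Fin (orderOf D.σ)),
    ‖co D x j‖ ≤ (rho D)⁻¹ ^ c₀ * ‖x‖ := by
  classical
  let f : Fin (orderOf D.σ) → (E →L[F] E) := fun j => LinearMap.toContinuousLinearMap (coLin D j)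
  obtain ⟨C, hC⟩ : ∃ C : ℝ, ∀ j, ‖f j‖ ≤ C := by
    refine ⟨∑ j, ‖f j‖, fun j => ?_⟩
    exact Finset.single_le_sum (f := fun j => ‖f j‖) (fun _ _ => norm_nonneg _) (Finset.mem_univ j)
  obtain ⟨c₀, hc₀⟩ := pow_unbounded_of_one_lt C (one_lt_rho_inv D)
  refine ⟨c₀, fun x j => ?_⟩
  have h1 : ‖f j x‖ ≤ ‖f j‖ * ‖x‖ := (f j).le_opNorm x
  have h2 : f j x = co D x j := rfl
  rw [h2] at h1
  refine h1.trans (mul_le_mul_of_nonneg_right ((hC j).trans hc₀.le) (norm_nonneg _))

/-! ### The lattices -/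

/-- The coordinate bound exponent `c₀`. -/
noncomputable def c0 : ℕ := (exists_co_bound D).choose

theorem co_bound (x : E) (j : Fin (orderOf D.σ)) : ‖co D x j‖ ≤ (rho D)⁻¹ ^ c0 D * ‖x‖ :=
  (exists_co_bound D).choose_spec x j

/-- `Lat k = ⊕_j q^k O_K · D.σ^j θ₁`. -/
def Lat (k : ℕ) : AddSubgroup E where
  carrier := {x | ∀ j, ‖co D x j‖ ≤ rho D ^ k}
  zero_mem' := fun j => by
    rw [co_zero, norm_zero]
    exact pow_nonneg (rho_pos D).le k
  add_mem' := fun {x y} hx hy j => by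
    rw [co_add]
    exact (IsUltrametricDist.norm_add_le_max _ _).trans (max_le (hx j) (hy j))
  neg_mem' := fun {x} hx j => by
    rw [co_neg, norm_neg]
    exact hx j

theorem mem_Lat_iff (k : ℕ) (x : E) : x ∈ Lat D k ↔ ∀ j, ‖co D x j‖ ≤ rho D ^ k := Iff.rfl

theorem norm_le_of_mem_Lat {k : ℕ} {x : E} (hx : x ∈ Lat D k) : ‖x‖ ≤ rho D ^ k :=
  norm_le_of_co D (pow_nonneg (rho_pos D).le k) hx

theorem rho_pow_mul_q_pow (k c : ℕ) : (rho D)⁻¹ ^ c * rho D ^ (k + c) = rho D ^ k := by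
  have h : rho D ^ c ≠ 0 := pow_ne_zero _ (rho_pos D).ne'
  rw [pow_add, inv_pow]
  field_simp

/-- Small elements lie in the lattice. -/
theorem mem_Lat_of_norm_le {k : ℕ} {x : E} (hx : ‖x‖ ≤ rho D ^ (k + c0 D)) :
    x ∈ Lat D k := by
  intro j
  refine (co_bound D x j).trans ?_
  calc (rho D)⁻¹ ^ c0 D * ‖x‖ ≤ (rho D)⁻¹ ^ c0 D * rho D ^ (k + c0 D) :=
        mul_le_mul_of_nonneg_left hx (pow_nonneg (rho_inv_pos D).le _)
    _ = rho D ^ k := rho_pow_mul_q_pow D k _

theorem Lat_antitone {k l : ℕ} (h : k ≤ l) : Lat D l ≤ Lat D k := by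
  intro x hx j
  exact (hx j).trans (pow_le_pow_of_le_one (rho_pos D).le (rho_lt_one D).le h)

theorem isClosed_Lat (k : ℕ) : IsClosed (Lat D k : Set E) := by
  have : (Lat D k : Set E) = ⋂ j, (fun x => co D x j) ⁻¹' Metric.closedBall 0 (rho D ^ k) := by
    ext x
    simp only [Set.mem_iInter, Set.mem_preimage, mem_closedBall_zero_iff]
    rfl
  rw [this]
  exact isClosed_iInter fun j => Metric.isClosed_closedBall.preimage (continuous_co D j)

/-- A fixed multiple of a basis vector lies in the lattice. -/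
theorem mul_bas_mem_Lat {k : ℕ} {a : E} (ha : D.σ a = a) (hak : ‖a‖ ≤ rho D ^ k)
    (l : Fin (orderOf D.σ)) : a * bas D l ∈ Lat D k := by
  intro j
  rw [co_mul_bas D ha]
  split_ifs
  · exact hak
  · rw [norm_zero]; exact pow_nonneg (rho_pos D).le k

/-- The lattices are stable under `D.σ`. -/
theorem sigma_mem_Lat {k : ℕ} {x : E} (hx : x ∈ Lat D k) : D.σ x ∈ Lat D k := by
  have h1 : D.σ x = ∑ j, co D x j * D.σ (bas D j) := by
    conv_lhs => rw [← sum_co D x, map_sum]
    refine Finset.sum_congr rfl fun j _ => ?_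
    rw [map_mul, sigma_co]
  rw [h1]
  refine AddSubgroup.sum_mem _ fun j _ => ?_
  have h2 : D.σ (bas D j) = (D.σ ^ ((j : ℕ) + 1)) (theta1 D) := by
    rw [bas_apply, pow_succ', AlgEquiv.mul_apply]
  obtain ⟨l, hl⟩ := pow_sigma_theta1 D ((j : ℕ) + 1)
  rw [h2, hl]
  exact mul_bas_mem_Lat D (sigma_co D x j) (hx j) l

theorem pow_sigma_mem_Lat {k : ℕ} {x : E} (hx : x ∈ Lat D k) (i : ℕ) :
    (D.σ ^ i) x ∈ Lat D k := by
  induction i with
  | zero => simpa using hx
  | succ i ih =>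
    rw [pow_succ', AlgEquiv.mul_apply]
    exact sigma_mem_Lat D ih

/-- Products: `Lat k · (elements of norm ≤ ρ^l) ⊆ Lat (k + l - c₀)`. -/
theorem mul_mem_Lat {k l m : ℕ} {x y : E} (hx : ‖x‖ ≤ rho D ^ k) (hy : ‖y‖ ≤ rho D ^ l)
    (hm : m + c0 D ≤ k + l) : x * y ∈ Lat D m := by
  apply mem_Lat_of_norm_le
  rw [norm_mul]
  calc ‖x‖ * ‖y‖ ≤ rho D ^ k * rho D ^ l :=
        mul_le_mul hx hy (norm_nonneg _) (pow_nonneg (rho_pos D).le _)
    _ = rho D ^ (k + l) := (pow_add _ _ _).symm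
    _ ≤ rho D ^ (m + c0 D) := pow_le_pow_of_le_one (rho_pos D).le (rho_lt_one D).le hm

/-! ### The unit groups `1 + Lat k` -/

/-- The level of the `i`-th filtration step. -/
noncomputable def lev (i : ℕ) : ℕ := c0 D + 1 + i

theorem lev_succ (i : ℕ) : lev D (i + 1) = lev D i + 1 := by unfold lev; ring

theorem one_le_lev (i : ℕ) : 1 ≤ lev D i := by unfold lev; omega

theorem rho_pow_lev_lt_one (i : ℕ) : rho D ^ lev D i < 1 :=
  pow_lt_one₀ (rho_pos D).le (rho_lt_one D) (by have := one_le_lev D i; omega)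

/-- The filtration `V i = 1 + Lat (c₀ + 1 + i)` of the unit group. -/
def V (i : ℕ) : AddSubgroup (Additive Eˣ) where
  carrier := {u | uval E u - 1 ∈ Lat D (lev D i)}
  zero_mem' := by
    change uval E 0 - 1 ∈ Lat D (lev D i)
    rw [uval_zero, sub_self]
    exact (Lat D _).zero_mem
  add_mem' := by
    intro u v hu hv
    change uval E (u + v) - 1 ∈ Lat D (lev D i)
    have hu' : uval E u - 1 ∈ Lat D (lev D i) := hu
    have hv' : uval E v - 1 ∈ Lat D (lev D i) := hv
    have h1 : uval E (u + v) - 1 =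
        (uval E u - 1) + (uval E v - 1) + (uval E u - 1) * (uval E v - 1) := by
      rw [uval_add]; ring
    rw [h1]
    refine (Lat D _).add_mem ((Lat D _).add_mem hu' hv') ?_
    exact mul_mem_Lat D (norm_le_of_mem_Lat D hu') (norm_le_of_mem_Lat D hv')
      (by unfold lev; omega)
  neg_mem' := by
    intro u hu
    change uval E (-u) - 1 ∈ Lat D (lev D i)
    have hu' : uval E u - 1 ∈ Lat D (lev D i) := hu
    set a := uval E u - 1 with ha
    have hnorm : ‖a‖ ≤ rho D ^ lev D i := norm_le_of_mem_Lat D hu'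
    have hu1 : ‖uval E u‖ = 1 :=
      norm_eq_one_of_norm_sub_one_lt E (lt_of_le_of_lt hnorm (rho_pow_lev_lt_one D i))
    have hu0 : uval E u ≠ 0 := uval_ne_zero E u
    have h1 : uval E (-u) - 1 = -a + a * (a * (uval E u)⁻¹) := by
      rw [uval_neg, ha]; field_simp; ring
    rw [h1]
    refine (Lat D _).add_mem ((Lat D _).neg_mem hu') ?_
    refine mul_mem_Lat D hnorm (l := lev D i) ?_ (by unfold lev; omega)
    rw [norm_mul, norm_inv, hu1, inv_one, mul_one]
    exact hnorm

theorem mem_V_iff (i : ℕ) (u : Additive Eˣ) :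
    u ∈ V D i ↔ uval E u - 1 ∈ Lat D (lev D i) := Iff.rfl

theorem norm_sub_one_le_of_mem_V {i : ℕ} {u : Additive Eˣ} (hu : u ∈ V D i) :
    ‖uval E u - 1‖ ≤ rho D ^ lev D i := norm_le_of_mem_Lat D hu

theorem norm_uval_of_mem_V {i : ℕ} {u : Additive Eˣ} (hu : u ∈ V D i) : ‖uval E u‖ = 1 :=
  norm_eq_one_of_norm_sub_one_lt E
    (lt_of_le_of_lt (norm_sub_one_le_of_mem_V D hu) (rho_pow_lev_lt_one D i))

theorem V_antitone {i j : ℕ} (h : i ≤ j) : V D j ≤ V D i := by
  intro u hu
  exact Lat_antitone D (by unfold lev; omega) hu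

/-- Elements close to `1` lie in `V i`. -/
theorem mem_V_of_norm_le {i : ℕ} {u : Additive Eˣ}
    (hu : ‖uval E u - 1‖ ≤ rho D ^ (lev D i + c0 D)) : u ∈ V D i :=
  mem_Lat_of_norm_le D hu

theorem V_le_ker (i : ℕ) : V D i ≤ unitKer E := by
  intro u hu
  rw [mem_unitKer_iff]
  exact norm_uval_of_mem_V D hu

/-- `V i` has finite index in the unit group. -/
theorem relIndex_V_ne_zero [ProperSpace E] (i : ℕ) : (V D i).relIndex (unitKer E) ≠ 0 := by
  have hr0 : 0 < rho D ^ (lev D i + c0 D) := pow_pos (rho_pos D) _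
  have hr1 : rho D ^ (lev D i + c0 D) < 1 :=
    pow_lt_one₀ (rho_pos D).le (rho_lt_one D) (by have := one_le_lev D i; omega)
  have h1 := relIndex_ballSubgroup_ne_zero E hr0 hr1
  have hle : ballSubgroup E _ hr0.le hr1 ≤ V D i := fun u hu => mem_V_of_norm_le D hu
  exact fun h => h1 (AddSubgroup.relIndex_eq_zero_of_le_left hle h)

/-! ### The operators `D.σ`, `D = D.σ - 1`, `N = 1 + D.σ + ⋯ + D.σ^(n-1)` on units -/

/-- `D.σ` acting on units, in additive notation. -/
noncomputable def sig : AddMonoid.End (Additive Eˣ) :=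
  MonoidHom.toAdditive (Units.map ((D.σ : E →+* E) : E →* E))

theorem uval_sig (u : Additive Eˣ) : uval E (sig D u) = D.σ (uval E u) := rfl

theorem uval_sig_pow (j : ℕ) (u : Additive Eˣ) :
    uval E ((sig D ^ j) u) = (D.σ ^ j) (uval E u) := by
  induction j generalizing u with
  | zero => simp
  | succ j ih =>
    rw [pow_succ', pow_succ', AlgEquiv.mul_apply, ← ih]
    rfl

theorem sig_pow_orderOf : sig D ^ orderOf D.σ = 1 := by
  refine AddMonoid.End.ext (h := fun u => ?_)
  apply uval_injective E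
  rw [uval_sig_pow, pow_orderOf_eq_one]
  rfl

/-- `D = D.σ - 1`. -/
noncomputable def Dm : AddMonoid.End (Additive Eˣ) := sig D - 1

/-- `N = ∑_{j < n} D.σ^j`. -/
noncomputable def Nm : AddMonoid.End (Additive Eˣ) :=
  ∑ j ∈ Finset.range (orderOf D.σ), sig D ^ j

theorem Dm_mul_Nm : Dm D * Nm D = 0 := by
  have h := mul_geom_sum (sig D) (orderOf D.σ)
  rw [sig_pow_orderOf, sub_self] at h
  exact h

theorem Nm_mul_Dm : Nm D * Dm D = 0 := by
  have h := geom_sum_mul (sig D) (orderOf D.σ)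
  rw [sig_pow_orderOf, sub_self] at h
  exact h

theorem end_sum_apply {X ι : Type*} [AddCommGroup X] (t : Finset ι) (f : ι → AddMonoid.End X)
    (u : X) : (∑ j ∈ t, f j) u = ∑ j ∈ t, f j u := by
  classical
  induction t using Finset.induction_on with
  | empty => simp
  | insert a t ha ih =>
    rw [Finset.sum_insert ha, Finset.sum_insert ha, ← ih]
    rfl

theorem Dm_Nm_apply (u : Additive Eˣ) : Dm D (Nm D u) = 0 := by
  have := congrArg (fun f : AddMonoid.End (Additive Eˣ) => f u) (Dm_mul_Nm D)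
  simpa using this

theorem Nm_Dm_apply (u : Additive Eˣ) : Nm D (Dm D u) = 0 := by
  have := congrArg (fun f : AddMonoid.End (Additive Eˣ) => f u) (Nm_mul_Dm D)
  simpa using this

theorem Dm_apply (u : Additive Eˣ) : Dm D u = sig D u - u := rfl

theorem Nm_apply (u : Additive Eˣ) :
    Nm D u = ∑ j ∈ Finset.range (orderOf D.σ), (sig D ^ j) u := by
  unfold Nm
  exact end_sum_apply _ _ u

theorem uval_Dm (u : Additive Eˣ) : uval E (Dm D u) = D.σ (uval E u) / uval E u := by
  rw [Dm_apply, uval_sub, uval_sig]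

theorem uval_Nm (u : Additive Eˣ) :
    uval E (Nm D u) = ∏ j ∈ Finset.range (orderOf D.σ), (D.σ ^ j) (uval E u) := by
  rw [Nm_apply, uval_sum]
  exact Finset.prod_congr rfl fun j _ => uval_sig_pow D j u

/-! ### Stability, separatedness -/

theorem sig_mem_V {i : ℕ} {u : Additive Eˣ} (hu : u ∈ V D i) : sig D u ∈ V D i := by
  rw [mem_V_iff, uval_sig]
  have : D.σ (uval E u) - 1 = D.σ (uval E u - 1) := by rw [map_sub, map_one]
  rw [this]
  exact sigma_mem_Lat D hu

theorem sig_pow_mem_V {i : ℕ} {u : Additive Eˣ} (hu : u ∈ V D i) (j : ℕ) :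
    (sig D ^ j) u ∈ V D i := by
  induction j with
  | zero => simpa using hu
  | succ j ih =>
    rw [pow_succ']
    exact sig_mem_V D ih

theorem map_Dm_le (i : ℕ) : (V D i).map (Dm D) ≤ V D i := by
  rintro _ ⟨u, hu, rfl⟩
  change Dm D u ∈ V D i
  rw [Dm_apply]
  exact (V D i).sub_mem (sig_mem_V D hu) hu

theorem map_Nm_le (i : ℕ) : (V D i).map (Nm D) ≤ V D i := by
  rintro _ ⟨u, hu, rfl⟩
  change Nm D u ∈ V D i
  rw [Nm_apply]
  exact AddSubgroup.sum_mem _ fun j _ => sig_pow_mem_V D hu j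

theorem V_sep (u : Additive Eˣ) (h : ∀ i, u ∈ V D i) : u = 0 := by
  apply uval_injective E
  rw [uval_zero]
  have h0 : ‖uval E u - 1‖ = 0 := by
    apply le_antisymm _ (norm_nonneg _)
    apply le_of_forall_pos_lt_add
    intro ε hε
    obtain ⟨k, hk⟩ := exists_pow_lt_of_lt_one hε (rho_lt_one D)
    have h1 := norm_sub_one_le_of_mem_V D (h k)
    have h2 : rho D ^ lev D k ≤ rho D ^ k :=
      pow_le_pow_of_le_one (rho_pos D).le (rho_lt_one D).le (by unfold lev; omega)
    linarith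
  exact sub_eq_zero.mp (norm_eq_zero.mp h0)

/-! ### Completeness -/

/-- `Lat (lev i)` is stable under multiplication by the units of `V 0`. -/
theorem mul_uval_mem_Lat {i : ℕ} {w : E} (hw : w ∈ Lat D (lev D i)) {v : Additive Eˣ}
    (hv : v ∈ V D 0) : w * uval E v ∈ Lat D (lev D i) := by
  have h1 : w * uval E v = w + w * (uval E v - 1) := by ring
  rw [h1]
  refine (Lat D _).add_mem hw ?_
  exact mul_mem_Lat D (norm_le_of_mem_Lat D hw) (norm_le_of_mem_Lat D hv)
    (by unfold lev; omega)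

theorem V_complete (a : ℕ → Additive Eˣ) (ha : ∀ i, a i ∈ V D i) :
    ∃ s ∈ V D 0, ∀ i, s - ∑ j ∈ Finset.range i, a j ∈ V D i := by
  set S : ℕ → Additive Eˣ := fun i => ∑ j ∈ Finset.range i, a j with hS
  set P : ℕ → E := fun i => uval E (S i) with hP
  have hS1 : ∀ i k, S (i + k) - S i ∈ V D i := by
    intro i k
    induction k with
    | zero => simp
    | succ k ih =>
      have : S (i + (k + 1)) - S i = (S (i + k) - S i) + a (i + k) := by
        simp only [hS, ← add_assoc, Finset.sum_range_succ]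
        abel
      rw [this]
      exact (V D i).add_mem ih (V_antitone D (Nat.le_add_right i k) (ha _))
  have hS0 : ∀ i, S i ∈ V D 0 := by
    intro i
    have := hS1 0 i
    simpa [hS] using this
  have hdiff : ∀ i k, P (i + k) - P i ∈ Lat D (lev D i) := by
    intro i k
    have h1 : P (i + k) - P i = (uval E (S (i + k) - S i) - 1) * P i := by
      simp only [hP]
      rw [uval_sub]
      have := uval_ne_zero E (S i)
      field_simp
    rw [h1]
    exact mul_uval_mem_Lat D (hS1 i k) (hS0 i)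
  -- Cauchy
  have hcauchy : CauchySeq P := by
    apply cauchySeq_of_le_geometric (rho D) 1 (rho_lt_one D)
    intro i
    rw [dist_comm, dist_eq_norm, one_mul]
    have h1 := norm_le_of_mem_Lat D (hdiff i 1)
    refine h1.trans (pow_le_pow_of_le_one (rho_pos D).le (rho_lt_one D).le (by unfold lev; omega))
  haveI : CompleteSpace E := completeSpace_of_datum D
  obtain ⟨s₀, hs₀⟩ := cauchySeq_tendsto_of_complete hcauchy
  have hlim : ∀ i, s₀ - P i ∈ Lat D (lev D i) := by
    intro i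
    have ht : Filter.Tendsto (fun m => P m - P i) Filter.atTop (nhds (s₀ - P i)) :=
      hs₀.sub tendsto_const_nhds
    refine (isClosed_Lat D (lev D i)).mem_of_tendsto ht ?_
    filter_upwards [Filter.eventually_ge_atTop i] with m hm
    obtain ⟨k, rfl⟩ := Nat.exists_eq_add_of_le hm
    exact hdiff i k
  have hP0 : P 0 = 1 := by simp [hP, hS, uval_zero]
  have hs1 : s₀ - 1 ∈ Lat D (lev D 0) := by
    have := hlim 0
    rwa [hP0] at this
  have hs₀norm : ‖s₀‖ = 1 :=
    norm_eq_one_of_norm_sub_one_lt E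
      (lt_of_le_of_lt (norm_le_of_mem_Lat D hs1) (rho_pow_lev_lt_one D 0))
  have hs₀0 : s₀ ≠ 0 := fun h => by rw [h, norm_zero] at hs₀norm; exact zero_ne_one hs₀norm
  refine ⟨Additive.ofMul (Units.mk0 s₀ hs₀0), hs1, fun i => ?_⟩
  rw [mem_V_iff, uval_sub]
  have hval : uval E (Additive.ofMul (Units.mk0 s₀ hs₀0)) = s₀ := rfl
  rw [hval]
  change s₀ / P i - 1 ∈ _
  have hPi0 : P i ≠ 0 := uval_ne_zero E (S i)
  have h2 : s₀ / P i - 1 = (s₀ - P i) * uval E (-(S i)) := by
    rw [uval_neg]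
    change _ = (s₀ - P i) * (P i)⁻¹
    field_simp
  rw [h2]
  exact mul_uval_mem_Lat D (hlim i) ((V D 0).neg_mem (hS0 i))

/-! ### The trace -/

/-- `tr x = ∑_{j < n} D.σ^j x`. -/
noncomputable def tr (x : E) : E := ∑ j ∈ Finset.range (orderOf D.σ), (D.σ ^ j) x

theorem sigma_tr (x : E) : D.σ (tr D x) = tr D x := by
  unfold tr
  rw [map_sum]
  have h1 : ∀ j, D.σ ((D.σ ^ j) x) = (D.σ ^ (j + 1)) x := fun j => by
    rw [pow_succ', AlgEquiv.mul_apply]
  simp only [h1]
  rw [Finset.sum_range_succ' (fun j => (D.σ ^ j) x) (orderOf D.σ) |>.symm.trans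
    (Finset.sum_range_succ (fun j => (D.σ ^ j) x) (orderOf D.σ)) |> eq_sub_of_add_eq]
  rw [pow_orderOf_eq_one]
  simp

theorem tr_pow_sigma (l : ℕ) (x : E) : tr D ((D.σ ^ l) x) = tr D x := by
  have h1 : tr D ((D.σ ^ l) x) = (D.σ ^ l) (tr D x) := by
    unfold tr
    rw [map_sum]
    refine Finset.sum_congr rfl fun j _ => ?_
    rw [← AlgEquiv.mul_apply, ← AlgEquiv.mul_apply, ← pow_add, ← pow_add, add_comm]
  rw [h1]
  exact pow_apply_of_fixed D.σ (sigma_tr D x) l

/-- `T = tr θ₁ = ∑_j bas j`. -/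
noncomputable def T : E := tr D (theta1 D)

theorem T_eq_sum_bas : T D = ∑ j, bas D j := by
  unfold T tr
  rw [← Fin.sum_univ_eq_sum_range (fun j => (D.σ ^ j) (theta1 D))]
  exact Finset.sum_congr rfl fun j _ => (bas_apply D j).symm

theorem sigma_T : D.σ (T D) = T D := sigma_tr D _

theorem tr_bas (l : Fin (orderOf D.σ)) : tr D (bas D l) = T D := by
  rw [bas_apply, tr_pow_sigma]
  rfl

theorem co_mul_T {c : E} (hc : D.σ c = c) (j : Fin (orderOf D.σ)) : co D (c * T D) j = c := by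
  apply co_unique D (c := fun _ => c) (fun _ => hc)
  rw [T_eq_sum_bas, Finset.mul_sum]

theorem T_ne_zero : T D ≠ 0 := by
  intro h
  have h1 := co_mul_T D (c := 1) (map_one D.σ) ⟨0, orderOf_pos' D.σ⟩
  rw [one_mul, h, co_zero] at h1
  exact zero_ne_one h1

theorem tr_sum {ι : Type*} (t : Finset ι) (f : ι → E) :
    tr D (∑ l ∈ t, f l) = ∑ l ∈ t, tr D (f l) := by
  unfold tr
  simp only [map_sum]
  exact Finset.sum_comm

theorem tr_mul_fixed {c : E} (hc : D.σ c = c) (x : E) : tr D (c * x) = c * tr D x := by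
  unfold tr
  rw [Finset.mul_sum]
  refine Finset.sum_congr rfl fun j _ => ?_
  rw [map_mul, pow_apply_of_fixed D.σ hc]

theorem tr_eq_sum_co_mul_T (m : E) : tr D m = (∑ l, co D m l) * T D := by
  conv_lhs => rw [← sum_co D m]
  rw [tr_sum, Finset.sum_mul]
  refine Finset.sum_congr rfl fun l _ => ?_
  rw [tr_mul_fixed D (sigma_co D m l), tr_bas]

/-! ### The approximation steps -/

theorem bas_zero : bas D ⟨0, orderOf_pos' D.σ⟩ = theta1 D := by
  rw [bas_apply]
  simp

theorem lev_ineq (i : ℕ) : lev D (i + 1) + c0 D ≤ lev D i * 2 := by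
  unfold lev; omega

/-- Step for `Ĥ⁰`: a `D.σ`-fixed element of `V i` is a norm from `V i` modulo `V (i + 1)`. -/
theorem step_H0 (i : ℕ) (u : Additive Eˣ) (hu : u ∈ V D i) (hD : Dm D u = 0) :
    ∃ y ∈ V D i, u - Nm D y ∈ V D (i + 1) := by
  set m := uval E u - 1 with hm
  have hmL : m ∈ Lat D (lev D i) := hu
  have hσu : D.σ (uval E u) = uval E u := by
    have h := congrArg (uval E) hD
    rw [uval_Dm, uval_zero] at h
    exact (div_eq_one_iff_eq (uval_ne_zero E u)).mp h
  have hσm : D.σ m = m := by rw [hm, map_sub, map_one, hσu]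
  set c := m / T D with hc
  have hσc : D.σ c = c := by rw [hc, map_div₀, hσm, sigma_T]
  have hmc : m = c * T D := by
    rw [hc]; field_simp [T_ne_zero D]
  have hcnorm : ‖c‖ ≤ rho D ^ lev D i := by
    have := hmL ⟨0, orderOf_pos' D.σ⟩
    rwa [hmc, co_mul_T D hσc] at this
  have hcθ : c * theta1 D ∈ Lat D (lev D i) := by
    rw [← bas_zero]; exact mul_bas_mem_Lat D hσc hcnorm _
  set y₀ := 1 + c * theta1 D with hy₀
  have hy₀1 : ‖y₀ - 1‖ ≤ rho D ^ lev D i := by
    rw [hy₀, add_sub_cancel_left]; exact norm_le_of_mem_Lat D hcθ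
  have hy₀norm : ‖y₀‖ = 1 :=
    norm_eq_one_of_norm_sub_one_lt E (lt_of_le_of_lt hy₀1 (rho_pow_lev_lt_one D i))
  have hy₀0 : y₀ ≠ 0 := fun h => by rw [h, norm_zero] at hy₀norm; exact zero_ne_one hy₀norm
  set y : Additive Eˣ := Additive.ofMul (Units.mk0 y₀ hy₀0) with hy
  have hyval : uval E y = y₀ := rfl
  have hyV : y ∈ V D i := by
    rw [mem_V_iff, hyval, hy₀, add_sub_cancel_left]; exact hcθ
  refine ⟨y, hyV, ?_⟩
  have hNy : uval E (Nm D y) =
      ∏ j ∈ Finset.range (orderOf D.σ), (1 + c * (D.σ ^ j) (theta1 D)) := by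
    rw [uval_Nm]
    refine Finset.prod_congr rfl fun j _ => ?_
    rw [hyval, hy₀, map_add, map_one, map_mul, pow_apply_of_fixed D.σ hσc]
  have hr0 : 0 ≤ rho D ^ lev D i := pow_nonneg (rho_pos D).le _
  have hr1 : rho D ^ lev D i ≤ 1 := (rho_pow_lev_lt_one D i).le
  have hexp := norm_prod_one_add_sub E (Finset.range (orderOf D.σ))
    (fun j => c * (D.σ ^ j) (theta1 D)) hr0 hr1 (fun j _ => by
      rw [norm_mul, norm_pow_sigma]
      calc ‖c‖ * ‖theta1 D‖ ≤ rho D ^ lev D i * 1 :=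
            mul_le_mul hcnorm (norm_theta1_le D) (norm_nonneg _) hr0
        _ = rho D ^ lev D i := mul_one _)
  have hsum : ∑ j ∈ Finset.range (orderOf D.σ), c * (D.σ ^ j) (theta1 D) = m := by
    rw [← Finset.mul_sum]; exact hmc.symm
  have hclose : ‖uval E (Nm D y) - uval E u‖ ≤ (rho D ^ lev D i) ^ 2 := by
    have h1 : uval E (Nm D y) - uval E u =
        ∏ j ∈ Finset.range (orderOf D.σ), (1 + c * (D.σ ^ j) (theta1 D)) - 1 -
          ∑ j ∈ Finset.range (orderOf D.σ), c * (D.σ ^ j) (theta1 D) := by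
      rw [hNy, hsum, hm]; ring
    rw [h1]; exact hexp
  apply mem_V_of_norm_le
  rw [uval_sub]
  have hNnorm : ‖uval E (Nm D y)‖ = 1 :=
    norm_uval_of_mem_V D (map_Nm_le D i ⟨y, hyV, rfl⟩)
  have hN0 : uval E (Nm D y) ≠ 0 := uval_ne_zero E _
  have h2 : uval E u / uval E (Nm D y) - 1 =
      (uval E u - uval E (Nm D y)) / uval E (Nm D y) := by field_simp
  rw [h2, norm_div, hNnorm, div_one, norm_sub_rev]
  refine hclose.trans ?_
  rw [← pow_mul]
  exact pow_le_pow_of_le_one (rho_pos D).le (rho_lt_one D).le (lev_ineq D i)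

/-- Step for `Ĥ⁻¹`: an element of `V i` of norm `1` is of the form `D.σ y / y` with `y ∈ V i`,
modulo `V (i + 1)`. -/
theorem step_H1 (i : ℕ) (u : Additive Eˣ) (hu : u ∈ V D i) (hN : Nm D u = 0) :
    ∃ y ∈ V D i, u - Dm D y ∈ V D (i + 1) := by
  set m := uval E u - 1 with hm
  have hmL : m ∈ Lat D (lev D i) := hu
  have hr0 : 0 ≤ rho D ^ lev D i := pow_nonneg (rho_pos D).le _
  have hr1 : rho D ^ lev D i ≤ 1 := (rho_pow_lev_lt_one D i).le
  have hum : uval E u = 1 + m := by rw [hm]; ring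
  have hprod : ∏ j ∈ Finset.range (orderOf D.σ), (1 + (D.σ ^ j) m) = 1 := by
    have h := congrArg (uval E) hN
    rw [uval_Nm, uval_zero] at h
    refine Eq.trans (Finset.prod_congr rfl fun j _ => ?_) h
    rw [hum, map_add, map_one]
  have hexp := norm_prod_one_add_sub E (Finset.range (orderOf D.σ)) (fun j => (D.σ ^ j) m) hr0 hr1
    (fun j _ => by rw [norm_pow_sigma]; exact norm_le_of_mem_Lat D hmL)
  rw [hprod, sub_self, zero_sub, norm_neg] at hexp
  set S := ∑ l, co D m l with hS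
  have hσS : D.σ S = S := by
    rw [hS, map_sum]
    exact Finset.sum_congr rfl fun l _ => sigma_co D m l
  have htr : tr D m = S * T D := tr_eq_sum_co_mul_T D m
  have hSnorm : ‖S‖ ≤ rho D ^ lev D (i + 1) := by
    have hmem : S * T D ∈ Lat D (lev D (i + 1)) := by
      apply mem_Lat_of_norm_le
      rw [← htr]
      refine hexp.trans ?_
      rw [← pow_mul]
      exact pow_le_pow_of_le_one (rho_pos D).le (rho_lt_one D).le (lev_ineq D i)
    have := hmem ⟨0, orderOf_pos' D.σ⟩
    rwa [co_mul_T D hσS] at this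
  set g : ℕ → E := fun l => ∑ t ∈ Finset.range l, (D.σ ^ t) (theta1 D) with hg
  have hgσ : ∀ l, D.σ (g l) - g l = (D.σ ^ l) (theta1 D) - theta1 D := by
    intro l
    induction l with
    | zero => simp [hg]
    | succ l ih =>
      have h1 : g (l + 1) = g l + (D.σ ^ l) (theta1 D) := Finset.sum_range_succ _ _
      have h2 : D.σ ((D.σ ^ l) (theta1 D)) = (D.σ ^ (l + 1)) (theta1 D) := by
        rw [pow_succ', AlgEquiv.mul_apply]
      rw [h1, map_add, h2]
      linear_combination ih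
  set m' := ∑ l : Fin (orderOf D.σ), co D m l * g l with hm'
  have hm'L : m' ∈ Lat D (lev D i) := by
    refine AddSubgroup.sum_mem _ fun l _ => ?_
    simp only [hg]
    rw [Finset.mul_sum]
    refine AddSubgroup.sum_mem _ fun t _ => ?_
    obtain ⟨l', hl'⟩ := pow_sigma_theta1 D t
    rw [hl']
    exact mul_bas_mem_Lat D (sigma_co D m l) (hmL l) l'
  have hσm' : D.σ m' - m' = m - S * theta1 D := by
    rw [hm', map_sum, ← Finset.sum_sub_distrib]
    have h1 : ∀ l : Fin (orderOf D.σ), D.σ (co D m l * g l) - co D m l * g l =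
        co D m l * bas D l - co D m l * theta1 D := by
      intro l
      rw [map_mul, sigma_co, ← mul_sub, hgσ, bas_apply, mul_sub]
    simp only [h1]
    rw [Finset.sum_sub_distrib, sum_co, ← Finset.sum_mul]
  set y₀ := 1 + m' with hy₀
  have hy₀1 : ‖y₀ - 1‖ ≤ rho D ^ lev D i := by
    rw [hy₀, add_sub_cancel_left]; exact norm_le_of_mem_Lat D hm'L
  have hy₀norm : ‖y₀‖ = 1 :=
    norm_eq_one_of_norm_sub_one_lt E (lt_of_le_of_lt hy₀1 (rho_pow_lev_lt_one D i))
  have hy₀0 : y₀ ≠ 0 := fun h => by rw [h, norm_zero] at hy₀norm; exact zero_ne_one hy₀norm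
  set y : Additive Eˣ := Additive.ofMul (Units.mk0 y₀ hy₀0) with hy
  have hyval : uval E y = y₀ := rfl
  have hyV : y ∈ V D i := by
    rw [mem_V_iff, hyval, hy₀, add_sub_cancel_left]; exact hm'L
  refine ⟨y, hyV, ?_⟩
  have hnum : uval E u * y₀ - D.σ y₀ = S * theta1 D + m * m' := by
    have h1 : D.σ m' = m' + (m - S * theta1 D) := by linear_combination hσm'
    rw [hy₀, map_add, map_one, h1, hum]
    ring
  have hnumL : uval E u * y₀ - D.σ y₀ ∈ Lat D (lev D (i + 1)) := by
    rw [hnum]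
    refine (Lat D _).add_mem ?_ ?_
    · rw [← bas_zero]
      exact mul_bas_mem_Lat D hσS hSnorm _
    · exact mul_mem_Lat D (norm_le_of_mem_Lat D hmL) (norm_le_of_mem_Lat D hm'L)
        (by have := lev_ineq D i; omega)
  rw [mem_V_iff, uval_sub, uval_Dm, hyval]
  have hσy₀ : D.σ y₀ ≠ 0 := by
    intro h
    exact hy₀0 (by simpa using h)
  have h3 : uval E u / (D.σ y₀ / y₀) - 1 =
      (uval E u * y₀ - D.σ y₀) * uval E (-(sig D y)) := by
    rw [uval_neg, uval_sig, hyval]
    field_simp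
  rw [h3]
  exact mul_uval_mem_Lat D hnumL
    ((V D 0).neg_mem (V_antitone D (Nat.zero_le i) (sig_mem_V D hyV)))

/-! ### Cohomological triviality of `V 0` and the local norm index -/

open Fermat.Agent.S14.HerbrandPrime in
/-- `Ĥ⁰(⟨D.σ⟩, V 0) = 0`. -/
theorem qa_Dm_Nm_V : qa (Dm D) (Nm D) (V D 0) = 1 :=
  Fermat.Agent.S55.CohTrivialApprox.qa_eq_one_of_filtration (Dm D) (Nm D) (Dm_Nm_apply D)
    (V D) (map_Nm_le D) (V_sep D) (V_complete D) (step_H0 D)

open Fermat.Agent.S14.HerbrandPrime in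
/-- `Ĥ⁻¹(⟨D.σ⟩, V 0) = 0`. -/
theorem qa_Nm_Dm_V : qa (Nm D) (Dm D) (V D 0) = 1 :=
  Fermat.Agent.S55.CohTrivialApprox.qa_eq_one_of_filtration (Nm D) (Dm D) (Nm_Dm_apply D)
    (V D) (map_Dm_le D) (V_sep D) (V_complete D) (step_H1 D)

open Fermat.Agent.S14.HerbrandPrime in
/-- **The cohomologically trivial open subgroup of the units** (hypothesis `(V)` of
`S55/LocalNormIndex`). -/
theorem exists_cohTrivial_subgroup [ProperSpace E] :
    ∃ W : AddSubgroup (Additive Eˣ), W ≤ unitKer E ∧ W.relIndex (unitKer E) ≠ 0 ∧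
      W.map (Dm D) ≤ W ∧ W.map (Nm D) ≤ W ∧
      qa (Dm D) (Nm D) W = 1 ∧ qa (Nm D) (Dm D) W = 1 :=
  ⟨V D 0, V_le_ker D 0, relIndex_V_ne_zero D 0, map_Dm_le D 0, map_Nm_le D 0,
    qa_Dm_Nm_V D, qa_Nm_Dm_V D⟩

end Fermat.Agent.S55.Local.UnitLatticeLF
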