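/-
S55 / LOCAL block: proof of `Reduction.UnitDataLF` (the unit data `(T)` in the abstract (LF) form),
from the normal-basis unit lattices of `Local/UnitLatticeLF.lean` (helper30).

Consequences (via `Local/Reduction.lean`): `Blocks.NormIndexCyclic` (the local norm index
`[Kˣ : N Eˣ] = [E : K]` for cyclic extensions of local fields) and `Reduction.H2CardCyclic`
(`#H²(Gal(E/K), Eˣ) = [E : K]` for cyclic extensions).
-/
import Mathlib
import Fermat.Agent.S55.Local.Basic
import Fermat.Agent.S55.Local.Reduction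
import Fermat.Agent.S55.Local.UnitLatticeLF

set_option autoImplicit false
set_option linter.unusedSectionVars false

namespace Fermat.Agent.S55.Local.UnitDataLFProof

open Fermat.Agent.S55.Local Fermat.Agent.S55.Local.UnitLatticeLF

section

variable {K E : Type} [NontriviallyNormedField K] [IsUltrametricDist K] [ProperSpace K]
  [NontriviallyNormedField E] [IsUltrametricDist E] [ProperSpace E]
  [NormedAlgebra K E] [FiniteDimensional K E]

/-- The datum attached to an automorphism of an extension of local fields. -/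
noncomputable def datum (σ : E ≃ₐ[K] E) : Datum K E where
  σ := σ
  isom := norm_algEquiv_apply σ
  ϖ := (NormedField.exists_norm_lt_one K).choose
  ϖ_pos := (NormedField.exists_norm_lt_one K).choose_spec.1
  ϖ_lt := (NormedField.exists_norm_lt_one K).choose_spec.2

@[simp] theorem datum_σ (σ : E ≃ₐ[K] E) : (datum σ).σ = σ := rfl

variable (D : Datum K E)

/-- The multiplicative form of the filtration. -/
def Vm (i : ℕ) : Subgroup Eˣ where
  carrier := {x | Additive.ofMul x ∈ V D i}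
  one_mem' := (V D i).zero_mem
  mul_mem' := fun hx hy => (V D i).add_mem hx hy
  inv_mem' := fun hx => (V D i).neg_mem hx

theorem mem_Vm_iff (i : ℕ) (x : Eˣ) : x ∈ Vm D i ↔ Additive.ofMul x ∈ V D i := Iff.rfl

theorem mem_Vm_iff' (i : ℕ) (x : Eˣ) : x ∈ Vm D i ↔ (x : E) - 1 ∈ Lat D (lev D i) := Iff.rfl

theorem toAddSubgroup_Vm (i : ℕ) : Subgroup.toAddSubgroup (Vm D i) = V D i := by
  ext u
  rfl

theorem toAddSubgroup_ker_ordHom : Subgroup.toAddSubgroup (ordHom E).ker = unitKer E := by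
  ext u
  change u.toMul ∈ (ordHom E).ker ↔ _
  rw [MonoidHom.mem_ker, ordHom_eq_one_iff, mem_unitKer_iff]

theorem Vm_le_ker (i : ℕ) : Vm D i ≤ (ordHom E).ker := by
  intro x hx
  rw [MonoidHom.mem_ker, ordHom_eq_one_iff]
  exact (mem_unitKer_iff E _).mp (V_le_ker D i hx)

theorem relIndex_Vm_ne_zero (i : ℕ) : (Vm D i).relIndex (ordHom E).ker ≠ 0 := by
  rw [← Subgroup.relIndex_toAddSubgroup, toAddSubgroup_Vm, toAddSubgroup_ker_ordHom]
  exact relIndex_V_ne_zero D i

/-! ### Translation between the additive and the multiplicative language -/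

theorem ofMul_smul_pow (j : ℕ) (x : Eˣ) :
    Additive.ofMul ((D.σ ^ j) • x) = (sig D ^ j) (Additive.ofMul x) := by
  apply uval_injective E
  rw [uval_sig_pow]
  rfl

theorem ofMul_smul (x : Eˣ) : Additive.ofMul (D.σ • x) = sig D (Additive.ofMul x) := rfl

theorem ofMul_Dm (x : Eˣ) : Additive.ofMul (D.σ • x / x) = Dm D (Additive.ofMul x) := rfl

theorem ofMul_prod_range (x : Eˣ) :
    Additive.ofMul (∏ j ∈ Finset.range (orderOf D.σ), (D.σ ^ j) • x) = Nm D (Additive.ofMul x) := by
  rw [Nm_apply, ofMul_prod]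
  exact Finset.sum_congr rfl fun j _ => ofMul_smul_pow D j x

variable {D}

theorem prod_univ_eq_prod_range (hσ : ∀ τ, τ ∈ Subgroup.zpowers D.σ) {M : Type*} [CommMonoid M]
    (f : (E ≃ₐ[K] E) → M) :
    ∏ τ : E ≃ₐ[K] E, f τ = ∏ j ∈ Finset.range (orderOf D.σ), f (D.σ ^ j) := by
  classical
  have h : (Finset.univ : Finset (E ≃ₐ[K] E)) =
      (Finset.range (orderOf D.σ)).image (D.σ ^ ·) := by
    ext τ
    simp only [Finset.mem_univ, true_iff]
    exact (mem_zpowers_iff_mem_range_orderOf).mp (hσ τ)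
  rw [h, Finset.prod_image]
  intro a ha b hb hab
  exact pow_injOn_Iio_orderOf (by simpa using ha) (by simpa using hb) hab

theorem ofMul_prod_univ (hσ : ∀ τ, τ ∈ Subgroup.zpowers D.σ) (x : Eˣ) :
    Additive.ofMul (∏ τ : E ≃ₐ[K] E, τ • x) = Nm D (Additive.ofMul x) := by
  rw [prod_univ_eq_prod_range hσ, ofMul_prod_range]

theorem exists_pow_eq (hσ : ∀ τ, τ ∈ Subgroup.zpowers D.σ) (τ : E ≃ₐ[K] E) :
    ∃ j : ℕ, τ = D.σ ^ j := by
  classical
  have h := (mem_zpowers_iff_mem_range_orderOf).mp (hσ τ)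
  obtain ⟨j, -, hj⟩ := Finset.mem_image.mp h
  exact ⟨j, hj.symm⟩

theorem smul_mem_Vm (hσ : ∀ τ, τ ∈ Subgroup.zpowers D.σ) (i : ℕ) (τ : E ≃ₐ[K] E) (x : Eˣ)
    (hx : x ∈ Vm D i) : τ • x ∈ Vm D i := by
  obtain ⟨j, rfl⟩ := exists_pow_eq hσ τ
  rw [mem_Vm_iff, ofMul_smul_pow]
  exact sig_pow_mem_V D hx j

end

/-- **(T) in (LF) form.** -/
theorem unitDataLF : Reduction.UnitDataLF := by
  intro K E _ _ _ _ _ _ _ _ _ σ hσ
  set D : Datum K E := datum σ with hD
  have hσ' : ∀ τ, τ ∈ Subgroup.zpowers D.σ := hσ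
  refine ⟨Vm D, Vm_le_ker D 0, relIndex_Vm_ne_zero D 0, fun i τ x hx => smul_mem_Vm hσ' i τ x hx,
    ?_, ?_, ?_, ?_⟩
  · intro x hx
    have := V_sep D (Additive.ofMul x) hx
    exact Additive.ofMul.injective this
  · intro a ha
    obtain ⟨s, hs, hs'⟩ := V_complete D (fun i => Additive.ofMul (a i)) ha
    refine ⟨s.toMul, hs, fun i => ?_⟩
    have := hs' i
    rw [mem_Vm_iff]
    convert this using 1
    rw [ofMul_div, ofMul_prod]
    rfl
  · intro i x hx hfix
    have hDm : Dm D (Additive.ofMul x) = 0 := by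
      rw [← ofMul_Dm]
      change Additive.ofMul (σ • x / x) = 0
      rw [hfix, div_self']
      rfl
    obtain ⟨y, hy, hy'⟩ := step_H0 D i (Additive.ofMul x) hx hDm
    refine ⟨y.toMul, hy, ?_⟩
    rw [mem_Vm_iff, ofMul_div, ofMul_prod_univ hσ']
    exact hy'
  · intro i x hx hN
    have hNm : Nm D (Additive.ofMul x) = 0 := by
      rw [← ofMul_prod_univ hσ', hN]
      rfl
    obtain ⟨y, hy, hy'⟩ := step_H1 D i (Additive.ofMul x) hx hNm
    refine ⟨y.toMul, hy, ?_⟩
    rw [mem_Vm_iff, ofMul_div]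
    exact hy'

/-- The local norm index for cyclic extensions of local fields: `[Kˣ : N Eˣ] = [E : K]`. -/
theorem normIndexCyclic : Blocks.NormIndexCyclic :=
  Reduction.normIndexCyclic_of_unitData unitDataLF

/-- `#H²(Gal(E/K), Eˣ) = [E : K]` for cyclic extensions of local fields. -/
theorem h2CardCyclic : Reduction.H2CardCyclic :=
  Reduction.h2CardCyclic_of_unitData unitDataLF

end Fermat.Agent.S55.Local.UnitDataLFProof
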