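/-
S55 / LOCAL block (owner helper59): ASSEMBLY, part 2.

UNCONDITIONAL here:
* `primeDegreeBound : UglyLF.PrimeDegreeBound` (from the cyclic case `UnitDataLFProof.h2CardCyclic`);
* `h2CardDvd : UglyLF.H2CardDvd` — `#H²(Gal(E/K), Eˣ)` is finite and divides `[E : K]` for EVERY
  finite Galois extension of local fields (row L8 closed).

CONDITIONAL glue towards `Blocks.H2Card`, `Blocks.H2Cyclic` and `H³ = 0`:
* `ExistsFullOrder` : some class in `H²(Gal(E/K), Eˣ)` has order `[E : K]` (this is what the
  unramified fundamental class of row L9 / `BrauerUnram` provides);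
* `h2Card_of_existsFullOrder`, `h2Cyclic_of_existsFullOrder`;
* `H3Vanish` and `h3Vanish_of : Blocks.H2Card → Blocks.H2Cyclic → H3Vanish`
  (Tate's theorem `Tate/H3VanishMain.tateH3` + `Local/FundClass` + `Local/Transport`).
-/
import Mathlib
import Fermat.Agent.S55.Local.UnitDataLFProof
import Fermat.Agent.S55.Local.TransportProof
import Fermat.Agent.S55.Local.FundClass
import Fermat.Agent.S55.Tate.H3VanishMain

set_option autoImplicit false

namespace Fermat.Agent.S55.Local.Reduction2

open CategoryTheory CategoryTheory.Limits groupCohomology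
open Fermat.Agent.S55.Local

/-- The prime-degree (hence cyclic) case of the order bound. -/
theorem primeDegreeBound : UglyLF.PrimeDegreeBound := by
  intro K E _ _ _ _ _ _ _ _ _ hp
  have hcardG : Nat.card (E ≃ₐ[K] E) = Module.finrank K E := IsGalois.card_aut_eq_finrank K E
  have : Fact (Nat.card (E ≃ₐ[K] E)).Prime := ⟨hcardG ▸ hp⟩
  have : IsCyclic (E ≃ₐ[K] E) := isCyclic_of_prime_card rfl
  have h := UnitDataLFProof.h2CardCyclic K E
  refine ⟨?_, h ▸ dvd_rfl⟩
  apply Nat.finite_of_card_ne_zero
  rw [h]
  exact hp.ne_zero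

/-- **Row L8, unconditional**: `#H²(Gal(E/K), Eˣ)` is finite and divides `[E : K]`. -/
theorem h2CardDvd : UglyLF.H2CardDvd :=
  TransportProof.h2CardDvd_of_primeDegreeBound primeDegreeBound

/-- Some class of `H²(Gal(E/K), Eˣ)` has order exactly `[E : K]`. -/
def ExistsFullOrder : Prop :=
  ∀ (K E : Type) [NontriviallyNormedField K] [IsUltrametricDist K] [ProperSpace K]
    [NontriviallyNormedField E] [IsUltrametricDist E] [ProperSpace E]
    [NormedAlgebra K E] [FiniteDimensional K E] [IsGalois K E],
    ∃ x : groupCohomology (Rep.ofAlgebraAutOnUnits K E) 2, addOrderOf x = Module.finrank K E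

section

variable (K E : Type) [NontriviallyNormedField K] [IsUltrametricDist K] [ProperSpace K]
  [NontriviallyNormedField E] [IsUltrametricDist E] [ProperSpace E]
  [NormedAlgebra K E] [FiniteDimensional K E] [IsGalois K E]

/-- A class of full order generates, and the order of `H²` is `[E : K]`. -/
theorem card_and_generator_of_addOrderOf
    (x : groupCohomology (Rep.ofAlgebraAutOnUnits K E) 2)
    (hx : addOrderOf x = Module.finrank K E) :
    Nat.card (groupCohomology (Rep.ofAlgebraAutOnUnits K E) 2) = Module.finrank K E ∧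
      ∀ y : groupCohomology (Rep.ofAlgebraAutOnUnits K E) 2, y ∈ AddSubgroup.zmultiples x := by
  obtain ⟨hfin, hdvd⟩ := h2CardDvd K E
  have hpos : 0 < Module.finrank K E := Module.finrank_pos
  have h1 : addOrderOf x ∣ Nat.card (groupCohomology (Rep.ofAlgebraAutOnUnits K E) 2) :=
    addOrderOf_dvd_natCard x
  rw [hx] at h1
  have hcard : Nat.card (groupCohomology (Rep.ofAlgebraAutOnUnits K E) 2) = Module.finrank K E :=
    Nat.dvd_antisymm hdvd h1
  refine ⟨hcard, fun y => ?_⟩
  have h : AddSubgroup.zmultiples x = ⊤ := by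
    apply AddSubgroup.eq_top_of_card_eq
    rw [Nat.card_zmultiples, hx, hcard]
  rw [h]; exact AddSubgroup.mem_top y

end

theorem h2Card_of_existsFullOrder (h : ExistsFullOrder) : Blocks.H2Card := by
  intro K E _ _ _ _ _ _ _ _ _
  obtain ⟨x, hx⟩ := h K E
  exact (card_and_generator_of_addOrderOf K E x hx).1

theorem h2Cyclic_of_existsFullOrder (h : ExistsFullOrder) : Blocks.H2Cyclic := by
  intro K E _ _ _ _ _ _ _ _ _
  obtain ⟨x, hx⟩ := h K E
  exact ⟨⟨x, (card_and_generator_of_addOrderOf K E x hx).2⟩⟩

/-- (L-c): `H³(Gal(E/K), Eˣ) = 0` for every finite Galois extension of local fields. -/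
def H3Vanish : Prop :=
  ∀ (K E : Type) [NontriviallyNormedField K] [IsUltrametricDist K] [ProperSpace K]
    [NontriviallyNormedField E] [IsUltrametricDist E] [ProperSpace E]
    [NormedAlgebra K E] [FiniteDimensional K E] [IsGalois K E],
    IsZero (groupCohomology (Rep.ofAlgebraAutOnUnits K E) 3)

/-- **`H³ = 0`** from the order and cyclicity of `H²` (Tate's theorem). -/
theorem h3Vanish_of (hcard : Blocks.H2Card) (hcyc : Blocks.H2Cyclic) : H3Vanish := by
  intro K E _ _ _ _ _ _ _ _ _
  have hcardG : Nat.card (E ≃ₐ[K] E) = Module.finrank K E := IsGalois.card_aut_eq_finrank K E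
  apply FundClass.isZero_H3_of_cyclic_H2 (Rep.ofAlgebraAutOnUnits K E)
    Fermat.Agent.S55.Tate.H3VanishMain.tateH3
  · intro H
    exact Transport.isZero_H1_resSub K E H
  · exact hcyc K E
  · rw [hcardG]; exact hcard K E
  · intro H
    set F : IntermediateField K E := IntermediateField.fixedField H with hF
    have hFprop : ProperSpace F := UglyLF.properSpace_intermediateField F
    let _ : NormedAlgebra F E := UglyLF.normedAlgebraIntermediateField F
    have hFE : Module.finrank F E = Nat.card H := IntermediateField.finrank_fixedField_eq_card H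
    have h1 := Transport.card_resSub K E H 2
    have h2 := hcard F E
    show Nat.card (groupCohomology (Rep.res H.subtype (Rep.ofAlgebraAutOnUnits K E)) 2) = _
    rw [h1, h2, hFE]

theorem h3Vanish_of_existsFullOrder (h : ExistsFullOrder) : H3Vanish :=
  h3Vanish_of (h2Card_of_existsFullOrder h) (h2Cyclic_of_existsFullOrder h)

end Fermat.Agent.S55.Local.Reduction2
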