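/-
S55 / LOCAL block (sub-architects helper43 + helper59): interface file, language (B).

SETTING (LF): a *local field* is a type `K` with
  `[NontriviallyNormedField K] [IsUltrametricDist K] [ProperSpace K]`
(nonarchimedean, locally compact; `Local/Basic.lean` derives from this: `𝒪[K]` is a complete DVR
with finite residue field, a uniformizer `unif K`, the normalised valuation
`ordHom K : Kˣ →* Multiplicative ℤ`, surjective, with kernel the norm-one units; automorphisms are
isometries).  A finite extension is a second such field `E` with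
  `[NormedAlgebra K E] [FiniteDimensional K E]`   (so the norm of `E` restricts to that of `K`).
Finite extensions of `ℚ_[q]` inside `PadicAlgCl q` are instances (`Local/LocalDatum.lean`,
`Local/Concrete.lean`).  Everything lives in `Type` (universe 0), like Mathlib's Hilbert 90.

Galois cohomology: Mathlib `groupCohomology (Rep.ofAlgebraAutOnUnits K E) n`, the group
`E ≃ₐ[K] E` acting on `Additive Eˣ`.

EXPORTS of the LOCAL block (closed `Prop`s, proved in sibling files, assembled sorry-free in
`Local/Reduction.lean`):

* `NormIndexCyclic` : `[Kˣ : N Eˣ] = [E : K]` for cyclic `E/K`.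
* `H2Card`, `H2Cyclic` : `H²(Gal(E/K), Eˣ)` is cyclic of order `[E : K]` for every finite Galois
  `E/K` (with Mathlib's Hilbert 90 these are the class formation axioms).
* `UnramExists` : an unramified Galois (cyclic) extension of every degree.
* `PowIndex` : `[Kˣ : Kˣᵖ] = p · #μ_p(K) · (#k)^{ord p}` in characteristic zero.
-/
import Mathlib

set_option autoImplicit false

namespace Fermat.Agent.S55.Local.Blocks

open groupCohomology

/-- `E/K` is unramified: the two fields have the same value group. -/
def IsUnram (K E : Type) [NormedField K] [NormedField E] [NormedAlgebra K E] : Prop :=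
  ∀ x : E, ∃ y : K, ‖x‖ = ‖y‖

/-- The norm map on units. -/
noncomputable abbrev unitsNorm (K E : Type) [Field K] [Field E] [Algebra K E] : Eˣ →* Kˣ :=
  Units.map (Algebra.norm K : E →* K)

/-! ## Exported block Props -/

/-- **Local norm index**: `[Kˣ : N_{E/K} Eˣ] = [E : K]` for a cyclic extension of local fields. -/
def NormIndexCyclic : Prop :=
  ∀ (K E : Type) [NontriviallyNormedField K] [IsUltrametricDist K] [ProperSpace K]
    [NontriviallyNormedField E] [IsUltrametricDist E] [ProperSpace E]
    [NormedAlgebra K E] [FiniteDimensional K E] [IsGalois K E] [IsCyclic (E ≃ₐ[K] E)],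
    (unitsNorm K E).range.index = Module.finrank K E

/-- **Order of `H²`**: `#H²(Gal(E/K), Eˣ) = [E : K]` for every finite Galois extension. -/
def H2Card : Prop :=
  ∀ (K E : Type) [NontriviallyNormedField K] [IsUltrametricDist K] [ProperSpace K]
    [NontriviallyNormedField E] [IsUltrametricDist E] [ProperSpace E]
    [NormedAlgebra K E] [FiniteDimensional K E] [IsGalois K E],
    Nat.card (groupCohomology (Rep.ofAlgebraAutOnUnits K E) 2) = Module.finrank K E

/-- **`H²(Gal(E/K), Eˣ)` is cyclic.** -/
def H2Cyclic : Prop :=
  ∀ (K E : Type) [NontriviallyNormedField K] [IsUltrametricDist K] [ProperSpace K]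
    [NontriviallyNormedField E] [IsUltrametricDist E] [ProperSpace E]
    [NormedAlgebra K E] [FiniteDimensional K E] [IsGalois K E],
    IsAddCyclic (groupCohomology (Rep.ofAlgebraAutOnUnits K E) 2)

/-- **Unramified extensions exist**: for every `n ≥ 1` there is an unramified cyclic Galois
extension of degree `n`. -/
def UnramExists : Prop :=
  ∀ (K : Type) [NontriviallyNormedField K] [IsUltrametricDist K] [ProperSpace K] (n : ℕ),
    0 < n →
    ∃ (E : Type) (_ : NontriviallyNormedField E) (_ : IsUltrametricDist E) (_ : ProperSpace E)
      (_ : NormedAlgebra K E) (_ : FiniteDimensional K E) (_ : IsGalois K E),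
      IsCyclic (E ≃ₐ[K] E) ∧ Module.finrank K E = n ∧ IsUnram K E

/-- The closed ball `{x | ‖x‖ ≤ ‖a‖}` as an additive subgroup (`a = 1`: the integers `𝒪[K]`;
`a = p`: the ideal `p 𝒪[K]`). -/
def normBall (K : Type) [NormedField K] [IsUltrametricDist K] (a : K) : AddSubgroup K where
  carrier := {x | ‖x‖ ≤ ‖a‖}
  zero_mem' := by simp
  add_mem' := fun {x y} hx hy =>
    (IsUltrametricDist.norm_add_le_max x y).trans (max_le hx hy)
  neg_mem' := fun {x} hx => by simpa using hx

/-- **Index of `p`-th powers**: in characteristic zero,
`[Kˣ : Kˣᵖ] = p · #μ_p(K) · [𝒪 : p𝒪]` (and `[𝒪 : p𝒪] = (#k) ^ (ord p)` is `1` when the residue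
characteristic is not `p`, and `p ^ [K : ℚ_p]` when it is). -/
def PowIndex : Prop :=
  ∀ (K : Type) [NontriviallyNormedField K] [IsUltrametricDist K] [ProperSpace K] [CharZero K]
    (p : ℕ) [Fact p.Prime],
    (powMonoidHom p : Kˣ →* Kˣ).range.index =
      p * Nat.card (rootsOfUnity p K) * (normBall K (p : K)).relIndex (normBall K 1)

end Fermat.Agent.S55.Local.Blocks
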