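/-
S55 / Local block — the LOCAL DEGREE factor of `Blocks.PowIndex` (helper11, row M.count.localDegree).

For a local field `K` in the (LF) setting which is a finite extension of `ℚ_p`
(`[NormedAlgebra ℚ_[p] K] [FiniteDimensional ℚ_[p] K]`):

  `relIndex_normBall_p : (normBall K (p : K)).relIndex (normBall K 1) = p ^ finrank ℚ_[p] K`,

i.e. `[𝒪_K : p 𝒪_K] = p ^ [K : ℚ_p]`.  Proof: `𝒪_K` contains the `ℤ_p`-lattice `Λ` spanned by a basis of
vectors of norm `≤ 1`; `Λ` is open, `𝒪_K` is compact, so `[𝒪_K : Λ] < ∞`; multiplication by `p` is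
injective, hence `[𝒪_K : p𝒪_K] = [Λ : pΛ] = #(ℤ/p)^n`.

Consequences (with the closed Prop `Blocks.PowIndex`, proved in `Local/PowIndexProof.lean`):
`powIndex_padic`, `powIndex_padic_of_primitiveRoot : [Kˣ : Kˣᵖ] = p ^ ([K:ℚ_p] + 2)` when `μ_p ⊆ K`,
and the tame case `powIndex_tame_of_primitiveRoot : [Kˣ : Kˣᵖ] = p ^ 2` when `‖p‖ = 1`.
-/
import Mathlib
import Fermat.Agent.S55.Local.Blocks

set_option autoImplicit false
set_option linter.unusedSectionVars false
set_option linter.unusedVariables false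

open Module

namespace Fermat.Agent.S55.Local.LocalDegreeIndex

open Fermat.Agent.S55.Local.Blocks

section abstract

variable {A : Type*} [AddCommGroup A]

/-- Commensurable subgroups have the same index of their images under an injective endomorphism. -/
theorem relIndex_map_eq_of_le (f : A →+ A) (hf : Function.Injective f) (Λ O : AddSubgroup A)
    (hΛO : Λ ≤ O) (hfO : O.map f ≤ O) (hfΛ : Λ.map f ≤ Λ) (hfin : Λ.relIndex O ≠ 0) :
    (O.map f).relIndex O = (Λ.map f).relIndex Λ := by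
  have h1 : (Λ.map f).relIndex Λ * Λ.relIndex O = (Λ.map f).relIndex O :=
    AddSubgroup.relIndex_mul_relIndex _ _ _ hfΛ hΛO
  have h2 : (Λ.map f).relIndex (O.map f) * (O.map f).relIndex O = (Λ.map f).relIndex O :=
    AddSubgroup.relIndex_mul_relIndex _ _ _ (AddSubgroup.map_mono hΛO) hfO
  have h3 : (Λ.map f).relIndex (O.map f) = Λ.relIndex O :=
    AddSubgroup.relIndex_map_map_of_injective Λ O hf
  rw [h3] at h2
  have h4 : Λ.relIndex O * (O.map f).relIndex O = Λ.relIndex O * (Λ.map f).relIndex Λ := by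
    rw [h2, ← h1, mul_comm]
  exact Nat.eq_of_mul_eq_mul_left (Nat.pos_of_ne_zero hfin) h4

end abstract

section concrete

variable (p : ℕ) [hp : Fact p.Prime]
variable (K : Type) [NontriviallyNormedField K] [IsUltrametricDist K] [ProperSpace K]
  [NormedAlgebra ℚ_[p] K] [FiniteDimensional ℚ_[p] K]

theorem norm_natCast_p : ‖(p : K)‖ = (p : ℝ)⁻¹ := by
  have h : (p : K) = algebraMap ℚ_[p] K (p : ℚ_[p]) := (map_natCast _ p).symm
  rw [h, norm_algebraMap', Padic.norm_p]

theorem natCast_p_ne_zero : (p : K) ≠ 0 := by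
  rw [← norm_pos_iff, norm_natCast_p]
  exact inv_pos.mpr (by exact_mod_cast hp.out.pos)

/-- multiplication by `p` on `K` -/
noncomputable def pmul : K →+ K := AddMonoidHom.mulLeft (p : K)

@[simp] theorem pmul_apply (x : K) : pmul p K x = (p : K) * x := rfl

theorem pmul_injective : Function.Injective (pmul p K) := fun x y h =>
  mul_left_cancel₀ (natCast_p_ne_zero p K) h

theorem normBall_p_eq_map : normBall K (p : K) = (normBall K 1).map (pmul p K) := by
  ext x
  constructor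
  · intro hx
    refine ⟨x / (p : K), ?_, ?_⟩
    · show ‖x / (p : K)‖ ≤ ‖(1 : K)‖
      rw [norm_div, norm_one]
      exact div_le_one_of_le₀ hx (norm_nonneg _)
    · rw [pmul_apply, mul_div_cancel₀ _ (natCast_p_ne_zero p K)]
  · rintro ⟨y, hy, rfl⟩
    show ‖(p : K) * y‖ ≤ ‖(p : K)‖
    have hy' : ‖y‖ ≤ ‖(1 : K)‖ := hy
    rw [norm_one] at hy'
    rw [norm_mul]
    exact mul_le_of_le_one_right (norm_nonneg _) hy'

theorem compactSpace_normBall_one : CompactSpace ↥(normBall K 1) := by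
  have : ((normBall K 1 : AddSubgroup K) : Set K) = Metric.closedBall 0 1 := by
    ext x
    simp [normBall]
  have hc : IsCompact ((normBall K 1 : AddSubgroup K) : Set K) := by
    rw [this]
    exact isCompact_closedBall 0 1
  exact isCompact_iff_compactSpace.mp hc


/-- A `ℚ_p`-basis of `K` consisting of vectors of norm `≤ 1`. -/
theorem exists_basis_norm_le_one :
    ∃ b : Basis (Fin (finrank ℚ_[p] K)) ℚ_[p] K, ∀ i, ‖b i‖ ≤ 1 := by
  set b₀ := Module.finBasis ℚ_[p] K with hb₀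
  have hp1 : (p : ℝ)⁻¹ < 1 := inv_lt_one_of_one_lt₀ (by exact_mod_cast hp.out.one_lt)
  have hp0 : (0 : ℝ) ≤ (p : ℝ)⁻¹ := inv_nonneg.mpr (Nat.cast_nonneg p)
  have hk : ∀ i, ∃ k : ℕ, ‖((p : ℚ_[p]) ^ k) • b₀ i‖ ≤ 1 := by
    intro i
    have hpos : (0 : ℝ) < 1 / (‖b₀ i‖ + 1) := by positivity
    obtain ⟨k, hk⟩ := exists_pow_lt_of_lt_one hpos hp1
    refine ⟨k, ?_⟩
    rw [norm_smul, norm_pow, Padic.norm_p]
    have h1 : ((p : ℝ)⁻¹) ^ k * ‖b₀ i‖ ≤ ((p : ℝ)⁻¹) ^ k * (‖b₀ i‖ + 1) :=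
      mul_le_mul_of_nonneg_left (by linarith) (pow_nonneg hp0 k)
    have h2 : ((p : ℝ)⁻¹) ^ k * (‖b₀ i‖ + 1) ≤ 1 := by
      have := mul_le_mul_of_nonneg_right hk.le (by positivity : (0 : ℝ) ≤ ‖b₀ i‖ + 1)
      rwa [one_div, inv_mul_cancel₀ (by positivity)] at this
    linarith
  choose k hk using hk
  have hu : ∀ i, IsUnit ((p : ℚ_[p]) ^ k i) := fun i =>
    IsUnit.pow _ (isUnit_iff_ne_zero.mpr (by exact_mod_cast hp.out.ne_zero))
  refine ⟨b₀.isUnitSMul hu, fun i => ?_⟩
  rw [Basis.isUnitSMul_apply]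
  exact hk i

variable {p K} in
/-- The lattice spanned over `ℤ_p` by a basis: vectors with integral coordinates. -/
def lat (b : Basis (Fin (finrank ℚ_[p] K)) ℚ_[p] K) : AddSubgroup K where
  carrier := {x | ∀ i, ‖b.repr x i‖ ≤ 1}
  zero_mem' := by simp
  add_mem' := fun {x y} hx hy i => by
    rw [map_add, Finsupp.add_apply]
    exact (IsUltrametricDist.norm_add_le_max _ _).trans (max_le (hx i) (hy i))
  neg_mem' := fun {x} hx i => by
    rw [map_neg, Finsupp.neg_apply, norm_neg]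
    exact hx i

variable {p K} in
theorem mem_lat {b : Basis (Fin (finrank ℚ_[p] K)) ℚ_[p] K} {x : K} :
    x ∈ lat b ↔ ∀ i, ‖b.repr x i‖ ≤ 1 := Iff.rfl

variable {p K} in
theorem lat_le_normBall {b : Basis (Fin (finrank ℚ_[p] K)) ℚ_[p] K} (hb : ∀ i, ‖b i‖ ≤ 1) :
    lat b ≤ normBall K 1 := by
  intro x hx
  show ‖x‖ ≤ ‖(1 : K)‖
  rw [norm_one, ← b.sum_repr x]
  refine IsUltrametricDist.norm_sum_le_of_forall_le_of_nonneg zero_le_one (fun i _ => ?_)
  rw [norm_smul]
  exact mul_le_one₀ (hx i) (norm_nonneg _) (hb i)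

variable {p K} in
theorem isOpen_lat (b : Basis (Fin (finrank ℚ_[p] K)) ℚ_[p] K) :
    IsOpen ((lat b : AddSubgroup K) : Set K) := by
  have : ((lat b : AddSubgroup K) : Set K) =
      ⋂ i, (fun x => b.coord i x) ⁻¹' Metric.closedBall (0 : ℚ_[p]) 1 := by
    ext x
    simp [lat, Basis.coord_apply]
  rw [this]
  refine isOpen_iInter_of_finite fun i => ?_
  exact (IsUltrametricDist.isOpen_closedBall (0 : ℚ_[p]) one_ne_zero).preimage
    (LinearMap.continuous_of_finiteDimensional (b.coord i))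

variable {p K} in
theorem relIndex_lat_ne_zero {b : Basis (Fin (finrank ℚ_[p] K)) ℚ_[p] K} :
    (lat b).relIndex (normBall K 1) ≠ 0 := by
  have := compactSpace_normBall_one K
  have : Finite (↥(normBall K 1) ⧸ (lat b).addSubgroupOf (normBall K 1)) :=
    AddSubgroup.quotient_finite_of_isOpen _
      (AddSubgroup.addSubgroupOf_isOpen (normBall K 1) (lat b) (isOpen_lat b))
  exact AddSubgroup.index_ne_zero_of_finite



variable {p} in
/-- build a `p`-adic integer from a `p`-adic number of norm `≤ 1` -/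
def mkInt (y : ℚ_[p]) (h : ‖y‖ ≤ 1) : ℤ_[p] := ⟨y, h⟩

variable {p} in
@[simp] theorem coe_mkInt (y : ℚ_[p]) (h : ‖y‖ ≤ 1) : ((mkInt y h : ℤ_[p]) : ℚ_[p]) = y := rfl

variable {p K} in
/-- reduction mod `p` of the coordinates of a lattice vector -/
noncomputable def redHom (b : Basis (Fin (finrank ℚ_[p] K)) ℚ_[p] K) :
    ↥(lat b) →+ (Fin (finrank ℚ_[p] K) → ZMod p) where
  toFun x := fun i => PadicInt.toZMod (mkInt (b.repr (x : K) i) (x.2 i))
  map_zero' := by
    funext i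
    have : mkInt (b.repr ((0 : ↥(lat b)) : K) i) ((0 : ↥(lat b)).2 i) = 0 := by
      apply PadicInt.ext
      simp
    rw [this, map_zero]
    rfl
  map_add' x y := by
    funext i
    have : mkInt (b.repr ((x + y : ↥(lat b)) : K) i) ((x + y).2 i) =
        mkInt (b.repr (x : K) i) (x.2 i) + mkInt (b.repr (y : K) i) (y.2 i) := by
      apply PadicInt.ext
      simp
    rw [this, map_add]
    rfl

variable {p K} in
theorem redHom_apply (b : Basis (Fin (finrank ℚ_[p] K)) ℚ_[p] K) (x : ↥(lat b))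
    (i : Fin (finrank ℚ_[p] K)) :
    redHom b x i = PadicInt.toZMod (mkInt (b.repr (x : K) i) (x.2 i)) := rfl

variable {p K} in
theorem redHom_surjective (b : Basis (Fin (finrank ℚ_[p] K)) ℚ_[p] K) :
    Function.Surjective (redHom b) := by
  intro c
  have hmem : (∑ i, (((c i).val : ℕ) : ℚ_[p]) • b i) ∈ lat b := by
    intro i
    rw [b.repr_sum_self]
    exact_mod_cast Padic.norm_int_le_one (((c i).val : ℕ) : ℤ)
  refine ⟨⟨_, hmem⟩, ?_⟩
  funext i
  rw [redHom_apply]
  have : mkInt (b.repr (∑ j, (((c j).val : ℕ) : ℚ_[p]) • b j) i) (hmem i) =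
      (((c i).val : ℕ) : ℤ_[p]) := by
    apply PadicInt.ext
    rw [coe_mkInt, b.repr_sum_self, PadicInt.coe_natCast]
  rw [this, map_natCast, ZMod.natCast_zmod_val]


variable {p K} in
theorem repr_pmul (b : Basis (Fin (finrank ℚ_[p] K)) ℚ_[p] K) (y : K)
    (i : Fin (finrank ℚ_[p] K)) : b.repr ((p : K) * y) i = (p : ℚ_[p]) * b.repr y i := by
  have h : (p : K) * y = (p : ℚ_[p]) • y := by
    rw [Algebra.smul_def, map_natCast]
  rw [h, map_smul, Finsupp.smul_apply, smul_eq_mul]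

variable {p K} in
theorem map_pmul_lat_le (b : Basis (Fin (finrank ℚ_[p] K)) ℚ_[p] K) :
    (lat b).map (pmul p K) ≤ lat b := by
  rintro _ ⟨y, hy, rfl⟩ i
  rw [pmul_apply, repr_pmul, norm_mul]
  have hp1 : ‖(p : ℚ_[p])‖ ≤ 1 := by
    rw [Padic.norm_p]
    exact inv_le_one_of_one_le₀ (by exact_mod_cast hp.out.one_lt.le)
  exact mul_le_one₀ hp1 (norm_nonneg _) (hy i)

variable {p K} in
theorem ker_redHom (b : Basis (Fin (finrank ℚ_[p] K)) ℚ_[p] K) :
    (redHom b).ker = ((lat b).map (pmul p K)).addSubgroupOf (lat b) := by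
  ext x
  rw [AddMonoidHom.mem_ker, AddSubgroup.mem_addSubgroupOf]
  constructor
  · intro hx
    have hdvd : ∀ i, ∃ z : ℤ_[p], mkInt (b.repr (x : K) i) (x.2 i) = (p : ℤ_[p]) * z := by
      intro i
      have h0 : redHom b x i = 0 := by rw [hx]; rfl
      rw [redHom_apply, ← RingHom.mem_ker, PadicInt.ker_toZMod, PadicInt.maximalIdeal_eq_span_p,
        Ideal.mem_span_singleton] at h0
      exact h0
    choose z hz using hdvd
    refine ⟨∑ i, ((z i : ℤ_[p]) : ℚ_[p]) • b i, ?_, ?_⟩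
    · intro i
      rw [b.repr_sum_self]
      exact (z i).2
    · apply b.repr.injective
      ext i
      rw [pmul_apply, repr_pmul, b.repr_sum_self]
      have := congrArg (fun t : ℤ_[p] => (t : ℚ_[p])) (hz i)
      simp only [coe_mkInt, PadicInt.coe_mul, PadicInt.coe_natCast] at this
      exact this.symm
  · rintro ⟨y, hy, hyx⟩
    funext i
    rw [redHom_apply]
    have : mkInt (b.repr (x : K) i) (x.2 i) = (p : ℤ_[p]) * mkInt (b.repr y i) (hy i) := by
      apply PadicInt.ext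
      rw [coe_mkInt, PadicInt.coe_mul, PadicInt.coe_natCast, coe_mkInt, ← hyx, pmul_apply,
        repr_pmul]
    rw [this, map_mul, map_natCast, ZMod.natCast_self, zero_mul]
    rfl

variable {p K} in
theorem relIndex_map_pmul_lat (b : Basis (Fin (finrank ℚ_[p] K)) ℚ_[p] K) :
    ((lat b).map (pmul p K)).relIndex (lat b) = p ^ finrank ℚ_[p] K := by
  rw [AddSubgroup.relIndex, ← ker_redHom, AddSubgroup.index_ker,
    AddMonoidHom.range_eq_top.mpr (redHom_surjective b)]
  rw [Nat.card_congr (AddSubgroup.topEquiv (G := Fin (finrank ℚ_[p] K) → ZMod p)).toEquiv]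
  rw [Nat.card_eq_fintype_card, Fintype.card_fun, ZMod.card, Fintype.card_fin]

/-- **Local degree**: `[𝒪_K : p 𝒪_K] = p ^ [K : ℚ_p]`. -/
theorem relIndex_normBall_p :
    (normBall K (p : K)).relIndex (normBall K 1) = p ^ finrank ℚ_[p] K := by
  obtain ⟨b, hb⟩ := exists_basis_norm_le_one p K
  rw [normBall_p_eq_map, ← relIndex_map_pmul_lat b]
  refine relIndex_map_eq_of_le (pmul p K) (pmul_injective p K) (lat b) (normBall K 1)
    (lat_le_normBall hb) ?_ (map_pmul_lat_le b) relIndex_lat_ne_zero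
  rw [← normBall_p_eq_map]
  intro x hx
  have h1 : ‖x‖ ≤ ‖(p : K)‖ := hx
  show ‖x‖ ≤ ‖(1 : K)‖
  rw [norm_one]
  rw [norm_natCast_p] at h1
  exact h1.trans (inv_le_one_of_one_le₀ (by exact_mod_cast hp.out.one_lt.le))


/-- The index of `p`-th powers in a `p`-adic local field: `[Kˣ : Kˣᵖ] = p · #μ_p(K) · p ^ [K : ℚ_p]`
(from the closed Prop `Blocks.PowIndex`). -/
theorem powIndex_padic (hPI : PowIndex) :
    (powMonoidHom p : Kˣ →* Kˣ).range.index =
      p * Nat.card (rootsOfUnity p K) * p ^ finrank ℚ_[p] K := by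
  have : CharZero K := (RingHom.charZero_iff (algebraMap ℚ_[p] K).injective).mp inferInstance
  rw [hPI K p, relIndex_normBall_p]

/-- With `μ_p ⊆ K`: `[Kˣ : Kˣᵖ] = p ^ ([K : ℚ_p] + 2)`. -/
theorem powIndex_padic_of_primitiveRoot (hPI : PowIndex) {ζ : K} (hζ : IsPrimitiveRoot ζ p) :
    (powMonoidHom p : Kˣ →* Kˣ).range.index = p ^ (finrank ℚ_[p] K + 2) := by
  have : NeZero p := ⟨hp.out.ne_zero⟩
  rw [powIndex_padic p K hPI, hζ.card_rootsOfUnity]
  ring

end concrete

section tame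

variable (K : Type) [NontriviallyNormedField K] [IsUltrametricDist K]

/-- Residue characteristic `≠ p`: `[𝒪_K : p 𝒪_K] = 1`. -/
theorem relIndex_normBall_of_norm_eq_one (a : K) (ha : ‖a‖ = 1) :
    (normBall K a).relIndex (normBall K 1) = 1 := by
  have : normBall K a = normBall K 1 := by
    ext x
    show ‖x‖ ≤ ‖a‖ ↔ ‖x‖ ≤ ‖(1 : K)‖
    rw [ha, norm_one]
  rw [this, AddSubgroup.relIndex_self]

/-- Residue characteristic `≠ p`: `[Kˣ : Kˣᵖ] = p · #μ_p(K)`. -/
theorem powIndex_tame (hPI : PowIndex) [ProperSpace K] [CharZero K] (p : ℕ) [Fact p.Prime]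
    (hpK : ‖(p : K)‖ = 1) :
    (powMonoidHom p : Kˣ →* Kˣ).range.index = p * Nat.card (rootsOfUnity p K) := by
  rw [hPI K p, relIndex_normBall_of_norm_eq_one K _ hpK, mul_one]

/-- Residue characteristic `≠ p` and `μ_p ⊆ K`: `[Kˣ : Kˣᵖ] = p ^ 2`. -/
theorem powIndex_tame_of_primitiveRoot (hPI : PowIndex) [ProperSpace K] [CharZero K] (p : ℕ)
    [hp : Fact p.Prime] (hpK : ‖(p : K)‖ = 1) {ζ : K} (hζ : IsPrimitiveRoot ζ p) :
    (powMonoidHom p : Kˣ →* Kˣ).range.index = p ^ 2 := by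
  have : NeZero p := ⟨hp.out.ne_zero⟩
  rw [powIndex_tame K hPI p hpK, hζ.card_rootsOfUnity]
  ring

end tame

end Fermat.Agent.S55.Local.LocalDegreeIndex
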