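/-
S55 / Local block — the local `p`-th power index (helper62).

Abstract setting: `O` a local domain, `ϖ ≠ 0` in the maximal ideal, `O` is `ϖ`-adically complete
(used in the elementary forms `hHaus`, `hPrec`, both implied by `IsAdicComplete (span {ϖ}) O`),
`O ⧸ (ϖ)` finite of cardinality `q`, `p` a prime number with `p = u ϖ^e`, `u` a unit
(`e = 0` allowed: residue characteristic different from `p`).

* `U ϖ n`                 : the higher unit groups `U^(n) = {x ∈ Oˣ | ϖ^n ∣ x - 1}`.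
* `dvd_one_add_pow_sub`   : `(1+a)^p ≡ 1 + p a  mod ϖ^(n+e+1)` for `ϖ^n ∣ a`, `1 ≤ n`, `e < n (p-1)`.
* `relIndex_succ/_add`    : `[U^(n+1) : U^(n+2)] = q`, `[U^(n+1) : U^(n+1+e)] = q^e`.
* `pow_mem_U`, `eq_one_of_pow_eq_one`, `exists_pow_eq`, `map_pow_U` :
                            `x ↦ x^p` is a bijection `U^(n) → U^(n+e)` for `1 ≤ n`, `e < n (p-1)`.
* `U_le_range_pow`        : `U^(n+e) ≤ (Oˣ)^p`.
* `index_range_pow`       : **`[Oˣ : (Oˣ)^p] = q^e * |μ_p(O)|`**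
  (`index_range_pow_of_isAdicComplete`, `index_range_pow_dvr`: `IsAdicComplete` / DVR forms).
* `index_range_pow_of_valuation` : for `v : G →* Multiplicative ℤ` surjective,
  `[G : G^p] = p * [ker v : (ker v)^p]` (so `[Kˣ : (Kˣ)^p] = p * q^e * |μ_p|`).
* `relIndex_eq_map_mul_ker` : the index lemma `[B : A] = [fB : fA] * [B ∩ ker f : A ∩ ker f]`
  (multiplicative version of `S14.HerbrandPrime.relIndex_eq_map_mul_ker`).
-/
import Mathlib

set_option autoImplicit false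
set_option linter.unusedSectionVars false

namespace Fermat.Agent.S55.Local.PowerIndex

open Finset

section Binomial

variable {O : Type*} [CommRing O]

/-- `(1+a)^p = 1 + p a + (terms)`: the binomial remainder is divisible by `ϖ^(n+e+1)` when
`ϖ^n ∣ a`, `ϖ^e ∣ p`, `1 ≤ n` and `e < n (p-1)`. -/
theorem dvd_one_add_pow_sub (ϖ : O) (p : ℕ) (hp : p.Prime) (e n : ℕ) (hn : 1 ≤ n)
    (hpe : ϖ ^ e ∣ (p : O)) (hen : e < n * (p - 1)) (a : O) (ha : ϖ ^ n ∣ a) :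
    ϖ ^ (n + e + 1) ∣ (1 + a) ^ p - 1 - p * a := by
  have h2 : 2 ≤ p := hp.two_le
  obtain ⟨k, rfl⟩ : ∃ k, p = k + 2 := ⟨p - 2, by omega⟩
  rw [add_comm 1 a, add_pow]
  rw [Finset.sum_range_succ', Finset.sum_range_succ']
  simp only [one_pow, mul_one, pow_zero, Nat.choose_zero_right, Nat.cast_one, zero_add, pow_one,
    Nat.choose_one_right]
  have : ∑ i ∈ range (k + 1), a ^ (i + 1 + 1) * ((k + 2).choose (i + 1 + 1) : O) +
      a * ((k + 2 : ℕ) : O) + 1 - 1 - ((k + 2 : ℕ) : O) * a =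
      ∑ i ∈ range (k + 1), a ^ (i + 1 + 1) * ((k + 2).choose (i + 1 + 1) : O) := by ring
  rw [this]
  refine Finset.dvd_sum fun i hi => ?_
  rw [Finset.mem_range] at hi
  by_cases hik : i = k
  · subst hik
    rw [show i + 1 + 1 = i + 2 from rfl, Nat.choose_self, Nat.cast_one, mul_one]
    have : n + e + 1 ≤ n * (i + 2) := by
      have : n * (i + 2 - 1) = n * (i + 1) := by congr 1
      rw [this] at hen
      nlinarith
    exact (pow_dvd_pow ϖ this).trans (by rw [pow_mul]; exact pow_dvd_pow_of_dvd ha _)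
  · have hlt : i + 2 < k + 2 := by omega
    have hdvd : ((k + 2 : ℕ) : O) ∣ ((k + 2).choose (i + 1 + 1) : O) := by
      have := hp.dvd_choose_self (k := i + 2) (by omega) hlt
      exact Nat.cast_dvd_cast (α := O) this
    have h1 : ϖ ^ e ∣ ((k + 2).choose (i + 1 + 1) : O) := hpe.trans hdvd
    have h3 : ϖ ^ (n + 1) ∣ a ^ (i + 1 + 1) := by
      have : n + 1 ≤ n * (i + 1 + 1) := by nlinarith
      exact (pow_dvd_pow ϖ this).trans (by rw [pow_mul]; exact pow_dvd_pow_of_dvd ha _)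
    have : ϖ ^ (n + e + 1) = ϖ ^ (n + 1) * ϖ ^ e := by rw [← pow_add]; congr 1; omega
    rw [this]
    exact mul_dvd_mul h3 h1

end Binomial

section Filtration

variable {O : Type*} [CommRing O]

/-- The higher unit group `U^(n) = {x ∈ Oˣ : x ≡ 1 mod ϖ^n}`. -/
def U (ϖ : O) (n : ℕ) : Subgroup Oˣ where
  carrier := {x | ϖ ^ n ∣ (x : O) - 1}
  one_mem' := by simp
  mul_mem' := by
    intro x y hx hy
    simp only [Set.mem_ofPred_eq, Units.val_mul] at hx hy ⊢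
    have : (x : O) * y - 1 = ((x : O) - 1) * y + ((y : O) - 1) := by ring
    rw [this]
    exact dvd_add (Dvd.dvd.mul_right hx _) hy
  inv_mem' := by
    intro x hx
    simp only [Set.mem_ofPred_eq] at hx ⊢
    have : ((x⁻¹ : Oˣ) : O) - 1 = -((x⁻¹ : Oˣ) : O) * ((x : O) - 1) := by
      have h : ((x⁻¹ : Oˣ) : O) * (x : O) = 1 := by simp
      linear_combination h
    rw [this]
    exact Dvd.dvd.mul_left hx _

theorem mem_U {ϖ : O} {n : ℕ} {x : Oˣ} : x ∈ U ϖ n ↔ ϖ ^ n ∣ (x : O) - 1 := Iff.rfl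

theorem U_zero (ϖ : O) : U ϖ 0 = ⊤ := by
  ext x; simp [mem_U]

theorem U_anti (ϖ : O) {m n : ℕ} (h : m ≤ n) : U ϖ n ≤ U ϖ m :=
  fun _ hx => (pow_dvd_pow ϖ h).trans hx

end Filtration

section Graded

variable {O : Type*} [CommRing O] [IsDomain O] [IsLocalRing O]
variable {ϖ : O}

theorem isUnit_one_add_mul (hϖ : ϖ ∈ IsLocalRing.maximalIdeal O) (c : O) : IsUnit (1 + ϖ * c) := by
  have h : -(ϖ * c) ∈ nonunits O := by
    rw [← IsLocalRing.mem_maximalIdeal]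
    exact neg_mem (Ideal.mul_mem_right _ _ hϖ)
  have := IsLocalRing.isUnit_one_sub_self_of_mem_nonunits _ h
  simpa using this

/-- the unit `1 + ϖ^n c`, `n ≥ 1`. -/
noncomputable def oneAdd (hϖ : ϖ ∈ IsLocalRing.maximalIdeal O) (n : ℕ) (c : O) : Oˣ :=
  (isUnit_one_add_mul hϖ (ϖ ^ n * c)).unit

theorem oneAdd_val (hϖ : ϖ ∈ IsLocalRing.maximalIdeal O) (n : ℕ) (c : O) :
    ((oneAdd hϖ n c : Oˣ) : O) = 1 + ϖ ^ (n + 1) * c := by
  simp [oneAdd, pow_succ', mul_assoc]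

theorem oneAdd_mem (hϖ : ϖ ∈ IsLocalRing.maximalIdeal O) (n : ℕ) (c : O) :
    oneAdd hϖ n c ∈ U ϖ (n + 1) := by
  rw [mem_U, oneAdd_val]
  exact ⟨c, by ring⟩

/-- the "leading coefficient" of `x ∈ U^(n)`. -/
noncomputable def coef (n : ℕ) (x : U ϖ n) : O := Classical.choose (mem_U.mp x.2)

theorem coef_spec (n : ℕ) (x : U ϖ n) : ((x : Oˣ) : O) - 1 = ϖ ^ n * coef n x :=
  Classical.choose_spec (mem_U.mp x.2)

theorem coef_eq (hϖ0 : ϖ ≠ 0) (n : ℕ) (x : U ϖ n) (c : O) (h : ((x : Oˣ) : O) - 1 = ϖ ^ n * c) :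
    coef n x = c := by
  have := coef_spec n x
  rw [h] at this
  exact (mul_left_cancel₀ (pow_ne_zero n hϖ0) this).symm

/-- the graded map `U^(n) → O/ϖ`, `n ≥ 1`. -/
noncomputable def gr (hϖ0 : ϖ ≠ 0) (n : ℕ) :
    U ϖ (n + 1) →* Multiplicative (O ⧸ Ideal.span {ϖ}) where
  toFun x := Multiplicative.ofAdd (Ideal.Quotient.mk _ (coef (n + 1) x))
  map_one' := by
    have : coef (n + 1) (1 : U ϖ (n + 1)) = 0 := coef_eq hϖ0 _ _ _ (by simp)
    simp [this]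
  map_mul' x y := by
    have hx := coef_spec (n + 1) x
    have hy := coef_spec (n + 1) y
    have : coef (n + 1) (x * y) = coef (n + 1) x + coef (n + 1) y +
        ϖ * (ϖ ^ n * coef (n + 1) x * coef (n + 1) y) := by
      apply coef_eq hϖ0
      have : (((x * y : U ϖ (n + 1)) : Oˣ) : O) - 1
          = (((x : Oˣ) : O) - 1) + (((y : Oˣ) : O) - 1) + (((x : Oˣ) : O) - 1) * (((y : Oˣ) : O) - 1) := by
        simp only [Subgroup.coe_mul, Units.val_mul]; ring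
      rw [this, hx, hy]; ring
    have h0 : (Ideal.Quotient.mk (Ideal.span {ϖ}))
        (ϖ * (ϖ ^ n * coef (n + 1) x * coef (n + 1) y)) = 0 := by
      rw [Ideal.Quotient.eq_zero_iff_mem, Ideal.mem_span_singleton]
      exact Dvd.intro _ rfl
    have key : (Ideal.Quotient.mk (Ideal.span {ϖ})) (coef (n + 1) (x * y)) =
        (Ideal.Quotient.mk (Ideal.span {ϖ})) (coef (n + 1) x) +
        (Ideal.Quotient.mk (Ideal.span {ϖ})) (coef (n + 1) y) := by
      rw [this, map_add, map_add, h0, add_zero]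
    rw [key, ofAdd_add]

theorem gr_apply (hϖ0 : ϖ ≠ 0) (n : ℕ) (x : U ϖ (n + 1)) :
    gr hϖ0 n x = Multiplicative.ofAdd (Ideal.Quotient.mk _ (coef (n + 1) x)) := rfl

theorem gr_surjective (hϖ0 : ϖ ≠ 0) (hϖ : ϖ ∈ IsLocalRing.maximalIdeal O) (n : ℕ) :
    Function.Surjective (gr hϖ0 n) := by
  intro y
  obtain ⟨c, hc⟩ := Ideal.Quotient.mk_surjective (Multiplicative.toAdd y)
  refine ⟨⟨oneAdd hϖ n c, oneAdd_mem hϖ n c⟩, ?_⟩
  rw [gr_apply]
  have : coef (n + 1) ⟨oneAdd hϖ n c, oneAdd_mem hϖ n c⟩ = c :=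
    coef_eq hϖ0 _ _ _ (by simp [oneAdd_val])
  rw [this, hc]; rfl

theorem gr_ker (hϖ0 : ϖ ≠ 0) (n : ℕ) :
    (gr hϖ0 n).ker = (U ϖ (n + 2)).subgroupOf (U ϖ (n + 1)) := by
  ext x
  rw [MonoidHom.mem_ker, Subgroup.mem_subgroupOf, mem_U, gr_apply, coef_spec (n + 1) x]
  rw [← ofAdd_zero, Multiplicative.ofAdd.apply_eq_iff_eq, Ideal.Quotient.eq_zero_iff_mem,
    Ideal.mem_span_singleton]
  constructor
  · rintro ⟨d, hd⟩
    exact ⟨d, by rw [hd]; ring⟩
  · rintro ⟨d, hd⟩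
    refine ⟨d, ?_⟩
    have : ϖ ^ (n + 1) * coef (n + 1) x = ϖ ^ (n + 1) * (ϖ * d) := by rw [hd]; ring
    exact mul_left_cancel₀ (pow_ne_zero _ hϖ0) this

theorem relIndex_succ (hϖ0 : ϖ ≠ 0) (hϖ : ϖ ∈ IsLocalRing.maximalIdeal O) (n : ℕ) :
    (U ϖ (n + 2)).relIndex (U ϖ (n + 1)) = Nat.card (O ⧸ Ideal.span {ϖ}) := by
  rw [Subgroup.relIndex, ← gr_ker hϖ0 n, Subgroup.index_ker,
    MonoidHom.range_eq_top.mpr (gr_surjective hϖ0 hϖ n)]
  rw [Nat.card_congr (Subgroup.topEquiv (G := Multiplicative (O ⧸ Ideal.span {ϖ}))).toEquiv]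
  rfl

theorem relIndex_add (hϖ0 : ϖ ≠ 0) (hϖ : ϖ ∈ IsLocalRing.maximalIdeal O) (n e : ℕ) :
    (U ϖ (n + 1 + e)).relIndex (U ϖ (n + 1)) = Nat.card (O ⧸ Ideal.span {ϖ}) ^ e := by
  induction e with
  | zero => simp
  | succ e ih =>
    rw [← Subgroup.relIndex_mul_relIndex (U ϖ (n + 1 + (e + 1))) (U ϖ (n + 1 + e)) (U ϖ (n + 1))
      (U_anti ϖ (by omega)) (U_anti ϖ (by omega)), ih, pow_succ, mul_comm]
    congr 1
    have := relIndex_succ hϖ0 hϖ (n + e)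
    rw [show n + e + 2 = n + 1 + (e + 1) by omega, show n + e + 1 = n + 1 + e by omega] at this
    exact this

end Graded

section IndexLemma

variable {X Y : Type*} [CommGroup X] [CommGroup Y]

/-- The index lemma: `[B : A] = [fB : fA] * [B ∩ ker f : A ∩ ker f]`. -/
theorem relIndex_eq_map_mul_ker (f : X →* Y) {A B : Subgroup X} (hAB : A ≤ B) :
    A.relIndex B = (A.map f).relIndex (B.map f) * (A ⊓ f.ker).relIndex (B ⊓ f.ker) := by
  have h1 : A ≤ A ⊔ (f.ker ⊓ B) := le_sup_left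
  have h2 : A ⊔ (f.ker ⊓ B) ≤ B := sup_le hAB inf_le_right
  rw [← Subgroup.relIndex_mul_relIndex _ _ _ h1 h2]
  have e1 : A.relIndex (A ⊔ (f.ker ⊓ B)) = (A ⊓ f.ker).relIndex (B ⊓ f.ker) := by
    rw [Subgroup.relIndex_sup_left, ← Subgroup.inf_relIndex_right, inf_comm f.ker B]
    congr 1
    rw [← inf_assoc, inf_eq_left.mpr hAB]
  have e2 : (A ⊔ (f.ker ⊓ B)).relIndex B = (A.map f).relIndex (B.map f) := by
    rw [Subgroup.relIndex_map_map, ← sup_inf_assoc_of_le f.ker hAB, Subgroup.inf_relIndex_right]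
    have : B ⊔ f.ker = B ⊔ (A ⊔ f.ker) := by
      rw [← sup_assoc, sup_eq_left.mpr hAB]
    rw [this, Subgroup.relIndex_sup_right]
  rw [e1, e2, mul_comm]

end IndexLemma

section PowerMap

variable {O : Type*} [CommRing O] [IsDomain O] [IsLocalRing O]
variable {ϖ : O} {p e : ℕ} {u : O}

/-- finer form of the binomial estimate on units. -/
theorem dvd_pow_sub_one_sub (hp : p.Prime) (hpe : (p : O) = ϖ ^ e * u) {n : ℕ} (hn : 1 ≤ n)
    (hen : e < n * (p - 1)) {x : O} (hx : ϖ ^ n ∣ x - 1) :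
    ϖ ^ (n + e + 1) ∣ x ^ p - 1 - p * (x - 1) := by
  have hA := dvd_one_add_pow_sub ϖ p hp e n hn (Dvd.intro _ hpe.symm) hen (x - 1) hx
  have : (1 + (x - 1)) ^ p = x ^ p := by congr 1; ring
  rwa [this] at hA

theorem dvd_pow_sub_one (hp : p.Prime) (hpe : (p : O) = ϖ ^ e * u) {n : ℕ} (hn : 1 ≤ n)
    (hen : e < n * (p - 1)) {x : O} (hx : ϖ ^ n ∣ x - 1) :
    ϖ ^ (n + e) ∣ x ^ p - 1 := by
  have h1 := dvd_pow_sub_one_sub hp hpe hn hen hx
  have : x ^ p - 1 = (x ^ p - 1 - p * (x - 1)) + p * (x - 1) := by ring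
  rw [this]
  refine dvd_add ((pow_dvd_pow ϖ (by omega)).trans h1) ?_
  obtain ⟨c, hc⟩ := hx
  exact ⟨u * c, by rw [hc, hpe, pow_add]; ring⟩

/-- **Lemma B**: the `p`-th power maps `U^(n)` into `U^(n+e)`. -/
theorem pow_mem_U (hp : p.Prime) (hpe : (p : O) = ϖ ^ e * u) {n : ℕ} (hn : 1 ≤ n)
    (hen : e < n * (p - 1)) {x : Oˣ} (hx : x ∈ U ϖ n) : x ^ p ∈ U ϖ (n + e) := by
  rw [mem_U] at hx ⊢
  rw [Units.val_pow_eq_pow_val]
  exact dvd_pow_sub_one hp hpe hn hen hx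

/-- **Lemma C**: the `p`-th power map is injective on `U^(n)`. -/
theorem eq_one_of_pow_eq_one (hp : p.Prime) (hϖ0 : ϖ ≠ 0) (hpe : (p : O) = ϖ ^ e * u)
    (hu : IsUnit u) (hHaus : ∀ x : O, (∀ n, ϖ ^ n ∣ x) → x = 0) {n : ℕ} (hn : 1 ≤ n)
    (hen : e < n * (p - 1)) {x : Oˣ} (hx : x ∈ U ϖ n) (hxp : x ^ p = 1) : x = 1 := by
  by_contra hne
  have ha : (x : O) - 1 ≠ 0 := fun h => hne (Units.ext (by simpa using sub_eq_zero.mp h))
  have hex : ∃ j, ¬ ϖ ^ j ∣ (x : O) - 1 := by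
    by_contra hcon
    push Not at hcon
    exact ha (hHaus _ hcon)
  classical
  set j := Nat.find hex with hj
  have hj1 : ¬ ϖ ^ j ∣ (x : O) - 1 := Nat.find_spec hex
  have hjn : n < j := by
    by_contra hcon
    push Not at hcon
    exact hj1 ((pow_dvd_pow ϖ hcon).trans (mem_U.mp hx))
  obtain ⟨j0, hj0⟩ : ∃ j0, j = j0 + 1 := ⟨j - 1, by omega⟩
  have hj0d : ϖ ^ j0 ∣ (x : O) - 1 := by
    have := Nat.find_min hex (m := j0) (by omega)
    push Not at this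
    exact this
  have hen' : e < j0 * (p - 1) := lt_of_lt_of_le hen (Nat.mul_le_mul_right _ (by omega))
  have h1 := dvd_pow_sub_one_sub hp hpe (n := j0) (by omega) hen' hj0d
  have hxp' : (x : O) ^ p = 1 := by rw [← Units.val_pow_eq_pow_val, hxp, Units.val_one]
  rw [hxp', sub_self, zero_sub, dvd_neg, hpe] at h1
  have h2 : ϖ ^ e * ϖ ^ (j0 + 1) ∣ ϖ ^ e * (u * ((x : O) - 1)) := by
    rw [← pow_add, ← mul_assoc]
    convert h1 using 2
    omega
  rw [mul_dvd_mul_iff_left (pow_ne_zero e hϖ0), hu.dvd_mul_left] at h2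
  rw [hj0] at hj1
  exact hj1 h2

/-- **Lemma D**: the `p`-th power map `U^(n) → U^(n+e)` is surjective (completeness). -/
theorem exists_pow_eq (hp : p.Prime) (hϖ : ϖ ∈ IsLocalRing.maximalIdeal O)
    (hpe : (p : O) = ϖ ^ e * u) (hu : IsUnit u)
    (hHaus : ∀ x : O, (∀ n, ϖ ^ n ∣ x) → x = 0)
    (hPrec : ∀ f : ℕ → O, (∀ k, ϖ ^ k ∣ f (k + 1) - f k) → ∃ L, ∀ k, ϖ ^ k ∣ L - f k)
    {n : ℕ} (hn : 1 ≤ n) (hen : e < n * (p - 1)) {y : Oˣ} (hy : y ∈ U ϖ (n + e)) :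
    ∃ x ∈ U ϖ n, x ^ p = y := by
  -- units congruent to 1
  have hunit : ∀ x : O, ϖ ^ n ∣ x - 1 → IsUnit x := by
    rintro x ⟨c, hc⟩
    have : x = 1 + ϖ * (ϖ ^ (n - 1) * c) := by
      have : ϖ ^ n = ϖ * ϖ ^ (n - 1) := by rw [← pow_succ']; congr 1; omega
      rw [← mul_assoc, ← this, ← hc]; ring
    rw [this]; exact isUnit_one_add_mul hϖ _
  let P : ℕ → O → Prop := fun k x => ϖ ^ n ∣ x - 1 ∧ ϖ ^ (n + e + k) ∣ (y : O) - x ^ p
  have step : ∀ k x, P k x → ∃ x', P (k + 1) x' ∧ ϖ ^ (n + k) ∣ x' - x := by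
    rintro k x ⟨hx1, c, hc⟩
    have hxu : IsUnit (x ^ p * u) := ((hunit x hx1).pow p).mul hu
    obtain ⟨w, hw⟩ := hxu.exists_right_inv
    -- d = c * w
    set a := ϖ ^ (n + k) * (c * w) with ha
    have hda : ϖ ^ (n + k) ∣ (1 + a) - 1 := ⟨c * w, by rw [ha]; ring⟩
    have hen' : e < (n + k) * (p - 1) :=
      lt_of_lt_of_le hen (Nat.mul_le_mul_right _ (by omega))
    have hr := dvd_pow_sub_one_sub hp hpe (n := n + k) (by omega) hen' hda
    refine ⟨x * (1 + a), ⟨?_, ?_⟩, ?_⟩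
    · have : x * (1 + a) - 1 = (x - 1) + x * a := by ring
      rw [this]
      exact dvd_add hx1 (Dvd.dvd.mul_left ⟨ϖ ^ k * (c * w), by rw [ha, pow_add]; ring⟩ _)
    · have : (y : O) - (x * (1 + a)) ^ p
          = -(x ^ p * ((1 + a) ^ p - 1 - p * ((1 + a) - 1))) := by
        have h3 : (y : O) = x ^ p + ϖ ^ (n + e + k) * c := by rw [← hc]; ring
        rw [h3, mul_pow, hpe, ha]
        have h4 : ϖ ^ (n + e + k) = ϖ ^ e * ϖ ^ (n + k) := by rw [← pow_add]; congr 1; omega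
        rw [h4]
        linear_combination (-(ϖ ^ e * ϖ ^ (n + k) * c)) * hw
      rw [this, dvd_neg]
      refine Dvd.dvd.mul_left ?_ _
      convert hr using 2
      omega
    · have : x * (1 + a) - x = x * a := by ring
      rw [this]
      exact Dvd.dvd.mul_left ⟨c * w, by rw [ha]⟩ _
  -- the sequence
  have hP0 : P 0 1 := by
    refine ⟨by simp, ?_⟩
    have := mem_U.mp hy
    simpa using this
  let g : (k : ℕ) → {x : O // P k x} := fun k =>
    Nat.rec (motive := fun k => {x : O // P k x}) ⟨1, hP0⟩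
      (fun k x => ⟨Classical.choose (step k x.1 x.2), (Classical.choose_spec (step k x.1 x.2)).1⟩) k
  have hg : ∀ k, ϖ ^ (n + k) ∣ (g (k + 1)).1 - (g k).1 := fun k =>
    (Classical.choose_spec (step k (g k).1 (g k).2)).2
  obtain ⟨L, hL⟩ := hPrec (fun k => (g k).1) (fun k => (pow_dvd_pow ϖ (by omega)).trans (hg k))
  have hL1 : ϖ ^ n ∣ L - 1 := by
    have : L - 1 = (L - (g n).1) + ((g n).1 - 1) := by ring
    rw [this]
    exact dvd_add (hL n) (g n).2.1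
  have hLp : (y : O) = L ^ p := by
    rw [← sub_eq_zero]
    apply hHaus
    intro k
    have : (y : O) - L ^ p = ((y : O) - (g k).1 ^ p) + ((g k).1 ^ p - L ^ p) := by ring
    rw [this]
    refine dvd_add ((pow_dvd_pow ϖ (by omega)).trans (g k).2.2) ?_
    have h5 : ϖ ^ k ∣ (g k).1 - L := by
      have := hL k
      rw [← dvd_neg] at this
      simpa using this
    exact h5.trans (sub_dvd_pow_sub_pow _ _ _)
  refine ⟨(hunit L hL1).unit, ?_, ?_⟩
  · rw [mem_U]; simpa using hL1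
  · apply Units.ext
    rw [Units.val_pow_eq_pow_val, IsUnit.unit_spec, hLp]

end PowerMap

section Main

variable {O : Type*} [CommRing O] [IsDomain O] [IsLocalRing O]
variable {ϖ : O} {p e : ℕ} {u : O}

theorem U_one_eq_ker (ϖ : O) :
    U ϖ 1 = (Units.map (Ideal.Quotient.mk (Ideal.span {ϖ})).toMonoidHom).ker := by
  ext x
  rw [mem_U, MonoidHom.mem_ker, Units.ext_iff, pow_one, ← Ideal.mem_span_singleton,
    ← Ideal.Quotient.eq]
  simp

theorem index_U_one_ne_zero (ϖ : O) [Finite (O ⧸ Ideal.span {ϖ})] : (U ϖ 1).index ≠ 0 := by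
  rw [U_one_eq_ker, Subgroup.index_ker]
  exact Nat.card_pos.ne'

theorem index_U_succ (hϖ0 : ϖ ≠ 0) (hϖ : ϖ ∈ IsLocalRing.maximalIdeal O) (n : ℕ) :
    (U ϖ (n + 1)).index = Nat.card (O ⧸ Ideal.span {ϖ}) ^ n * (U ϖ 1).index := by
  have h := relIndex_add hϖ0 hϖ 0 n
  rw [show 0 + 1 + n = n + 1 by omega, show 0 + 1 = 1 from rfl] at h
  rw [← h, Subgroup.relIndex_mul_index (U_anti ϖ (by omega))]

theorem index_U_ne_zero (hϖ0 : ϖ ≠ 0) (hϖ : ϖ ∈ IsLocalRing.maximalIdeal O)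
    [Finite (O ⧸ Ideal.span {ϖ})] (n : ℕ) : (U ϖ n).index ≠ 0 := by
  rcases n with _ | n
  · rw [U_zero]; simp
  · rw [index_U_succ hϖ0 hϖ]
    exact mul_ne_zero (pow_ne_zero _ Nat.card_pos.ne') (index_U_one_ne_zero ϖ)

/-- `(U^(n))^p = U^(n+e)` for `n ≥ 1`, `n(p-1) > e`. -/
theorem map_pow_U (hp : p.Prime) (hϖ : ϖ ∈ IsLocalRing.maximalIdeal O)
    (hpe : (p : O) = ϖ ^ e * u) (hu : IsUnit u)
    (hHaus : ∀ x : O, (∀ n, ϖ ^ n ∣ x) → x = 0)
    (hPrec : ∀ f : ℕ → O, (∀ k, ϖ ^ k ∣ f (k + 1) - f k) → ∃ L, ∀ k, ϖ ^ k ∣ L - f k)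
    {n : ℕ} (hn : 1 ≤ n) (hen : e < n * (p - 1)) :
    (U ϖ n).map (powMonoidHom p : Oˣ →* Oˣ) = U ϖ (n + e) := by
  ext y
  constructor
  · rintro ⟨x, hx, rfl⟩
    exact pow_mem_U hp hpe hn hen hx
  · intro hy
    obtain ⟨x, hx, rfl⟩ := exists_pow_eq hp hϖ hpe hu hHaus hPrec hn hen hy
    exact ⟨x, hx, rfl⟩

/-- `U^(n+e) ⊆ (Oˣ)^p`. -/
theorem U_le_range_pow (hp : p.Prime) (hϖ : ϖ ∈ IsLocalRing.maximalIdeal O)
    (hpe : (p : O) = ϖ ^ e * u) (hu : IsUnit u)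
    (hHaus : ∀ x : O, (∀ n, ϖ ^ n ∣ x) → x = 0)
    (hPrec : ∀ f : ℕ → O, (∀ k, ϖ ^ k ∣ f (k + 1) - f k) → ∃ L, ∀ k, ϖ ^ k ∣ L - f k)
    {n : ℕ} (hn : 1 ≤ n) (hen : e < n * (p - 1)) :
    U ϖ (n + e) ≤ (powMonoidHom p : Oˣ →* Oˣ).range := by
  rw [← map_pow_U hp hϖ hpe hu hHaus hPrec hn hen, MonoidHom.range_eq_map]
  exact Subgroup.map_mono le_top

theorem U_inf_ker_pow (hp : p.Prime) (hϖ0 : ϖ ≠ 0) (hpe : (p : O) = ϖ ^ e * u)
    (hu : IsUnit u) (hHaus : ∀ x : O, (∀ n, ϖ ^ n ∣ x) → x = 0) {n : ℕ} (hn : 1 ≤ n)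
    (hen : e < n * (p - 1)) : U ϖ n ⊓ (powMonoidHom p : Oˣ →* Oˣ).ker = ⊥ := by
  rw [eq_bot_iff]
  rintro x ⟨hx, hxp⟩
  rw [Subgroup.mem_bot]
  exact eq_one_of_pow_eq_one hp hϖ0 hpe hu hHaus hn hen hx hxp

/-- **Main theorem**: `[Oˣ : (Oˣ)^p] = q^e * |μ_p(O)|`. -/
theorem index_range_pow (hp : p.Prime) (hϖ0 : ϖ ≠ 0) (hϖ : ϖ ∈ IsLocalRing.maximalIdeal O)
    (hpe : (p : O) = ϖ ^ e * u) (hu : IsUnit u)
    (hHaus : ∀ x : O, (∀ n, ϖ ^ n ∣ x) → x = 0)
    (hPrec : ∀ f : ℕ → O, (∀ k, ϖ ^ k ∣ f (k + 1) - f k) → ∃ L, ∀ k, ϖ ^ k ∣ L - f k)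
    [Finite (O ⧸ Ideal.span {ϖ})] :
    (powMonoidHom p : Oˣ →* Oˣ).range.index =
      Nat.card (O ⧸ Ideal.span {ϖ}) ^ e * Nat.card (powMonoidHom p : Oˣ →* Oˣ).ker := by
  set f : Oˣ →* Oˣ := powMonoidHom p with hf
  set n := e + 1 with hn
  have hn1 : 1 ≤ n := by omega
  have hen : e < n * (p - 1) := by
    have : 1 ≤ p - 1 := by have := hp.two_le; omega
    nlinarith
  have hmap := map_pow_U hp hϖ hpe hu hHaus hPrec hn1 hen
  have hker := U_inf_ker_pow hp hϖ0 hpe hu hHaus hn1 hen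
  have hle := U_le_range_pow hp hϖ hpe hu hHaus hPrec hn1 hen
  -- (1)
  have h1 := relIndex_eq_map_mul_ker f (le_top : U ϖ n ≤ ⊤)
  rw [Subgroup.relIndex_top_right, hmap, ← MonoidHom.range_eq_map, hker, top_inf_eq,
    Subgroup.relIndex_bot_left] at h1
  -- (2)
  have h2 := Subgroup.relIndex_mul_index hle
  -- (3)
  have h3 : (U ϖ (n + e)).index = Nat.card (O ⧸ Ideal.span {ϖ}) ^ e * (U ϖ n).index := by
    rw [← Subgroup.relIndex_mul_index (U_anti ϖ (by omega) : U ϖ (n + e) ≤ U ϖ n)]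
    congr 1
    have := relIndex_add hϖ0 hϖ e e
    exact this
  have hne : (U ϖ (n + e)).relIndex f.range ≠ 0 := by
    intro h0
    rw [h0, zero_mul] at h2
    exact index_U_ne_zero hϖ0 hϖ (n + e) h2.symm
  have : (U ϖ (n + e)).relIndex f.range * f.range.index =
      (U ϖ (n + e)).relIndex f.range *
        (Nat.card (O ⧸ Ideal.span {ϖ}) ^ e * Nat.card f.ker) := by
    rw [h2, h3, h1]; ring
  exact Nat.eq_of_mul_eq_mul_left (Nat.pos_of_ne_zero hne) this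

end Main

section Adic

variable {O : Type*} [CommRing O]

theorem mem_span_pow_iff (ϖ : O) (n : ℕ) (x : O) :
    x ∈ (Ideal.span {ϖ} ^ n • ⊤ : Submodule O O) ↔ ϖ ^ n ∣ x := by
  rw [smul_eq_mul, Ideal.mul_top, Ideal.span_singleton_pow, Ideal.mem_span_singleton]

theorem haus_of_isHausdorff (ϖ : O) [IsHausdorff (Ideal.span {ϖ}) O] :
    ∀ x : O, (∀ n, ϖ ^ n ∣ x) → x = 0 := by
  intro x hx
  apply IsHausdorff.haus (I := Ideal.span {ϖ}) ‹_› x
  intro n
  rw [SModEq.sub_mem, sub_zero, mem_span_pow_iff]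
  exact hx n

theorem prec_of_isPrecomplete (ϖ : O) [IsPrecomplete (Ideal.span {ϖ}) O] :
    ∀ f : ℕ → O, (∀ k, ϖ ^ k ∣ f (k + 1) - f k) → ∃ L, ∀ k, ϖ ^ k ∣ L - f k := by
  intro f hf
  have hmono : ∀ m n, m ≤ n → ϖ ^ m ∣ f n - f m := by
    intro m n hmn
    induction n, hmn using Nat.le_induction with
    | base => simp
    | succ n hmn ih =>
      have : f (n + 1) - f m = (f (n + 1) - f n) + (f n - f m) := by ring
      rw [this]
      exact dvd_add ((pow_dvd_pow ϖ hmn).trans (hf n)) ih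
  obtain ⟨L, hL⟩ := IsPrecomplete.prec (I := Ideal.span {ϖ}) ‹_› (f := f) (by
    intro m n hmn
    rw [SModEq.sub_mem, mem_span_pow_iff, ← dvd_neg, neg_sub]
    exact hmono m n hmn)
  refine ⟨L, fun k => ?_⟩
  have := hL k
  rw [SModEq.sub_mem, mem_span_pow_iff, ← dvd_neg, neg_sub] at this
  exact this

end Adic

section AdicMain

variable {O : Type*} [CommRing O] [IsDomain O] [IsLocalRing O]

/-- **Main theorem, `IsAdicComplete` form.** -/
theorem index_range_pow_of_isAdicComplete {ϖ : O} {p e : ℕ} {u : O} (hp : p.Prime) (hϖ0 : ϖ ≠ 0)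
    (hϖ : ϖ ∈ IsLocalRing.maximalIdeal O) (hpe : (p : O) = ϖ ^ e * u) (hu : IsUnit u)
    [IsAdicComplete (Ideal.span {ϖ}) O] [Finite (O ⧸ Ideal.span {ϖ})] :
    (powMonoidHom p : Oˣ →* Oˣ).range.index =
      Nat.card (O ⧸ Ideal.span {ϖ}) ^ e * Nat.card (powMonoidHom p : Oˣ →* Oˣ).ker :=
  index_range_pow hp hϖ0 hϖ hpe hu (haus_of_isHausdorff ϖ) (prec_of_isPrecomplete ϖ)

end AdicMain

section DVR

variable {O : Type*} [CommRing O] [IsDomain O] [IsDiscreteValuationRing O]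

/-- **Main theorem for a complete discrete valuation ring with finite residue field**:
`[Oˣ : (Oˣ)^p] = q^e * |μ_p(O)|`, where `p = u ϖ^e`. -/
theorem index_range_pow_dvr {ϖ : O} (hϖ : Irreducible ϖ) {p e : ℕ} {u : O} (hp : p.Prime)
    (hpe : (p : O) = ϖ ^ e * u) (hu : IsUnit u)
    [IsAdicComplete (IsLocalRing.maximalIdeal O) O] [Finite (IsLocalRing.ResidueField O)] :
    (powMonoidHom p : Oˣ →* Oˣ).range.index =
      Nat.card (IsLocalRing.ResidueField O) ^ e * Nat.card (powMonoidHom p : Oˣ →* Oˣ).ker := by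
  have hm : IsLocalRing.maximalIdeal O = Ideal.span {ϖ} := hϖ.maximalIdeal_eq
  have : IsAdicComplete (Ideal.span {ϖ}) O := hm ▸ ‹IsAdicComplete (IsLocalRing.maximalIdeal O) O›
  have : Finite (O ⧸ Ideal.span {ϖ}) := by
    rw [← hm]; exact ‹Finite (IsLocalRing.ResidueField O)›
  have hcard : Nat.card (O ⧸ Ideal.span {ϖ}) = Nat.card (IsLocalRing.ResidueField O) := by
    rw [← hm]; rfl
  rw [← hcard]
  refine index_range_pow_of_isAdicComplete hp hϖ.ne_zero ?_ hpe hu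
  rw [hm]; exact Ideal.mem_span_singleton_self ϖ

/-- existence of the decomposition `p = u ϖ^e` in a DVR of characteristic zero. -/
theorem exists_pow_mul_unit {ϖ : O} (hϖ : Irreducible ϖ) {p : ℕ} (hp0 : (p : O) ≠ 0) :
    ∃ (e : ℕ) (u : O), IsUnit u ∧ (p : O) = ϖ ^ e * u := by
  obtain ⟨e, u, hu⟩ := IsDiscreteValuationRing.eq_unit_mul_pow_irreducible hp0 hϖ
  exact ⟨e, u, u.isUnit, by rw [hu]; ring⟩

end DVR

section Valuation

variable {G : Type*} [CommGroup G]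

/-- Abstract local datum: for `v : G →* Multiplicative ℤ` surjective,
`[G : G^p] = p * [ker v : (ker v)^p]`. -/
theorem index_range_pow_of_valuation (v : G →* Multiplicative ℤ) (hv : Function.Surjective v)
    {p : ℕ} (hp : 0 < p) :
    (powMonoidHom p : G →* G).range.index =
      p * (v.ker.map (powMonoidHom p : G →* G)).relIndex v.ker := by
  set f : G →* G := powMonoidHom p with hf
  have h1 := relIndex_eq_map_mul_ker v (le_top : f.range ≤ ⊤)
  rw [Subgroup.relIndex_top_right, top_inf_eq, ← MonoidHom.range_eq_map,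
    MonoidHom.range_eq_top.mpr hv, Subgroup.relIndex_top_right] at h1
  -- v (G^p) = (Multiplicative ℤ)^p
  have h2 : f.range.map v = (powMonoidHom p : Multiplicative ℤ →* Multiplicative ℤ).range := by
    ext z
    constructor
    · rintro ⟨_, ⟨x, rfl⟩, rfl⟩
      exact ⟨v x, by simp [hf]⟩
    · rintro ⟨w, rfl⟩
      obtain ⟨x, rfl⟩ := hv w
      exact ⟨x ^ p, ⟨x, rfl⟩, by simp⟩
  have h3 : (powMonoidHom p : Multiplicative ℤ →* Multiplicative ℤ).range.index = p := by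
    have : (powMonoidHom p : Multiplicative ℤ →* Multiplicative ℤ).range =
        AddSubgroup.toSubgroup (AddSubgroup.zmultiples (p : ℤ)) := by
      ext z
      rw [MonoidHom.mem_range]
      change _ ↔ Multiplicative.toAdd z ∈ AddSubgroup.zmultiples (p : ℤ)
      rw [AddSubgroup.mem_zmultiples_iff]
      constructor
      · rintro ⟨w, rfl⟩
        exact ⟨Multiplicative.toAdd w, by simp [mul_comm]⟩
      · rintro ⟨k, hk⟩
        exact ⟨Multiplicative.ofAdd k, Multiplicative.toAdd.injective (by simp [← hk, mul_comm])⟩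
    rw [this, AddSubgroup.index_toSubgroup, Int.index_zmultiples]
    simp
  have h4 : f.range ⊓ v.ker = v.ker.map f := by
    ext x
    simp only [Subgroup.mem_inf, MonoidHom.mem_range, MonoidHom.mem_ker, Subgroup.mem_map]
    constructor
    · rintro ⟨⟨y, rfl⟩, hx⟩
      refine ⟨y, ?_, rfl⟩
      have : (v y) ^ p = 1 := by simpa [hf] using hx
      have h5 : p • Multiplicative.toAdd (v y) = 0 := by
        have := congrArg Multiplicative.toAdd this
        simpa using this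
      have h6 : Multiplicative.toAdd (v y) = 0 := by
        rcases smul_eq_zero.mp h5 with h | h
        · omega
        · exact h
      exact Multiplicative.toAdd.injective h6
    · rintro ⟨y, hy, rfl⟩
      exact ⟨⟨y, rfl⟩, by simp [hf, hy]⟩
  rw [h1, h2, h3, h4]

end Valuation

end Fermat.Agent.S55.Local.PowerIndex
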