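/-
S55 / Local block — proof of the closed Prop `Local.Blocks.PowIndex` (helper62):
for a nonarchimedean local field `K` of characteristic zero (LF setting of `Local/Basic.lean`) and a
prime `p`,  `[Kˣ : Kˣᵖ] = p · #μ_p(K) · [𝒪 : p𝒪]`.

Glue of the abstract theorem `Local/PowerIndex.lean` (`index_range_pow`,
`index_range_pow_of_valuation`) with `Local/Basic.lean` (`𝒪[K]` complete DVR with finite residue
field, `ordHom`).  Also exported: `dvd_iff_norm_le` (`ϖ^n ∣ x ↔ ‖x‖ ≤ ‖ϖ‖^n` in `𝒪[K]`),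
`haus`, `prec` (ϖ-adic separatedness / completeness of `𝒪[K]` in divisibility form),
`ι : 𝒪[K]ˣ →* Kˣ` with `range_ι : (ι K).range = (ordHom K).ker`, `card_ker_pow`,
`relIndex_normBall_pow : [𝒪 : ϖ^e 𝒪] = q^e`, `units_index`.
-/
import Mathlib
import Fermat.Agent.S55.Local.Basic
import Fermat.Agent.S55.Local.Blocks
import Fermat.Agent.S55.Local.PowerIndex

set_option autoImplicit false
set_option linter.unusedSectionVars false

open scoped NormedField NNReal
open Valued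

namespace Fermat.Agent.S55.Local.PowIndexProof

open Fermat.Agent.S55.Local Fermat.Agent.S55.Local.PowerIndex Fermat.Agent.S55.Local.Blocks

variable (K : Type) [NontriviallyNormedField K] [IsUltrametricDist K] [ProperSpace K]

theorem norm_int_le_one (x : 𝒪[K]) : ‖(x : K)‖ ≤ 1 := Valued.integer.mem_iff.mp x.2

variable {K}

theorem dvd_iff_norm_le {ϖ : 𝒪[K]} (hϖ : Irreducible ϖ) (n : ℕ) (x : 𝒪[K]) :
    ϖ ^ n ∣ x ↔ ‖(x : K)‖ ≤ ‖(ϖ : K)‖ ^ n := by
  have h0 : 0 < ‖(ϖ : K)‖ := Valued.integer.norm_irreducible_pos hϖ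
  constructor
  · rintro ⟨c, rfl⟩
    rw [Subring.coe_mul, norm_mul, SubmonoidClass.coe_pow, norm_pow]
    exact mul_le_of_le_one_right (by positivity) (norm_int_le_one K c)
  · intro h
    have hne : (ϖ : K) ^ n ≠ 0 := pow_ne_zero _ (norm_pos_iff.mp h0)
    have hc : (x : K) / (ϖ : K) ^ n ∈ 𝒪[K] := by
      rw [Valued.integer.mem_iff, norm_div, norm_pow]
      exact div_le_one_of_le₀ h (by positivity)
    refine ⟨⟨_, hc⟩, ?_⟩
    apply Subtype.ext
    rw [Subring.coe_mul, SubmonoidClass.coe_pow]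
    field_simp

variable {K : Type} [NontriviallyNormedField K] [IsUltrametricDist K] [ProperSpace K]

theorem haus {ϖ : 𝒪[K]} (hϖ : Irreducible ϖ) : ∀ x : 𝒪[K], (∀ n, ϖ ^ n ∣ x) → x = 0 := by
  intro x hx
  have h0 : 0 < ‖(ϖ : K)‖ := Valued.integer.norm_irreducible_pos hϖ
  have h1 : ‖(ϖ : K)‖ < 1 := Valued.integer.norm_irreducible_lt_one hϖ
  have hle : ∀ n : ℕ, ‖(x : K)‖ ≤ ‖(ϖ : K)‖ ^ n := fun n => (dvd_iff_norm_le hϖ n x).mp (hx n)
  have hlim : Filter.Tendsto (fun n : ℕ => ‖(ϖ : K)‖ ^ n) Filter.atTop (nhds 0) :=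
    tendsto_pow_atTop_nhds_zero_of_lt_one h0.le h1
  have : ‖(x : K)‖ ≤ 0 := ge_of_tendsto' hlim hle
  have : (x : K) = 0 := norm_le_zero_iff.mp this
  exact Subtype.ext this

theorem prec {ϖ : 𝒪[K]} (hϖ : Irreducible ϖ) :
    ∀ f : ℕ → 𝒪[K], (∀ k, ϖ ^ k ∣ f (k + 1) - f k) → ∃ L, ∀ k, ϖ ^ k ∣ L - f k := by
  intro f hf
  have h0 : 0 < ‖(ϖ : K)‖ := Valued.integer.norm_irreducible_pos hϖ
  have h1 : ‖(ϖ : K)‖ < 1 := Valued.integer.norm_irreducible_lt_one hϖ
  set r := ‖(ϖ : K)‖ with hr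
  have hstep : ∀ k, ‖((f (k + 1) : K)) - (f k : K)‖ ≤ r ^ k := by
    intro k
    have := (dvd_iff_norm_le hϖ k _).mp (hf k)
    simpa using this
  -- ultrametric: ‖f m - f k‖ ≤ r^k for m ≥ k
  have hmono : ∀ k m, k ≤ m → ‖((f m : K)) - (f k : K)‖ ≤ r ^ k := by
    intro k m hkm
    induction m, hkm using Nat.le_induction with
    | base => simp; positivity
    | succ m hkm ih =>
      have : ((f (m + 1) : K)) - (f k : K) = ((f (m + 1) : K) - (f m : K)) + ((f m : K) - (f k : K)) := by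
        ring
      rw [this]
      refine (IsUltrametricDist.norm_add_le_max _ _).trans (max_le ?_ ih)
      exact (hstep m).trans (pow_le_pow_of_le_one h0.le h1.le hkm)
  have hcau : CauchySeq (fun k => (f k : K)) := by
    apply cauchySeq_of_le_geometric r 1 h1
    intro k
    rw [dist_eq_norm, one_mul, ← norm_neg, neg_sub]
    exact hstep k
  obtain ⟨L, hL⟩ := cauchySeq_tendsto_of_complete hcau
  have hLk : ∀ k, ‖L - (f k : K)‖ ≤ r ^ k := by
    intro k
    have : Filter.Tendsto (fun m => ‖(f m : K) - (f k : K)‖) Filter.atTop (nhds ‖L - (f k : K)‖) :=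
      ((hL.sub_const _).norm)
    refine le_of_tendsto this ?_
    filter_upwards [Filter.eventually_ge_atTop k] with m hm
    exact hmono k m hm
  have hLO : L ∈ 𝒪[K] := by
    rw [Valued.integer.mem_iff]
    have h := hLk 0
    have : L = (L - (f 0 : K)) + (f 0 : K) := by ring
    rw [this]
    refine (IsUltrametricDist.norm_add_le_max _ _).trans (max_le ?_ (norm_int_le_one K _))
    simpa using h
  refine ⟨⟨L, hLO⟩, fun k => ?_⟩
  rw [dvd_iff_norm_le hϖ]
  simpa using hLk k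

variable {K : Type} [NontriviallyNormedField K] [IsUltrametricDist K] [ProperSpace K]

/-- Step 3: the abstract theorem for `𝒪[K]`. -/
theorem units_index [CharZero K] {ϖ : 𝒪[K]} (hϖ : Irreducible ϖ) {p : ℕ} (hp : p.Prime) :
    ∃ (e : ℕ), ‖(p : K)‖ = ‖(ϖ : K)‖ ^ e ∧
    (powMonoidHom p : 𝒪[K]ˣ →* 𝒪[K]ˣ).range.index =
      Nat.card (𝒪[K] ⧸ Ideal.span {ϖ}) ^ e * Nat.card (powMonoidHom p : 𝒪[K]ˣ →* 𝒪[K]ˣ).ker := by
  have hp0 : ((p : ℕ) : 𝒪[K]) ≠ 0 := by
    intro h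
    have := congrArg (Subtype.val : 𝒪[K] → K) h
    simp only [SubringClass.coe_natCast, ZeroMemClass.coe_zero, Nat.cast_eq_zero] at this
    exact hp.ne_zero this
  obtain ⟨e, u, hu'⟩ := IsDiscreteValuationRing.eq_unit_mul_pow_irreducible hp0 hϖ
  have hpe : ((p : ℕ) : 𝒪[K]) = ϖ ^ e * (u : 𝒪[K]) := by rw [hu', mul_comm]
  have hu : IsUnit (u : 𝒪[K]) := u.isUnit
  have hm : IsLocalRing.maximalIdeal 𝒪[K] = Ideal.span {ϖ} := hϖ.maximalIdeal_eq
  have hfin : Finite (𝒪[K] ⧸ Ideal.span {ϖ}) := by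
    rw [← hm]; exact (inferInstance : Finite 𝓀[K])
  have hmem : ϖ ∈ IsLocalRing.maximalIdeal 𝒪[K] := by
    rw [hm]; exact Ideal.mem_span_singleton_self ϖ
  refine ⟨e, ?_, index_range_pow hp hϖ.ne_zero hmem hpe hu (haus hϖ) (prec hϖ)⟩
  have := congrArg (fun y : 𝒪[K] => ‖(y : K)‖) hpe
  simp only [SubringClass.coe_natCast, Subring.coe_mul, SubmonoidClass.coe_pow, norm_mul,
    norm_pow] at this
  rw [this, Valued.integer.norm_coe_unit u, mul_one]

variable (K : Type) [NontriviallyNormedField K] [IsUltrametricDist K] [ProperSpace K]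

/-- the inclusion `𝒪[K]ˣ → Kˣ`. -/
noncomputable def ι : 𝒪[K]ˣ →* Kˣ := Units.map ((𝒪[K]).subtype : 𝒪[K] →* K)

theorem ι_injective : Function.Injective (ι K) :=
  Units.map_injective (f := ((𝒪[K]).subtype : 𝒪[K] →* K)) Subtype.val_injective

@[simp] theorem ι_val (u : 𝒪[K]ˣ) : ((ι K u : Kˣ) : K) = ((u : 𝒪[K]) : K) := rfl

theorem exists_of_norm_eq_one (x : Kˣ) (hx : ‖(x : K)‖ = 1) : ∃ u : 𝒪[K]ˣ, ι K u = x := by
  have h1 : (x : K) ∈ 𝒪[K] := Valued.integer.mem_iff.mpr hx.le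
  have h2 : ((x⁻¹ : Kˣ) : K) ∈ 𝒪[K] := by
    rw [Valued.integer.mem_iff, Units.val_inv_eq_inv_val, norm_inv, hx, inv_one]
  refine ⟨⟨⟨x, h1⟩, ⟨_, h2⟩, ?_, ?_⟩, ?_⟩
  · apply Subtype.ext; simp
  · apply Subtype.ext; simp
  · apply Units.ext; rfl

theorem range_ι : (ι K).range = (ordHom K).ker := by
  ext x
  rw [MonoidHom.mem_ker, ordHom_eq_one_iff]
  constructor
  · rintro ⟨u, rfl⟩
    rw [ι_val]; exact Valued.integer.norm_coe_unit u
  · intro hx
    exact exists_of_norm_eq_one K x hx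

/-- Step 4. -/
theorem relIndex_ker_ordHom (p : ℕ) :
    ((ordHom K).ker.map (powMonoidHom p : Kˣ →* Kˣ)).relIndex (ordHom K).ker =
      (powMonoidHom p : 𝒪[K]ˣ →* 𝒪[K]ˣ).range.index := by
  rw [← range_ι, MonoidHom.range_eq_map (ι K), ← Subgroup.relIndex_top_right,
    ← Subgroup.relIndex_map_map_of_injective _ _ (ι_injective K)]
  congr 1
  rw [MonoidHom.range_eq_map, Subgroup.map_map, Subgroup.map_map]
  congr 1

/-- Step 5. -/
theorem card_ker_pow {p : ℕ} (hpos : 0 < p) :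
    Nat.card (powMonoidHom p : 𝒪[K]ˣ →* 𝒪[K]ˣ).ker = Nat.card (rootsOfUnity p K) := by
  have : rootsOfUnity p K = (powMonoidHom p : 𝒪[K]ˣ →* 𝒪[K]ˣ).ker.map (ι K) := by
    ext ζ
    rw [mem_rootsOfUnity, Subgroup.mem_map]
    constructor
    · intro hζ
      have hn : ‖(ζ : K)‖ = 1 := by
        have : ‖(ζ : K)‖ ^ p = 1 := by
          rw [← norm_pow, ← Units.val_pow_eq_pow_val, hζ, Units.val_one, norm_one]
        exact (pow_eq_one_iff_of_nonneg (norm_nonneg _) hpos.ne').mp this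
      obtain ⟨u, rfl⟩ := exists_of_norm_eq_one K ζ hn
      refine ⟨u, ?_, rfl⟩
      rw [MonoidHom.mem_ker, powMonoidHom_apply]
      apply ι_injective K
      rw [map_pow, hζ, map_one]
    · rintro ⟨u, hu, rfl⟩
      rw [MonoidHom.mem_ker, powMonoidHom_apply] at hu
      rw [← map_pow, hu, map_one]
  rw [this]
  exact Nat.card_congr (Subgroup.equivMapOfInjective _ (ι K) (ι_injective K)).toEquiv

variable (K : Type) [NontriviallyNormedField K] [IsUltrametricDist K] [ProperSpace K]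

theorem mem_normBall {a x : K} : x ∈ normBall K a ↔ ‖x‖ ≤ ‖a‖ := Iff.rfl

theorem normBall_congr {a b : K} (h : ‖a‖ = ‖b‖) : normBall K a = normBall K b := by
  ext x; rw [mem_normBall, mem_normBall, h]

theorem normBall_anti {a b : K} (h : ‖a‖ ≤ ‖b‖) : normBall K a ≤ normBall K b :=
  fun _ hx => le_trans hx h

theorem map_mulLeft_normBall {c : K} (hc : c ≠ 0) (a : K) :
    (normBall K a).map (AddMonoidHom.mulLeft c) = normBall K (c * a) := by
  ext x
  rw [AddSubgroup.mem_map, mem_normBall]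
  constructor
  · rintro ⟨y, hy, rfl⟩
    rw [AddMonoidHom.coe_mulLeft, norm_mul, norm_mul]
    exact mul_le_mul_of_nonneg_left hy (norm_nonneg _)
  · intro hx
    refine ⟨c⁻¹ * x, ?_, by simp [hc]⟩
    rw [mem_normBall, norm_mul, norm_inv]
    rw [norm_mul] at hx
    have hc' : 0 < ‖c‖ := norm_pos_iff.mpr hc
    rw [inv_mul_le_iff₀ hc']
    exact hx

/-- the inclusion of the integers as an additive hom. -/
noncomputable def incl : 𝒪[K] →+ K := (𝒪[K]).subtype.toAddMonoidHom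

theorem incl_injective : Function.Injective (incl K) := Subtype.val_injective

theorem map_incl_top : (⊤ : AddSubgroup 𝒪[K]).map (incl K) = normBall K 1 := by
  ext x
  rw [AddSubgroup.mem_map, mem_normBall, norm_one]
  constructor
  · rintro ⟨y, -, rfl⟩
    exact norm_int_le_one K y
  · intro hx
    exact ⟨⟨x, Valued.integer.mem_iff.mpr hx⟩, trivial, rfl⟩

variable {K}

theorem map_incl_span {ϖ : 𝒪[K]} (hϖ : Irreducible ϖ) :
    (Ideal.span {ϖ} : Ideal 𝒪[K]).toAddSubgroup.map (incl K) = normBall K (ϖ : K) := by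
  ext x
  rw [AddSubgroup.mem_map, mem_normBall]
  constructor
  · rintro ⟨y, hy, rfl⟩
    rw [Submodule.mem_toAddSubgroup, Ideal.mem_span_singleton] at hy
    have := (dvd_iff_norm_le hϖ 1 y).mp (by simpa using hy)
    rw [pow_one] at this
    exact this
  · intro hx
    have h1 : ‖(ϖ : K)‖ < 1 := Valued.integer.norm_irreducible_lt_one hϖ
    have hxO : x ∈ 𝒪[K] := Valued.integer.mem_iff.mpr (hx.trans h1.le)
    refine ⟨⟨x, hxO⟩, ?_, rfl⟩
    rw [Submodule.mem_toAddSubgroup, Ideal.mem_span_singleton]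
    have := (dvd_iff_norm_le hϖ 1 ⟨x, hxO⟩).mpr (by simpa using hx)
    simpa using this

theorem relIndex_normBall_unif {ϖ : 𝒪[K]} (hϖ : Irreducible ϖ) :
    (normBall K (ϖ : K)).relIndex (normBall K 1) = Nat.card (𝒪[K] ⧸ Ideal.span {ϖ}) := by
  rw [← map_incl_span hϖ, ← map_incl_top,
    AddSubgroup.relIndex_map_map_of_injective _ _ (incl_injective K),
    AddSubgroup.relIndex_top_right]
  rfl

theorem relIndex_normBall_succ {ϖ : 𝒪[K]} (hϖ : Irreducible ϖ) (n : ℕ) :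
    (normBall K ((ϖ : K) ^ (n + 1))).relIndex (normBall K ((ϖ : K) ^ n)) =
      Nat.card (𝒪[K] ⧸ Ideal.span {ϖ}) := by
  have h0 : (ϖ : K) ≠ 0 := norm_pos_iff.mp (Valued.integer.norm_irreducible_pos hϖ)
  have hc : (ϖ : K) ^ n ≠ 0 := pow_ne_zero _ h0
  have e1 := map_mulLeft_normBall K hc (ϖ : K)
  have e2 := map_mulLeft_normBall K hc (1 : K)
  rw [← pow_succ] at e1
  rw [mul_one] at e2
  rw [← e1, ← e2, AddSubgroup.relIndex_map_map_of_injective _ _
    (fun a b h => mul_left_cancel₀ hc h), relIndex_normBall_unif hϖ]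

theorem relIndex_normBall_pow {ϖ : 𝒪[K]} (hϖ : Irreducible ϖ) (e : ℕ) :
    (normBall K ((ϖ : K) ^ e)).relIndex (normBall K 1) =
      Nat.card (𝒪[K] ⧸ Ideal.span {ϖ}) ^ e := by
  have h1 : ‖(ϖ : K)‖ < 1 := Valued.integer.norm_irreducible_lt_one hϖ
  induction e with
  | zero => simp
  | succ e ih =>
    have hle1 : normBall K ((ϖ : K) ^ (e + 1)) ≤ normBall K ((ϖ : K) ^ e) := by
      apply normBall_anti
      rw [norm_pow, norm_pow]
      exact pow_le_pow_of_le_one (norm_nonneg _) h1.le (Nat.le_succ e)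
    have hle2 : normBall K ((ϖ : K) ^ e) ≤ normBall K 1 := by
      apply normBall_anti
      rw [norm_pow, norm_one]
      exact pow_le_one₀ (norm_nonneg _) h1.le
    rw [← AddSubgroup.relIndex_mul_relIndex _ _ _ hle1 hle2, relIndex_normBall_succ hϖ, ih,
      pow_succ, mul_comm]

/-- **The block `Local.Blocks.PowIndex`.** -/
theorem powIndex : PowIndex := by
  intro K _ _ _ _ p hpF
  have hp : p.Prime := hpF.out
  obtain ⟨ϖ, hϖ⟩ := IsDiscreteValuationRing.exists_irreducible 𝒪[K]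
  obtain ⟨e, hnorm, hidx⟩ := units_index (K := K) hϖ hp
  rw [index_range_pow_of_valuation (ordHom K) (ordHom_surjective K) hp.pos,
    relIndex_ker_ordHom K p, hidx, card_ker_pow K hp.pos,
    normBall_congr K (a := (p : K)) (b := (ϖ : K) ^ e) (by rw [hnorm, norm_pow]),
    relIndex_normBall_pow hϖ e]
  ring

end Fermat.Agent.S55.Local.PowIndexProof
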