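import Mathlib
import Fermat.Agent.S55.Local.Reduction2
import Fermat.Agent.S55.Local.PowIndexProof
import Fermat.Agent.S55.Local.LocalDegreeIndex
import Fermat.Agent.S55.Global.FiniteExtLF

/-!
# S55 / Local: the exports of the Local block in purely algebraic form

The Local block (`Local/Blocks.lean`, `Local/Reduction2.lean`) is stated for *normed* local fields
(LF).  The objects of the `ℚ`-based global interface (`Kloc K q 𝔪`, the residue fields of
`L ⊗[K] Kloc K q 𝔪`, …) are plain fields, finite over `ℚ_[q]`, with no norm.  Here the exports are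
restated for

  `(q : ℕ) [Fact q.Prime] (F E : Type) [Field F] [Algebra ℚ_[q] F] [FiniteDimensional ℚ_[q] F]`
  `[Field E] [Algebra F E] [FiniteDimensional F E] [IsGalois F E]`

with no norm in any statement.  Proof: install the spectral norms (`Global/FiniteExtLF.lean`) on
`F` (over `ℚ_[q]`) and on `E` (over `F`) and apply the normed statement.
-/

set_option autoImplicit false
set_option linter.unusedSectionVars false
set_option linter.style.haveILetI false

namespace Fermat.Agent.S55.Local.AlgLF

open groupCohomology Fermat.Agent.S55.Local Fermat.Agent.S55.Global.FiniteExtLF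

variable (q : ℕ) [Fact q.Prime]
variable (F E : Type) [Field F] [Algebra ℚ_[q] F] [FiniteDimensional ℚ_[q] F]
  [Field E] [Algebra F E] [FiniteDimensional F E] [IsGalois F E]

include q

/-- Transfer principle: a statement `P K E` about all finite Galois extensions of (LF) fields
holds for finite Galois extensions of fields finite over `ℚ_[q]`.  (All the theorems below are
instances; use this one for any further closed `Prop` of the same shape.) -/
theorem transfer
    {P : ∀ (K E : Type) [Field K] [Field E] [Algebra K E], Prop}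
    (h : ∀ (K E : Type) [NontriviallyNormedField K] [IsUltrametricDist K] [ProperSpace K]
      [NontriviallyNormedField E] [IsUltrametricDist E] [ProperSpace E]
      [NormedAlgebra K E] [FiniteDimensional K E] [IsGalois K E], P K E) :
    P F E := by
  letI := nontriviallyNormedFieldExt ℚ_[q] F
  haveI := isUltrametricDistExt ℚ_[q] F
  haveI := properSpaceExt ℚ_[q] F
  letI := nontriviallyNormedFieldExt F E
  letI := normedAlgebraExt F E
  haveI := isUltrametricDistExt F E
  haveI := properSpaceExt F E
  exact h F E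

/-- **Local norm index** `[Fˣ : N Eˣ] = [E : F]` for cyclic `E/F` (unconditional). -/
theorem normIndexCyclic [IsCyclic (E ≃ₐ[F] E)] :
    (Blocks.unitsNorm F E).range.index = Module.finrank F E := by
  letI := nontriviallyNormedFieldExt ℚ_[q] F
  haveI := isUltrametricDistExt ℚ_[q] F
  haveI := properSpaceExt ℚ_[q] F
  letI := nontriviallyNormedFieldExt F E
  letI := normedAlgebraExt F E
  haveI := isUltrametricDistExt F E
  haveI := properSpaceExt F E
  exact UnitDataLFProof.normIndexCyclic F E

/-- `#H²(Gal(E/F), Eˣ) = [E : F]` for cyclic `E/F` (unconditional). -/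
theorem h2CardCyclic [IsCyclic (E ≃ₐ[F] E)] :
    Nat.card (groupCohomology (Rep.ofAlgebraAutOnUnits F E) 2) = Module.finrank F E := by
  letI := nontriviallyNormedFieldExt ℚ_[q] F
  haveI := isUltrametricDistExt ℚ_[q] F
  haveI := properSpaceExt ℚ_[q] F
  letI := nontriviallyNormedFieldExt F E
  letI := normedAlgebraExt F E
  haveI := isUltrametricDistExt F E
  haveI := properSpaceExt F E
  exact UnitDataLFProof.h2CardCyclic F E

/-- `H²(Gal(E/F), Eˣ)` is finite of order dividing `[E : F]` (unconditional). -/
theorem h2CardDvd :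
    Finite (groupCohomology (Rep.ofAlgebraAutOnUnits F E) 2) ∧
      Nat.card (groupCohomology (Rep.ofAlgebraAutOnUnits F E) 2) ∣ Module.finrank F E := by
  letI := nontriviallyNormedFieldExt ℚ_[q] F
  haveI := isUltrametricDistExt ℚ_[q] F
  haveI := properSpaceExt ℚ_[q] F
  letI := nontriviallyNormedFieldExt F E
  letI := normedAlgebraExt F E
  haveI := isUltrametricDistExt F E
  haveI := properSpaceExt F E
  exact Reduction2.h2CardDvd F E

/-- `#H²(Gal(E/F), Eˣ) = [E : F]`, from `Blocks.H2Card`. -/
theorem h2Card (h : Blocks.H2Card) :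
    Nat.card (groupCohomology (Rep.ofAlgebraAutOnUnits F E) 2) = Module.finrank F E := by
  letI := nontriviallyNormedFieldExt ℚ_[q] F
  haveI := isUltrametricDistExt ℚ_[q] F
  haveI := properSpaceExt ℚ_[q] F
  letI := nontriviallyNormedFieldExt F E
  letI := normedAlgebraExt F E
  haveI := isUltrametricDistExt F E
  haveI := properSpaceExt F E
  exact h F E

/-- `H²(Gal(E/F), Eˣ)` is cyclic, from `Blocks.H2Cyclic`. -/
theorem h2Cyclic (h : Blocks.H2Cyclic) :
    IsAddCyclic (groupCohomology (Rep.ofAlgebraAutOnUnits F E) 2) := by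
  letI := nontriviallyNormedFieldExt ℚ_[q] F
  haveI := isUltrametricDistExt ℚ_[q] F
  haveI := properSpaceExt ℚ_[q] F
  letI := nontriviallyNormedFieldExt F E
  letI := normedAlgebraExt F E
  haveI := isUltrametricDistExt F E
  haveI := properSpaceExt F E
  exact h F E

/-- `H³(Gal(E/F), Eˣ) = 0`, from `Reduction2.H3Vanish`. -/
theorem h3Vanish (h : Reduction2.H3Vanish) :
    CategoryTheory.Limits.IsZero (groupCohomology (Rep.ofAlgebraAutOnUnits F E) 3) := by
  letI := nontriviallyNormedFieldExt ℚ_[q] F
  haveI := isUltrametricDistExt ℚ_[q] F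
  haveI := properSpaceExt ℚ_[q] F
  letI := nontriviallyNormedFieldExt F E
  letI := normedAlgebraExt F E
  haveI := isUltrametricDistExt F E
  haveI := properSpaceExt F E
  exact h F E

/-- A class of order exactly `[E : F]` in `H²(Gal(E/F), Eˣ)`, from `Reduction2.ExistsFullOrder`. -/
theorem existsFullOrder (h : Reduction2.ExistsFullOrder) :
    ∃ x : groupCohomology (Rep.ofAlgebraAutOnUnits F E) 2, addOrderOf x = Module.finrank F E := by
  letI := nontriviallyNormedFieldExt ℚ_[q] F
  haveI := isUltrametricDistExt ℚ_[q] F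
  haveI := properSpaceExt ℚ_[q] F
  letI := nontriviallyNormedFieldExt F E
  letI := normedAlgebraExt F E
  haveI := isUltrametricDistExt F E
  haveI := properSpaceExt F E
  exact h F E

theorem h2Card_of_existsFullOrder (h : Reduction2.ExistsFullOrder) :
    Nat.card (groupCohomology (Rep.ofAlgebraAutOnUnits F E) 2) = Module.finrank F E :=
  h2Card q F E (Reduction2.h2Card_of_existsFullOrder h)

theorem h2Cyclic_of_existsFullOrder (h : Reduction2.ExistsFullOrder) :
    IsAddCyclic (groupCohomology (Rep.ofAlgebraAutOnUnits F E) 2) :=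
  h2Cyclic q F E (Reduction2.h2Cyclic_of_existsFullOrder h)

theorem h3Vanish_of_existsFullOrder (h : Reduction2.ExistsFullOrder) :
    CategoryTheory.Limits.IsZero (groupCohomology (Rep.ofAlgebraAutOnUnits F E) 3) :=
  h3Vanish q F E (Reduction2.h3Vanish_of_existsFullOrder h)

omit [FiniteDimensional F E] [IsGalois F E] in
/-- **Index of `p`-th powers, wild case** (`p = q`): for `F` finite over `ℚ_[p]`,
`[Fˣ : Fˣᵖ] = p · #μ_p(F) · p ^ [F : ℚ_p]` (unconditional). -/
theorem powIndex_wild :
    (powMonoidHom q : Fˣ →* Fˣ).range.index =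
      q * Nat.card (rootsOfUnity q F) * q ^ Module.finrank ℚ_[q] F := by
  letI := nontriviallyNormedFieldExt ℚ_[q] F
  letI := normedAlgebraExt ℚ_[q] F
  haveI := isUltrametricDistExt ℚ_[q] F
  haveI := properSpaceExt ℚ_[q] F
  exact LocalDegreeIndex.powIndex_padic q F PowIndexProof.powIndex

omit [FiniteDimensional F E] [IsGalois F E] in
/-- Wild case with `μ_p ⊆ F`: `[Fˣ : Fˣᵖ] = p ^ ([F : ℚ_p] + 2)`. -/
theorem powIndex_wild_of_primitiveRoot {ζ : F} (hζ : IsPrimitiveRoot ζ q) :
    (powMonoidHom q : Fˣ →* Fˣ).range.index = q ^ (Module.finrank ℚ_[q] F + 2) := by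
  letI := nontriviallyNormedFieldExt ℚ_[q] F
  letI := normedAlgebraExt ℚ_[q] F
  haveI := isUltrametricDistExt ℚ_[q] F
  haveI := properSpaceExt ℚ_[q] F
  exact LocalDegreeIndex.powIndex_padic_of_primitiveRoot q F PowIndexProof.powIndex hζ

omit [FiniteDimensional F E] [IsGalois F E] in
/-- **Index of `p`-th powers, tame case** (`p ≠ q`): for `F` finite over `ℚ_[q]`,
`[Fˣ : Fˣᵖ] = p · #μ_p(F)` (unconditional). -/
theorem powIndex_tame (p : ℕ) [Fact p.Prime] (hpq : p ≠ q) :
    (powMonoidHom p : Fˣ →* Fˣ).range.index = p * Nat.card (rootsOfUnity p F) := by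
  letI := nontriviallyNormedFieldExt ℚ_[q] F
  letI := normedAlgebraExt ℚ_[q] F
  haveI := isUltrametricDistExt ℚ_[q] F
  haveI := properSpaceExt ℚ_[q] F
  haveI : CharZero F := (RingHom.charZero_iff (algebraMap ℚ_[q] F).injective).mp inferInstance
  refine LocalDegreeIndex.powIndex_tame F PowIndexProof.powIndex p ?_
  have h : (p : F) = algebraMap ℚ_[q] F (p : ℚ_[q]) := (map_natCast _ p).symm
  rw [h, norm_algebraMap', Padic.norm_natCast_eq_one_iff]
  exact (Nat.coprime_primes Fact.out Fact.out).2 hpq.symm

omit [FiniteDimensional F E] [IsGalois F E] in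
/-- Tame case with `μ_p ⊆ F`: `[Fˣ : Fˣᵖ] = p ^ 2`. -/
theorem powIndex_tame_of_primitiveRoot (p : ℕ) [hp : Fact p.Prime] (hpq : p ≠ q) {ζ : F}
    (hζ : IsPrimitiveRoot ζ p) :
    (powMonoidHom p : Fˣ →* Fˣ).range.index = p ^ 2 := by
  have : NeZero p := ⟨hp.out.ne_zero⟩
  rw [powIndex_tame q F p hpq, hζ.card_rootsOfUnity]
  ring

end Fermat.Agent.S55.Local.AlgLF
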