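import Mathlib
import Fermat.Agent.S55.Local.AlgLF
import Fermat.Agent.S55.Coh.PairEquiv

/-!
# S55 / Local: the Local-block exports for a finite group acting on a `q`-adic field

`E` a field finite over `ℚ_[q]`, `D` a finite group acting faithfully on `E` by `ℚ_[q]`-algebra
automorphisms (e.g. `D` = the stabiliser of a maximal ideal `m` of `L ⊗[ℚ] ℚ_[q]` acting on the
residue field `E = (L ⊗[ℚ] ℚ_[q]) ⧸ m`).  With `F = E^D` (Mathlib `FixedPoints.subfield D E`),
`E/F` is Galois with group `D` (Artin), so the exports of the Local block hold for the `D`-module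
`Eˣ` (`Rep.ofMulDistribMulAction D Eˣ`).  No norm and no fixed field appear in the statements.
-/

set_option autoImplicit false
set_option linter.unusedSectionVars false
set_option linter.style.haveILetI false

namespace Fermat.Agent.S55.Local.AlgLFGroup

open groupCohomology CategoryTheory CategoryTheory.Limits
open Fermat.Agent.S55.Local Fermat.Agent.S55.Coh.PairEquiv

variable (q : ℕ) [Fact q.Prime]
variable (E : Type) [Field E] [Algebra ℚ_[q] E] [FiniteDimensional ℚ_[q] E]
variable (D : Type) [Group D] [Finite D] [MulSemiringAction D E] [FaithfulSMul D E]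
  [SMulCommClass D ℚ_[q] E]

/-- `ℚ_[q]` maps into the fixed field `E^D`. -/
noncomputable def toFixed : ℚ_[q] →+* FixedPoints.subfield D E :=
  (algebraMap ℚ_[q] E).codRestrict (FixedPoints.subfield D E) (fun c d => by
    rw [Algebra.algebraMap_eq_smul_one, smul_comm, smul_one])

/-- The `ℚ_[q]`-algebra structure of the fixed field. -/
@[reducible] noncomputable def algebraFixed : Algebra ℚ_[q] (FixedPoints.subfield D E) :=
  (toFixed q E D).toAlgebra

theorem isScalarTower_fixed :
    letI := algebraFixed q E D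
    IsScalarTower ℚ_[q] (FixedPoints.subfield D E) E :=
  letI := algebraFixed q E D
  IsScalarTower.of_algebraMap_eq (fun _ => rfl)

theorem finiteDimensional_fixed :
    letI := algebraFixed q E D
    FiniteDimensional ℚ_[q] (FixedPoints.subfield D E) :=
  letI := algebraFixed q E D
  haveI := isScalarTower_fixed q E D
  FiniteDimensional.left ℚ_[q] (FixedPoints.subfield D E) E

omit [Algebra ℚ_[q] E] [FiniteDimensional ℚ_[q] E] [SMulCommClass D ℚ_[q] E] in
theorem card_eq_finrank : Nat.card D = Module.finrank (FixedPoints.subfield D E) E := by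
  rw [Nat.card_congr (FixedPoints.toAlgAutMulEquiv D E).toEquiv]
  exact IsGalois.card_aut_eq_finrank _ _

variable [MulDistribMulAction D Eˣ] (hD : ∀ (d : D) (u : Eˣ), ((d • u : Eˣ) : E) = d • (u : E))

omit [Algebra ℚ_[q] E] [FiniteDimensional ℚ_[q] E] [SMulCommClass D ℚ_[q] E] in
include hD in
/-- The `D`-module `Eˣ` is the Galois module of `E / E^D`. -/
noncomputable def pairEquiv :
    PairEquiv (Rep.ofMulDistribMulAction D Eˣ)
      (Rep.ofAlgebraAutOnUnits (FixedPoints.subfield D E) E) where
  e := FixedPoints.toAlgAutMulEquiv D E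
  φ := LinearEquiv.refl ℤ _
  comm d x := by
    let u : Eˣ := Additive.toMul (Rep.toAdditive x)
    have h : d • u = (FixedPoints.toAlgAutMulEquiv D E d) • u := Units.ext (by rw [hD]; rfl)
    exact congrArg Additive.ofMul h

include q hD

/-- **Hilbert 90**: `H¹(D, Eˣ) = 0`. -/
theorem isZero_H1 : IsZero (groupCohomology (Rep.ofMulDistribMulAction D Eˣ) 1) := by
  rw [(pairEquiv E D hD).isZero_iff 1]
  have : Subsingleton (groupCohomology.H1
      (Rep.ofAlgebraAutOnUnits (FixedPoints.subfield D E) E)) :=
    (inferInstance : Unique _).instSubsingleton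
  exact ModuleCat.isZero_of_subsingleton _

/-- `H²(D, Eˣ)` is finite of order dividing `#D` (unconditional). -/
theorem h2CardDvd :
    Finite (groupCohomology (Rep.ofMulDistribMulAction D Eˣ) 2) ∧
      Nat.card (groupCohomology (Rep.ofMulDistribMulAction D Eˣ) 2) ∣ Nat.card D := by
  letI := algebraFixed q E D
  haveI := finiteDimensional_fixed q E D
  obtain ⟨h1, h2⟩ := AlgLF.h2CardDvd q (FixedPoints.subfield D E) E
  rw [(pairEquiv E D hD).finite_iff 2, (pairEquiv E D hD).card_eq 2, card_eq_finrank E D]
  exact ⟨h1, h2⟩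

/-- `#H²(D, Eˣ) = #D`, from `Blocks.H2Card`. -/
theorem h2Card (h : Blocks.H2Card) :
    Nat.card (groupCohomology (Rep.ofMulDistribMulAction D Eˣ) 2) = Nat.card D := by
  letI := algebraFixed q E D
  haveI := finiteDimensional_fixed q E D
  rw [(pairEquiv E D hD).card_eq 2, card_eq_finrank E D]
  exact AlgLF.h2Card q (FixedPoints.subfield D E) E h

/-- `#H²(D, Eˣ) = #D` for cyclic `D` (unconditional). -/
theorem h2CardCyclic [IsCyclic D] :
    Nat.card (groupCohomology (Rep.ofMulDistribMulAction D Eˣ) 2) = Nat.card D := by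
  letI := algebraFixed q E D
  haveI := finiteDimensional_fixed q E D
  haveI : IsCyclic (E ≃ₐ[FixedPoints.subfield D E] E) :=
    isCyclic_of_surjective (FixedPoints.toAlgAutMulEquiv D E)
      (FixedPoints.toAlgAutMulEquiv D E).surjective
  rw [(pairEquiv E D hD).card_eq 2, card_eq_finrank E D]
  exact AlgLF.h2CardCyclic q (FixedPoints.subfield D E) E

/-- `H²(D, Eˣ)` is cyclic, from `Blocks.H2Cyclic`. -/
theorem h2Cyclic (h : Blocks.H2Cyclic) :
    IsAddCyclic (groupCohomology (Rep.ofMulDistribMulAction D Eˣ) 2) := by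
  letI := algebraFixed q E D
  haveI := finiteDimensional_fixed q E D
  obtain ⟨x, hx⟩ := (AlgLF.h2Cyclic q (FixedPoints.subfield D E) E h).exists_generator
  let ψ := (pairEquiv E D hD).cohomologyEquiv 2
  refine ⟨⟨ψ.symm x, fun y => ?_⟩⟩
  obtain ⟨n, hn⟩ := AddSubgroup.mem_zmultiples_iff.1 (hx (ψ y))
  refine AddSubgroup.mem_zmultiples_iff.2 ⟨n, ?_⟩
  apply ψ.injective
  rw [map_zsmul, LinearEquiv.apply_symm_apply, hn]

/-- **Local Tate**: `H³(D, Eˣ) = 0`, from `Reduction2.H3Vanish`. -/
theorem isZero_H3 (h : Reduction2.H3Vanish) :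
    IsZero (groupCohomology (Rep.ofMulDistribMulAction D Eˣ) 3) := by
  letI := algebraFixed q E D
  haveI := finiteDimensional_fixed q E D
  rw [(pairEquiv E D hD).isZero_iff 3]
  exact AlgLF.h3Vanish q (FixedPoints.subfield D E) E h

end Fermat.Agent.S55.Local.AlgLFGroup
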