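import Mathlib

/-!
# S55 / Local, row L4: the explicit 2-cocycles of a finite cyclic group

`G` a group, `σ : G` of finite order `n = orderOf σ > 0` such that every element of `G` is a
power of `σ`; `A : Rep k G`.  For `a : A` put

  `cyc σ a (g, h) = ((idx σ g + idx σ h) / n) • a`      (`idx σ g` = least `i` with `σ ^ i = g`),

i.e. `a` if the indices "carry" and `0` otherwise.

* `cyc_mem_cocycles₂` : `a ∈ A^G → cyc σ a ∈ cocycles₂ A`;
* `cyc_mem_coboundaries₂_iff` : for `a ∈ A^G`: `cyc σ a ∈ coboundaries₂ A ↔ ∃ b, a = ∑ g, ρ g b`;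
* `exists_eq_cyc_add` : every 2-cocycle is `cyc σ a + d₁₂ x` with `a ∈ A^G`;
* `map_cyc` : pull-back along a homomorphism of cyclic groups `τ ↦ σ ^ d`
  (restriction: `d ∣ n`, multiplicity `1`; inflation: `d = 1`, multiplicity `m / n`).
-/

set_option autoImplicit false

namespace Fermat.Agent.S55.Local.CyclicCocycle

open groupCohomology

section Idx

variable {G : Type*} [Group G]

/-- The least natural exponent `i` with `σ ^ i = g` (junk value `0` if there is none). -/
noncomputable def idx (σ g : G) : ℕ := by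
  classical exact if h : ∃ i : ℕ, σ ^ i = g then Nat.find h else 0

lemma pow_idx {σ g : G} (h : ∃ i : ℕ, σ ^ i = g) : σ ^ idx σ g = g := by
  classical
  rw [idx, dif_pos h]
  exact Nat.find_spec h

lemma idx_pow {σ : G} (hn : 0 < orderOf σ) (i : ℕ) : idx σ (σ ^ i) = i % orderOf σ := by
  classical
  have h : ∃ j : ℕ, σ ^ j = σ ^ i := ⟨i, rfl⟩
  rw [idx, dif_pos h]
  have h1 : Nat.find h ≤ i % orderOf σ := Nat.find_min' h (pow_mod_orderOf σ i)
  have h2 : Nat.find h ≡ i [MOD orderOf σ] := pow_eq_pow_iff_modEq.1 (Nat.find_spec h)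
  have h3 : i % orderOf σ < orderOf σ := Nat.mod_lt _ hn
  have h4 : Nat.find h % orderOf σ = i % orderOf σ := h2
  rw [← h4, Nat.mod_eq_of_lt (lt_of_le_of_lt h1 h3)]

lemma idx_lt {σ : G} (hn : 0 < orderOf σ) (g : G) : idx σ g < orderOf σ := by
  classical
  by_cases h : ∃ i : ℕ, σ ^ i = g
  · obtain ⟨i, rfl⟩ := h
    rw [idx_pow hn]
    exact Nat.mod_lt _ hn
  · rw [idx, dif_neg h]
    exact hn

lemma idx_one {σ : G} (hn : 0 < orderOf σ) : idx σ 1 = 0 := by
  have := idx_pow hn 0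
  simpa using this

lemma idx_self {σ : G} (hn : 2 ≤ orderOf σ) : idx σ σ = 1 := by
  have := idx_pow (σ := σ) (by omega) 1
  rw [pow_one] at this
  rw [this, Nat.mod_eq_of_lt hn]

/-- From "`G` is finite and generated by `σ`" to the hypotheses used below. -/
lemma exists_pow_eq_of_zpowers [Finite G] {σ : G} (hσ : ∀ g : G, g ∈ Subgroup.zpowers σ) (g : G) :
    ∃ i : ℕ, σ ^ i = g := by
  have := (mem_powers_iff_mem_zpowers (x := σ) (y := g)).2 (hσ g)
  exact (Submonoid.mem_powers_iff g σ).1 this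

end Idx

universe u v

variable {k G : Type u} [CommRing k] [Group G] (A : Rep.{v} k G)

/-- The carry 2-cochain attached to `a : A` and the generator `σ`. -/
noncomputable def cyc (σ : G) (a : A) : G × G → A :=
  fun p => ((idx σ p.1 + idx σ p.2) / orderOf σ) • a

variable {A}

lemma cyc_apply (σ : G) (a : A) (g h : G) :
    cyc A σ a (g, h) = ((idx σ g + idx σ h) / orderOf σ) • a := rfl

lemma cyc_pow_pow {σ : G} (hn : 0 < orderOf σ) (a : A) (i j : ℕ) :
    cyc A σ a (σ ^ i, σ ^ j) = ((i % orderOf σ + j % orderOf σ) / orderOf σ) • a := by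
  rw [cyc_apply, idx_pow hn, idx_pow hn]

lemma cyc_add (σ : G) (a b : A) : cyc A σ (a + b) = cyc A σ a + cyc A σ b := by
  funext p
  simp [cyc, smul_add]

lemma cyc_smul (σ : G) (c : k) (a : A) : cyc A σ (c • a) = c • cyc A σ a := by
  funext p
  simp only [cyc, Pi.smul_apply]
  rw [smul_comm]

lemma cyc_zero (σ : G) : cyc A σ (0 : A) = 0 := by
  funext p
  simp [cyc]

/-- arithmetic of carries -/
lemma carry_assoc {n : ℕ} (hn : 0 < n) (i j l : ℕ) :
    ((i + j) % n + l) / n + (i + j) / n = (i + j + l) / n := by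
  have h : i + j + l = ((i + j) % n + l) + n * ((i + j) / n) := by
    have := Nat.mod_add_div (i + j) n
    omega
  rw [h, Nat.add_mul_div_left _ _ hn]

lemma carry_assoc' {n : ℕ} (hn : 0 < n) (i j l : ℕ) :
    (i + (j + l) % n) / n + (j + l) / n = (i + j + l) / n := by
  have h : i + j + l = (i + (j + l) % n) + n * ((j + l) / n) := by
    have := Nat.mod_add_div (j + l) n
    omega
  rw [h, Nat.add_mul_div_left _ _ hn]

/-- `cyc σ a` is a 2-cocycle when `a` is invariant. -/
theorem cyc_mem_cocycles₂ {σ : G} (hn : 0 < orderOf σ) (hgen : ∀ g : G, ∃ i : ℕ, σ ^ i = g)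
    {a : A} (ha : ∀ g : G, A.ρ g a = a) : cyc A σ a ∈ cocycles₂ A := by
  rw [mem_cocycles₂_iff]
  intro g h j
  obtain ⟨i, rfl⟩ := hgen g
  obtain ⟨i', rfl⟩ := hgen h
  obtain ⟨i'', rfl⟩ := hgen j
  set n := orderOf σ with hn'
  rw [← pow_add, ← pow_add, cyc_pow_pow hn, cyc_pow_pow hn, cyc_pow_pow hn, cyc_pow_pow hn,
    map_nsmul, ha, ← add_nsmul, ← add_nsmul]
  congr 1
  have e1 : (i + i') % n = (i % n + i' % n) % n := Nat.add_mod _ _ _
  have e2 : (i' + i'') % n = (i' % n + i'' % n) % n := Nat.add_mod _ _ _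
  rw [e1, e2, carry_assoc hn, add_comm ((i' % n + i'' % n) / n), carry_assoc' hn]


/-! ### Partial norms -/

variable (A) in
/-- `psum σ b i = ∑_{l < i} ρ(σ^l) b`. -/
noncomputable def psum (σ : G) (b : A) (i : ℕ) : A :=
  ∑ l ∈ Finset.range i, A.ρ (σ ^ l) b

lemma psum_zero (σ : G) (b : A) : psum A σ b 0 = 0 := by simp [psum]

lemma psum_one (σ : G) (b : A) : psum A σ b 1 = b := by simp [psum]

lemma psum_add (σ : G) (b : A) (i j : ℕ) :
    psum A σ b (i + j) = psum A σ b i + A.ρ (σ ^ i) (psum A σ b j) := by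
  simp only [psum]
  rw [Finset.sum_range_add, map_sum]
  congr 1
  refine Finset.sum_congr rfl fun l _ => ?_
  rw [pow_add, map_mul]
  rfl

lemma rho_psum_orderOf (σ : G) (b : A) :
    A.ρ σ (psum A σ b (orderOf σ)) = psum A σ b (orderOf σ) := by
  have h1 := psum_add (A := A) σ b 1 (orderOf σ)
  have h2 := psum_add (A := A) σ b (orderOf σ) 1
  rw [psum_one, pow_one] at h1
  rw [psum_one, pow_orderOf_eq_one, map_one, Module.End.one_apply, add_comm (orderOf σ) 1, h1] at h2
  have := add_left_cancel (a := b) (b := A.ρ σ (psum A σ b (orderOf σ)))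
    (c := psum A σ b (orderOf σ)) (by rw [h2, add_comm])
  exact this

lemma rho_pow_psum_orderOf (σ : G) (b : A) (i : ℕ) :
    A.ρ (σ ^ i) (psum A σ b (orderOf σ)) = psum A σ b (orderOf σ) := by
  induction i with
  | zero => simp
  | succ i ih => rw [pow_succ, map_mul, Module.End.mul_apply, rho_psum_orderOf, ih]

lemma psum_add_mul (σ : G) (b : A) (r q : ℕ) :
    psum A σ b (r + orderOf σ * q) = psum A σ b r + q • psum A σ b (orderOf σ) := by
  induction q with
  | zero => simp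
  | succ q ih =>
    rw [Nat.mul_succ, ← add_assoc, psum_add, ih, rho_pow_psum_orderOf, succ_nsmul, add_assoc]

/-- the partial norm up to the order is the norm. -/
lemma psum_orderOf_eq_sum [Fintype G] {σ : G} (hn : 0 < orderOf σ)
    (hgen : ∀ g : G, ∃ i : ℕ, σ ^ i = g) (b : A) :
    psum A σ b (orderOf σ) = ∑ g : G, A.ρ g b := by
  rw [psum]
  refine Finset.sum_nbij' (fun l => σ ^ l) (fun g => idx σ g) ?_ ?_ ?_ ?_ ?_
  · intro l _; exact Finset.mem_univ _
  · intro g _; exact Finset.mem_range.2 (idx_lt hn g)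
  · intro l hl
    rw [idx_pow hn, Nat.mod_eq_of_lt (Finset.mem_range.1 hl)]
  · intro g _; exact pow_idx (hgen g)
  · intro l _; rfl

/-- `cyc σ (N b)` is the coboundary of `g ↦ psum b (idx g)`. -/
theorem cyc_psum_eq_d₁₂ {σ : G} (hn : 0 < orderOf σ) (hgen : ∀ g : G, ∃ i : ℕ, σ ^ i = g)
    (b : A) :
    cyc A σ (psum A σ b (orderOf σ)) = (d₁₂ A).hom (fun g => psum A σ b (idx σ g)) := by
  funext ⟨g, h⟩
  rw [d₁₂_hom_apply, cyc_apply]
  dsimp only
  have hg := pow_idx (hgen g)
  have hh := pow_idx (hgen h)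
  set i := idx σ g with hi
  set j := idx σ h with hj
  have e1 : idx σ (g * h) = (i + j) % orderOf σ := by
    rw [← hg, ← hh, ← pow_add, idx_pow hn]
  rw [e1]
  have e2 : A.ρ g (psum A σ b j) + psum A σ b i = psum A σ b (i + j) := by
    rw [psum_add, hg, add_comm]
  have e3 : psum A σ b (i + j) =
      psum A σ b ((i + j) % orderOf σ) + ((i + j) / orderOf σ) • psum A σ b (orderOf σ) := by
    rw [← psum_add_mul, Nat.mod_add_div]
  rw [sub_add_eq_add_sub, e2, e3, add_sub_cancel_left]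

/-- cyclic shift of a sum over the powers of `σ`. -/
lemma sum_range_shift {M : Type*} [AddCommGroup M] (σ : G) (F : G → M) :
    ∑ i ∈ Finset.range (orderOf σ), F (σ ^ (i + 1)) = ∑ i ∈ Finset.range (orderOf σ), F (σ ^ i) := by
  have h1 := Finset.sum_range_succ' (fun i => F (σ ^ i)) (orderOf σ)
  have h2 := Finset.sum_range_succ (fun i => F (σ ^ i)) (orderOf σ)
  rw [h1] at h2
  simp only [pow_zero, pow_orderOf_eq_one] at h2
  exact add_right_cancel h2

lemma sum_range_succ_div (n : ℕ) (hn : 0 < n) (a : A) :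
    ∑ i ∈ Finset.range n, ((i + 1) / n) • a = a := by
  obtain ⟨m, rfl⟩ : ∃ m, n = m + 1 := ⟨n - 1, by omega⟩
  rw [Finset.sum_range_succ, Nat.div_self hn, one_smul]
  rw [Finset.sum_eq_zero, zero_add]
  intro i hi
  rw [Nat.div_eq_of_lt (by have := Finset.mem_range.1 hi; omega), zero_smul]

/-- the sum of the values `cyc σ a (σ^i, σ)` over a period is `a` (for `n ≥ 2`). -/
lemma sum_cyc_pow_self {σ : G} (hn : 2 ≤ orderOf σ) (a : A) :
    ∑ i ∈ Finset.range (orderOf σ), cyc A σ a (σ ^ i, σ) = a := by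
  have hn0 : 0 < orderOf σ := by omega
  refine (Finset.sum_congr rfl fun i hi => ?_).trans
    (sum_range_succ_div (A := A) (orderOf σ) hn0 a)
  rw [cyc_apply, idx_pow hn0, idx_self hn, Nat.mod_eq_of_lt (Finset.mem_range.1 hi)]

/-- If `cyc σ a` is a coboundary then `a` is a norm. -/
theorem exists_psum_of_cyc_eq_d₁₂ {σ : G} (hn : 0 < orderOf σ) {a : A} {x : G → A}
    (hx : cyc A σ a = (d₁₂ A).hom x) : ∃ b : A, a = psum A σ b (orderOf σ) := by
  rcases Nat.lt_or_ge (orderOf σ) 2 with h1 | h2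
  · have h : orderOf σ = 1 := by omega
    exact ⟨a, by rw [h, psum_one]⟩
  · refine ⟨x σ, ?_⟩
    have key : ∑ i ∈ Finset.range (orderOf σ), (d₁₂ A).hom x (σ ^ i, σ) =
        psum A σ (x σ) (orderOf σ) := by
      simp only [d₁₂_hom_apply]
      rw [Finset.sum_add_distrib, Finset.sum_sub_distrib]
      have := sum_range_shift σ x
      simp only [pow_succ] at this
      rw [this, sub_add_cancel]
      rfl
    rw [← key, ← hx, sum_cyc_pow_self h2]

/-- **(2)** For invariant `a`: `cyc σ a` is a coboundary iff `a` is a norm. -/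
theorem cyc_mem_coboundaries₂_iff {σ : G} (hn : 0 < orderOf σ)
    (hgen : ∀ g : G, ∃ i : ℕ, σ ^ i = g) (a : A) :
    cyc A σ a ∈ coboundaries₂ A ↔ ∃ b : A, a = psum A σ b (orderOf σ) := by
  constructor
  · rintro ⟨x, hx⟩
    exact exists_psum_of_cyc_eq_d₁₂ hn hx.symm
  · rintro ⟨b, rfl⟩
    exact ⟨_, (cyc_psum_eq_d₁₂ hn hgen b).symm⟩

theorem cyc_mem_coboundaries₂_iff_sum [Fintype G] {σ : G} (hn : 0 < orderOf σ)
    (hgen : ∀ g : G, ∃ i : ℕ, σ ^ i = g) (a : A) :
    cyc A σ a ∈ coboundaries₂ A ↔ ∃ b : A, a = ∑ g : G, A.ρ g b := by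
  rw [cyc_mem_coboundaries₂_iff hn hgen]
  simp only [psum_orderOf_eq_sum hn hgen]


/-! ### Every 2-cocycle is cohomologous to a `cyc` -/

/-- A 2-cocycle vanishing on `G × {σ}` vanishes identically. -/
lemma eq_zero_of_apply_self_eq_zero {σ : G} (hgen : ∀ g : G, ∃ i : ℕ, σ ^ i = g)
    {f : G × G → A} (hf : f ∈ cocycles₂ A) (h0 : ∀ g, f (g, σ) = 0) : f = 0 := by
  have hc := (mem_cocycles₂_iff f).1 hf
  have step : ∀ g h, f (g, h) = f (g, h * σ) := by
    intro g h
    have := hc g h σ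
    rw [h0, h0, map_zero, zero_add, zero_add] at this
    exact this
  have step' : ∀ (j : ℕ) g h, f (g, h) = f (g, h * σ ^ j) := by
    intro j
    induction j with
    | zero => intro g h; simp
    | succ j ih =>
      intro g h
      rw [pow_succ, ← mul_assoc, ← step, ← ih]
  funext ⟨g, h⟩
  obtain ⟨j, hj⟩ := hgen (h⁻¹ * σ)
  rw [step' j g h, hj, mul_inv_cancel_left, h0]
  rfl

/-- rigidity: a 2-cocycle agreeing with `cyc σ a` on `G × {σ}` has `a` invariant and equals
`cyc σ a`. -/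
theorem eq_cyc_of_apply_self {σ : G} (hn : 0 < orderOf σ) (hgen : ∀ g : G, ∃ i : ℕ, σ ^ i = g)
    {f : G × G → A} (hf : f ∈ cocycles₂ A) {a : A} (h : ∀ g, f (g, σ) = cyc A σ a (g, σ)) :
    (∀ g : G, A.ρ g a = a) ∧ f = cyc A σ a := by
  have hc := (mem_cocycles₂_iff f).1 hf
  have hinv : ∀ g : G, A.ρ g a = a := by
    rcases Nat.lt_or_ge (orderOf σ) 2 with h1 | h2
    · have h1' : orderOf σ = 1 := by omega
      have hσ : σ = 1 := orderOf_eq_one_iff.1 h1'
      intro g
      obtain ⟨i, rfl⟩ := hgen g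
      rw [hσ, one_pow, map_one, Module.End.one_apply]
    · have hσa : A.ρ σ a = a := by
        have hsum : ∑ i ∈ Finset.range (orderOf σ), (f (σ * σ ^ i, σ) + f (σ, σ ^ i)) =
            ∑ i ∈ Finset.range (orderOf σ), (A.ρ σ (f (σ ^ i, σ)) + f (σ, σ ^ i * σ)) :=
          Finset.sum_congr rfl fun i _ => hc σ (σ ^ i) σ
        rw [Finset.sum_add_distrib, Finset.sum_add_distrib] at hsum
        have s1 : ∑ i ∈ Finset.range (orderOf σ), f (σ * σ ^ i, σ) = a := by
          have := sum_range_shift σ (fun g => f (g, σ))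
          simp only [pow_succ'] at this
          rw [this]
          simp only [h]
          exact sum_cyc_pow_self h2 a
        have s2 : ∑ i ∈ Finset.range (orderOf σ), f (σ, σ ^ i * σ) =
            ∑ i ∈ Finset.range (orderOf σ), f (σ, σ ^ i) := by
          have := sum_range_shift σ (fun g => f (σ, g))
          simp only [pow_succ] at this
          exact this
        have s3 : ∑ i ∈ Finset.range (orderOf σ), A.ρ σ (f (σ ^ i, σ)) = A.ρ σ a := by
          rw [← map_sum]
          simp only [h]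
          rw [sum_cyc_pow_self h2 a]
        rw [s1, s2, s3] at hsum
        exact (add_right_cancel hsum).symm
      intro g
      obtain ⟨i, rfl⟩ := hgen g
      induction i with
      | zero => simp
      | succ i ih => rw [pow_succ, map_mul, Module.End.mul_apply, hσa, ih]
  refine ⟨hinv, ?_⟩
  have hcyc := cyc_mem_cocycles₂ hn hgen hinv
  have hsub : f - cyc A σ a ∈ cocycles₂ A := Submodule.sub_mem _ hf hcyc
  have := eq_zero_of_apply_self_eq_zero hgen hsub (fun g => by
    rw [Pi.sub_apply, h, sub_self])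
  exact sub_eq_zero.1 this

/-- **(3)** Every 2-cocycle is `cyc σ a + d₁₂ x` with `a` invariant. -/
theorem exists_eq_cyc_add {σ : G} (hn : 0 < orderOf σ) (hgen : ∀ g : G, ∃ i : ℕ, σ ^ i = g)
    {f : G × G → A} (hf : f ∈ cocycles₂ A) :
    ∃ a : A, (∀ g : G, A.ρ g a = a) ∧ ∃ x : G → A, f = cyc A σ a + (d₁₂ A).hom x := by
  rcases Nat.lt_or_ge (orderOf σ) 2 with h1 | h2
  · -- trivial group
    have h1' : orderOf σ = 1 := by omega
    have hσ : σ = 1 := orderOf_eq_one_iff.1 h1'
    have hG : ∀ g : G, g = 1 := fun g => by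
      obtain ⟨i, rfl⟩ := hgen g
      rw [hσ, one_pow]
    refine ⟨0, fun g => map_zero _, fun _ => f (1, 1), ?_⟩
    funext ⟨g, h⟩
    rw [cyc_zero, zero_add, d₁₂_hom_apply]
    dsimp only
    rw [hG g, hG h, map_one, Module.End.one_apply]
    simp
  · have hn0 : 0 < orderOf σ := hn
    -- the correcting 1-cochain
    set x₀ : G → A := fun g => ∑ l ∈ Finset.range (idx σ g), f (σ ^ l, σ) with hx₀
    set e : A := f (1, 1) with he
    set x : G → A := fun g => x₀ g - e with hx
    set a : A := ∑ l ∈ Finset.range (orderOf σ), f (σ ^ l, σ) with ha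
    have hf' : f + (d₁₂ A).hom x ∈ cocycles₂ A :=
      Submodule.add_mem _ hf (d₁₂_apply_mem_cocycles₂ x)
    have hx₀σ : x₀ σ = e := by
      simp only [hx₀]
      rw [idx_self h2, Finset.sum_range_one, pow_zero]
      exact cocycles₂_map_one_fst ⟨f, hf⟩ σ
    have key : ∀ g, (f + (d₁₂ A).hom x) (g, σ) = cyc A σ a (g, σ) := by
      intro g
      have hg := pow_idx (hgen g)
      have hi : idx σ g < orderOf σ := idx_lt hn0 g
      rw [Pi.add_apply, d₁₂_hom_apply, cyc_apply, idx_self h2]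
      dsimp only
      have e0 : x σ = 0 := by simp only [hx, hx₀σ, sub_self]
      rw [e0, map_zero, zero_sub]
      have e1 : idx σ (g * σ) = (idx σ g + 1) % orderOf σ := by
        conv_lhs => rw [← hg, ← pow_succ, idx_pow hn0]
      rcases Nat.lt_or_ge (idx σ g + 1) (orderOf σ) with hlt | hge
      · have e2 : x₀ (g * σ) = x₀ g + f (g, σ) := by
          simp only [hx₀]
          rw [e1, Nat.mod_eq_of_lt hlt, Finset.sum_range_succ, hg]
        simp only [hx]
        rw [e2, Nat.div_eq_of_lt hlt, zero_smul]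
        abel
      · have hidx : idx σ g + 1 = orderOf σ := by omega
        have e2 : x₀ (g * σ) = 0 := by
          simp only [hx₀]
          rw [e1, hidx, Nat.mod_self, Finset.sum_range_zero]
        have e3 : a = x₀ g + f (g, σ) := by
          simp only [ha, hx₀]
          rw [← hidx, Finset.sum_range_succ, hg]
        simp only [hx]
        rw [e2, hidx, Nat.div_self hn0, one_smul, e3]
        abel
    obtain ⟨hinv, heq⟩ := eq_cyc_of_apply_self hn0 hgen hf' key
    refine ⟨a, hinv, -x, ?_⟩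
    rw [map_neg, ← heq]
    abel


/-! ### Pull-back along a homomorphism of cyclic groups -/

section Map

variable {G' : Type u} [Group G'] {B : Rep.{v} k G'}

lemma aux_group {M : Type*} [AddCommGroup M] (X Y Z W V : M) (h : X + Y + Z = W + V) :
    X = V - (Z - W + Y) := by
  have : X = W + V - Y - Z := by rw [← h]; abel
  rw [this]; abel

lemma pullback_arith {n m d t : ℕ} (hn : 0 < n) (hdm : d * m = n * t) (i j : ℕ) :
    (d * i % n + d * j % n) / n + d * i / n + d * j / n =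
      d * ((i + j) % m) / n + t * ((i + j) / m) := by
  have h1 : d * (i + j) / n = (d * i % n + d * j % n) / n + (d * i / n + d * j / n) := by
    have e : d * (i + j) = (d * i % n + d * j % n) + n * (d * i / n + d * j / n) := by
      have a1 := Nat.mod_add_div (d * i) n
      have a2 := Nat.mod_add_div (d * j) n
      rw [mul_add, mul_add]
      omega
    rw [e, Nat.add_mul_div_left _ _ hn]
  have h2 : d * (i + j) / n = d * ((i + j) % m) / n + t * ((i + j) / m) := by
    have e : d * (i + j) = d * ((i + j) % m) + n * (t * ((i + j) / m)) := by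
      conv_lhs => rw [← Nat.mod_add_div (i + j) m]
      rw [mul_add, ← mul_assoc, hdm, mul_assoc]
    rw [e, Nat.add_mul_div_left _ _ hn]
  rw [add_assoc, ← h1, h2]

/-- **(4)/(5)** pull-back of `cyc σ a` along `φ : G' →* G`, `φ τ = σ ^ d`, and an equivariant
`ψ : res φ A ⟶ B`: it is `cyc τ (t • ψ a)` minus an explicit coboundary, `t = d * m / n`. -/
theorem map_cyc {σ : G} (hn : 0 < orderOf σ) {τ : G'} (hm : 0 < orderOf τ)
    (hgen' : ∀ g : G', ∃ i : ℕ, τ ^ i = g) (φ : G' →* G) (ψ : Rep.res φ A ⟶ B) {d : ℕ}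
    (hφ : φ τ = σ ^ d) {a : A} (ha : ∀ g : G, A.ρ g a = a) :
    (fun p : G' × G' => ψ.hom (cyc A σ a (φ p.1, φ p.2))) =
      cyc B τ ((d * orderOf τ / orderOf σ) • ψ.hom a) -
        (d₁₂ B).hom (fun g => (d * idx τ g / orderOf σ) • ψ.hom a) := by
  set b : B := ψ.hom a with hb
  have hbinv : ∀ g : G', B.ρ g b = b := by
    intro g
    have := Rep.hom_comm_apply ψ g a
    rw [← this]
    change ψ.hom (A.ρ (φ g) a) = _
    rw [ha]
  -- `n ∣ d * m`
  have hdvd : orderOf σ ∣ d * orderOf τ := by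
    have : σ ^ (d * orderOf τ) = 1 := by
      rw [pow_mul, ← hφ, ← map_pow, pow_orderOf_eq_one, map_one]
    exact orderOf_dvd_of_pow_eq_one this
  obtain ⟨t, ht⟩ := hdvd
  have htdiv : d * orderOf τ / orderOf σ = t := by rw [ht, Nat.mul_div_cancel_left _ hn]
  rw [htdiv]
  funext ⟨g, h⟩
  have hg := pow_idx (hgen' g)
  have hh := pow_idx (hgen' h)
  have eg : φ g = σ ^ (d * idx τ g) := by
    conv_lhs => rw [← hg]
    rw [map_pow, hφ, ← pow_mul]
  have eh : φ h = σ ^ (d * idx τ h) := by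
    conv_lhs => rw [← hh]
    rw [map_pow, hφ, ← pow_mul]
  have e1 : idx τ (g * h) = (idx τ g + idx τ h) % orderOf τ := by
    conv_lhs => rw [← hg, ← hh, ← pow_add]
    rw [idx_pow hm]
  rw [Pi.sub_apply, d₁₂_hom_apply]
  dsimp only
  rw [eg, eh, cyc_pow_pow hn, map_nsmul, cyc_apply, map_nsmul, hbinv, e1]
  have key := pullback_arith (n := orderOf σ) (m := orderOf τ) (d := d) (t := t) hn ht
    (idx τ g) (idx τ h)
  have key' := congrArg (fun c : ℕ => c • b) key
  simp only [add_nsmul] at key'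
  rw [← mul_nsmul]
  exact aux_group _ _ _ _ _ key'

/-- restriction-type case `d * m = n`: no correction term and multiplicity one. -/
theorem map_cyc_of_mul_eq {σ : G} (hn : 0 < orderOf σ) {τ : G'} (hm : 0 < orderOf τ)
    (hgen' : ∀ g : G', ∃ i : ℕ, τ ^ i = g) (φ : G' →* G) (ψ : Rep.res φ A ⟶ B) {d : ℕ}
    (hφ : φ τ = σ ^ d) (hd : d * orderOf τ = orderOf σ) {a : A} (ha : ∀ g : G, A.ρ g a = a) :
    (fun p : G' × G' => ψ.hom (cyc A σ a (φ p.1, φ p.2))) = cyc B τ (ψ.hom a) := by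
  rw [map_cyc hn hm hgen' φ ψ hφ ha, hd, Nat.div_self hn, one_smul]
  have : (fun g : G' => (d * idx τ g / orderOf σ) • ψ.hom a) = 0 := by
    funext g
    have h1 : idx τ g < orderOf τ := idx_lt hm g
    have h2 : d * idx τ g < orderOf σ := by
      rw [← hd]
      rcases Nat.eq_zero_or_pos d with h0 | h0
      · rw [h0, zero_mul] at hd; omega
      · exact Nat.mul_lt_mul_of_pos_left h1 h0
    rw [Nat.div_eq_of_lt h2, zero_smul]
    rfl
  rw [this, map_zero, sub_zero]

end Map


/-! ### Statements in `H2` -/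

section H2

variable {A : Rep.{u} k G}

/-- `a ↦ cyc σ a` as a linear map `A^G → Z²(G, A)`. -/
noncomputable def cycCocycle {σ : G} (hn : 0 < orderOf σ) (hgen : ∀ g : G, ∃ i : ℕ, σ ^ i = g) :
    A.ρ.invariants →ₗ[k] cocycles₂ A where
  toFun a := ⟨cyc A σ (a : A), cyc_mem_cocycles₂ hn hgen (fun g => a.2 g)⟩
  map_add' a b := by
    apply Subtype.ext
    exact cyc_add σ (a : A) (b : A)
  map_smul' c a := by
    apply Subtype.ext
    exact cyc_smul σ c (a : A)

@[simp] lemma coe_cycCocycle {σ : G} (hn : 0 < orderOf σ) (hgen : ∀ g : G, ∃ i : ℕ, σ ^ i = g)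
    (a : A.ρ.invariants) : ⇑(cycCocycle hn hgen a) = cyc A σ (a : A) := rfl

/-- `a ↦ [cyc σ a]` as a linear map `A^G → H²(G, A)`. -/
noncomputable def cycClass {σ : G} (hn : 0 < orderOf σ) (hgen : ∀ g : G, ∃ i : ℕ, σ ^ i = g) :
    A.ρ.invariants →ₗ[k] H2 A :=
  (H2π A).hom ∘ₗ cycCocycle hn hgen

lemma cycClass_apply {σ : G} (hn : 0 < orderOf σ) (hgen : ∀ g : G, ∃ i : ℕ, σ ^ i = g)
    (a : A.ρ.invariants) : cycClass hn hgen a = H2π A (cycCocycle hn hgen a) := rfl

/-- every class in `H²` of a finite cyclic group is a `cycClass`. -/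
theorem cycClass_surjective {σ : G} (hn : 0 < orderOf σ) (hgen : ∀ g : G, ∃ i : ℕ, σ ^ i = g) :
    Function.Surjective (cycClass (A := A) hn hgen) := by
  intro y
  induction y using H2_induction_on with
  | h f =>
    obtain ⟨a, ha, x, hx⟩ := exists_eq_cyc_add hn hgen f.2
    refine ⟨⟨a, ha⟩, ?_⟩
    rw [cycClass_apply, H2π_eq_iff]
    refine ⟨-x, ?_⟩
    rw [map_neg, coe_cycCocycle]
    have : (f : G × G → A) = cyc A σ a + (d₁₂ A).hom x := hx
    rw [this]
    abel

/-- the kernel of `cycClass` consists of the norms. -/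
theorem cycClass_eq_zero_iff {σ : G} (hn : 0 < orderOf σ) (hgen : ∀ g : G, ∃ i : ℕ, σ ^ i = g)
    (a : A.ρ.invariants) :
    cycClass hn hgen a = 0 ↔ ∃ b : A, (a : A) = psum A σ b (orderOf σ) := by
  rw [cycClass_apply, H2π_eq_zero_iff, coe_cycCocycle, cyc_mem_coboundaries₂_iff hn hgen]

theorem cycClass_eq_zero_iff_sum [Fintype G] {σ : G} (hn : 0 < orderOf σ)
    (hgen : ∀ g : G, ∃ i : ℕ, σ ^ i = g) (a : A.ρ.invariants) :
    cycClass hn hgen a = 0 ↔ ∃ b : A, (a : A) = ∑ g : G, A.ρ g b := by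
  rw [cycClass_eq_zero_iff]
  simp only [psum_orderOf_eq_sum hn hgen]

variable {G' : Type u} [Group G'] {B : Rep.{u} k G'}

lemma map_invariant (φ : G' →* G) (ψ : Rep.res φ A ⟶ B) {a : A} (ha : ∀ g : G, A.ρ g a = a)
    (g : G') : B.ρ g (ψ.hom a) = ψ.hom a := by
  have := Rep.hom_comm_apply ψ g a
  rw [← this]
  change ψ.hom (A.ρ (φ g) a) = _
  rw [ha]

/-- functoriality of `cycClass`: pull-back along `τ ↦ σ ^ d` multiplies by `d * m / n`. -/
theorem map_cycClass {σ : G} (hn : 0 < orderOf σ) (hgen : ∀ g : G, ∃ i : ℕ, σ ^ i = g)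
    {τ : G'} (hm : 0 < orderOf τ) (hgen' : ∀ g : G', ∃ i : ℕ, τ ^ i = g)
    (φ : G' →* G) (ψ : Rep.res φ A ⟶ B) {d : ℕ} (hφ : φ τ = σ ^ d) (a : A.ρ.invariants) :
    (groupCohomology.map φ ψ 2).hom (cycClass hn hgen a) =
      cycClass hm hgen' ⟨(d * orderOf τ / orderOf σ) • ψ.hom (a : A), fun g => by
        rw [map_nsmul, map_invariant φ ψ (fun g => a.2 g)]⟩ := by
  rw [cycClass_apply, cycClass_apply]
  erw [H2π_comp_map_apply φ ψ]
  rw [H2π_eq_iff]
  refine ⟨-(fun g => (d * idx τ g / orderOf σ) • ψ.hom (a : A)), ?_⟩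
  rw [map_neg, coe_cycCocycle]
  have h := map_cyc hn hm hgen' φ ψ hφ (a := (a : A)) (fun g => a.2 g)
  have h2 : ⇑((mapCocycles₂ φ ψ).hom (cycCocycle hn hgen a)) =
      fun p : G' × G' => ψ.hom (cyc A σ (a : A) (φ p.1, φ p.2)) := rfl
  rw [h2, h]
  abel

/-- restriction-type case `d * m = n` (e.g. restriction to the subgroup generated by `σ ^ d`,
`d ∣ n`): multiplicity one. -/
theorem map_cycClass_of_mul_eq {σ : G} (hn : 0 < orderOf σ) (hgen : ∀ g : G, ∃ i : ℕ, σ ^ i = g)
    {τ : G'} (hm : 0 < orderOf τ) (hgen' : ∀ g : G', ∃ i : ℕ, τ ^ i = g)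
    (φ : G' →* G) (ψ : Rep.res φ A ⟶ B) {d : ℕ} (hφ : φ τ = σ ^ d)
    (hd : d * orderOf τ = orderOf σ) (a : A.ρ.invariants) :
    (groupCohomology.map φ ψ 2).hom (cycClass hn hgen a) =
      cycClass hm hgen' ⟨ψ.hom (a : A), map_invariant φ ψ (fun g => a.2 g)⟩ := by
  rw [map_cycClass hn hgen hm hgen' φ ψ hφ a]
  congr 1
  apply Subtype.ext
  simp only [hd, Nat.div_self hn, one_smul]

/-- inflation-type case `φ τ = σ` (e.g. `G = G' ⧸ ⟨τ ^ n⟩`): multiplicity `m / n`. -/
theorem map_cycClass_of_map_eq {σ : G} (hn : 0 < orderOf σ) (hgen : ∀ g : G, ∃ i : ℕ, σ ^ i = g)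
    {τ : G'} (hm : 0 < orderOf τ) (hgen' : ∀ g : G', ∃ i : ℕ, τ ^ i = g)
    (φ : G' →* G) (ψ : Rep.res φ A ⟶ B) (hφ : φ τ = σ) (a : A.ρ.invariants) :
    (groupCohomology.map φ ψ 2).hom (cycClass hn hgen a) =
      cycClass hm hgen' ⟨(orderOf τ / orderOf σ) • ψ.hom (a : A), fun g => by
        rw [map_nsmul, map_invariant φ ψ (fun g => a.2 g)]⟩ := by
  rw [map_cycClass hn hgen hm hgen' φ ψ (d := 1) (by rw [hφ, pow_one]) a]
  congr 1
  apply Subtype.ext
  simp only [one_mul]

end H2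

end Fermat.Agent.S55.Local.CyclicCocycle
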