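import Mathlib

/-!
# S55 / Local (D): concrete realisation of local fields

Setting: `q` prime, `K` a normed field which is a finite-dimensional normed algebra over `ℚ_[q]`
(e.g. `↥E` for `E : IntermediateField ℚ_[q] (PadicAlgCl q)` finite over `ℚ_[q]`, with the subfield
norm).  Everything is stated on plain norms.
-/

set_option autoImplicit false

namespace Fermat.Agent.S55.Local.LocalDatum

open scoped NNReal

variable (q : ℕ) [Fact q.Prime]

section Basic

variable (K : Type*) [NormedField K] [NormedAlgebra ℚ_[q] K]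

include q

/-- The norm on `K` extends the `q`-adic norm. -/
theorem norm_algebraMap (x : ℚ_[q]) : ‖algebraMap ℚ_[q] K x‖ = ‖x‖ :=
  norm_algebraMap' K x

theorem isUltrametricDist : IsUltrametricDist K :=
  IsUltrametricDist.of_normedAlgebra ℚ_[q]

theorem norm_add_le_max (x y : K) : ‖x + y‖ ≤ max ‖x‖ ‖y‖ :=
  haveI := isUltrametricDist q K
  IsUltrametricDist.norm_add_le_max x y

theorem norm_sub_le_max (x y : K) : ‖x - y‖ ≤ max ‖x‖ ‖y‖ := by
  have := norm_add_le_max q K x (-y)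
  rwa [norm_neg, ← sub_eq_add_neg] at this

theorem norm_natCast_q : ‖(q : K)‖ = (q : ℝ)⁻¹ := by
  rw [← map_natCast (algebraMap ℚ_[q] K), norm_algebraMap, Padic.norm_p]

theorem norm_q_pos : 0 < ‖(q : K)‖ := by
  rw [norm_natCast_q]; exact inv_pos.2 (Nat.cast_pos.2 (Fact.out : q.Prime).pos)

theorem norm_q_lt_one : ‖(q : K)‖ < 1 := by
  rw [norm_natCast_q]
  exact inv_lt_one_of_one_lt₀ (by exact_mod_cast (Fact.out : q.Prime).one_lt)

/-- `K` is nontrivially normed. -/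
@[reducible] def nontriviallyNormedField : NontriviallyNormedField K where
  __ := (inferInstance : NormedField K)
  non_trivial := ⟨(q : K)⁻¹, by
    rw [norm_inv]; exact (one_lt_inv₀ (norm_q_pos q K)).2 (norm_q_lt_one q K)⟩

end Basic

section LogNorm

variable (K : Type*) [NormedField K]

/-- `log ‖·‖` as an additive homomorphism on the units. -/
noncomputable def logNorm : Additive Kˣ →+ ℝ where
  toFun x := Real.log ‖((Additive.toMul x : Kˣ) : K)‖
  map_zero' := by simp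
  map_add' x y := by
    simp only [toMul_add, Units.val_mul, norm_mul]
    exact Real.log_mul (norm_ne_zero_iff.2 (Units.ne_zero _)) (norm_ne_zero_iff.2 (Units.ne_zero _))

theorem logNorm_apply (x : Kˣ) : logNorm K (Additive.ofMul x) = Real.log ‖(x : K)‖ := rfl

end LogNorm

section Finite

variable (K : Type*) [NormedField K] [NormedAlgebra ℚ_[q] K] [FiniteDimensional ℚ_[q] K]

include q

theorem completeSpace : CompleteSpace K := FiniteDimensional.complete ℚ_[q] K

theorem properSpace : ProperSpace K := FiniteDimensional.proper ℚ_[q] K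

theorem isCompact_closedBall (x : K) (r : ℝ) : IsCompact (Metric.closedBall x r) :=
  haveI := properSpace q K
  ProperSpace.isCompact_closedBall x r

/-- The norm is the spectral norm. -/
theorem norm_eq_spectralNorm (x : K) : ‖x‖ = spectralNorm ℚ_[q] K x :=
  NormedAlgebra.norm_eq_spectralNorm ℚ_[q] x

/-- Every `ℚ_[q]`-algebra automorphism of `K` is an isometry. -/
theorem norm_algEquiv (σ : K ≃ₐ[ℚ_[q]] K) (x : K) : ‖σ x‖ = ‖x‖ := by
  rw [norm_eq_spectralNorm q K, norm_eq_spectralNorm q K]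
  exact (spectralNorm_eq_of_equiv σ x).symm

/-- Automorphisms over an intermediate field are isometries. -/
theorem norm_algEquiv_tower (F : Type*) [Field F] [Algebra ℚ_[q] F] [Algebra F K]
    [IsScalarTower ℚ_[q] F K] (σ : K ≃ₐ[F] K) (x : K) : ‖σ x‖ = ‖x‖ :=
  norm_algEquiv q K (σ.restrictScalars ℚ_[q]) x

/-- Key discreteness input: `‖x‖ ^ d = q ^ (-v)` with `1 ≤ d ≤ [K : ℚ_q]`. -/
theorem exists_norm_pow_eq_zpow (x : K) (hx : x ≠ 0) :
    ∃ d : ℕ, 0 < d ∧ d ≤ Module.finrank ℚ_[q] K ∧ ∃ v : ℤ, ‖x‖ ^ d = (q : ℝ) ^ v := by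
  have hint : IsIntegral ℚ_[q] x := Algebra.IsIntegral.isIntegral x
  refine ⟨(minpoly ℚ_[q] x).natDegree, minpoly.natDegree_pos hint,
    minpoly.natDegree_le x, ?_⟩
  have h0 : (minpoly ℚ_[q] x).coeff 0 ≠ 0 := minpoly.coeff_zero_ne_zero hint hx
  refine ⟨-((minpoly ℚ_[q] x).coeff 0).valuation, ?_⟩
  rw [norm_eq_spectralNorm q K, spectralNorm.spectralNorm_eq_norm_coeff_zero_rpow,
    ← Padic.norm_eq_zpow_neg_valuation h0, ← Real.rpow_natCast, ← Real.rpow_mul (norm_nonneg _)]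
  have hd : ((minpoly ℚ_[q] x).natDegree : ℝ) ≠ 0 :=
    Nat.cast_ne_zero.2 (minpoly.natDegree_pos hint).ne'
  rw [one_div, inv_mul_cancel₀ hd, Real.rpow_one]

theorem logNorm_range_disjoint :
    Disjoint ((logNorm K).range : Set ℝ)
      (Set.Ioo 0 (Real.log q / Module.finrank ℚ_[q] K)) := by
  have hq1 : (1 : ℝ) < q := by exact_mod_cast (Fact.out : q.Prime).one_lt
  have hlq : 0 < Real.log q := Real.log_pos hq1
  have hn : 0 < Module.finrank ℚ_[q] K := Module.finrank_pos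
  rw [Set.disjoint_left]
  rintro t ⟨x, rfl⟩ ⟨ht0, ht1⟩
  obtain ⟨x, rfl⟩ : ∃ y : Kˣ, Additive.ofMul y = x := ⟨Additive.toMul x, rfl⟩
  rw [logNorm_apply] at ht0 ht1
  obtain ⟨d, hd0, hdn, v, hv⟩ := exists_norm_pow_eq_zpow q K (x : K) (Units.ne_zero x)
  have h1 : (d : ℝ) * Real.log ‖(x : K)‖ = v * Real.log q := by
    rw [← Real.log_pow, hv, Real.log_zpow]
  have hv1 : (1 : ℤ) ≤ v := by
    by_contra hcon
    have : v ≤ 0 := by omega
    have h2 : (v : ℝ) * Real.log q ≤ 0 :=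
      mul_nonpos_of_nonpos_of_nonneg (by exact_mod_cast this) hlq.le
    have h3 : 0 < (d : ℝ) * Real.log ‖(x : K)‖ := mul_pos (by exact_mod_cast hd0) ht0
    linarith
  have h4 : Real.log q ≤ (d : ℝ) * Real.log ‖(x : K)‖ := by
    rw [h1]
    have : (1 : ℝ) ≤ v := by exact_mod_cast hv1
    nlinarith
  have h5 : (d : ℝ) * Real.log ‖(x : K)‖ ≤ (Module.finrank ℚ_[q] K : ℝ) * Real.log ‖(x : K)‖ :=
    mul_le_mul_of_nonneg_right (by exact_mod_cast hdn) ht0.le
  have hn' : (0 : ℝ) < Module.finrank ℚ_[q] K := by exact_mod_cast hn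
  rw [lt_div_iff₀ hn'] at ht1
  linarith

/-- **Discreteness**: there is a uniformiser. -/
theorem exists_uniformizer :
    ∃ π : K, 0 < ‖π‖ ∧ ‖π‖ < 1 ∧ ∀ x : K, x ≠ 0 → ∃ n : ℤ, ‖x‖ = ‖π‖ ^ n := by
  have hq1 : (1 : ℝ) < q := by exact_mod_cast (Fact.out : q.Prime).one_lt
  have hlq : 0 < Real.log q := Real.log_pos hq1
  have hn' : (0 : ℝ) < Module.finrank ℚ_[q] K := by
    exact_mod_cast (Module.finrank_pos : 0 < Module.finrank ℚ_[q] K)
  obtain ⟨b, hb⟩ := AddSubgroup.cyclic_of_isolated_zero (div_pos hlq hn')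
    (logNorm_range_disjoint q K)
  -- `b ≠ 0`
  have hqK : (q : K) ≠ 0 := norm_pos_iff.1 (norm_q_pos q K)
  have hmem : ∀ x : K, x ≠ 0 → ∃ k : ℤ, k • b = Real.log ‖x‖ := by
    intro x hx
    have : Real.log ‖x‖ ∈ (logNorm K).range := ⟨Additive.ofMul (Units.mk0 x hx), rfl⟩
    rw [hb] at this
    exact AddSubgroup.mem_closure_singleton.1 this
  have hb0 : b ≠ 0 := by
    rintro rfl
    obtain ⟨k, hk⟩ := hmem (q : K) hqK
    rw [smul_zero, norm_natCast_q q K, Real.log_inv] at hk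
    linarith
  have hbmem : b ∈ (logNorm K).range := by
    rw [hb]; exact AddSubgroup.subset_closure rfl
  obtain ⟨y, hy⟩ := hbmem
  obtain ⟨y, rfl⟩ : ∃ z : Kˣ, Additive.ofMul z = y := ⟨Additive.toMul y, rfl⟩
  rw [logNorm_apply] at hy
  -- choose the sign
  rcases lt_or_gt_of_ne hb0 with hneg | hpos
  · refine ⟨(y : K), norm_pos_iff.2 (Units.ne_zero y), ?_, ?_⟩
    · have : Real.log ‖(y : K)‖ < 0 := hy ▸ hneg
      exact (Real.log_neg_iff (norm_pos_iff.2 (Units.ne_zero y))).1 this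
    · intro x hx
      obtain ⟨k, hk⟩ := hmem x hx
      refine ⟨k, ?_⟩
      apply Real.log_injOn_pos (Set.mem_Ioi.2 (norm_pos_iff.2 hx))
        (Set.mem_Ioi.2 (zpow_pos (norm_pos_iff.2 (Units.ne_zero y)) k))
      rw [Real.log_zpow, hy, ← hk, zsmul_eq_mul]
  · refine ⟨((y⁻¹ : Kˣ) : K), norm_pos_iff.2 (Units.ne_zero _), ?_, ?_⟩
    · have : 0 < Real.log ‖(y : K)‖ := hy ▸ hpos
      have h1 : 1 < ‖(y : K)‖ := (Real.log_pos_iff (norm_nonneg _)).1 this
      rw [Units.val_inv_eq_inv_val, norm_inv]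
      exact inv_lt_one_of_one_lt₀ h1
    · intro x hx
      obtain ⟨k, hk⟩ := hmem x hx
      refine ⟨-k, ?_⟩
      apply Real.log_injOn_pos (Set.mem_Ioi.2 (norm_pos_iff.2 hx))
        (Set.mem_Ioi.2 (zpow_pos (norm_pos_iff.2 (Units.ne_zero _)) _))
      rw [Real.log_zpow, Units.val_inv_eq_inv_val, norm_inv, Real.log_inv, hy, ← hk, zsmul_eq_mul]
      push_cast; ring

/-- **Finite residue field**, explicit form: a finite set of representatives of the closed unit
ball modulo the open unit ball. -/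
theorem exists_finite_residue_system :
    ∃ R : Finset K, (∀ r ∈ R, ‖r‖ ≤ 1) ∧ ∀ x : K, ‖x‖ ≤ 1 → ∃ r ∈ R, ‖x - r‖ < 1 := by
  obtain ⟨t, hts, htf, hcov⟩ :=
    (isCompact_closedBall q K (0 : K) 1).finite_cover_balls (e := 1) one_pos
  refine ⟨htf.toFinset, fun r hr => ?_, fun x hx => ?_⟩
  · have := hts (htf.mem_toFinset.1 hr)
    simpa [Metric.mem_closedBall, dist_zero_right] using this
  · have hx' : x ∈ Metric.closedBall (0 : K) 1 := by
      simpa [Metric.mem_closedBall, dist_zero_right] using hx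
    obtain ⟨r, hr, hxr⟩ := Set.mem_iUnion₂.1 (hcov hx')
    exact ⟨r, htf.mem_toFinset.2 hr, by simpa [Metric.mem_ball, dist_eq_norm] using hxr⟩

/-- More generally: finitely many residues modulo any radius. -/
theorem exists_finite_system (ε : ℝ) (hε : 0 < ε) :
    ∃ R : Finset K, (∀ r ∈ R, ‖r‖ ≤ 1) ∧ ∀ x : K, ‖x‖ ≤ 1 → ∃ r ∈ R, ‖x - r‖ < ε := by
  obtain ⟨t, hts, htf, hcov⟩ :=
    (isCompact_closedBall q K (0 : K) 1).finite_cover_balls (e := ε) hε
  refine ⟨htf.toFinset, fun r hr => ?_, fun x hx => ?_⟩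
  · have := hts (htf.mem_toFinset.1 hr)
    simpa [Metric.mem_closedBall, dist_zero_right] using this
  · have hx' : x ∈ Metric.closedBall (0 : K) 1 := by
      simpa [Metric.mem_closedBall, dist_zero_right] using hx
    obtain ⟨r, hr, hxr⟩ := Set.mem_iUnion₂.1 (hcov hx')
    exact ⟨r, htf.mem_toFinset.2 hr, by simpa [Metric.mem_ball, dist_eq_norm] using hxr⟩

end Finite

section Uniformizer

variable {K : Type*} [NormedField K]

/-- `π` is a uniformiser of the normed field `K`: its norm generates the value group. -/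
structure IsUniformizer (π : K) : Prop where
  pos : 0 < ‖π‖
  lt_one : ‖π‖ < 1
  exists_zpow : ∀ x : K, x ≠ 0 → ∃ n : ℤ, ‖x‖ = ‖π‖ ^ n

namespace IsUniformizer

variable {π : K} (hπ : IsUniformizer π)

include hπ

theorem ne_zero : π ≠ 0 := norm_pos_iff.1 hπ.pos

theorem zpow_injective : Function.Injective (fun n : ℤ => ‖π‖ ^ n) :=
  zpow_right_injective₀ hπ.pos hπ.lt_one.ne

/-- the normalised valuation as an integer -/
noncomputable def ordInt (x : Kˣ) : ℤ := Classical.choose (hπ.exists_zpow x x.ne_zero)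

theorem norm_eq_zpow_ordInt (x : Kˣ) : ‖(x : K)‖ = ‖π‖ ^ hπ.ordInt x :=
  Classical.choose_spec (hπ.exists_zpow x x.ne_zero)

theorem ordInt_eq_of_norm_eq {x : Kˣ} {n : ℤ} (h : ‖(x : K)‖ = ‖π‖ ^ n) : hπ.ordInt x = n :=
  hπ.zpow_injective (by simp only; rw [← hπ.norm_eq_zpow_ordInt x, h])

theorem ordInt_mul (x y : Kˣ) : hπ.ordInt (x * y) = hπ.ordInt x + hπ.ordInt y := by
  apply hπ.ordInt_eq_of_norm_eq
  rw [Units.val_mul, norm_mul, hπ.norm_eq_zpow_ordInt x, hπ.norm_eq_zpow_ordInt y,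
    zpow_add₀ hπ.pos.ne']

theorem ordInt_one : hπ.ordInt 1 = 0 :=
  hπ.ordInt_eq_of_norm_eq (by simp)

/-- The normalised valuation `Kˣ →* Multiplicative ℤ`. -/
noncomputable def ord : Kˣ →* Multiplicative ℤ where
  toFun x := Multiplicative.ofAdd (hπ.ordInt x)
  map_one' := by rw [hπ.ordInt_one]; rfl
  map_mul' x y := by rw [hπ.ordInt_mul]; rfl

theorem ord_apply (x : Kˣ) : hπ.ord x = Multiplicative.ofAdd (hπ.ordInt x) := rfl

theorem ordInt_uniformizer : hπ.ordInt (Units.mk0 π hπ.ne_zero) = 1 :=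
  hπ.ordInt_eq_of_norm_eq (by simp)

theorem ord_surjective : Function.Surjective hπ.ord := by
  intro n
  refine ⟨(Units.mk0 π hπ.ne_zero) ^ (Multiplicative.toAdd n), ?_⟩
  rw [map_zpow, hπ.ord_apply, hπ.ordInt_uniformizer]
  change Multiplicative.ofAdd (Multiplicative.toAdd n • (1 : ℤ)) = n
  simp

theorem ordInt_eq_zero_iff (x : Kˣ) : hπ.ordInt x = 0 ↔ ‖(x : K)‖ = 1 := by
  constructor
  · intro h; rw [hπ.norm_eq_zpow_ordInt x, h, zpow_zero]
  · intro h; exact hπ.ordInt_eq_of_norm_eq (by rw [h, zpow_zero])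

theorem mem_ker_ord_iff (x : Kˣ) : x ∈ hπ.ord.ker ↔ ‖(x : K)‖ = 1 := by
  rw [MonoidHom.mem_ker, hπ.ord_apply, ← hπ.ordInt_eq_zero_iff]
  exact Iff.rfl

/-- `ord` is invariant under norm-preserving maps. -/
theorem ordInt_eq_of_norm_eq_norm {x y : Kˣ} (h : ‖(x : K)‖ = ‖(y : K)‖) :
    hπ.ordInt x = hπ.ordInt y :=
  hπ.ordInt_eq_of_norm_eq (by rw [h, hπ.norm_eq_zpow_ordInt y])

theorem norm_le_one_iff (x : Kˣ) : ‖(x : K)‖ ≤ 1 ↔ 0 ≤ hπ.ordInt x := by
  rw [hπ.norm_eq_zpow_ordInt x]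
  constructor
  · intro h
    by_contra hcon
    have hcon' : hπ.ordInt x < 0 := not_le.1 hcon
    have : 1 < ‖π‖ ^ hπ.ordInt x := by
      have := zpow_right_strictAnti₀ hπ.pos hπ.lt_one hcon'
      simpa using this
    linarith
  · intro h
    obtain ⟨n, hn⟩ := Int.eq_ofNat_of_zero_le h
    rw [hn, zpow_natCast]
    exact pow_le_one₀ hπ.pos.le hπ.lt_one.le

end IsUniformizer

end Uniformizer

end Fermat.Agent.S55.Local.LocalDatum
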