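import Mathlib
import Fermat.Agent.S55.Local.LocalDatum

/-!
# S55 / Local (L6): norms in unramified extensions of local fields

Plain-norm language (as in `Local/LocalDatum.lean`): `E` is a complete ultrametric normed field,
`K` a field with `Algebra K E`, `E/K` finite Galois, every `τ : E ≃ₐ[K] E` an isometry.  The norm
of `x : K` is `‖algebraMap K E x‖`.

* **Core** (`exists_norm_eq_of_residue`): if `ϖ : K` generates the value group of `E` (`e = 1`),
  the norm is onto on residue fields (`hN`) and some integral element has unit trace (`hT`), then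
  every `u : K` of norm `1` is the norm of some `y : E` of norm `1` (successive approximation).
* **Residue fields** (`exists_norm_close`, `exists_trace_unit`): `hN` and `hT` hold as soon as the
  residue field of `E` is finite and `Gal(E/K)` acts faithfully on it
  (`∀ τ ≠ 1, ∃ x, ‖x‖ ≤ 1 ∧ ‖τ x - x‖ = 1`), by Artin's theorem on the residue field.
* **Main theorems**: `exists_norm_eq` (units are norms), `norm_mem_iff` / `range_unitsMap_norm`
  (`N Eˣ = {x : n ∣ v x}`, `n = [E : K]`).  No cyclicity is needed.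
-/

set_option autoImplicit false
set_option linter.unusedSectionVars false
set_option linter.style.haveILetI false

namespace Fermat.Agent.S55.Local.UnramNorm

open Finset

/-! ### Ultrametric estimates for finite products -/

section Ultra

variable {E : Type*} [NormedField E] [IsUltrametricDist E]

theorem norm_sum_le_of_le {ι : Type*} (s : Finset ι) (x : ι → E) {r : ℝ} (hr : 0 ≤ r)
    (hx : ∀ t ∈ s, ‖x t‖ ≤ r) : ‖∑ t ∈ s, x t‖ ≤ r := by
  classical
  induction s using Finset.induction_on with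
  | empty => simpa using hr
  | insert a s ha ih =>
    rw [Finset.sum_insert ha]
    refine (IsUltrametricDist.norm_add_le_max _ _).trans (max_le ?_ ?_)
    · exact hx a (Finset.mem_insert_self a s)
    · exact ih fun t ht => hx t (Finset.mem_insert_of_mem ht)

/-- `‖∏ (1 + x t) - 1 - ∑ x t‖ ≤ r²` and `‖∏ (1 + x t) - 1‖ ≤ r` if all `‖x t‖ ≤ r ≤ 1`. -/
theorem norm_prod_one_add_sub {ι : Type*} (s : Finset ι) (x : ι → E) {r : ℝ} (hr : 0 ≤ r)
    (hr1 : r ≤ 1) (hx : ∀ t ∈ s, ‖x t‖ ≤ r) :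
    ‖∏ t ∈ s, (1 + x t) - 1 - ∑ t ∈ s, x t‖ ≤ r ^ 2 ∧ ‖∏ t ∈ s, (1 + x t) - 1‖ ≤ r := by
  classical
  induction s using Finset.induction_on with
  | empty => simp [hr]
  | insert a s ha ih =>
    obtain ⟨h2, h1⟩ := ih fun t ht => hx t (Finset.mem_insert_of_mem ht)
    have hxa : ‖x a‖ ≤ r := hx a (Finset.mem_insert_self a s)
    have hS : ‖∑ t ∈ s, x t‖ ≤ r :=
      norm_sum_le_of_le s x hr fun t ht => hx t (Finset.mem_insert_of_mem ht)
    have hr2 : r ^ 2 ≤ r := by nlinarith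
    rw [Finset.prod_insert ha, Finset.sum_insert ha]
    set P := ∏ t ∈ s, (1 + x t) with hP
    set S := ∑ t ∈ s, x t with hSdef
    constructor
    · have e : (1 + x a) * P - 1 - (x a + S) = (P - 1 - S) + x a * (P - 1) := by ring
      rw [e]
      refine (IsUltrametricDist.norm_add_le_max _ _).trans (max_le h2 ?_)
      rw [norm_mul, sq]
      exact mul_le_mul hxa h1 (norm_nonneg _) hr
    · have e : (1 + x a) * P - 1 = (P - 1) + x a * P := by ring
      rw [e]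
      refine (IsUltrametricDist.norm_add_le_max _ _).trans (max_le h1 ?_)
      have hPn : ‖P‖ ≤ 1 := by
        have e2 : P = (P - 1) + 1 := by ring
        rw [e2]
        refine (IsUltrametricDist.norm_add_le_max _ _).trans (max_le (h1.trans hr1) ?_)
        simp
      rw [norm_mul]
      calc ‖x a‖ * ‖P‖ ≤ r * 1 := mul_le_mul hxa hPn (norm_nonneg _) hr
        _ = r := mul_one r

theorem norm_eq_one_of_sub_one_lt {y : E} (h : ‖y - 1‖ < 1) : ‖y‖ = 1 := by
  have e : y = (y - 1) + 1 := by ring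
  rw [e]
  have := IsUltrametricDist.norm_add_eq_max_of_norm_ne_norm (x := y - 1) (y := (1 : E))
    (by rw [norm_one]; exact h.ne)
  rw [this, norm_one]
  exact max_eq_right h.le

theorem norm_eq_of_sub_lt {a b : E} (h : ‖a - b‖ < ‖b‖) : ‖a‖ = ‖b‖ := by
  have e : a = (a - b) + b := by ring
  rw [e, IsUltrametricDist.norm_add_eq_max_of_norm_ne_norm h.ne]
  exact max_eq_right h.le

end Ultra

/-! ### The residue field of an ultrametric normed field -/

section Ball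

variable (E : Type*) [NormedField E] [IsUltrametricDist E]

/-- The closed unit ball, as a subring. -/
def ball : Subring E where
  carrier := {x | ‖x‖ ≤ 1}
  mul_mem' {a b} ha hb := by
    change ‖a * b‖ ≤ 1
    rw [norm_mul]
    exact mul_le_one₀ ha (norm_nonneg _) hb
  one_mem' := by change ‖(1 : E)‖ ≤ 1; rw [norm_one]
  add_mem' {a b} ha hb := (IsUltrametricDist.norm_add_le_max a b).trans (max_le ha hb)
  zero_mem' := by change ‖(0 : E)‖ ≤ 1; rw [norm_zero]; exact zero_le_one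
  neg_mem' {a} ha := by change ‖-a‖ ≤ 1; rw [norm_neg]; exact ha

variable {E}

theorem mem_ball_iff {x : E} : x ∈ ball E ↔ ‖x‖ ≤ 1 := Iff.rfl

theorem isUnit_ball_iff (a : ball E) : IsUnit a ↔ ‖(a : E)‖ = 1 := by
  constructor
  · rintro ⟨⟨a, b, hab, hba⟩, rfl⟩
    have h1 : ‖(a : E)‖ * ‖(b : E)‖ = 1 := by
      rw [← norm_mul, ← Subring.coe_mul, hab, Subring.coe_one, norm_one]
    have ha : ‖(a : E)‖ ≤ 1 := a.2
    have hb : ‖(b : E)‖ ≤ 1 := b.2
    have ha0 : 0 ≤ ‖(a : E)‖ := norm_nonneg _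
    have hb0 : 0 ≤ ‖(b : E)‖ := norm_nonneg _
    change ‖(a : E)‖ = 1
    nlinarith
  · intro h
    have ha0 : (a : E) ≠ 0 := by
      intro h0; rw [h0, norm_zero] at h; exact zero_ne_one h
    have hinv : (a : E)⁻¹ ∈ ball E := by
      change ‖(a : E)⁻¹‖ ≤ 1
      rw [norm_inv, h, inv_one]
    refine ⟨⟨a, ⟨(a : E)⁻¹, hinv⟩, ?_, ?_⟩, rfl⟩
    · apply Subtype.ext
      change (a : E) * (a : E)⁻¹ = 1
      exact mul_inv_cancel₀ ha0
    · apply Subtype.ext
      change (a : E)⁻¹ * (a : E) = 1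
      exact inv_mul_cancel₀ ha0

instance : IsLocalRing (ball E) :=
  IsLocalRing.of_isUnit_or_isUnit_one_sub_self fun a => by
    by_cases h : ‖(a : E)‖ = 1
    · exact Or.inl ((isUnit_ball_iff a).2 h)
    · right
      rw [isUnit_ball_iff]
      have ha : ‖(a : E)‖ < 1 := lt_of_le_of_ne a.2 h
      have : ‖((1 - a : ball E) : E) - 1‖ < 1 := by
        have e : ((1 - a : ball E) : E) - 1 = -(a : E) := by
          push_cast; ring
        rw [e, norm_neg]; exact ha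
      exact norm_eq_one_of_sub_one_lt this

theorem residue_eq_zero_iff (a : ball E) :
    IsLocalRing.residue (ball E) a = 0 ↔ ‖(a : E)‖ < 1 := by
  rw [IsLocalRing.residue_eq_zero_iff, IsLocalRing.mem_maximalIdeal, mem_nonunits_iff,
    isUnit_ball_iff]
  constructor
  · intro h; exact lt_of_le_of_ne a.2 h
  · intro h; exact h.ne

theorem residue_eq_iff (a b : ball E) :
    IsLocalRing.residue (ball E) a = IsLocalRing.residue (ball E) b ↔
      ‖(a : E) - (b : E)‖ < 1 := by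
  rw [← sub_eq_zero, ← map_sub, residue_eq_zero_iff]
  push_cast
  exact Iff.rfl

/-- A finite residue system makes the residue field finite. -/
theorem finite_residueField
    (hfin : ∃ R : Finset E, ∀ x : E, ‖x‖ ≤ 1 → ∃ r ∈ R, ‖x - r‖ < 1) :
    Finite (IsLocalRing.ResidueField (ball E)) := by
  obtain ⟨R, hR⟩ := hfin
  let S := {a : ball E // (a : E) ∈ R}
  have hS : Finite S := by
    refine Finite.of_injective (fun a : S => (⟨(a.1 : E), a.2⟩ : R)) ?_
    intro a b hab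
    apply Subtype.ext
    apply Subtype.ext
    exact congrArg (fun t : R => (t : E)) hab
  refine Finite.of_surjective (fun a : S => IsLocalRing.residue (ball E) a.1) ?_
  intro k
  obtain ⟨a, rfl⟩ := IsLocalRing.residue_surjective k
  obtain ⟨r, hr, har⟩ := hR (a : E) a.2
  have hrb : r ∈ ball E := by
    change ‖r‖ ≤ 1
    have e : r = (a : E) - ((a : E) - r) := by ring
    rw [e, sub_eq_add_neg]
    refine (IsUltrametricDist.norm_add_le_max _ _).trans (max_le a.2 ?_)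
    rw [norm_neg]; exact har.le
  refine ⟨⟨⟨r, hrb⟩, hr⟩, ?_⟩
  change IsLocalRing.residue (ball E) ⟨r, hrb⟩ = IsLocalRing.residue (ball E) a
  rw [residue_eq_iff, ← norm_neg]
  have e : -(r - (a : E)) = (a : E) - r := by ring
  rw [e]; exact har

end Ball

/-! ### Norm and trace as product and sum of conjugates -/

section Conj

variable {K E : Type*} [Field K] [Field E] [Algebra K E] [FiniteDimensional K E] [IsGalois K E]

theorem prod_conj_eq (y : E) :
    ∏ τ : E ≃ₐ[K] E, τ y = algebraMap K E (Algebra.norm K y) :=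
  (Algebra.norm_eq_prod_automorphisms K y).symm

theorem sum_conj_eq (b : E) :
    ∑ τ : E ≃ₐ[K] E, τ b = algebraMap K E (Algebra.trace K E b) :=
  (trace_eq_sum_automorphisms b).symm

end Conj

/-! ### The Galois action on the residue field; norm and trace on residue fields -/

section Residue

variable {K E : Type*} [Field K] [NormedField E] [IsUltrametricDist E]
  [Algebra K E] [FiniteDimensional K E] [IsGalois K E]

/-- The Galois group acts on the closed unit ball, if every automorphism is an isometry. -/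
@[reducible] noncomputable def ballAction (hiso : ∀ (τ : E ≃ₐ[K] E) (x : E), ‖τ x‖ = ‖x‖) :
    MulSemiringAction (E ≃ₐ[K] E) (ball E) where
  smul τ a := ⟨τ (a : E), by change ‖τ (a : E)‖ ≤ 1; rw [hiso]; exact a.2⟩
  one_smul a := Subtype.ext rfl
  mul_smul σ τ a := Subtype.ext rfl
  smul_zero τ := Subtype.ext (map_zero τ)
  smul_add τ a b := Subtype.ext (map_add τ _ _)
  smul_one τ := Subtype.ext (map_one τ)
  smul_mul τ a b := Subtype.ext (map_mul τ _ _)

variable (hiso : ∀ (τ : E ≃ₐ[K] E) (x : E), ‖τ x‖ = ‖x‖)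

include hiso

theorem coe_smul_ball (τ : E ≃ₐ[K] E) (a : ball E) :
    letI := ballAction hiso
    ((τ • a : ball E) : E) = τ (a : E) := rfl

/-- faithfulness of the action on the residue field -/
theorem faithful_residue
    (hfaith : ∀ τ : E ≃ₐ[K] E, τ ≠ 1 → ∃ x : E, ‖x‖ ≤ 1 ∧ ‖τ x - x‖ = 1) :
    letI := ballAction hiso
    FaithfulSMul (E ≃ₐ[K] E) (IsLocalRing.ResidueField (ball E)) := by
  letI := ballAction hiso
  refine ⟨fun {g h} hgh => ?_⟩
  by_contra hne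
  have hτ : h⁻¹ * g ≠ 1 := by
    intro h1
    apply hne
    have := congrArg (fun t => h * t) h1
    simpa using this
  obtain ⟨x, hx, hτx⟩ := hfaith _ hτ
  have key := hgh (IsLocalRing.residue (ball E) ⟨x, hx⟩)
  rw [← IsLocalRing.ResidueField.residue_smul, ← IsLocalRing.ResidueField.residue_smul,
    residue_eq_iff] at key
  have e : ((g • (⟨x, hx⟩ : ball E) : ball E) : E) - ((h • (⟨x, hx⟩ : ball E) : ball E) : E) =
      h ((h⁻¹ * g) x - x) := by
    rw [coe_smul_ball hiso, coe_smul_ball hiso, map_sub, AlgEquiv.mul_apply]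
    congr 1
    exact (AlgEquiv.apply_symm_apply h (g x)).symm
  rw [e, hiso, hτx] at key
  exact lt_irrefl _ key

/-- the product of the conjugates, on the residue field -/
theorem exists_prod_smul_eq
    (hfaith : ∀ τ : E ≃ₐ[K] E, τ ≠ 1 → ∃ x : E, ‖x‖ ≤ 1 ∧ ‖τ x - x‖ = 1)
    (hfin : ∃ R : Finset E, ∀ x : E, ‖x‖ ≤ 1 → ∃ r ∈ R, ‖x - r‖ < 1) :
    letI := ballAction hiso
    ∀ k : IsLocalRing.ResidueField (ball E), (∀ g : E ≃ₐ[K] E, g • k = k) →
      ∃ y : IsLocalRing.ResidueField (ball E), ∏ g : E ≃ₐ[K] E, g • y = k := by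
  letI := ballAction hiso
  haveI := faithful_residue hiso hfaith
  haveI := finite_residueField hfin
  set κ := IsLocalRing.ResidueField (ball E)
  set F := FixedPoints.subfield (E ≃ₐ[K] E) κ
  intro k hk
  have hkF : k ∈ F := hk
  obtain ⟨y, hy⟩ := FiniteField.norm_surjective F κ (⟨k, hkF⟩ : F)
  refine ⟨y, ?_⟩
  have h1 := Algebra.norm_eq_prod_automorphisms F y
  rw [hy] at h1
  have h2 : ∏ g : E ≃ₐ[K] E, g • y = ∏ σ : κ ≃ₐ[F] κ, σ y :=
    Fintype.prod_equiv (FixedPoints.toAlgAutMulEquiv (E ≃ₐ[K] E) κ).toEquiv _ _ fun g => rfl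
  rw [h2, ← h1]
  rfl

/-- the sum of the conjugates, on the residue field -/
theorem exists_sum_smul_eq_one
    (hfaith : ∀ τ : E ≃ₐ[K] E, τ ≠ 1 → ∃ x : E, ‖x‖ ≤ 1 ∧ ‖τ x - x‖ = 1) :
    letI := ballAction hiso
    ∃ b : IsLocalRing.ResidueField (ball E), ∑ g : E ≃ₐ[K] E, g • b = 1 := by
  letI := ballAction hiso
  haveI := faithful_residue hiso hfaith
  set κ := IsLocalRing.ResidueField (ball E)
  set F := FixedPoints.subfield (E ≃ₐ[K] E) κ
  obtain ⟨b, hb⟩ := Algebra.trace_surjective F κ (1 : F)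
  refine ⟨b, ?_⟩
  have h1 := trace_eq_sum_automorphisms (K := F) (L := κ) b
  rw [hb] at h1
  have h2 : ∑ g : E ≃ₐ[K] E, g • b = ∑ σ : κ ≃ₐ[F] κ, σ b :=
    Fintype.sum_equiv (FixedPoints.toAlgAutMulEquiv (E ≃ₐ[K] E) κ).toEquiv _ _ fun g => rfl
  rw [h2, ← h1, map_one]

/-- **Norm is onto on residue fields**, in congruence form. -/
theorem exists_norm_close
    (hfaith : ∀ τ : E ≃ₐ[K] E, τ ≠ 1 → ∃ x : E, ‖x‖ ≤ 1 ∧ ‖τ x - x‖ = 1)
    (hfin : ∃ R : Finset E, ∀ x : E, ‖x‖ ≤ 1 → ∃ r ∈ R, ‖x - r‖ < 1)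
    (u : K) (hu : ‖algebraMap K E u‖ = 1) :
    ∃ y : E, ‖y‖ = 1 ∧ ‖algebraMap K E (Algebra.norm K y) - algebraMap K E u‖ < 1 := by
  letI := ballAction hiso
  set au : ball E := ⟨algebraMap K E u, hu.le⟩ with hau
  have hk : ∀ g : E ≃ₐ[K] E, g • IsLocalRing.residue (ball E) au =
      IsLocalRing.residue (ball E) au := by
    intro g
    rw [← IsLocalRing.ResidueField.residue_smul]
    congr 1
    exact Subtype.ext (g.commutes u)
  obtain ⟨ybar, hybar⟩ := exists_prod_smul_eq hiso hfaith hfin _ hk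
  obtain ⟨y, rfl⟩ := IsLocalRing.residue_surjective ybar
  simp_rw [← IsLocalRing.ResidueField.residue_smul] at hybar
  rw [← map_prod, residue_eq_iff] at hybar
  have hcoe : ((∏ g : E ≃ₐ[K] E, g • y : ball E) : E) =
      algebraMap K E (Algebra.norm K (y : E)) := by
    rw [SubmonoidClass.coe_finsetProd, ← prod_conj_eq]
    rfl
  rw [hcoe] at hybar
  refine ⟨(y : E), ?_, hybar⟩
  have h1 : ‖algebraMap K E (Algebra.norm K (y : E))‖ = 1 := by
    rw [← hu]
    apply norm_eq_of_sub_lt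
    rw [hu]; exact hybar
  have h2 : ‖(y : E)‖ ^ Module.finrank K E = 1 := by
    rw [← h1, ← prod_conj_eq (K := K), norm_prod]
    simp_rw [hiso]
    rw [Finset.prod_const, Finset.card_univ, ← Nat.card_eq_fintype_card,
      IsGalois.card_aut_eq_finrank]
  exact (pow_eq_one_iff_of_nonneg (norm_nonneg _) (Module.finrank_pos (R := K) (M := E)).ne').1 h2

/-- **Some integral element has a unit trace** (the trace is onto on residue fields). -/
theorem exists_trace_unit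
    (hfaith : ∀ τ : E ≃ₐ[K] E, τ ≠ 1 → ∃ x : E, ‖x‖ ≤ 1 ∧ ‖τ x - x‖ = 1) :
    ∃ b : E, ‖b‖ ≤ 1 ∧ ‖algebraMap K E (Algebra.trace K E b)‖ = 1 := by
  letI := ballAction hiso
  obtain ⟨bbar, hbbar⟩ := exists_sum_smul_eq_one hiso hfaith
  obtain ⟨b, rfl⟩ := IsLocalRing.residue_surjective bbar
  simp_rw [← IsLocalRing.ResidueField.residue_smul] at hbbar
  rw [← map_sum, ← map_one (IsLocalRing.residue (ball E)), residue_eq_iff] at hbbar
  have hcoe : ((∑ g : E ≃ₐ[K] E, g • b : ball E) : E) =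
      algebraMap K E (Algebra.trace K E (b : E)) := by
    rw [AddSubmonoidClass.coe_finsetSum, ← sum_conj_eq]
    rfl
  rw [hcoe, Subring.coe_one] at hbbar
  refine ⟨(b : E), b.2, ?_⟩
  have := norm_eq_of_sub_lt (a := algebraMap K E (Algebra.trace K E (b : E))) (b := (1 : E))
    (by rw [norm_one]; exact hbbar)
  exact this.trans norm_one

end Residue

/-! ### Core: successive approximation -/

section Core

variable {K E : Type*} [Field K] [NormedField E] [IsUltrametricDist E]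
  [Algebra K E] [FiniteDimensional K E] [IsGalois K E]

variable (hiso : ∀ (τ : E ≃ₐ[K] E) (x : E), ‖τ x‖ = ‖x‖)

include hiso

theorem norm_algebraMap_norm (y : E) :
    ‖algebraMap K E (Algebra.norm K y)‖ = ‖y‖ ^ Module.finrank K E := by
  rw [← prod_conj_eq, norm_prod]
  simp_rw [hiso]
  rw [Finset.prod_const, Finset.card_univ, ← Nat.card_eq_fintype_card,
    IsGalois.card_aut_eq_finrank]

theorem norm_algebraMap_norm_eq_one {y : E} (hy : ‖y‖ = 1) :
    ‖algebraMap K E (Algebra.norm K y)‖ = 1 := by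
  rw [norm_algebraMap_norm hiso, hy, one_pow]

theorem continuous_conj (τ : E ≃ₐ[K] E) : Continuous τ :=
  (AddMonoidHomClass.isometry_of_norm τ (hiso τ)).continuous

theorem continuous_algebraMap_norm :
    Continuous fun y : E => algebraMap K E (Algebra.norm K y) := by
  have : (fun y : E => algebraMap K E (Algebra.norm K y)) = fun y => ∏ τ : E ≃ₐ[K] E, τ y := by
    funext y; exact (prod_conj_eq y).symm
  rw [this]
  exact continuous_finsetProd _ fun τ _ => continuous_conj hiso τ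

/-- One step of the approximation. -/
theorem step {ϖ : K} (hϖ0 : 0 < ‖algebraMap K E ϖ‖) (hϖ1 : ‖algebraMap K E ϖ‖ < 1)
    {b₀ : E} (hb₀ : ‖b₀‖ ≤ 1) (hb₀t : ‖algebraMap K E (Algebra.trace K E b₀)‖ = 1)
    (k : ℕ) (hk : 1 ≤ k) (u : K) (z : E) (hz : ‖z‖ = 1)
    (hzu : ‖algebraMap K E (Algebra.norm K z) - algebraMap K E u‖ ≤ ‖algebraMap K E ϖ‖ ^ k) :
    ∃ z' : E, ‖z'‖ = 1 ∧
      ‖algebraMap K E (Algebra.norm K z') - algebraMap K E u‖ ≤ ‖algebraMap K E ϖ‖ ^ (k + 1) ∧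
      ‖z' - z‖ ≤ ‖algebraMap K E ϖ‖ ^ k := by
  set ρ := ‖algebraMap K E ϖ‖ with hρ
  have hϖne : ϖ ≠ 0 := by
    rintro rfl
    simp [hρ] at hϖ0
  have hz0 : z ≠ 0 := by
    rintro rfl
    simp at hz
  have hNz : ‖algebraMap K E (Algebra.norm K z)‖ = 1 := norm_algebraMap_norm_eq_one hiso hz
  have hNz0 : Algebra.norm K z ≠ 0 := by
    intro h
    rw [h, map_zero, norm_zero] at hNz
    exact zero_ne_one hNz
  set t₀ := Algebra.trace K E b₀ with ht₀
  have ht₀0 : t₀ ≠ 0 := by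
    intro h
    rw [h, map_zero, norm_zero] at hb₀t
    exact zero_ne_one hb₀t
  -- `u_k = u / N z`, `d = u_k - 1`, `a = d / ϖ ^ k`
  set uk : K := u / Algebra.norm K z with huk
  set d : K := uk - 1 with hd
  have hdn : ‖algebraMap K E d‖ ≤ ρ ^ k := by
    have e : algebraMap K E d =
        (algebraMap K E u - algebraMap K E (Algebra.norm K z)) /
          algebraMap K E (Algebra.norm K z) := by
      rw [hd, huk, map_sub, map_div₀, map_one, sub_div, div_self]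
      exact fun h => hNz0 ((map_eq_zero _).1 h)
    rw [e, norm_div, hNz, div_one, norm_sub_rev]
    exact hzu
  set a : K := d / ϖ ^ k with ha
  have han : ‖algebraMap K E a‖ ≤ 1 := by
    rw [ha, map_div₀, norm_div, map_pow, norm_pow]
    exact div_le_one_of_le₀ hdn (pow_nonneg hϖ0.le k)
  -- the element `b` with trace `a`
  set c : K := a / t₀ with hc
  have hcn : ‖algebraMap K E c‖ ≤ 1 := by
    rw [hc, map_div₀, norm_div, hb₀t, div_one]; exact han
  set b : E := algebraMap K E c * b₀ with hb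
  have hbn : ‖b‖ ≤ 1 := by
    rw [hb, norm_mul]
    calc ‖algebraMap K E c‖ * ‖b₀‖ ≤ 1 * 1 :=
          mul_le_mul hcn hb₀ (norm_nonneg _) zero_le_one
      _ = 1 := one_mul 1
  have htr : Algebra.trace K E b = a := by
    have : b = c • b₀ := by rw [hb, Algebra.smul_def]
    rw [this, map_smul, smul_eq_mul, hc, ← ht₀, div_mul_cancel₀ _ ht₀0]
  -- the correction factor
  set y : E := 1 + algebraMap K E (ϖ ^ k) * b with hy
  have hρk1 : ρ ^ k ≤ 1 := pow_le_one₀ hϖ0.le hϖ1.le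
  have hρk : ρ ^ k < 1 := by
    calc ρ ^ k ≤ ρ ^ 1 := pow_le_pow_of_le_one hϖ0.le hϖ1.le hk
      _ = ρ := pow_one ρ
      _ < 1 := hϖ1
  have hϖk : ‖algebraMap K E (ϖ ^ k)‖ = ρ ^ k := by rw [map_pow, norm_pow]
  have hy1 : ‖y - 1‖ ≤ ρ ^ k := by
    have : y - 1 = algebraMap K E (ϖ ^ k) * b := by rw [hy]; ring
    rw [this, norm_mul, hϖk]
    calc ρ ^ k * ‖b‖ ≤ ρ ^ k * 1 := mul_le_mul_of_nonneg_left hbn (pow_nonneg hϖ0.le k)
      _ = ρ ^ k := mul_one _
  have hyn : ‖y‖ = 1 := norm_eq_one_of_sub_one_lt (hy1.trans_lt hρk)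
  -- the norm of `y`
  have hNy : ‖algebraMap K E (Algebra.norm K y) - algebraMap K E uk‖ ≤ ρ ^ (k + 1) := by
    have hconj : ∀ τ : E ≃ₐ[K] E, τ y = 1 + algebraMap K E (ϖ ^ k) * τ b := by
      intro τ
      rw [hy, map_add, map_one, map_mul, τ.commutes]
    have hx : ∀ τ ∈ (Finset.univ : Finset (E ≃ₐ[K] E)),
        ‖algebraMap K E (ϖ ^ k) * τ b‖ ≤ ρ ^ k := by
      intro τ _
      rw [norm_mul, hϖk, hiso]
      calc ρ ^ k * ‖b‖ ≤ ρ ^ k * 1 := mul_le_mul_of_nonneg_left hbn (pow_nonneg hϖ0.le k)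
        _ = ρ ^ k := mul_one _
    have key := (norm_prod_one_add_sub (Finset.univ : Finset (E ≃ₐ[K] E))
      (fun τ => algebraMap K E (ϖ ^ k) * τ b) (pow_nonneg hϖ0.le k) hρk1 hx).1
    have hsum : ∑ τ : E ≃ₐ[K] E, algebraMap K E (ϖ ^ k) * τ b = algebraMap K E d := by
      rw [← Finset.mul_sum, sum_conj_eq, htr, ← map_mul, ha, mul_div_cancel₀]
      exact pow_ne_zero k hϖne
    have hprod : ∏ τ : E ≃ₐ[K] E, (1 + algebraMap K E (ϖ ^ k) * τ b) =
        algebraMap K E (Algebra.norm K y) := by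
      rw [← prod_conj_eq]
      exact Finset.prod_congr rfl fun τ _ => (hconj τ).symm
    rw [hprod, hsum] at key
    have e : algebraMap K E (Algebra.norm K y) - algebraMap K E uk =
        algebraMap K E (Algebra.norm K y) - 1 - algebraMap K E d := by
      rw [hd, map_sub, map_one]; ring
    rw [e]
    refine key.trans ?_
    rw [← pow_mul]
    exact pow_le_pow_of_le_one hϖ0.le hϖ1.le (by nlinarith)
  refine ⟨z * y, by rw [norm_mul, hz, hyn, one_mul], ?_, ?_⟩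
  · have e : algebraMap K E (Algebra.norm K (z * y)) - algebraMap K E u =
        algebraMap K E (Algebra.norm K z) *
          (algebraMap K E (Algebra.norm K y) - algebraMap K E uk) := by
      rw [map_mul, map_mul, huk, map_div₀, mul_sub, mul_div_cancel₀]
      exact fun h => hNz0 ((map_eq_zero _).1 h)
    rw [e, norm_mul, hNz, one_mul]
    exact hNy
  · have e : z * y - z = z * (y - 1) := by ring
    rw [e, norm_mul, hz, one_mul]
    exact hy1

/-- **Core theorem.**  If `ϖ : K` has the largest norm `< 1` in `E` (`e = 1`), the norm is onto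
on residue fields (`hN`) and some integral element has a unit trace (`hT`), then every `u : K` of
norm `1` is a norm from `E`, of an element of norm `1`. -/
theorem exists_norm_eq_of_residue [CompleteSpace E] {ϖ : K}
    (hϖ0 : 0 < ‖algebraMap K E ϖ‖) (hϖ1 : ‖algebraMap K E ϖ‖ < 1)
    (hdisc : ∀ x : E, ‖x‖ < 1 → ‖x‖ ≤ ‖algebraMap K E ϖ‖)
    (hN : ∀ u : K, ‖algebraMap K E u‖ = 1 →
      ∃ y : E, ‖y‖ = 1 ∧ ‖algebraMap K E (Algebra.norm K y) - algebraMap K E u‖ < 1)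
    (hT : ∃ b : E, ‖b‖ ≤ 1 ∧ ‖algebraMap K E (Algebra.trace K E b)‖ = 1)
    (u : K) (hu : ‖algebraMap K E u‖ = 1) :
    ∃ y : E, ‖y‖ = 1 ∧ Algebra.norm K y = u := by
  classical
  set ρ := ‖algebraMap K E ϖ‖ with hρ
  obtain ⟨b₀, hb₀, hb₀t⟩ := hT
  obtain ⟨y₀, hy₀, hy₀u⟩ := hN u hu
  -- the invariant at stage `k` (index shifted by one)
  let Inv : ℕ → E → Prop := fun k z =>
    ‖z‖ = 1 ∧ ‖algebraMap K E (Algebra.norm K z) - algebraMap K E u‖ ≤ ρ ^ (k + 1)
  have hstep : ∀ (k : ℕ) (z : E), ∃ z' : E, Inv k z → (Inv (k + 1) z' ∧ ‖z' - z‖ ≤ ρ ^ (k + 1)) := by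
    intro k z
    by_cases h : Inv k z
    · obtain ⟨z', h1, h2, h3⟩ :=
        step hiso hϖ0 hϖ1 hb₀ hb₀t (k + 1) (Nat.succ_le_succ (Nat.zero_le k)) u z h.1 h.2
      exact ⟨z', fun _ => ⟨⟨h1, h2⟩, h3⟩⟩
    · exact ⟨z, fun h' => absurd h' h⟩
  choose next hnext using hstep
  let zs : ℕ → E := fun k => Nat.rec y₀ (fun k zk => next k zk) k
  have zs_succ : ∀ k, zs (k + 1) = next k (zs k) := fun k => rfl
  have hInv : ∀ k, Inv k (zs k) := by
    intro k
    induction k with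
    | zero =>
      refine ⟨hy₀, ?_⟩
      rw [zero_add, pow_one]
      exact hdisc _ hy₀u
    | succ k ih =>
      rw [zs_succ]
      exact (hnext k (zs k) ih).1
  have hdist : ∀ k, dist (zs k) (zs (k + 1)) ≤ ρ * ρ ^ k := by
    intro k
    rw [dist_eq_norm, norm_sub_rev, zs_succ, ← pow_succ']
    exact (hnext k (zs k) (hInv k)).2
  have hcauchy : CauchySeq zs := cauchySeq_of_le_geometric ρ ρ hϖ1 hdist
  obtain ⟨z, hz⟩ := cauchySeq_tendsto_of_complete hcauchy
  refine ⟨z, ?_, ?_⟩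
  · have h1 : Filter.Tendsto (fun k => ‖zs k‖) Filter.atTop (nhds ‖z‖) :=
      (continuous_norm.tendsto z).comp hz
    have h2 : (fun k => ‖zs k‖) = fun _ => (1 : ℝ) := funext fun k => (hInv k).1
    rw [h2] at h1
    exact (tendsto_nhds_unique h1 tendsto_const_nhds)
  · apply FaithfulSMul.algebraMap_injective K E
    have h1 : Filter.Tendsto (fun k => algebraMap K E (Algebra.norm K (zs k))) Filter.atTop
        (nhds (algebraMap K E (Algebra.norm K z))) :=
      ((continuous_algebraMap_norm hiso).tendsto z).comp hz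
    have h2 : Filter.Tendsto (fun k => algebraMap K E (Algebra.norm K (zs k))) Filter.atTop
        (nhds (algebraMap K E u)) := by
      rw [tendsto_iff_norm_sub_tendsto_zero]
      have hpow : Filter.Tendsto (fun k : ℕ => ρ ^ (k + 1)) Filter.atTop (nhds 0) :=
        (tendsto_pow_atTop_nhds_zero_of_lt_one hϖ0.le hϖ1).comp (Filter.tendsto_add_atTop_nat 1)
      exact squeeze_zero (fun k => norm_nonneg _) (fun k => (hInv k).2) hpow
    exact tendsto_nhds_unique h1 h2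

end Core

/-! ### Main theorems -/

section Main

variable {K E : Type*} [Field K] [NormedField E] [IsUltrametricDist E] [CompleteSpace E]
  [Algebra K E] [FiniteDimensional K E] [IsGalois K E]

theorem le_of_lt_one_of_zpow {ρ : ℝ} (hρ0 : 0 < ρ) (hρ1 : ρ < 1) {t : ℝ} (ht : t < 1)
    (h : t = 0 ∨ ∃ k : ℤ, t = ρ ^ k) : t ≤ ρ := by
  rcases h with rfl | ⟨k, rfl⟩
  · exact hρ0.le
  · have hk : 1 ≤ k := by
      by_contra hcon
      have hk0 : k ≤ 0 := by omega
      have : 1 ≤ ρ ^ k := one_le_zpow_of_nonpos₀ hρ0 hρ1.le hk0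
      linarith
    calc ρ ^ k ≤ ρ ^ (1 : ℤ) := zpow_le_zpow_right_of_le_one₀ hρ0 hρ1.le hk
      _ = ρ := zpow_one ρ

/-- **In an unramified extension every unit is a norm.**  `E/K` finite Galois, `E` complete
ultrametric, all automorphisms isometries, `ϖ : K` a uniformiser of `E` (`e = 1`), `Gal(E/K)`
acting faithfully on the finite residue field of `E`. -/
theorem exists_norm_eq
    (hiso : ∀ (τ : E ≃ₐ[K] E) (x : E), ‖τ x‖ = ‖x‖)
    {ϖ : K} (hϖ0 : 0 < ‖algebraMap K E ϖ‖) (hϖ1 : ‖algebraMap K E ϖ‖ < 1)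
    (hϖ : ∀ x : E, x ≠ 0 → ∃ k : ℤ, ‖x‖ = ‖algebraMap K E ϖ‖ ^ k)
    (hfaith : ∀ τ : E ≃ₐ[K] E, τ ≠ 1 → ∃ x : E, ‖x‖ ≤ 1 ∧ ‖τ x - x‖ = 1)
    (hfin : ∃ R : Finset E, ∀ x : E, ‖x‖ ≤ 1 → ∃ r ∈ R, ‖x - r‖ < 1)
    (u : K) (hu : ‖algebraMap K E u‖ = 1) :
    ∃ y : E, ‖y‖ = 1 ∧ Algebra.norm K y = u := by
  refine exists_norm_eq_of_residue hiso hϖ0 hϖ1 ?_ (exists_norm_close hiso hfaith hfin)
    (exists_trace_unit hiso hfaith) u hu
  intro x hx
  refine le_of_lt_one_of_zpow hϖ0 hϖ1 hx ?_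
  by_cases h0 : x = 0
  · left; rw [h0, norm_zero]
  · right; exact hϖ x h0

/-- **The norm group of an unramified extension**: `x ≠ 0` is a norm iff `n ∣ v(x)`,
`n = [E : K]`. -/
theorem norm_mem_iff
    (hiso : ∀ (τ : E ≃ₐ[K] E) (x : E), ‖τ x‖ = ‖x‖)
    {ϖ : K} (hϖ0 : 0 < ‖algebraMap K E ϖ‖) (hϖ1 : ‖algebraMap K E ϖ‖ < 1)
    (hϖ : ∀ x : E, x ≠ 0 → ∃ k : ℤ, ‖x‖ = ‖algebraMap K E ϖ‖ ^ k)
    (hfaith : ∀ τ : E ≃ₐ[K] E, τ ≠ 1 → ∃ x : E, ‖x‖ ≤ 1 ∧ ‖τ x - x‖ = 1)
    (hfin : ∃ R : Finset E, ∀ x : E, ‖x‖ ≤ 1 → ∃ r ∈ R, ‖x - r‖ < 1)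
    (x : K) (hx : x ≠ 0) :
    (∃ y : E, Algebra.norm K y = x) ↔
      ∃ k : ℤ, ‖algebraMap K E x‖ = ‖algebraMap K E ϖ‖ ^ ((Module.finrank K E : ℤ) * k) := by
  set ρ := ‖algebraMap K E ϖ‖ with hρ
  set n := Module.finrank K E with hn
  have hϖne : ϖ ≠ 0 := by
    rintro rfl
    simp [hρ] at hϖ0
  constructor
  · rintro ⟨y, rfl⟩
    have hy0 : y ≠ 0 := by
      rintro rfl
      exact hx (Algebra.norm_zero)
    obtain ⟨j, hj⟩ := hϖ y hy0
    refine ⟨j, ?_⟩
    rw [norm_algebraMap_norm hiso, hj, ← zpow_natCast, ← zpow_mul, mul_comm]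
  · rintro ⟨k, hk⟩
    set w : K := ϖ ^ k with hw
    have hw0 : w ≠ 0 := zpow_ne_zero k hϖne
    have hwn : ‖algebraMap K E (w ^ n)‖ = ρ ^ ((n : ℤ) * k) := by
      rw [hw, map_pow, map_zpow₀, norm_pow, norm_zpow, ← zpow_natCast, ← zpow_mul, mul_comm]
    have hu : ‖algebraMap K E (x / w ^ n)‖ = 1 := by
      rw [map_div₀, norm_div, hwn, hk, div_self]
      exact (zpow_pos hϖ0 _).ne'
    obtain ⟨y₀, -, hy₀⟩ := exists_norm_eq hiso hϖ0 hϖ1 hϖ hfaith hfin _ hu
    refine ⟨y₀ * algebraMap K E w, ?_⟩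
    rw [map_mul, hy₀, Algebra.norm_algebraMap, div_mul_cancel₀]
    exact pow_ne_zero n hw0

/-- The same for the unit groups: the range of the norm `Eˣ → Kˣ`. -/
theorem mem_range_unitsMap_norm_iff
    (hiso : ∀ (τ : E ≃ₐ[K] E) (x : E), ‖τ x‖ = ‖x‖)
    {ϖ : K} (hϖ0 : 0 < ‖algebraMap K E ϖ‖) (hϖ1 : ‖algebraMap K E ϖ‖ < 1)
    (hϖ : ∀ x : E, x ≠ 0 → ∃ k : ℤ, ‖x‖ = ‖algebraMap K E ϖ‖ ^ k)
    (hfaith : ∀ τ : E ≃ₐ[K] E, τ ≠ 1 → ∃ x : E, ‖x‖ ≤ 1 ∧ ‖τ x - x‖ = 1)
    (hfin : ∃ R : Finset E, ∀ x : E, ‖x‖ ≤ 1 → ∃ r ∈ R, ‖x - r‖ < 1)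
    (x : Kˣ) :
    x ∈ (Units.map (Algebra.norm K : E →* K)).range ↔
      ∃ k : ℤ, ‖algebraMap K E (x : K)‖ =
        ‖algebraMap K E ϖ‖ ^ ((Module.finrank K E : ℤ) * k) := by
  rw [← norm_mem_iff hiso hϖ0 hϖ1 hϖ hfaith hfin (x : K) x.ne_zero, MonoidHom.mem_range]
  constructor
  · rintro ⟨y, hy⟩
    exact ⟨(y : E), by rw [← hy]; rfl⟩
  · rintro ⟨y, hy⟩
    have hy0 : y ≠ 0 := by
      rintro rfl
      rw [Algebra.norm_zero] at hy
      exact x.ne_zero hy.symm
    exact ⟨Units.mk0 y hy0, Units.ext (by rw [← hy]; rfl)⟩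

open Fermat.Agent.S55.Local.LocalDatum in
/-- The `ordInt` form (`LocalDatum.IsUniformizer`): `N Eˣ = {x : [E:K] ∣ v(x)}`. -/
theorem mem_range_unitsMap_norm_iff_dvd
    (hiso : ∀ (τ : E ≃ₐ[K] E) (x : E), ‖τ x‖ = ‖x‖)
    {ϖ : K} (hπ : IsUniformizer (algebraMap K E ϖ))
    (hfaith : ∀ τ : E ≃ₐ[K] E, τ ≠ 1 → ∃ x : E, ‖x‖ ≤ 1 ∧ ‖τ x - x‖ = 1)
    (hfin : ∃ R : Finset E, ∀ x : E, ‖x‖ ≤ 1 → ∃ r ∈ R, ‖x - r‖ < 1)
    (x : Kˣ) :
    x ∈ (Units.map (Algebra.norm K : E →* K)).range ↔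
      (Module.finrank K E : ℤ) ∣ hπ.ordInt (Units.map (algebraMap K E : K →* E) x) := by
  rw [mem_range_unitsMap_norm_iff hiso hπ.pos hπ.lt_one hπ.exists_zpow hfaith hfin]
  constructor
  · rintro ⟨k, hk⟩
    refine ⟨k, ?_⟩
    exact hπ.ordInt_eq_of_norm_eq hk
  · rintro ⟨k, hk⟩
    refine ⟨k, ?_⟩
    rw [← hk]
    exact hπ.norm_eq_zpow_ordInt (Units.map (algebraMap K E : K →* E) x)

open Fermat.Agent.S55.Local.LocalDatum in
/-- `exists_norm_eq` with the uniformiser packaged as `LocalDatum.IsUniformizer`. -/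
theorem exists_norm_eq'
    (hiso : ∀ (τ : E ≃ₐ[K] E) (x : E), ‖τ x‖ = ‖x‖)
    {ϖ : K} (hπ : IsUniformizer (algebraMap K E ϖ))
    (hfaith : ∀ τ : E ≃ₐ[K] E, τ ≠ 1 → ∃ x : E, ‖x‖ ≤ 1 ∧ ‖τ x - x‖ = 1)
    (hfin : ∃ R : Finset E, ∀ x : E, ‖x‖ ≤ 1 → ∃ r ∈ R, ‖x - r‖ < 1)
    (u : Kˣ) (hu : ‖algebraMap K E (u : K)‖ = 1) :
    ∃ y : Eˣ, ‖(y : E)‖ = 1 ∧ Units.map (Algebra.norm K : E →* K) y = u := by
  obtain ⟨y, hy1, hy⟩ := exists_norm_eq hiso hπ.pos hπ.lt_one hπ.exists_zpow hfaith hfin (u : K) hu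
  have hy0 : y ≠ 0 := by
    rintro rfl
    rw [norm_zero] at hy1
    exact zero_ne_one hy1
  exact ⟨Units.mk0 y hy0, hy1, Units.ext hy⟩

end Main

/-! ### The concrete setting: intermediate fields of `PadicAlgCl q` -/

section Padic

open Fermat.Agent.S55.Local.LocalDatum

variable (q : ℕ) [Fact q.Prime]
  (K : IntermediateField ℚ_[q] (PadicAlgCl q)) [FiniteDimensional ℚ_[q] K]
  (E : IntermediateField K (PadicAlgCl q)) [FiniteDimensional K E]

/-- the normed algebra structure of `E` over `ℚ_[q]` (subfield norm) -/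
@[reducible] noncomputable def normedAlgebraTop : NormedAlgebra ℚ_[q] E where
  norm_smul_le r x := by
    change ‖((r • x : E) : PadicAlgCl q)‖ ≤ ‖r‖ * ‖(x : PadicAlgCl q)‖
    have : ((r • x : E) : PadicAlgCl q) = r • (x : PadicAlgCl q) := rfl
    rw [this, norm_smul]

theorem finiteDimensionalTop : FiniteDimensional ℚ_[q] E :=
  Module.Finite.trans (R := ℚ_[q]) K E

theorem norm_algEquiv_padic (τ : E ≃ₐ[K] E) (x : E) :
    ‖((τ x : E) : PadicAlgCl q)‖ = ‖(x : PadicAlgCl q)‖ := by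
  letI := normedAlgebraTop q K E
  haveI := finiteDimensionalTop q K E
  exact norm_algEquiv_tower q E K τ x

variable [IsGalois K E]

/-- **Units are norms** in an unramified extension `E/K` of finite extensions of `ℚ_q` inside
`PadicAlgCl q`: `hunr` = equal value groups, `hfaith` = trivial inertia. -/
theorem exists_norm_eq_padic
    (hunr : ∀ x : E, ∃ y : K, ‖(x : PadicAlgCl q)‖ = ‖(y : PadicAlgCl q)‖)
    (hfaith : ∀ τ : E ≃ₐ[K] E, τ ≠ 1 → ∃ x : E, ‖(x : PadicAlgCl q)‖ ≤ 1 ∧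
      ‖((τ x : E) : PadicAlgCl q) - (x : PadicAlgCl q)‖ = 1)
    (u : K) (hu : ‖(u : PadicAlgCl q)‖ = 1) :
    ∃ y : E, ‖(y : PadicAlgCl q)‖ = 1 ∧ Algebra.norm K y = u := by
  letI := normedAlgebraTop q K E
  haveI := finiteDimensionalTop q K E
  haveI : CompleteSpace E := completeSpace q E
  have hiso : ∀ (τ : E ≃ₐ[K] E) (x : E), ‖τ x‖ = ‖x‖ := norm_algEquiv_padic q K E
  obtain ⟨π, hπ0, hπ1, hπ⟩ := exists_uniformizer q K
  obtain ⟨R, -, hR⟩ := exists_finite_residue_system q E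
  have hπE : ‖algebraMap K E π‖ = ‖π‖ := rfl
  refine exists_norm_eq hiso (ϖ := π) (by rw [hπE]; exact hπ0) (by rw [hπE]; exact hπ1) ?_
    hfaith ⟨R, hR⟩ u hu
  intro x hx
  obtain ⟨y, hy⟩ := hunr x
  have hy0 : y ≠ 0 := by
    rintro rfl
    have : ‖(x : PadicAlgCl q)‖ = 0 := by rw [hy]; simp
    exact hx (Subtype.ext (norm_eq_zero.1 this))
  obtain ⟨n, hn⟩ := hπ y hy0
  exact ⟨n, by rw [hπE, ← hn]; exact hy⟩

/-- **The norm group** of an unramified extension, for any uniformiser `π` of `K`: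
`N Eˣ = {x : [E:K] ∣ v_K x}`. -/
theorem mem_range_unitsMap_norm_iff_padic
    (hunr : ∀ x : E, ∃ y : K, ‖(x : PadicAlgCl q)‖ = ‖(y : PadicAlgCl q)‖)
    (hfaith : ∀ τ : E ≃ₐ[K] E, τ ≠ 1 → ∃ x : E, ‖(x : PadicAlgCl q)‖ ≤ 1 ∧
      ‖((τ x : E) : PadicAlgCl q) - (x : PadicAlgCl q)‖ = 1)
    {π : K} (hπ : IsUniformizer π) (x : Kˣ) :
    x ∈ (Units.map (Algebra.norm K : E →* K)).range ↔
      (Module.finrank K E : ℤ) ∣ hπ.ordInt x := by
  letI := normedAlgebraTop q K E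
  haveI := finiteDimensionalTop q K E
  haveI : CompleteSpace E := completeSpace q E
  have hiso : ∀ (τ : E ≃ₐ[K] E) (x : E), ‖τ x‖ = ‖x‖ := norm_algEquiv_padic q K E
  obtain ⟨R, -, hR⟩ := exists_finite_residue_system q E
  have hπE : ‖algebraMap K E π‖ = ‖π‖ := rfl
  have hval : ∀ x : E, x ≠ 0 → ∃ k : ℤ, ‖x‖ = ‖algebraMap K E π‖ ^ k := by
    intro x hx
    obtain ⟨y, hy⟩ := hunr x
    have hy0 : y ≠ 0 := by
      rintro rfl
      have : ‖(x : PadicAlgCl q)‖ = 0 := by rw [hy]; simp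
      exact hx (Subtype.ext (norm_eq_zero.1 this))
    obtain ⟨n, hn⟩ := hπ.exists_zpow y hy0
    exact ⟨n, by rw [hπE, ← hn]; exact hy⟩
  rw [mem_range_unitsMap_norm_iff hiso (ϖ := π) (by rw [hπE]; exact hπ.pos)
    (by rw [hπE]; exact hπ.lt_one) hval hfaith ⟨R, hR⟩]
  have hxE : ‖algebraMap K E (x : K)‖ = ‖(x : K)‖ := rfl
  rw [hxE, hπE]
  constructor
  · rintro ⟨k, hk⟩
    exact ⟨k, hπ.ordInt_eq_of_norm_eq hk⟩
  · rintro ⟨k, hk⟩
    exact ⟨k, by rw [← hk]; exact hπ.norm_eq_zpow_ordInt x⟩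

end Padic

end Fermat.Agent.S55.Local.UnramNorm
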