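import Mathlib
import Fermat.Agent.S55.Local.UnramNorm
import Fermat.Agent.S55.Local.Basic
import Fermat.Agent.S55.Local.Blocks

/-!
# S55 / Local (L6b): trivial inertia and the unconditional unramified norm theorems

`Local/UnramNorm.lean` proves "units are norms" and `N Eˣ = {x : n ∣ v x}` for an unramified
extension under the hypothesis `hfaith` (every `τ ≠ 1` moves some integral element by a unit).
Here `hfaith` is **proved** from: a uniformiser of `E` lying in `K` + finite residue field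
(`exists_moved_of_ne_one`): an automorphism acting trivially on the residue field is the identity
(reduce to prime order `ℓ`; approximate integral `x` by `ℓ⁻¹ tr x` resp. `N z`, `z ^ ℓ ≡ x`; then
`‖τ x - x‖ ≤ ‖ϖ‖ ^ n` for all `n` by induction).

Consequences: the unconditional forms in the abstract normed setting, in the `(LF)` language of
`Local/Basic.lean` + `Local/Blocks.lean` (`Blocks.IsUnram K E` only), and in the `PadicAlgCl q`
language (equal value groups only).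
-/

set_option autoImplicit false
set_option linter.unusedSectionVars false
set_option linter.style.haveILetI false

namespace Fermat.Agent.S55.Local.UnramNormLF

open Finset Fermat.Agent.S55.Local.UnramNorm

/-! ### Strict ultrametric bound for finite sums -/

theorem norm_sum_lt_of_lt {E : Type*} [NormedField E] [IsUltrametricDist E] {ι : Type*}
    (s : Finset ι) (x : ι → E) {r : ℝ} (hr : 0 < r) (hx : ∀ t ∈ s, ‖x t‖ < r) :
    ‖∑ t ∈ s, x t‖ < r := by
  classical
  induction s using Finset.induction_on with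
  | empty => simpa using hr
  | insert a s ha ih =>
    rw [Finset.sum_insert ha]
    refine lt_of_le_of_lt (IsUltrametricDist.norm_add_le_max _ _) (max_lt ?_ ?_)
    · exact hx a (Finset.mem_insert_self a s)
    · exact ih fun t ht => hx t (Finset.mem_insert_of_mem ht)

/-! ### Inert automorphisms -/

section Inertia

variable {K E : Type*} [Field K] [NormedField E] [IsUltrametricDist E]
  [Algebra K E] [FiniteDimensional K E] [IsGalois K E]

/-- `τ` acts trivially on the residue field. -/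
def Inert (τ : E ≃ₐ[K] E) : Prop := ∀ x : E, ‖x‖ ≤ 1 → ‖τ x - x‖ < 1

theorem inert_one : Inert (1 : E ≃ₐ[K] E) := fun x _ => by simp

theorem Inert.mul (hiso : ∀ (τ : E ≃ₐ[K] E) (x : E), ‖τ x‖ = ‖x‖) {σ τ : E ≃ₐ[K] E}
    (hσ : Inert σ) (hτ : Inert τ) : Inert (σ * τ) := by
  intro x hx
  have e : (σ * τ) x - x = (σ (τ x) - τ x) + (τ x - x) := by
    rw [AlgEquiv.mul_apply]; ring
  rw [e]
  exact lt_of_le_of_lt (IsUltrametricDist.norm_add_le_max _ _)
    (max_lt (hσ _ (by rw [hiso]; exact hx)) (hτ x hx))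

theorem Inert.pow (hiso : ∀ (τ : E ≃ₐ[K] E) (x : E), ‖τ x‖ = ‖x‖) {τ : E ≃ₐ[K] E}
    (hτ : Inert τ) (n : ℕ) : Inert (τ ^ n) := by
  induction n with
  | zero => rw [pow_zero]; exact inert_one
  | succ n ih => rw [pow_succ]; exact ih.mul hiso hτ

/-- shifting a sum over a full period -/
theorem sum_pow_shift {τ : E ≃ₐ[K] E} {ℓ : ℕ} (hord : τ ^ ℓ = 1) (x : E) :
    τ (∑ j ∈ range ℓ, (τ ^ j) x) = ∑ j ∈ range ℓ, (τ ^ j) x := by
  rw [map_sum]
  have h1 := Finset.sum_range_succ' (fun j => (τ ^ j) x) ℓ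
  have h2 := Finset.sum_range_succ (fun j => (τ ^ j) x) ℓ
  have h3 : ∑ j ∈ range ℓ, τ ((τ ^ j) x) = ∑ j ∈ range ℓ, (τ ^ (j + 1)) x := by
    refine Finset.sum_congr rfl fun j _ => ?_
    rw [pow_succ', AlgEquiv.mul_apply]
  rw [h3]
  have h4 : (τ ^ ℓ) x = (τ ^ 0) x := by rw [hord, pow_zero]
  rw [h4] at h2
  exact add_right_cancel (h1.symm.trans h2)

/-- shifting a product over a full period -/
theorem prod_pow_shift {τ : E ≃ₐ[K] E} {ℓ : ℕ} (hord : τ ^ ℓ = 1) (x : E) :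
    τ (∏ j ∈ range ℓ, (τ ^ j) x) = ∏ j ∈ range ℓ, (τ ^ j) x := by
  by_cases hx : x = 0
  · subst hx
    simp
  rw [map_prod]
  have h1 := Finset.prod_range_succ' (fun j => (τ ^ j) x) ℓ
  have h2 := Finset.prod_range_succ (fun j => (τ ^ j) x) ℓ
  have h3 : ∏ j ∈ range ℓ, τ ((τ ^ j) x) = ∏ j ∈ range ℓ, (τ ^ (j + 1)) x := by
    refine Finset.prod_congr rfl fun j _ => ?_
    rw [pow_succ', AlgEquiv.mul_apply]
  rw [h3]
  have h4 : (τ ^ ℓ) x = (τ ^ 0) x := by rw [hord, pow_zero]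
  rw [h4] at h2
  have hne : (τ ^ 0) x ≠ 0 := by rw [pow_zero]; exact hx
  exact mul_right_cancel₀ hne (h1.symm.trans h2)

variable (hiso : ∀ (τ : E ≃ₐ[K] E) (x : E), ‖τ x‖ = ‖x‖)

include hiso

/-- **Approximation by fixed elements**: if `τ` is inert with `τ ^ ℓ = 1`, `ℓ` prime, and the
residue field is finite, every integral `x` is congruent to a `τ`-fixed integral element. -/
theorem exists_fixed_close
    (hfin : ∃ R : Finset E, ∀ x : E, ‖x‖ ≤ 1 → ∃ r ∈ R, ‖x - r‖ < 1)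
    {τ : E ≃ₐ[K] E} (hτ : Inert τ) {ℓ : ℕ} (hℓ : ℓ.Prime) (hord : τ ^ ℓ = 1)
    (x : E) (hx : ‖x‖ ≤ 1) :
    ∃ f : E, τ f = f ∧ ‖f‖ ≤ 1 ∧ ‖x - f‖ < 1 := by
  have hℓ1 : ‖(ℓ : E)‖ ≤ 1 := IsUltrametricDist.norm_natCast_le_one E ℓ
  rcases hℓ1.lt_or_eq with hlt | heq
  · -- residue characteristic `ℓ`: use a norm of an `ℓ`-th root modulo the maximal ideal
    haveI := finite_residueField hfin
    set κ := IsLocalRing.ResidueField (ball E) with hκ
    have hℓκ : ((ℓ : ℕ) : κ) = 0 := by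
      have h1 : IsLocalRing.residue (ball E) ((ℓ : ℕ) : ball E) = ((ℓ : ℕ) : κ) := map_natCast _ ℓ
      rw [← h1, residue_eq_zero_iff]
      have h2 : (((ℓ : ℕ) : ball E) : E) = (ℓ : E) := by push_cast; rfl
      rw [h2]; exact hlt
    haveI : CharP κ ℓ := (CharP.charP_iff_prime_eq_zero hℓ).2 hℓκ
    haveI : Fact ℓ.Prime := ⟨hℓ⟩
    obtain ⟨zbar, hzbar⟩ := surjective_frobenius κ ℓ (IsLocalRing.residue (ball E) ⟨x, hx⟩)
    obtain ⟨z, rfl⟩ := IsLocalRing.residue_surjective zbar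
    have hzj : ∀ j : ℕ, ‖(τ ^ j) (z : E)‖ ≤ 1 := fun j => by rw [hiso]; exact z.2
    set F : ball E := ∏ j ∈ range ℓ, (⟨(τ ^ j) (z : E), hzj j⟩ : ball E) with hF
    have hFcoe : (F : E) = ∏ j ∈ range ℓ, (τ ^ j) (z : E) := by
      rw [hF, SubmonoidClass.coe_finsetProd]
    have hres : IsLocalRing.residue (ball E) F = IsLocalRing.residue (ball E) ⟨x, hx⟩ := by
      rw [hF, map_prod, ← hzbar, frobenius_def]
      have : ∀ j ∈ range ℓ, IsLocalRing.residue (ball E) (⟨(τ ^ j) (z : E), hzj j⟩ : ball E) =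
          IsLocalRing.residue (ball E) z := by
        intro j _
        rw [residue_eq_iff]
        exact (hτ.pow hiso j) (z : E) z.2
      rw [Finset.prod_congr rfl this, Finset.prod_const, Finset.card_range]
    rw [residue_eq_iff] at hres
    refine ⟨(F : E), ?_, F.2, ?_⟩
    · rw [hFcoe]; exact prod_pow_shift hord _
    · rw [← norm_neg]
      have e : -(x - (F : E)) = (F : E) - x := by ring
      rw [e]; exact hres
  · -- `ℓ` is a unit: average
    have hℓ0 : (ℓ : E) ≠ 0 := by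
      intro h0; rw [h0, norm_zero] at heq; exact zero_ne_one heq
    set S : E := ∑ j ∈ range ℓ, (τ ^ j) x with hS
    refine ⟨(ℓ : E)⁻¹ * S, ?_, ?_, ?_⟩
    · rw [map_mul, map_inv₀, map_natCast, hS, sum_pow_shift hord]
    · rw [norm_mul, norm_inv, heq, inv_one, one_mul]
      exact norm_sum_le_of_le _ _ zero_le_one fun j _ => by rw [hiso]; exact hx
    · have e : x - (ℓ : E)⁻¹ * S = (ℓ : E)⁻¹ * ∑ j ∈ range ℓ, (x - (τ ^ j) x) := by
        rw [Finset.sum_sub_distrib, Finset.sum_const, Finset.card_range, nsmul_eq_mul, mul_sub,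
          ← mul_assoc, inv_mul_cancel₀ hℓ0, one_mul]
      rw [e, norm_mul, norm_inv, heq, inv_one, one_mul]
      refine norm_sum_lt_of_lt _ _ zero_lt_one fun j _ => ?_
      rw [← norm_neg]
      have e2 : -(x - (τ ^ j) x) = (τ ^ j) x - x := by ring
      rw [e2]
      exact (hτ.pow hiso j) x hx

/-- an inert automorphism of prime order fixes every integral element, if `K` contains a
uniformiser of `E` and the residue field is finite -/
theorem norm_sub_le_pow_of_inert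
    {ϖ : K} (hϖ0 : 0 < ‖algebraMap K E ϖ‖)
    (hdisc : ∀ x : E, ‖x‖ < 1 → ‖x‖ ≤ ‖algebraMap K E ϖ‖)
    (hfin : ∃ R : Finset E, ∀ x : E, ‖x‖ ≤ 1 → ∃ r ∈ R, ‖x - r‖ < 1)
    {τ : E ≃ₐ[K] E} (hτ : Inert τ) {ℓ : ℕ} (hℓ : ℓ.Prime) (hord : τ ^ ℓ = 1) (n : ℕ) :
    ∀ x : E, ‖x‖ ≤ 1 → ‖τ x - x‖ ≤ ‖algebraMap K E ϖ‖ ^ n := by
  induction n with
  | zero =>
    intro x hx
    rw [pow_zero, sub_eq_add_neg]
    refine (IsUltrametricDist.norm_add_le_max _ _).trans (max_le ?_ ?_)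
    · rw [hiso]; exact hx
    · rw [norm_neg]; exact hx
  | succ n ih =>
    intro x hx
    obtain ⟨f, hf, -, hxf⟩ := exists_fixed_close hiso hfin hτ hℓ hord x hx
    have hϖne : algebraMap K E ϖ ≠ 0 := fun h => by rw [h, norm_zero] at hϖ0; exact lt_irrefl _ hϖ0
    set x' : E := (x - f) / algebraMap K E ϖ with hx'
    have hx'1 : ‖x'‖ ≤ 1 := by
      rw [hx', norm_div]
      exact div_le_one_of_le₀ (hdisc _ hxf) (norm_nonneg _)
    have e : τ x - x = algebraMap K E ϖ * (τ x' - x') := by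
      rw [hx', map_div₀, map_sub, hf, τ.commutes]
      field_simp
      ring
    rw [e, norm_mul, pow_succ']
    exact mul_le_mul_of_nonneg_left (ih x' hx'1) (norm_nonneg _)

/-- **Trivial inertia**: if `K` contains a uniformiser of `E` and the residue field of `E` is
finite, an automorphism acting trivially on the residue field is the identity. -/
theorem eq_one_of_inert
    {ϖ : K} (hϖ0 : 0 < ‖algebraMap K E ϖ‖) (hϖ1 : ‖algebraMap K E ϖ‖ < 1)
    (hdisc : ∀ x : E, ‖x‖ < 1 → ‖x‖ ≤ ‖algebraMap K E ϖ‖)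
    (hfin : ∃ R : Finset E, ∀ x : E, ‖x‖ ≤ 1 → ∃ r ∈ R, ‖x - r‖ < 1)
    {τ : E ≃ₐ[K] E} (hτ : Inert τ) : τ = 1 := by
  -- prime order case
  have key : ∀ (σ : E ≃ₐ[K] E), Inert σ → ∀ ℓ : ℕ, ℓ.Prime → σ ^ ℓ = 1 → σ = 1 := by
    intro σ hσ ℓ hℓ hord
    have hint : ∀ x : E, ‖x‖ ≤ 1 → σ x = x := by
      intro x hx
      have h0 : ‖σ x - x‖ ≤ 0 := by
        refine ge_of_tendsto' (tendsto_pow_atTop_nhds_zero_of_lt_one hϖ0.le hϖ1) fun n => ?_
        exact norm_sub_le_pow_of_inert hiso hϖ0 hdisc hfin hσ hℓ hord n x hx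
      exact sub_eq_zero.1 (norm_le_zero_iff.1 h0)
    ext x
    rw [AlgEquiv.one_apply]
    rcases le_total ‖x‖ 1 with hx | hx
    · exact hint x hx
    · have hx0 : x ≠ 0 := by
        rintro rfl
        rw [norm_zero] at hx
        exact absurd hx (by norm_num)
      have hinv : ‖x⁻¹‖ ≤ 1 := by
        rw [norm_inv]
        exact inv_le_one_of_one_le₀ hx
      have := hint x⁻¹ hinv
      rw [map_inv₀] at this
      exact inv_injective this
  by_contra hne
  have hord1 : orderOf τ ≠ 1 := fun h => hne (orderOf_eq_one_iff.1 h)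
  obtain ⟨ℓ, hℓ, hdvd⟩ := Nat.exists_prime_and_dvd hord1
  have hord0 : orderOf τ ≠ 0 := (orderOf_pos τ).ne'
  have hℓord : orderOf (τ ^ (orderOf τ / ℓ)) = ℓ := orderOf_pow_orderOf_div hord0 hdvd
  have hpow : (τ ^ (orderOf τ / ℓ)) ^ ℓ = 1 := by
    have := pow_orderOf_eq_one (τ ^ (orderOf τ / ℓ))
    rwa [hℓord] at this
  have h1 : τ ^ (orderOf τ / ℓ) = 1 := key _ (hτ.pow hiso _) ℓ hℓ hpow
  rw [h1, orderOf_one] at hℓord
  exact hℓ.one_lt.ne hℓord

/-- **`hfaith` is automatic** when `K` contains a uniformiser of `E` and the residue field of `E`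
is finite: every `τ ≠ 1` moves some integral element by a unit. -/
theorem exists_moved_of_ne_one
    {ϖ : K} (hϖ0 : 0 < ‖algebraMap K E ϖ‖) (hϖ1 : ‖algebraMap K E ϖ‖ < 1)
    (hϖ : ∀ x : E, x ≠ 0 → ∃ k : ℤ, ‖x‖ = ‖algebraMap K E ϖ‖ ^ k)
    (hfin : ∃ R : Finset E, ∀ x : E, ‖x‖ ≤ 1 → ∃ r ∈ R, ‖x - r‖ < 1)
    (τ : E ≃ₐ[K] E) (hτ : τ ≠ 1) : ∃ x : E, ‖x‖ ≤ 1 ∧ ‖τ x - x‖ = 1 := by
  have hdisc : ∀ x : E, ‖x‖ < 1 → ‖x‖ ≤ ‖algebraMap K E ϖ‖ := by
    intro x hx
    refine le_of_lt_one_of_zpow hϖ0 hϖ1 hx ?_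
    by_cases h0 : x = 0
    · left; rw [h0, norm_zero]
    · right; exact hϖ x h0
  by_contra hcon
  simp only [not_exists, not_and] at hcon
  apply hτ
  refine eq_one_of_inert hiso hϖ0 hϖ1 hdisc hfin fun x hx => ?_
  refine lt_of_le_of_ne ?_ (hcon x hx)
  rw [sub_eq_add_neg]
  refine (IsUltrametricDist.norm_add_le_max _ _).trans (max_le ?_ ?_)
  · rw [hiso]; exact hx
  · rw [norm_neg]; exact hx

end Inertia

/-! ### Unconditional forms, abstract normed setting -/

section Main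

variable {K E : Type*} [Field K] [NormedField E] [IsUltrametricDist E] [CompleteSpace E]
  [Algebra K E] [FiniteDimensional K E] [IsGalois K E]

/-- **Units are norms** (`e = 1`, finite residue field; no inertia hypothesis). -/
theorem exists_norm_eq_unram
    (hiso : ∀ (τ : E ≃ₐ[K] E) (x : E), ‖τ x‖ = ‖x‖)
    {ϖ : K} (hϖ0 : 0 < ‖algebraMap K E ϖ‖) (hϖ1 : ‖algebraMap K E ϖ‖ < 1)
    (hϖ : ∀ x : E, x ≠ 0 → ∃ k : ℤ, ‖x‖ = ‖algebraMap K E ϖ‖ ^ k)
    (hfin : ∃ R : Finset E, ∀ x : E, ‖x‖ ≤ 1 → ∃ r ∈ R, ‖x - r‖ < 1)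
    (u : K) (hu : ‖algebraMap K E u‖ = 1) :
    ∃ y : E, ‖y‖ = 1 ∧ Algebra.norm K y = u :=
  exists_norm_eq hiso hϖ0 hϖ1 hϖ (exists_moved_of_ne_one hiso hϖ0 hϖ1 hϖ hfin) hfin u hu

/-- **The norm group** (`e = 1`, finite residue field; no inertia hypothesis). -/
theorem mem_range_unitsMap_norm_iff_unram
    (hiso : ∀ (τ : E ≃ₐ[K] E) (x : E), ‖τ x‖ = ‖x‖)
    {ϖ : K} (hϖ0 : 0 < ‖algebraMap K E ϖ‖) (hϖ1 : ‖algebraMap K E ϖ‖ < 1)
    (hϖ : ∀ x : E, x ≠ 0 → ∃ k : ℤ, ‖x‖ = ‖algebraMap K E ϖ‖ ^ k)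
    (hfin : ∃ R : Finset E, ∀ x : E, ‖x‖ ≤ 1 → ∃ r ∈ R, ‖x - r‖ < 1)
    (x : Kˣ) :
    x ∈ (Units.map (Algebra.norm K : E →* K)).range ↔
      ∃ k : ℤ, ‖algebraMap K E (x : K)‖ =
        ‖algebraMap K E ϖ‖ ^ ((Module.finrank K E : ℤ) * k) :=
  mem_range_unitsMap_norm_iff hiso hϖ0 hϖ1 hϖ (exists_moved_of_ne_one hiso hϖ0 hϖ1 hϖ hfin) hfin x

end Main

/-! ### The `(LF)` language of `Local/Basic.lean` and `Local/Blocks.lean` -/

section LF

open Fermat.Agent.S55.Local

variable {K E : Type} [NontriviallyNormedField K] [IsUltrametricDist K] [ProperSpace K]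
  [NontriviallyNormedField E] [IsUltrametricDist E] [ProperSpace E]
  [NormedAlgebra K E] [FiniteDimensional K E] [IsGalois K E]

omit [IsUltrametricDist E] in
/-- a finite residue system of a locally compact field -/
theorem exists_finite_residue_system_LF (E : Type) [NontriviallyNormedField E] [ProperSpace E] :
    ∃ R : Finset E, ∀ x : E, ‖x‖ ≤ 1 → ∃ r ∈ R, ‖x - r‖ < 1 := by
  obtain ⟨t, -, htfin, hcov⟩ :=
    (isCompact_closedBall (0 : E) 1).finite_cover_balls (e := 1) zero_lt_one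
  refine ⟨htfin.toFinset, fun x hx => ?_⟩
  have hxm : x ∈ Metric.closedBall (0 : E) 1 := by
    rw [mem_closedBall_zero_iff]; exact hx
  obtain ⟨r, hr, hxr⟩ := Set.mem_iUnion₂.1 (hcov hxm)
  refine ⟨r, htfin.mem_toFinset.2 hr, ?_⟩
  rw [← dist_eq_norm]
  exact Metric.mem_ball.1 hxr

theorem norm_algebraMap_unif : ‖algebraMap K E (unif K)‖ = ‖unif K‖ := norm_algebraMap' E _

theorem exists_zpow_of_isUnram (hunr : Blocks.IsUnram K E) (x : E) (hx : x ≠ 0) :
    ∃ k : ℤ, ‖x‖ = ‖algebraMap K E (unif K)‖ ^ k := by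
  obtain ⟨y, hy⟩ := hunr x
  have hy0 : y ≠ 0 := by
    rintro rfl
    rw [norm_zero] at hy
    exact hx (norm_eq_zero.1 hy)
  obtain ⟨n, hn⟩ := exists_norm_eq_zpow K hy0
  exact ⟨n, by rw [norm_algebraMap_unif, hy, hn]⟩

/-- **(LF) trivial inertia**: in an unramified extension every `τ ≠ 1` acts non-trivially on the
residue field. -/
theorem exists_moved_of_isUnram (hunr : Blocks.IsUnram K E) (τ : E ≃ₐ[K] E) (hτ : τ ≠ 1) :
    ∃ x : E, ‖x‖ ≤ 1 ∧ ‖τ x - x‖ = 1 :=
  exists_moved_of_ne_one norm_algEquiv_apply (ϖ := unif K)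
    (by rw [norm_algebraMap_unif]; exact norm_unif_pos K)
    (by rw [norm_algebraMap_unif]; exact norm_unif_lt_one K)
    (exists_zpow_of_isUnram hunr) (exists_finite_residue_system_LF E) τ hτ

/-- **(LF) units are norms** in an unramified extension. -/
theorem exists_unit_norm_eq (hunr : Blocks.IsUnram K E) (u : Kˣ) (hu : ‖(u : K)‖ = 1) :
    ∃ y : Eˣ, ‖(y : E)‖ = 1 ∧ Algebra.norm K (y : E) = u := by
  obtain ⟨y, hy1, hy⟩ := exists_norm_eq_unram norm_algEquiv_apply (ϖ := unif K)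
    (by rw [norm_algebraMap_unif]; exact norm_unif_pos K)
    (by rw [norm_algebraMap_unif]; exact norm_unif_lt_one K)
    (exists_zpow_of_isUnram hunr) (exists_finite_residue_system_LF E) (u : K)
    (by rw [norm_algebraMap']; exact hu)
  have hy0 : y ≠ 0 := by
    rintro rfl
    rw [norm_zero] at hy1
    exact zero_ne_one hy1
  exact ⟨Units.mk0 y hy0, hy1, hy⟩

/-- **(LF) the norm group** of an unramified extension: `N Eˣ = {x : [E:K] ∣ ord x}`. -/
theorem mem_range_unitsNorm_iff (hunr : Blocks.IsUnram K E) (x : Kˣ) :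
    x ∈ (Blocks.unitsNorm K E).range ↔ (Module.finrank K E : ℤ) ∣ ord K x := by
  rw [Blocks.unitsNorm, mem_range_unitsMap_norm_iff_unram norm_algEquiv_apply (ϖ := unif K)
    (by rw [norm_algebraMap_unif]; exact norm_unif_pos K)
    (by rw [norm_algebraMap_unif]; exact norm_unif_lt_one K)
    (exists_zpow_of_isUnram hunr) (exists_finite_residue_system_LF E) x,
    norm_algebraMap', norm_algebraMap_unif]
  constructor
  · rintro ⟨k, hk⟩
    exact ⟨k, ord_eq_of_norm_eq hk⟩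
  · rintro ⟨k, hk⟩
    exact ⟨k, by rw [← hk]; exact norm_eq_zpow_ord K x⟩

/-- **(LF) the norm index** of an unramified extension is its degree. -/
theorem index_unitsNorm_range (hunr : Blocks.IsUnram K E) :
    (Blocks.unitsNorm K E).range.index = Module.finrank K E := by
  set n := Module.finrank K E with hn
  have hrange : (Blocks.unitsNorm K E).range =
      (AddSubgroup.toSubgroup (AddSubgroup.zmultiples (n : ℤ))).comap (ordHom K) := by
    ext x
    rw [mem_range_unitsNorm_iff hunr, Subgroup.mem_comap]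
    change _ ↔ ord K x ∈ AddSubgroup.zmultiples (n : ℤ)
    rw [Int.mem_zmultiples_iff]
  rw [hrange, Subgroup.index_comap_of_surjective _ (ordHom_surjective K)]
  change (AddSubgroup.zmultiples (n : ℤ)).index = n
  rw [Int.index_zmultiples, Int.natAbs_natCast]

end LF

/-! ### The concrete setting: intermediate fields of `PadicAlgCl q` -/

section Padic

open Fermat.Agent.S55.Local.LocalDatum

variable (q : ℕ) [Fact q.Prime]
  (K : IntermediateField ℚ_[q] (PadicAlgCl q)) [FiniteDimensional ℚ_[q] K]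
  (E : IntermediateField K (PadicAlgCl q)) [FiniteDimensional K E] [IsGalois K E]

/-- **Trivial inertia** for `E/K` with equal value groups, inside `PadicAlgCl q`. -/
theorem exists_moved_padic
    (hunr : ∀ x : E, ∃ y : K, ‖(x : PadicAlgCl q)‖ = ‖(y : PadicAlgCl q)‖)
    (τ : E ≃ₐ[K] E) (hτ : τ ≠ 1) :
    ∃ x : E, ‖(x : PadicAlgCl q)‖ ≤ 1 ∧
      ‖((τ x : E) : PadicAlgCl q) - (x : PadicAlgCl q)‖ = 1 := by
  letI := normedAlgebraTop q K E
  haveI := finiteDimensionalTop q K E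
  have hiso : ∀ (τ : E ≃ₐ[K] E) (x : E), ‖τ x‖ = ‖x‖ := norm_algEquiv_padic q K E
  obtain ⟨π, hπ0, hπ1, hπ⟩ := LocalDatum.exists_uniformizer q K
  obtain ⟨R, -, hR⟩ := LocalDatum.exists_finite_residue_system q E
  have hπE : ‖algebraMap K E π‖ = ‖π‖ := rfl
  have hval : ∀ x : E, x ≠ 0 → ∃ k : ℤ, ‖x‖ = ‖algebraMap K E π‖ ^ k := by
    intro x hx
    obtain ⟨y, hy⟩ := hunr x
    have hy0 : y ≠ 0 := by
      rintro rfl
      have : ‖(x : PadicAlgCl q)‖ = 0 := by rw [hy]; simp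
      exact hx (Subtype.ext (norm_eq_zero.1 this))
    obtain ⟨n, hn⟩ := hπ y hy0
    exact ⟨n, by rw [hπE, ← hn]; exact hy⟩
  exact exists_moved_of_ne_one hiso (ϖ := π) (by rw [hπE]; exact hπ0) (by rw [hπE]; exact hπ1)
    hval ⟨R, hR⟩ τ hτ

/-- **Units are norms** in an unramified (equal value groups) Galois extension `E/K` of finite
extensions of `ℚ_q` inside `PadicAlgCl q`. -/
theorem exists_norm_eq_padic_unram
    (hunr : ∀ x : E, ∃ y : K, ‖(x : PadicAlgCl q)‖ = ‖(y : PadicAlgCl q)‖)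
    (u : K) (hu : ‖(u : PadicAlgCl q)‖ = 1) :
    ∃ y : E, ‖(y : PadicAlgCl q)‖ = 1 ∧ Algebra.norm K y = u :=
  exists_norm_eq_padic q K E hunr (exists_moved_padic q K E hunr) u hu

/-- **The norm group** of an unramified extension, for any uniformiser `π` of `K`. -/
theorem mem_range_unitsMap_norm_iff_padic_unram
    (hunr : ∀ x : E, ∃ y : K, ‖(x : PadicAlgCl q)‖ = ‖(y : PadicAlgCl q)‖)
    {π : K} (hπ : IsUniformizer π) (x : Kˣ) :
    x ∈ (Units.map (Algebra.norm K : E →* K)).range ↔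
      (Module.finrank K E : ℤ) ∣ hπ.ordInt x :=
  mem_range_unitsMap_norm_iff_padic q K E hunr (exists_moved_padic q K E hunr) hπ x

end Padic

end Fermat.Agent.S55.Local.UnramNormLF
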