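/-
S55 / LOCAL block, row L9 (helper43): the two leaf Props that the field-level Brauer-group
computation (`Local/BrauerUnram.lean`) consumes, in the abstract (LF) setting of `Local/Basic.lean`.

* `CycloUnram` (U-abs): adjoining a primitive `N`-th root of unity, `N` prime to the residue
  characteristic, gives an unramified cyclic Galois extension whose degree is the order of
  `Q = #κ_L` modulo `N`.
* `FundIdentity` (FI): `(#κ_E) ^ e = (#κ_K) ^ [E : K]` where `‖π_K‖ = ‖π_E‖ ^ e`.
-/
import Mathlib
import Fermat.Agent.S55.Local.Basic
import Fermat.Agent.S55.Local.Blocks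

set_option autoImplicit false

open scoped NormedField NNReal

namespace Fermat.Agent.S55.Local.BrauerUnramBlocks

open Valued Fermat.Agent.S55.Local Fermat.Agent.S55.Local.Blocks

/-- The cardinality of the residue field of a local field. -/
noncomputable def resCard (L : Type) [NontriviallyNormedField L] [IsUltrametricDist L] : ℕ :=
  Nat.card 𝓀[L]

/-- **(U-abs)** cyclotomic extensions of order prime to the residue characteristic. -/
def CycloUnram : Prop :=
  ∀ (L M : Type) [NontriviallyNormedField L] [IsUltrametricDist L] [ProperSpace L]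
    [NontriviallyNormedField M] [IsUltrametricDist M] [ProperSpace M]
    [NormedAlgebra L M] [FiniteDimensional L M] (N : ℕ) (ζ : M),
    ‖(N : L)‖ = 1 → IsPrimitiveRoot ζ N → IntermediateField.adjoin L {ζ} = ⊤ →
    IsGalois L M ∧ IsUnram L M ∧ IsCyclic (M ≃ₐ[L] M) ∧
      ∀ k : ℕ, (resCard L) ^ k ≡ 1 [MOD N] ↔ Module.finrank L M ∣ k

/-- **(FI)** the fundamental identity `e f = n`, in cardinality form. -/
def FundIdentity : Prop :=
  ∀ (K E : Type) [NontriviallyNormedField K] [IsUltrametricDist K] [ProperSpace K]
    [NontriviallyNormedField E] [IsUltrametricDist E] [ProperSpace E]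
    [NormedAlgebra K E] [FiniteDimensional K E] (e : ℕ),
    ‖algebraMap K E (unif K)‖ = ‖unif E‖ ^ e →
    (resCard E) ^ e = (resCard K) ^ (Module.finrank K E)

end Fermat.Agent.S55.Local.BrauerUnramBlocks
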