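/-
S55 / LOCAL block, row L9 (abstract form; helper43).  Pure group cohomology on top of
`Coh/InfRes2` (helper60) and `Local/CyclicCocycle` (helper70).

`G` a finite group, `A : Rep k G`, `NE NF` normal subgroups with `NE ⊓ NF = ⊥`
(think `G = Gal(M/K)`, `M = E·F`, `NE = Gal(M/E)`, `NF = Gal(M/F)`, `A = Mˣ`), `G ⧸ NF` cyclic
generated by `σ` (think `F/K` unramified of degree `n = [E:K]`), `H¹(NE, A) = H¹(NF, A) = 0`
(Hilbert 90), `a ∈ A^G` (think `a = π_K`) such that
 (i)  `j • a` is a norm from `A^{NF}` for the group `G ⧸ NF` only if `orderOf σ ∣ j`, and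
 (ii) `a` is a norm for `NE`.
Then `H²(G ⧸ NE, A^{NE})` (think `H²(Gal(E/K), Eˣ)`) contains a class `x` with
`j • x = 0 → orderOf σ ∣ j`  (`exists_class`).  Key step `res_inf_cycClass_eq_zero`:
`res_{NE} (inf_{NF} [cyc σ a]) = 0`.
-/
import Mathlib
import Fermat.Agent.S55.Coh.InfRes2
import Fermat.Agent.S55.Local.CyclicCocycle

set_option autoImplicit false

namespace Fermat.Agent.S55.Local.BrauerUnramAbs

open CategoryTheory groupCohomology Rep
open Fermat.Agent.S55.Coh.InfRes2 Fermat.Agent.S55.Local.CyclicCocycle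

universe u

variable {k G : Type u} [CommRing k] [Group G] (A : Rep.{u} k G)

/-- A `G`-invariant element of `A`, as an invariant of the `G ⧸ N`-module `A^N`. -/
def invQuot (N : Subgroup G) [N.Normal] (a : A) (ha : ∀ g : G, A.ρ g a = a) :
    (A.quotientToInvariants N).ρ.invariants :=
  ⟨⟨a, fun s => ha s⟩, fun g => by
    induction g using QuotientGroup.induction_on with
    | H g =>
      apply Subtype.ext
      exact ha g⟩

theorem invQuot_coe (N : Subgroup G) [N.Normal] (a : A) (ha : ∀ g : G, A.ρ g a = a) :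
    (((invQuot A N a ha : (A.quotientToInvariants N).ρ.invariants) :
      (A.quotientToInvariants N).V) : A.V) = a := rfl

/-- inflation -/
noncomputable abbrev inf2 (N : Subgroup G) [N.Normal] :
    H2 (A.quotientToInvariants N) ⟶ H2 A :=
  map (QuotientGroup.mk' N) (ofHom <| A.ρ.quotientToInvariants_lift N) 2

/-- restriction -/
noncomputable abbrev res2 (N : Subgroup G) : H2 A ⟶ H2 (res N.subtype A) :=
  map N.subtype (𝟙 (res N.subtype A)) 2

variable (NE NF : Subgroup G) [NF.Normal]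

/-- the comparison morphism `A^{NF}` (as `NE`-module through `NE → G ⧸ NF`) `⟶ A|_NE`. -/
noncomputable def incl : res ((QuotientGroup.mk' NF).comp NE.subtype) (A.quotientToInvariants NF) ⟶
    res NE.subtype A :=
  ofHom ⟨Submodule.subtype _, fun _ => rfl⟩

theorem incl_hom_apply (x : (A.quotientToInvariants NF).V) :
    (incl A NE NF).hom x = (x : A.V) := rfl


section


variable {k G : Type u} [CommRing k] [Group G] (A : Rep.{u} k G)
variable (NE NF : Subgroup G) [NF.Normal]

/-- the restriction to `NE` of the inflation of a 2-cocycle of `G ⧸ NF`, as a function. -/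
theorem res_inf_apply (x : cocycles₂ (A.quotientToInvariants NF)) :
    (res2 A NE).hom ((inf2 A NF).hom (H2π _ x)) =
      H2π (res NE.subtype A) ((mapCocycles₂ NE.subtype (𝟙 (res NE.subtype A))).hom
        (infl A NF x)) := by
  have h1 := H2π_comp_map_apply (QuotientGroup.mk' NF)
    (ofHom <| A.ρ.quotientToInvariants_lift NF) x
  have h2 := H2π_comp_map_apply NE.subtype (𝟙 (res NE.subtype A)) (infl A NF x)
  rw [h1, h2]


end

section


variable {k G : Type u} [CommRing k] [Group G] [Finite G] (A : Rep.{u} k G)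
variable (NE NF : Subgroup G) [NF.Normal]

theorem res_inf_cycClass_eq_zero (hdisj : NE ⊓ NF = ⊥)
    {σ : G ⧸ NF} (hn : 0 < orderOf σ) (hgen : ∀ g : G ⧸ NF, ∃ i : ℕ, σ ^ i = g)
    (a : A) (ha : ∀ g : G, A.ρ g a = a) [Fintype NE]
    (hii : ∃ y : A, a = ∑ s : NE, A.ρ (s : G) y) :
    (res2 A NE).hom ((inf2 A NF).hom (cycClass hn hgen (invQuot A NF a ha))) = 0 := by
  classical
  rw [cycClass_apply, res_inf_apply, H2π_eq_zero_iff]
  -- `NE` is cyclic
  set φ : NE →* G ⧸ NF := (QuotientGroup.mk' NF).comp NE.subtype with hφ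
  have hφinj : Function.Injective φ := by
    rw [injective_iff_map_eq_one]
    intro s hs
    have h1 : (s : G) ∈ NF := by
      have : ((s : G) : G ⧸ NF) = 1 := hs
      exact (QuotientGroup.eq_one_iff _).1 this
    have h2 : (s : G) ∈ NE ⊓ NF := ⟨s.2, h1⟩
    rw [hdisj, Subgroup.mem_bot] at h2
    exact Subtype.ext h2
  have : IsCyclic (G ⧸ NF) := ⟨σ, fun g => by
    obtain ⟨i, hi⟩ := hgen g
    exact ⟨i, by simpa using hi⟩⟩
  have : IsCyclic NE := isCyclic_of_injective φ hφinj
  obtain ⟨τ, hτ⟩ := IsCyclic.exists_generator (α := NE)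
  have hm : 0 < orderOf τ := orderOf_pos τ
  have hgen' : ∀ g : NE, ∃ i : ℕ, τ ^ i = g := fun g => exists_pow_eq_of_zpowers hτ g
  obtain ⟨d, hd⟩ := hgen (φ τ)
  have key := map_cyc (A := A.quotientToInvariants NF) (B := res NE.subtype A) hn hm hgen' φ
    (incl A NE NF) hd.symm (a := ((invQuot A NF a ha : (A.quotientToInvariants NF).ρ.invariants) :
      (A.quotientToInvariants NF).V)) (fun g => (invQuot A NF a ha).2 g)
  have hfun : ⇑((mapCocycles₂ NE.subtype (𝟙 (res NE.subtype A))).hom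
        (infl A NF (cycCocycle hn hgen (invQuot A NF a ha)))) =
      fun p : NE × NE => (incl A NE NF).hom
        (cyc (A.quotientToInvariants NF) σ
          ((invQuot A NF a ha : (A.quotientToInvariants NF).ρ.invariants) :
            (A.quotientToInvariants NF).V) (φ p.1, φ p.2)) := rfl
  rw [hfun, key]
  refine Submodule.sub_mem _ ?_ ⟨_, rfl⟩
  rw [cyc_mem_coboundaries₂_iff_sum (A := res NE.subtype A) hm hgen']
  obtain ⟨y, hy⟩ := hii
  refine ⟨(d * orderOf τ / orderOf σ) • y, ?_⟩
  rw [incl_hom_apply, invQuot_coe]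
  conv_lhs => rw [hy]
  rw [Finset.smul_sum]
  refine Finset.sum_congr rfl fun s _ => ?_
  exact (map_nsmul _ _ _).symm


end

section


variable {k G : Type u} [CommRing k] [Group G] [Finite G] (A : Rep.{u} k G)
variable (NE NF : Subgroup G) [NE.Normal] [NF.Normal]

/-- **Abstract form of row L9.**  `NE, NF` normal in the finite group `G` with `NE ⊓ NF = ⊥`,
`G ⧸ NF` cyclic generated by `σ`, `H¹(NE, A) = H¹(NF, A) = 0`, `a ∈ A^G` such that
(i) `j • a` is a norm from `A^{NF}` for `G ⧸ NF` only if `orderOf σ ∣ j`, and (ii) `a` is a norm for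
`NE`.  Then `H²(G ⧸ NE, A^{NE})` contains a class `x` with `j • x = 0 → orderOf σ ∣ j`. -/
theorem exists_class (hdisj : NE ⊓ NF = ⊥)
    {σ : G ⧸ NF} (hgen : ∀ g : G ⧸ NF, ∃ i : ℕ, σ ^ i = g)
    (a : A) (ha : ∀ g : G, A.ρ g a = a) [Fintype NE] [Fintype (G ⧸ NF)]
    (h1E : H1Vanishes A NE) (h1F : H1Vanishes A NF)
    (hi : ∀ (j : ℕ) (b : (A.quotientToInvariants NF).V),
      j • a = ((∑ g : G ⧸ NF, (A.quotientToInvariants NF).ρ g b :
        (A.quotientToInvariants NF).V) : A.V) → orderOf σ ∣ j)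
    (hii : ∃ y : A, a = ∑ s : NE, A.ρ (s : G) y) :
    ∃ x : H2 (A.quotientToInvariants NE), ∀ j : ℕ, j • x = 0 → orderOf σ ∣ j := by
  have hn : 0 < orderOf σ := orderOf_pos σ
  set xF := cycClass hn hgen (invQuot A NF a ha) with hxF
  obtain ⟨x, hx⟩ := exists_infl_eq_of_res_eq_zero A NE h1E ((inf2 A NF).hom xF)
    (res_inf_cycClass_eq_zero A NE NF hdisj hn hgen a ha hii)
  refine ⟨x, fun j hj => ?_⟩
  -- `j • inf xF = 0`
  have h1 : (inf2 A NF).hom (j • xF) = 0 := by
    rw [map_nsmul]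
    have h2 : (inf2 A NE).hom (j • x) = 0 := by rw [hj, map_zero]
    rw [map_nsmul] at h2
    change j • (inf2 A NE).hom x = 0 at h2
    have h3 : (inf2 A NE).hom x = (inf2 A NF).hom xF := hx
    rwa [h3] at h2
  have h2 : j • xF = 0 := by
    apply infl_injective A NF h1F
    rw [map_zero]
    exact h1
  rw [hxF, ← map_nsmul, cycClass_eq_zero_iff_sum hn hgen] at h2
  obtain ⟨b, hb⟩ := h2
  apply hi j b
  have := congrArg (fun z : (A.quotientToInvariants NF).V => (z : A.V)) hb
  simpa [invQuot_coe] using this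


end

end Fermat.Agent.S55.Local.BrauerUnramAbs
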