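/-
S55 / LOCAL block (helper43): transport of Galois cohomology of units along a TOWER
`K → E → M` of fields (`E` an arbitrary `K`-algebra with `IsScalarTower K E M`, not necessarily an
`IntermediateField`), `M/K` finite Galois, `E/K` normal.

* `kerRes K E M` : `Gal(M/E)` as the kernel of `AlgEquiv.restrictNormalHom E : Gal(M/K) →* Gal(E/K)`;
* `quotEquiv K E M : Gal(M/K) ⧸ kerRes K E M ≃* Gal(E/K)`;
* `invEquiv K E M : Additive Eˣ ≃+ ((Mˣ)^{kerRes})`, `invEquiv_smul`;
* `towerIso K E M n : Hⁿ(Gal(M/K) ⧸ kerRes, (Mˣ)^{kerRes}) ≅ Hⁿ(Gal(E/K), Eˣ)`.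
-/
import Mathlib

set_option autoImplicit false
set_option linter.unusedSectionVars false

namespace Fermat.Agent.S55.Local.TowerTransport

open CategoryTheory groupCohomology Rep

variable (K E M : Type) [Field K] [Field E] [Field M] [Algebra K E] [Algebra E M] [Algebra K M]
  [IsScalarTower K E M] [FiniteDimensional K M] [IsGalois K M] [Normal K E]

/-- The subgroup `Gal(M/E)` of `Gal(M/K)`, as the kernel of restriction to `E`. -/
noncomputable abbrev kerRes : Subgroup (M ≃ₐ[K] M) :=
  (AlgEquiv.restrictNormalHom (F := K) (K₁ := M) E).ker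

theorem mem_kerRes_iff (σ : M ≃ₐ[K] M) :
    σ ∈ kerRes K E M ↔ ∀ x : E, σ (algebraMap E M x) = algebraMap E M x := by
  rw [MonoidHom.mem_ker]
  constructor
  · intro h x
    have := AlgEquiv.restrictNormal_commutes σ E x
    rw [← this]
    have h2 : σ.restrictNormal E = 1 := h
    rw [h2]
    rfl
  · intro h
    apply AlgEquiv.ext
    intro x
    apply (algebraMap E M).injective
    have := AlgEquiv.restrictNormal_commutes σ E x
    change algebraMap E M (σ.restrictNormal E x) = _
    rw [this, h x]
    rfl

/-- `G ⧸ Gal(M/E) ≃* Gal(E/K)`. -/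
noncomputable def quotEquiv : (M ≃ₐ[K] M) ⧸ kerRes K E M ≃* (E ≃ₐ[K] E) :=
  QuotientGroup.quotientKerEquivOfSurjective _ (AlgEquiv.restrictNormalHom_surjective M)

theorem quotEquiv_mk (σ : M ≃ₐ[K] M) :
    quotEquiv K E M (σ : (M ≃ₐ[K] M) ⧸ kerRes K E M) = AlgEquiv.restrictNormalHom E σ := rfl


/-- `Eˣ → (Mˣ)^{Gal(M/E)}`. -/
noncomputable def toInv :
    Additive Eˣ →+
      Representation.invariants ((Rep.ofAlgebraAutOnUnits K M).ρ.comp (kerRes K E M).subtype) where
  toFun y := ⟨Additive.ofMul (Units.map (algebraMap E M : E →* M) y.toMul), by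
    intro s
    apply Additive.toMul.injective
    apply Units.ext
    exact (mem_kerRes_iff K E M s.1).1 s.2 _⟩
  map_zero' := by
    apply Subtype.ext
    apply Additive.toMul.injective
    apply Units.ext
    exact map_one (algebraMap E M)
  map_add' y z := by
    apply Subtype.ext
    apply Additive.toMul.injective
    apply Units.ext
    exact map_mul (algebraMap E M) _ _

theorem toInv_coe (y : Additive Eˣ) :
    ((Additive.toMul ((toInv K E M y).1 : Additive Mˣ) : Mˣ) : M) =
      algebraMap E M ((Additive.toMul y : Eˣ) : E) := rfl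

theorem toInv_bijective : Function.Bijective (toInv K E M) := by
  constructor
  · intro y z h
    apply Additive.toMul.injective
    apply Units.ext
    apply (algebraMap E M).injective
    have := congrArg (fun w => ((Additive.toMul (w : Representation.invariants
      ((Rep.ofAlgebraAutOnUnits K M).ρ.comp (kerRes K E M).subtype)).1 : Mˣ) : M)) h
    exact this
  · intro x
    have : IsGalois E M := IsGalois.tower_top_of_isGalois K E M
    have : FiniteDimensional E M := FiniteDimensional.right K E M
    have hx : ((Additive.toMul (x.1 : Additive Mˣ) : Mˣ) : M) ∈ Set.range (algebraMap E M) := by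
      rw [IsGalois.mem_range_algebraMap_iff_fixed]
      intro f
      have hf : f.restrictScalars K ∈ kerRes K E M := by
        rw [mem_kerRes_iff]
        intro y
        exact f.commutes y
      have := x.2 ⟨f.restrictScalars K, hf⟩
      exact congrArg (fun z : Additive Mˣ => ((Additive.toMul z : Mˣ) : M)) this
    obtain ⟨y, hy⟩ := hx
    have hy0 : y ≠ 0 := by
      rintro rfl
      rw [map_zero] at hy
      exact (Additive.toMul (x.1 : Additive Mˣ) : Mˣ).ne_zero hy.symm
    refine ⟨Additive.ofMul (Units.mk0 y hy0), ?_⟩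
    apply Subtype.ext
    apply Additive.toMul.injective
    apply Units.ext
    exact hy

/-- `Eˣ ≃ (Mˣ)^{Gal(M/E)}`. -/
noncomputable def invEquiv :
    Additive Eˣ ≃+
      Representation.invariants ((Rep.ofAlgebraAutOnUnits K M).ρ.comp (kerRes K E M).subtype) :=
  AddEquiv.ofBijective (toInv K E M) (toInv_bijective K E M)

theorem invEquiv_smul (σ : M ≃ₐ[K] M) (y : Additive Eˣ) :
    ((Rep.ofAlgebraAutOnUnits K M).ρ.quotientToInvariants (kerRes K E M))
        (σ : (M ≃ₐ[K] M) ⧸ kerRes K E M) (invEquiv K E M y) =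
      invEquiv K E M ((Rep.ofAlgebraAutOnUnits K E).ρ (AlgEquiv.restrictNormalHom E σ) y) := by
  apply Subtype.ext
  apply Additive.toMul.injective
  apply Units.ext
  exact (AlgEquiv.restrictNormal_commutes σ E ((Additive.toMul y : Eˣ) : E)).symm

/-- `Hⁿ(Gal(M/K) ⧸ Gal(M/E), (Mˣ)^{Gal(M/E)}) ≅ Hⁿ(Gal(E/K), Eˣ)`. -/
noncomputable def towerIso (n : ℕ) :
    groupCohomology ((Rep.ofAlgebraAutOnUnits K M).quotientToInvariants (kerRes K E M)) n ≅
      groupCohomology (Rep.ofAlgebraAutOnUnits K E) n :=
  groupCohomology.mapIso (A := Rep.ofAlgebraAutOnUnits K E)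
    (B := (Rep.ofAlgebraAutOnUnits K M).quotientToInvariants (kerRes K E M))
    (quotEquiv K E M) (invEquiv K E M).symm.toIntLinearEquiv (by
      intro g
      induction g using QuotientGroup.induction_on with
      | H σ =>
        ext x
        obtain ⟨y, rfl⟩ := (invEquiv K E M).surjective x
        have h := invEquiv_smul K E M σ y
        change (invEquiv K E M).symm
            (((Rep.ofAlgebraAutOnUnits K M).ρ.quotientToInvariants (kerRes K E M))
              (σ : (M ≃ₐ[K] M) ⧸ kerRes K E M) (invEquiv K E M y)) =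
          (Rep.ofAlgebraAutOnUnits K E).ρ (AlgEquiv.restrictNormalHom E σ)
            ((invEquiv K E M).symm (invEquiv K E M y))
        rw [h]
        exact ((invEquiv K E M).symm_apply_apply _).trans
          (congrArg _ ((invEquiv K E M).symm_apply_apply y).symm)) n

end Fermat.Agent.S55.Local.TowerTransport
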