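/-
S55 / LOCAL block, row L9 (helper43): FIELD-LEVEL core.

`K`, `M` local fields ((LF) setting of `Local/Basic.lean`), `M/K` finite Galois; `E`, `F` fields in
towers `K → E → M`, `K → F → M`, both normal over `K`; `kerRes K E M = Gal(M/E)`.

`exists_class_of_unram` : if `Gal(M/E) ⊓ Gal(M/F) = ⊥`, `F/K` is cyclic and unramified (every norm
of `F` is a norm of `K`) and `π_K = unif K` is a norm from `M` to `E`, then
`H²(Gal(E/K), Eˣ)` contains a class `x` with `j • x = 0 → #Gal(F/K) ∣ j`.
(Abstract input: `BrauerUnramAbs.exists_class`; transport: `TowerTransport.towerIso`.)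
-/
import Mathlib
import Fermat.Agent.S55.Local.Basic
import Fermat.Agent.S55.Local.Blocks
import Fermat.Agent.S55.Local.Transport
import Fermat.Agent.S55.Local.TowerTransport
import Fermat.Agent.S55.Local.BrauerUnramAbs

set_option autoImplicit false
set_option linter.unusedSectionVars false

namespace Fermat.Agent.S55.Local.BrauerUnramField

open CategoryTheory groupCohomology Rep
open Fermat.Agent.S55.Local Fermat.Agent.S55.Local.TowerTransport
open Fermat.Agent.S55.Coh.InfRes2

section Core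

variable (K E F M : Type)
  [NontriviallyNormedField K] [IsUltrametricDist K] [ProperSpace K]
  [NontriviallyNormedField M] [IsUltrametricDist M] [ProperSpace M]
  [NormedAlgebra K M] [FiniteDimensional K M] [IsGalois K M]
  [Field E] [Algebra K E] [Algebra E M] [IsScalarTower K E M] [Normal K E]
  [Field F] [Algebra K F] [Algebra F M] [IsScalarTower K F M] [Normal K F]

/-- the uniformizer of `K` as a unit of `M` -/
noncomputable def piM : Mˣ :=
  Units.mk0 (algebraMap K M (unif K)) (by
    rw [Ne, map_eq_zero]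
    exact unif_ne_zero K)

/-- the element `a = π_K` of the `Gal(M/K)`-module `Mˣ` -/
noncomputable def aM : (Rep.ofAlgebraAutOnUnits K M).V := Additive.ofMul (piM K M)

theorem aM_inv (g : M ≃ₐ[K] M) : (Rep.ofAlgebraAutOnUnits K M).ρ g (aM K M) = aM K M := by
  apply Additive.toMul.injective
  apply Units.ext
  exact g.commutes (unif K)

/-- the norm as an additive map on `Additive Mˣ` with values in `Additive ℝ` -/
noncomputable def nrm : Additive Mˣ →+ Additive ℝ :=
  MonoidHom.toAdditive ((normHom : M →*₀ ℝ).toMonoidHom.comp (Units.coeHom M))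

theorem nrm_apply (x : Additive Mˣ) : Additive.toMul (nrm M x) = ‖((Additive.toMul x : Mˣ) : M)‖ :=
  rfl

/-- the value of a unit, as an additive map into `Additive M` -/
noncomputable def valA : (Rep.ofAlgebraAutOnUnits K M).V →+ Additive M :=
  (MonoidHom.toAdditive (Units.coeHom M) : Additive Mˣ →+ Additive M)

/-- the same on the underlying module of the representation -/
noncomputable def nrmA : (Rep.ofAlgebraAutOnUnits K M).V →+ Additive ℝ := nrm M


/-- Hilbert 90 for the subgroup `kerRes K E M` in the concrete form of `Coh/InfRes2`. -/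
theorem h1Vanishes_kerRes : H1Vanishes (Rep.ofAlgebraAutOnUnits K M) (kerRes K E M) :=
  h1Vanishes_of_isZero _ _ (Transport.isZero_H1_resSub K M (kerRes K E M))

/-- **(i)**: if `π_K ^ j` is a norm from `F` (as a `Gal(M/K) ⧸ Gal(M/F)`-module norm) and `F/K` is
unramified then `[F : K] ∣ j`. -/
theorem dvd_of_smul_eq_norm
    (hunr : ∀ x : F, ∃ y : K, ‖algebraMap F M x‖ = ‖y‖)
    [Fintype ((M ≃ₐ[K] M) ⧸ kerRes K F M)]
    (j : ℕ) (b : ((Rep.ofAlgebraAutOnUnits K M).quotientToInvariants (kerRes K F M)).V)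
    (hb : j • aM K M = ((∑ g : (M ≃ₐ[K] M) ⧸ kerRes K F M,
      ((Rep.ofAlgebraAutOnUnits K M).quotientToInvariants (kerRes K F M)).ρ g b :
        ((Rep.ofAlgebraAutOnUnits K M).quotientToInvariants (kerRes K F M)).V) :
          (Rep.ofAlgebraAutOnUnits K M).V)) :
    Fintype.card ((M ≃ₐ[K] M) ⧸ kerRes K F M) ∣ j := by
  classical
  -- `b` comes from `F`
  obtain ⟨y, rfl⟩ := (invEquiv K F M).surjective b
  set yF : Fˣ := Additive.toMul y with hyF
  obtain ⟨z, hz⟩ := hunr (yF : F)
  have hz0 : z ≠ 0 := by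
    rintro rfl
    rw [norm_zero, norm_eq_zero, map_eq_zero] at hz
    exact yF.ne_zero hz
  obtain ⟨k, hk⟩ := exists_norm_eq_zpow K hz0
  -- norms of the summands
  have hsum : ∀ g : (M ≃ₐ[K] M) ⧸ kerRes K F M,
      nrmA K M ((((Rep.ofAlgebraAutOnUnits K M).quotientToInvariants
        (kerRes K F M)).ρ g (invEquiv K F M y) :
          ((Rep.ofAlgebraAutOnUnits K M).quotientToInvariants (kerRes K F M)).V) :
            (Rep.ofAlgebraAutOnUnits K M).V) = Additive.ofMul (‖unif K‖ ^ k) := by
    intro g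
    induction g using QuotientGroup.induction_on with
    | H σ =>
      apply Additive.toMul.injective
      change ‖σ (algebraMap F M (yF : F))‖ = _
      rw [norm_algEquiv_apply, hz, hk]
      rfl
  have h1 := congrArg (nrmA K M) hb
  rw [map_nsmul] at h1
  have h2 : nrmA K M ((∑ g : (M ≃ₐ[K] M) ⧸ kerRes K F M,
      ((Rep.ofAlgebraAutOnUnits K M).quotientToInvariants (kerRes K F M)).ρ g (invEquiv K F M y) :
        ((Rep.ofAlgebraAutOnUnits K M).quotientToInvariants (kerRes K F M)).V) :
          (Rep.ofAlgebraAutOnUnits K M).V) =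
      ∑ g : (M ≃ₐ[K] M) ⧸ kerRes K F M, Additive.ofMul (‖unif K‖ ^ k) := by
    rw [← Finset.sum_congr rfl (fun g _ => hsum g), ← map_sum]
    congr 1
    exact (map_sum (Submodule.subtype _) _ _)
  rw [h2, Finset.sum_const, Finset.card_univ] at h1
  have h3 : ‖unif K‖ ^ j = (‖unif K‖ ^ k) ^ Fintype.card ((M ≃ₐ[K] M) ⧸ kerRes K F M) := by
    have h4 := congrArg Additive.toMul h1
    have h5 : Additive.toMul (nrmA K M (aM K M)) = ‖unif K‖ := by
      change ‖algebraMap K M (unif K)‖ = _
      exact norm_algebraMap' M (unif K)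
    rw [toMul_nsmul, toMul_nsmul, h5] at h4
    exact h4
  have h6 : (fun n : ℤ => ‖unif K‖ ^ n) (j : ℤ) =
      (fun n : ℤ => ‖unif K‖ ^ n) (k * (Fintype.card ((M ≃ₐ[K] M) ⧸ kerRes K F M) : ℤ)) := by
    simp only
    rw [zpow_natCast, zpow_mul, zpow_natCast]
    exact h3
  have h7 := zpow_norm_unif_injective K h6
  exact Int.natCast_dvd_natCast.mp ⟨k, by rw [h7]; ring⟩


/-- **Field-level core of row L9.**  Inside a finite Galois extension `M/K` of local fields, let
`E`, `F` be Galois over `K` with `Gal(M/E) ⊓ Gal(M/F) = ⊥`, `F/K` cyclic and unramified, and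
`π_K` a norm from `M` to `E`.  Then `H²(Gal(E/K), Eˣ)` contains a class `x` with
`j • x = 0 → [F : K] ∣ j`. -/
theorem exists_class_of_unram
    (hdisj : kerRes K E M ⊓ kerRes K F M = ⊥)
    (hcyc : IsCyclic (F ≃ₐ[K] F))
    (hunr : ∀ x : F, ∃ y : K, ‖algebraMap F M x‖ = ‖y‖) [Fintype (kerRes K E M)]
    (hii : ∃ y : Mˣ, algebraMap K M (unif K) =
      ∏ s : kerRes K E M, ((s : M ≃ₐ[K] M) (y : M))) :
    ∃ x : groupCohomology (Rep.ofAlgebraAutOnUnits K E) 2,
      ∀ j : ℕ, j • x = 0 → Nat.card (F ≃ₐ[K] F) ∣ j := by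
  classical
  let _ : Fintype ((M ≃ₐ[K] M) ⧸ kerRes K F M) := Fintype.ofFinite _
  -- a generator of `G ⧸ NF`
  obtain ⟨g, hg⟩ := hcyc.exists_zpow_surjective
  set σ : (M ≃ₐ[K] M) ⧸ kerRes K F M := (quotEquiv K F M).symm g with hσ
  have hgenσ : ∀ x : (M ≃ₐ[K] M) ⧸ kerRes K F M, x ∈ Subgroup.zpowers σ := by
    intro x
    obtain ⟨i, hi⟩ := hg (quotEquiv K F M x)
    refine ⟨i, ?_⟩
    apply (quotEquiv K F M).injective
    simp only [hσ, map_zpow, MulEquiv.apply_symm_apply]
    exact hi
  have hgen : ∀ x : (M ≃ₐ[K] M) ⧸ kerRes K F M, ∃ i : ℕ, σ ^ i = x := fun x =>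
    CyclicCocycle.exists_pow_eq_of_zpowers hgenσ x
  have hord : orderOf σ = Fintype.card ((M ≃ₐ[K] M) ⧸ kerRes K F M) := by
    rw [← Nat.card_eq_fintype_card]
    exact orderOf_eq_card_of_forall_mem_zpowers hgenσ
  have hcard : Fintype.card ((M ≃ₐ[K] M) ⧸ kerRes K F M) = Nat.card (F ≃ₐ[K] F) := by
    rw [← Nat.card_eq_fintype_card]
    exact Nat.card_congr (quotEquiv K F M).toEquiv
  obtain ⟨y, hy⟩ := hii
  obtain ⟨x, hx⟩ := BrauerUnramAbs.exists_class (Rep.ofAlgebraAutOnUnits K M)
    (kerRes K E M) (kerRes K F M) hdisj hgen (aM K M) (aM_inv K M)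
    (h1Vanishes_kerRes K E M) (h1Vanishes_kerRes K F M)
    (fun j b hb => by
      rw [hord]
      exact dvd_of_smul_eq_norm K F M hunr j b hb)
    ⟨Additive.ofMul y, by
      apply Additive.toMul.injective
      apply Units.ext
      change algebraMap K M (unif K) = _
      rw [hy]
      symm
      have h := map_sum (valA K M) (fun s : kerRes K E M =>
        (Rep.ofAlgebraAutOnUnits K M).ρ (s : M ≃ₐ[K] M) (Additive.ofMul y : Additive Mˣ))
        Finset.univ
      have h' := congrArg Additive.toMul h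
      rw [toMul_sum] at h'
      exact h'⟩
  refine ⟨(towerIso K E M 2).hom.hom x, fun j hj => ?_⟩
  rw [← hcard, ← hord]
  apply hx j
  have h1 : (towerIso K E M 2).hom.hom (j • x) = 0 := by
    rw [map_nsmul]; exact hj
  have h2 := congrArg (towerIso K E M 2).inv.hom h1
  rw [map_zero] at h2
  rw [← h2]
  exact (congrArg (fun f => f.hom (j • x)) (towerIso K E M 2).hom_inv_id).symm

end Core

end Fermat.Agent.S55.Local.BrauerUnramField
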