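import Mathlib

/-!
# S55 / Local: unramified extensions, generic ambient field

Generic version of `Local/UnramExt.lean`.  Ambient field: `Ω` a nonarchimedean normed field,
algebraically closed.  Base field: a type `K` with `[Field K] [Algebra K Ω]`, `Ω` algebraic over `K`,
such that every `K`-automorphism of `Ω` is an isometry, with residue characteristic `p` and residue
field of cardinality `Q` (`Setting`).  For `N` prime to `p` and `ζ : Ω` a primitive `N`-th root of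
unity: `K⟮ζ⟯/K` is Galois, cyclic of degree `d := orderOf (Q : ZMod N)`, generated by a Frobenius
`φ` (`φ ζ = ζ ^ Q`, `φ x ≡ x ^ Q`), and unramified (same value group; integers `= O_K[ζ]`).

Instances: `Ω = PadicAlgCl q`, `K = ↥K'` for `K' : IntermediateField ℚ_[q] Ω`; `Ω = AlgebraicClosure K`
with the spectral norm, for an abstract local field `K`.
-/

set_option autoImplicit false
set_option linter.unusedSectionVars false

namespace Fermat.Agent.S55.Local.UnramGeneric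

open Valued Polynomial
open scoped NNReal

attribute [local instance] NormedField.toValued

section Ambient

variable (Ω : Type*) [NormedField Ω] [IsUltrametricDist Ω]

/-! ### The residue field of `Ω` -/

/-- The residue field of `Ω`. -/
abbrev kbar : Type _ := 𝓀[Ω]

/-- The residue map. -/
noncomputable def res : 𝒪[Ω] →+* kbar Ω := IsLocalRing.residue _

variable {Ω} in
theorem mem_integer_iff {x : Ω} : x ∈ 𝒪[Ω] ↔ ‖x‖ ≤ 1 := by
  rw [Valuation.mem_integer_iff]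
  change ‖x‖₊ ≤ 1 ↔ _
  rw [← NNReal.coe_le_coe]
  simp

variable {Ω} in
theorem v_lt_one_iff {x : Ω} : (Valued.v x : ℝ≥0) < 1 ↔ ‖x‖ < 1 := by
  change ‖x‖₊ < 1 ↔ _
  rw [← NNReal.coe_lt_coe]
  simp

/-- Packaging an element of norm `≤ 1`. -/
def mkO (x : Ω) (hx : ‖x‖ ≤ 1) : 𝒪[Ω] := ⟨x, mem_integer_iff.2 hx⟩

@[simp] theorem coe_mkO (x : Ω) (hx : ‖x‖ ≤ 1) : ((mkO Ω x hx : 𝒪[Ω]) : Ω) = x := rfl

theorem norm_coe_le_one (x : 𝒪[Ω]) : ‖(x : Ω)‖ ≤ 1 := mem_integer_iff.1 x.2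

theorem res_eq_zero_iff (x : 𝒪[Ω]) : res Ω x = 0 ↔ ‖(x : Ω)‖ < 1 := by
  unfold res
  rw [IsLocalRing.residue_eq_zero_iff, IsLocalRing.mem_maximalIdeal, mem_nonunits_iff,
    Valuation.Integer.not_isUnit_iff_valuation_lt_one]
  exact v_lt_one_iff

theorem res_eq_res_iff (x y : 𝒪[Ω]) : res Ω x = res Ω y ↔ ‖(x : Ω) - y‖ < 1 := by
  rw [← sub_eq_zero, ← map_sub, res_eq_zero_iff]
  rfl

theorem charP_kbar (p : ℕ) [Fact p.Prime] (hp : ‖(p : Ω)‖ < 1) : CharP (kbar Ω) p := by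
  have h : ((p : ℕ) : kbar Ω) = 0 := by
    have : res Ω (p : 𝒪[Ω]) = 0 := by
      rw [res_eq_zero_iff]
      simpa using hp
    simpa using this
  exact (CharP.charP_iff_prime_eq_zero (Fact.out : p.Prime)).2 h

/-- Total version of the residue map on `Ω` (junk value `0` outside the unit ball). -/
noncomputable def rd (x : Ω) : kbar Ω :=
  if h : ‖x‖ ≤ 1 then res Ω (mkO Ω x h) else 0

variable {Ω}

theorem rd_of_le {x : Ω} (h : ‖x‖ ≤ 1) : rd Ω x = res Ω (mkO Ω x h) := dif_pos h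

theorem rd_coe (x : 𝒪[Ω]) : rd Ω (x : Ω) = res Ω x := by
  rw [rd_of_le (norm_coe_le_one Ω x)]
  rfl

theorem rd_eq_rd_iff {x y : Ω} (hx : ‖x‖ ≤ 1) (hy : ‖y‖ ≤ 1) :
    rd Ω x = rd Ω y ↔ ‖x - y‖ < 1 := by
  rw [rd_of_le hx, rd_of_le hy, res_eq_res_iff]
  rfl

theorem rd_eq_zero_iff {x : Ω} (hx : ‖x‖ ≤ 1) : rd Ω x = 0 ↔ ‖x‖ < 1 := by
  rw [rd_of_le hx, res_eq_zero_iff]
  rfl

theorem rd_pow {x : Ω} (hx : ‖x‖ ≤ 1) (n : ℕ) : rd Ω (x ^ n) = rd Ω x ^ n := by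
  have hle : ‖x ^ n‖ ≤ 1 := by
    rw [norm_pow]; exact pow_le_one₀ (norm_nonneg _) hx
  rw [rd_of_le hle, rd_of_le hx, ← map_pow]
  rfl

theorem rd_mul {x y : Ω} (hx : ‖x‖ ≤ 1) (hy : ‖y‖ ≤ 1) : rd Ω (x * y) = rd Ω x * rd Ω y := by
  have hle : ‖x * y‖ ≤ 1 := by
    rw [norm_mul]; exact mul_le_one₀ hx (norm_nonneg _) hy
  rw [rd_of_le hle, rd_of_le hx, rd_of_le hy, ← map_mul]
  rfl

theorem rd_one : rd Ω (1 : Ω) = 1 := by
  rw [rd_of_le (by simp), ← map_one (res Ω)]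
  rfl

theorem rd_add {x y : Ω} (hx : ‖x‖ ≤ 1) (hy : ‖y‖ ≤ 1) : rd Ω (x + y) = rd Ω x + rd Ω y := by
  have hle : ‖x + y‖ ≤ 1 :=
    (IsUltrametricDist.norm_add_le_max x y).trans (max_le hx hy)
  rw [rd_of_le hle, rd_of_le hx, rd_of_le hy, ← map_add]
  rfl

theorem rd_zero : rd Ω (0 : Ω) = 0 := by
  rw [rd_eq_zero_iff (by simp)]
  simp

theorem rd_sum {ι : Type*} (s : Finset ι) (f : ι → Ω) (hf : ∀ i ∈ s, ‖f i‖ ≤ 1) :
    rd Ω (∑ i ∈ s, f i) = ∑ i ∈ s, rd Ω (f i) := by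
  classical
  induction s using Finset.induction_on with
  | empty => simp [rd_zero]
  | insert a s ha ih =>
    rw [Finset.sum_insert ha, Finset.sum_insert ha, rd_add (hf a (Finset.mem_insert_self a s)),
      ih (fun i hi => hf i (Finset.mem_insert_of_mem hi))]
    exact IsUltrametricDist.norm_sum_le_of_forall_le_of_nonneg zero_le_one
      (fun i hi => hf i (Finset.mem_insert_of_mem hi))

/-! ### Isometric automorphisms act on the residue field -/

/-- The ring endomorphism of the integers induced by an isometric automorphism. -/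
noncomputable def autO (τ : Ω ≃+* Ω) (hτ : ∀ x, ‖τ x‖ = ‖x‖) : 𝒪[Ω] →+* 𝒪[Ω] :=
  ((τ : Ω →+* Ω).comp (𝒪[Ω]).subtype).codRestrict 𝒪[Ω] (fun x => by
      apply mem_integer_iff.2
      simp only [RingHom.coe_comp, Function.comp_apply, Subring.coe_subtype, RingHom.coe_coe]
      rw [hτ]
      exact norm_coe_le_one Ω x)

@[simp] theorem coe_autO (τ : Ω ≃+* Ω) (hτ : ∀ x, ‖τ x‖ = ‖x‖) (x : 𝒪[Ω]) :
    ((autO τ hτ x : 𝒪[Ω]) : Ω) = τ (x : Ω) := rfl

instance isLocalHom_autO (τ : Ω ≃+* Ω) (hτ : ∀ x, ‖τ x‖ = ‖x‖) : IsLocalHom (autO τ hτ) := by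
  constructor
  intro a ha
  by_contra hcon
  rw [Valuation.Integer.not_isUnit_iff_valuation_lt_one] at hcon
  have h2 : ¬ (Valued.v ((autO τ hτ a : 𝒪[Ω]) : Ω) < 1) := by
    rw [← Valuation.Integer.not_isUnit_iff_valuation_lt_one]
    exact not_not.2 ha
  apply h2
  rw [v_lt_one_iff] at hcon ⊢
  rwa [coe_autO, hτ]

/-- The ring endomorphism of the residue field induced by an isometric automorphism. -/
noncomputable def autBar (τ : Ω ≃+* Ω) (hτ : ∀ x, ‖τ x‖ = ‖x‖) : kbar Ω →+* kbar Ω :=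
  IsLocalRing.ResidueField.map (autO τ hτ)

theorem autBar_res (τ : Ω ≃+* Ω) (hτ : ∀ x, ‖τ x‖ = ‖x‖) (x : 𝒪[Ω]) :
    autBar τ hτ (res Ω x) = res Ω (autO τ hτ x) :=
  IsLocalRing.ResidueField.map_residue _ _

theorem autBar_rd (τ : Ω ≃+* Ω) (hτ : ∀ x, ‖τ x‖ = ‖x‖) {x : Ω} (hx : ‖x‖ ≤ 1) :
    autBar τ hτ (rd Ω x) = rd Ω (τ x) := by
  rw [rd_of_le hx, autBar_res, ← rd_coe]
  rfl

end Ambient


/-! ### Two abstract lemmas on conjugates under a Frobenius -/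

section Abstract

variable {k : Type*} [Field k] (F : k →+* k) (Q d : ℕ) (z : k)

/-- If `z ^ (Q ^ j)`, `j < d`, are distinct, then `1, z, …, z ^ (d-1)` are linearly independent over
the fixed field of `F = (· ^ Q)`. -/
theorem abstract_indep (hF : ∀ x, F x = x ^ Q)
    (hinj : ∀ i < d, ∀ j < d, z ^ (Q ^ i) = z ^ (Q ^ j) → i = j)
    (c : Fin d → k) (hc : ∀ i, c i ^ Q = c i) (h0 : ∑ i, c i * z ^ (i : ℕ) = 0) :
    ∀ i, c i = 0 := by
  classical
  set g : k[X] := ∑ i : Fin d, C (c i) * X ^ (i : ℕ) with hg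
  have hdeg : g.degree < d := degree_sum_fin_lt c
  have hmap : g.map F = g := by
    rw [hg, Polynomial.map_sum]
    refine Finset.sum_congr rfl fun i _ => ?_
    rw [Polynomial.map_mul, map_C, Polynomial.map_pow, map_X, hF, hc]
  have heval : ∀ j : ℕ, g.eval (z ^ (Q ^ j)) = 0 := by
    intro j
    induction j with
    | zero =>
      rw [pow_zero, pow_one, hg, eval_finsetSum]
      simpa [eval_mul, eval_C, eval_pow, eval_X] using h0
    | succ j ih =>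
      have : z ^ Q ^ (j + 1) = F (z ^ Q ^ j) := by
        rw [hF, ← pow_mul, pow_succ]
      rw [this, ← hmap, eval_map, eval₂_hom, ih, map_zero]
  have hcoeff : ∀ i : Fin d, g.coeff i = c i := by
    intro i
    rw [hg, finsetSum_coeff]
    simp only [coeff_C_mul, coeff_X_pow]
    rw [Finset.sum_eq_single i]
    · simp
    · intro j _ hji
      have : (i : ℕ) ≠ (j : ℕ) := fun h => hji (Fin.ext h.symm)
      simp [this]
    · simp
  have hg0 : g = 0 := by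
    by_contra hne
    have hnat : g.natDegree < d := (natDegree_lt_iff_degree_lt hne).2 hdeg
    set s : Finset k := (Finset.range d).image (fun j => z ^ (Q ^ j)) with hs
    have hcard : s.card = d := by
      rw [hs, Finset.card_image_of_injOn, Finset.card_range]
      intro i hi j hj h
      exact hinj i (Finset.mem_range.1 hi) j (Finset.mem_range.1 hj) h
    apply hne
    apply eq_zero_of_natDegree_lt_card_of_eval_eq_zero' g s
    · intro x hx
      obtain ⟨j, _, rfl⟩ := Finset.mem_image.1 hx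
      exact heval j
    · rw [hcard]; exact hnat
  intro i
  rw [← hcoeff i, hg0, coeff_zero]

/-- A ring endomorphism fixing the fixed field of `F = (· ^ Q)` sends `z` to a conjugate
`z ^ (Q ^ j)`. -/
theorem abstract_conj (hF : ∀ x, F x = x ^ Q) (hd : 0 < d) (hzd : z ^ (Q ^ d) = z)
    (σ : k →+* k) (hσ : ∀ x, x ^ Q = x → σ x = x) :
    ∃ j < d, σ z = z ^ (Q ^ j) := by
  classical
  set P : k[X] := ∏ j ∈ Finset.range d, (X - C (z ^ (Q ^ j))) with hP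
  have hmapF : P.map F = P := by
    rw [hP, Polynomial.map_prod]
    have h1 : ∀ j, (X - C (z ^ (Q ^ j)) : k[X]).map F = X - C (z ^ (Q ^ (j + 1))) := by
      intro j
      rw [Polynomial.map_sub, map_X, map_C, hF, ← pow_mul, ← pow_succ]
    simp only [h1]
    have h2 := Finset.prod_range_succ' (fun j => (X - C (z ^ (Q ^ j)) : k[X])) d
    have h3 := Finset.prod_range_succ (fun j => (X - C (z ^ (Q ^ j)) : k[X])) d
    rw [h2] at h3
    have h4 : (X - C (z ^ (Q ^ d)) : k[X]) = X - C (z ^ (Q ^ 0)) := by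
      rw [hzd, pow_zero, pow_one]
    rw [h4] at h3
    exact mul_right_cancel₀ (X_sub_C_ne_zero _) h3
  have hcoeffF : ∀ i, (P.coeff i) ^ Q = P.coeff i := by
    intro i
    have := congrArg (fun p => p.coeff i) hmapF
    simp only [coeff_map, hF] at this
    exact this
  have hmapσ : P.map σ = P := by
    ext i
    rw [coeff_map, hσ _ (hcoeffF i)]
  have hroot : P.eval z = 0 := by
    rw [hP, eval_prod]
    apply Finset.prod_eq_zero (Finset.mem_range.2 hd)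
    simp
  have hroot' : P.eval (σ z) = 0 := by
    conv_lhs => rw [← hmapσ]
    rw [eval_map, eval₂_hom, hroot, map_zero]
  rw [hP, eval_prod, Finset.prod_eq_zero_iff] at hroot'
  obtain ⟨j, hj, hj0⟩ := hroot'
  refine ⟨j, Finset.mem_range.1 hj, ?_⟩
  simpa [sub_eq_zero] using hj0

end Abstract

/-! ### The setting -/

section Setting

variable (Ω : Type*) [NormedField Ω] [IsUltrametricDist Ω] (K : Type*) [Field K] [Algebra K Ω]

/-- The hypotheses on the base field `K ⊆ Ω`: residue characteristic `p`, every `K`-automorphism of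
`Ω` is an isometry, and `Q` is the cardinality of the residue field of `K` (every integer of `K`
satisfies `x ^ Q ≡ x`, and there are `Q` pairwise incongruent integers of `K`). -/
structure Setting (p Q : ℕ) : Prop where
  norm_p_lt_one : ‖(p : Ω)‖ < 1
  isometry : ∀ (τ : Ω ≃ₐ[K] Ω) (x : Ω), ‖τ x‖ = ‖x‖
  exists_pow : ∃ f : ℕ, 0 < f ∧ Q = p ^ f
  frob : ∀ x : K, ‖algebraMap K Ω x‖ ≤ 1 → ‖algebraMap K Ω x ^ Q - algebraMap K Ω x‖ < 1
  reps : ∃ R : Finset K, R.card = Q ∧ (∀ r ∈ R, ‖algebraMap K Ω r‖ ≤ 1) ∧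
    ∀ r ∈ R, ∀ r' ∈ R, r ≠ r' → ‖algebraMap K Ω r - algebraMap K Ω r'‖ = 1

variable {Ω K} {p Q : ℕ} [Fact p.Prime]

theorem Setting.one_lt (hK : Setting Ω K p Q) : 1 < Q := by
  obtain ⟨f, hf, rfl⟩ := hK.exists_pow
  exact Nat.one_lt_pow hf.ne' (Fact.out : p.Prime).one_lt

/-- Every element of the residue field fixed by `x ↦ x ^ Q` is the residue of an integer of `K`. -/
theorem Setting.exists_rep (hK : Setting Ω K p Q) {x : kbar Ω} (hx : x ^ Q = x) :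
    ∃ r : K, ‖algebraMap K Ω r‖ ≤ 1 ∧ rd Ω (algebraMap K Ω r) = x := by
  classical
  obtain ⟨R, hcard, hR, hpair⟩ := hK.reps
  have hQ1 := hK.one_lt
  set T : Finset (kbar Ω) := R.image (fun r => rd Ω (algebraMap K Ω r)) with hT
  set Z : Finset (kbar Ω) := (X ^ Q - X : (kbar Ω)[X]).roots.toFinset with hZ
  have hne : (X ^ Q - X : (kbar Ω)[X]) ≠ 0 := FiniteField.X_pow_card_sub_X_ne_zero _ hQ1
  have hTcard : T.card = Q := by
    rw [hT, Finset.card_image_of_injOn, hcard]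
    intro r hr r' hr' h
    by_contra hne'
    have h1 := hpair r hr r' hr' hne'
    simp only at h
    rw [rd_eq_rd_iff (hR r hr) (hR r' hr')] at h
    linarith
  have hTZ : T ⊆ Z := by
    intro y hy
    obtain ⟨r, hr, rfl⟩ := Finset.mem_image.1 hy
    rw [hZ, Multiset.mem_toFinset, mem_roots hne]
    simp only [IsRoot.def, eval_sub, eval_pow, eval_X]
    rw [sub_eq_zero]
    have h1 := hK.frob r (hR r hr)
    have hle : ‖algebraMap K Ω r ^ Q‖ ≤ 1 := by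
      rw [norm_pow]; exact pow_le_one₀ (norm_nonneg _) (hR r hr)
    rw [← rd_eq_rd_iff hle (hR r hr), rd_pow (hR r hr)] at h1
    exact h1
  have hZcard : Z.card ≤ Q := by
    calc Z.card ≤ (X ^ Q - X : (kbar Ω)[X]).roots.card := Multiset.toFinset_card_le _
      _ ≤ (X ^ Q - X : (kbar Ω)[X]).natDegree := card_roots' _
      _ = Q := FiniteField.X_pow_card_sub_X_natDegree_eq _ hQ1
  have hEq : T = Z := Finset.eq_of_subset_of_card_le hTZ (by rw [hTcard]; exact hZcard)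
  have hxZ : x ∈ Z := by
    rw [hZ, Multiset.mem_toFinset, mem_roots hne]
    simp only [IsRoot.def, eval_sub, eval_pow, eval_X]
    rw [hx, sub_self]
  rw [← hEq] at hxZ
  obtain ⟨r, hr, rfl⟩ := Finset.mem_image.1 hxZ
  exact ⟨r, hR r hr, rfl⟩

/-- The isometry attached to a `K`-automorphism. -/
theorem Setting.isometry' (hK : Setting Ω K p Q) (τ : Ω ≃ₐ[K] Ω) :
    ∀ x, ‖(τ : Ω ≃+* Ω) x‖ = ‖x‖ := fun x => hK.isometry τ x

/-- Elements of the residue field fixed by `x ↦ x ^ Q` are fixed by every `K`-automorphism. -/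
theorem Setting.autBar_eq (hK : Setting Ω K p Q) (τ : Ω ≃ₐ[K] Ω) {x : kbar Ω} (hx : x ^ Q = x) :
    autBar (τ : Ω ≃+* Ω) (hK.isometry' τ) x = x := by
  obtain ⟨r, hr1, rfl⟩ := hK.exists_rep hx
  rw [autBar_rd _ _ hr1]
  have : (τ : Ω ≃+* Ω) (algebraMap K Ω r) = algebraMap K Ω r := τ.commutes r
  rw [this]

end Setting


/-! ### Roots of unity of order prime to `p` -/

section Roots

variable {Ω : Type*} [NormedField Ω] [IsUltrametricDist Ω] {p : ℕ} [Fact p.Prime]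
  {N : ℕ} [NeZero N] {ζ : Ω}

theorem norm_eq_one_of_pow_eq_one {x : Ω} {n : ℕ} (hn : n ≠ 0) (h : x ^ n = 1) : ‖x‖ = 1 := by
  have : ‖x‖ ^ n = 1 := by rw [← norm_pow, h, norm_one]
  exact (pow_eq_one_iff_of_nonneg (norm_nonneg _) hn).1 this

theorem norm_eq_one_of_isPrimitiveRoot (hζ : IsPrimitiveRoot ζ N) : ‖ζ‖ = 1 :=
  norm_eq_one_of_pow_eq_one (NeZero.ne N) hζ.pow_eq_one

theorem neZero_natCast_kbar (hp : ‖(p : Ω)‖ < 1) (hN : ¬ p ∣ N) : NeZero ((N : ℕ) : kbar Ω) := by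
  have := charP_kbar Ω p hp
  exact ⟨fun h => hN ((CharP.cast_eq_zero_iff (kbar Ω) p N).1 h)⟩

/-- The residue of a primitive `N`-th root of unity (`p ∤ N`) is a primitive `N`-th root of unity. -/
theorem isPrimitiveRoot_rd (hp : ‖(p : Ω)‖ < 1) (hN : ¬ p ∣ N) (hζ : IsPrimitiveRoot ζ N) :
    IsPrimitiveRoot (rd Ω ζ) N := by
  have h1 : ‖ζ‖ ≤ 1 := (norm_eq_one_of_isPrimitiveRoot hζ).le
  have hO : IsPrimitiveRoot (mkO Ω ζ h1) N :=
    IsPrimitiveRoot.of_map_of_injective (f := (𝒪[Ω]).subtype)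
      (by simpa using hζ) Subtype.val_injective
  have hroot := (hO.isRoot_cyclotomic (NeZero.pos N)).map (f := res Ω)
  rw [map_cyclotomic] at hroot
  have := neZero_natCast_kbar (Ω := Ω) hp hN
  rw [rd_of_le h1]
  exact isRoot_cyclotomic_iff.1 hroot

/-- The residue map is injective on `N`-th roots of unity (`p ∤ N`). -/
theorem eq_of_rd_eq_of_pow_eq_one (hp : ‖(p : Ω)‖ < 1) (hN : ¬ p ∣ N) (hζ : IsPrimitiveRoot ζ N)
    {ξ ξ' : Ω} (hξ : ξ ^ N = 1) (hξ' : ξ' ^ N = 1) (h : rd Ω ξ = rd Ω ξ') : ξ = ξ' := by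
  obtain ⟨i, hi, rfl⟩ := hζ.eq_pow_of_pow_eq_one hξ
  obtain ⟨j, hj, rfl⟩ := hζ.eq_pow_of_pow_eq_one hξ'
  have h1 : ‖ζ‖ ≤ 1 := (norm_eq_one_of_isPrimitiveRoot hζ).le
  rw [rd_pow h1, rd_pow h1] at h
  rw [(isPrimitiveRoot_rd hp hN hζ).pow_inj hi hj h]

end Roots

/-! ### The core computation in the residue field -/

section Core

variable {Ω : Type*} [NormedField Ω] [IsUltrametricDist Ω] {K : Type*} [Field K] [Algebra K Ω]
  {p Q : ℕ} [Fact p.Prime] {N : ℕ} [NeZero N] {ζ : Ω}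

/-- The Frobenius `x ↦ x ^ Q` of the residue field as a ring homomorphism. -/
theorem Setting.exists_frob (hK : Setting Ω K p Q) :
    ∃ F : kbar Ω →+* kbar Ω, ∀ x, F x = x ^ Q := by
  obtain ⟨f, -, rfl⟩ := hK.exists_pow
  have := charP_kbar Ω p hK.norm_p_lt_one
  have : ExpChar (kbar Ω) p := ExpChar.prime Fact.out
  exact ⟨iterateFrobenius (kbar Ω) p f, fun x => iterateFrobenius_def p f x⟩

theorem Setting.coprime (hK : Setting Ω K p Q) (hN : ¬ p ∣ N) : Nat.Coprime Q N := by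
  obtain ⟨f, -, rfl⟩ := hK.exists_pow
  exact Nat.Coprime.pow_left _ ((Nat.Prime.coprime_iff_not_dvd Fact.out).2 hN)

/-- The degree of `K(ζ_N)/K`: the order of `Q` modulo `N`. -/
noncomputable def deg (Q N : ℕ) : ℕ := orderOf (Q : ZMod N)

theorem deg_pos {Q N : ℕ} (hcop : Nat.Coprime Q N) : 0 < deg Q N := by
  have h : ((ZMod.unitOfCoprime Q hcop : (ZMod N)ˣ) : ZMod N) = (Q : ZMod N) :=
    ZMod.coe_unitOfCoprime Q hcop
  unfold deg
  rw [← h, orderOf_units]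
  exact orderOf_pos _

theorem pow_deg_modEq (Q N : ℕ) : Q ^ deg Q N ≡ 1 [MOD N] := by
  rw [← ZMod.natCast_eq_natCast_iff]
  push_cast
  exact pow_orderOf_eq_one _

theorem eq_of_pow_modEq {Q N : ℕ} {i j : ℕ} (hi : i < deg Q N) (hj : j < deg Q N)
    (h : Q ^ i ≡ Q ^ j [MOD N]) : i = j := by
  rw [← ZMod.natCast_eq_natCast_iff] at h
  push_cast at h
  exact pow_injOn_Iio_orderOf (Set.mem_Iio.2 hi) (Set.mem_Iio.2 hj) h

theorem pow_eq_pow_iff_of_isPrimitiveRoot {M : Type*} [CommMonoid M] {z : M} {N : ℕ} [NeZero N]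
    (h : IsPrimitiveRoot z N) (a b : ℕ) : z ^ a = z ^ b ↔ a ≡ b [MOD N] := by
  rw [← pow_mod_orderOf z a, ← pow_mod_orderOf z b, ← h.eq_orderOf]
  constructor
  · intro hh
    exact h.pow_inj (Nat.mod_lt _ (NeZero.pos N)) (Nat.mod_lt _ (NeZero.pos N)) hh
  · intro hh
    rw [Nat.ModEq] at hh
    rw [hh]

theorem rd_pow_deg (hp : ‖(p : Ω)‖ < 1) (hN : ¬ p ∣ N) (hζ : IsPrimitiveRoot ζ N) :
    rd Ω ζ ^ (Q ^ deg Q N) = rd Ω ζ := by
  have h := isPrimitiveRoot_rd hp hN hζ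
  conv_rhs => rw [← pow_one (rd Ω ζ)]
  rw [pow_eq_pow_iff_of_isPrimitiveRoot h]
  exact pow_deg_modEq Q N

theorem rd_pow_inj (hp : ‖(p : Ω)‖ < 1) (hN : ¬ p ∣ N) (hζ : IsPrimitiveRoot ζ N) :
    ∀ i < deg Q N, ∀ j < deg Q N, rd Ω ζ ^ (Q ^ i) = rd Ω ζ ^ (Q ^ j) → i = j := by
  intro i hi j hj h
  have hz := isPrimitiveRoot_rd hp hN hζ
  rw [pow_eq_pow_iff_of_isPrimitiveRoot hz] at h
  exact eq_of_pow_modEq hi hj h

/-- **Upper bound**: every `K`-automorphism sends `ζ` to `ζ ^ (Q ^ j)` for some `j < d`. -/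
theorem exists_pow_of_algEquiv (hK : Setting Ω K p Q) (hN : ¬ p ∣ N) (hζ : IsPrimitiveRoot ζ N)
    (τ : Ω ≃ₐ[K] Ω) : ∃ j < deg Q N, τ ζ = ζ ^ (Q ^ j) := by
  obtain ⟨F, hF⟩ := hK.exists_frob
  have hp := hK.norm_p_lt_one
  have h1 : ‖ζ‖ ≤ 1 := (norm_eq_one_of_isPrimitiveRoot hζ).le
  obtain ⟨j, hj, hjeq⟩ := abstract_conj F Q (deg Q N) (rd Ω ζ) hF (deg_pos (hK.coprime hN))
    (rd_pow_deg hp hN hζ) (autBar (τ : Ω ≃+* Ω) (hK.isometry' τ)) (fun x hx => hK.autBar_eq τ hx)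
  refine ⟨j, hj, ?_⟩
  rw [autBar_rd _ _ h1, ← rd_pow h1] at hjeq
  refine eq_of_rd_eq_of_pow_eq_one hp hN hζ ?_ ?_ hjeq
  · rw [← map_pow, hζ.pow_eq_one, map_one]
  · rw [← pow_mul, mul_comm, pow_mul, hζ.pow_eq_one, one_pow]

/-- **Lemma N** (the powers of `ζ` are an orthogonal system over `K`): for `a i ∈ K`,
`‖a j‖ ≤ ‖∑ i < d, a i * ζ ^ i‖`. -/
theorem norm_le_norm_sum (hK : Setting Ω K p Q) (hN : ¬ p ∣ N) (hζ : IsPrimitiveRoot ζ N)
    (a : Fin (deg Q N) → K) (j : Fin (deg Q N)) :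
    ‖algebraMap K Ω (a j)‖ ≤ ‖∑ i, algebraMap K Ω (a i) * ζ ^ (i : ℕ)‖ := by
  obtain ⟨F, hF⟩ := hK.exists_frob
  have hp := hK.norm_p_lt_one
  have hζ1 : ‖ζ‖ = 1 := norm_eq_one_of_isPrimitiveRoot hζ
  obtain ⟨j₀, -, hmax⟩ := Finset.exists_max_image Finset.univ (fun i => ‖algebraMap K Ω (a i)‖)
    ⟨j, Finset.mem_univ j⟩
  rcases eq_or_ne (a j₀) 0 with h0 | h0
  · have := hmax j (Finset.mem_univ j)
    rw [h0, map_zero, norm_zero] at this
    exact this.trans (norm_nonneg _)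
  set c := a j₀ with hc
  have hc0 : algebraMap K Ω c ≠ 0 := (map_ne_zero (algebraMap K Ω)).2 h0
  have hcpos : 0 < ‖algebraMap K Ω c‖ := norm_pos_iff.2 hc0
  set b : Fin (deg Q N) → K := fun i => a i * c⁻¹ with hb
  have hb1 : ∀ i, ‖algebraMap K Ω (b i)‖ ≤ 1 := by
    intro i
    rw [hb, map_mul, map_inv₀, norm_mul, norm_inv, ← div_eq_mul_inv, div_le_one hcpos]
    exact hmax i (Finset.mem_univ i)
  have hbζ : ∀ i : Fin (deg Q N), ‖algebraMap K Ω (b i) * ζ ^ (i : ℕ)‖ ≤ 1 := by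
    intro i
    rw [norm_mul, norm_pow, hζ1, one_pow, mul_one]
    exact hb1 i
  have hsum : ∑ i, algebraMap K Ω (b i) * ζ ^ (i : ℕ) =
      (∑ i, algebraMap K Ω (a i) * ζ ^ (i : ℕ)) * (algebraMap K Ω c)⁻¹ := by
    rw [Finset.sum_mul]
    refine Finset.sum_congr rfl fun i _ => ?_
    rw [hb, map_mul, map_inv₀]; ring
  have hle : ‖∑ i, algebraMap K Ω (b i) * ζ ^ (i : ℕ)‖ ≤ 1 :=
    IsUltrametricDist.norm_sum_le_of_forall_le_of_nonneg zero_le_one (fun i _ => hbζ i)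
  have hge : ¬ ‖∑ i, algebraMap K Ω (b i) * ζ ^ (i : ℕ)‖ < 1 := by
    intro hlt
    rw [← rd_eq_zero_iff hle, rd_sum _ _ (fun i _ => hbζ i)] at hlt
    have hterm : ∀ i : Fin (deg Q N), rd Ω (algebraMap K Ω (b i) * ζ ^ (i : ℕ)) =
        rd Ω (algebraMap K Ω (b i)) * rd Ω ζ ^ (i : ℕ) := by
      intro i
      rw [rd_mul (hb1 i) (by rw [norm_pow, hζ1, one_pow]), rd_pow hζ1.le]
    simp only [hterm] at hlt
    have hfix : ∀ i, rd Ω (algebraMap K Ω (b i)) ^ Q = rd Ω (algebraMap K Ω (b i)) := by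
      intro i
      rw [← rd_pow (hb1 i), rd_eq_rd_iff _ (hb1 i)]
      · exact hK.frob _ (hb1 i)
      · rw [norm_pow]; exact pow_le_one₀ (norm_nonneg _) (hb1 i)
    have := abstract_indep F Q (deg Q N) (rd Ω ζ) hF (rd_pow_inj hp hN hζ)
      (fun i => rd Ω (algebraMap K Ω (b i))) hfix hlt j₀
    have hb0 : b j₀ = 1 := by rw [hb]; exact mul_inv_cancel₀ h0
    rw [hb0, map_one, rd_one] at this
    exact one_ne_zero this
  rw [hsum, norm_mul, norm_inv, ← div_eq_mul_inv, not_lt, one_le_div hcpos] at hge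
  exact (hmax j (Finset.mem_univ j)).trans hge

end Core


/-! ### The field `K(ζ)` -/

open IntermediateField

section Field

variable {Ω : Type*} [NormedField Ω] [IsUltrametricDist Ω] {K : Type*} [Field K] [Algebra K Ω]
  [Algebra.IsAlgebraic K Ω] [IsAlgClosed Ω] {p Q : ℕ} [Fact p.Prime] {N : ℕ} [NeZero N] {ζ : Ω}

variable (K ζ) in
/-- The field `K(ζ)`. -/
noncomputable abbrev adj : IntermediateField K Ω := K⟮ζ⟯

variable (K ζ) in
/-- `ζ` as an element of `K(ζ)`. -/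
noncomputable def gen : ↥(adj K ζ) := ⟨ζ, mem_adjoin_simple_self _ ζ⟩

@[simp] theorem coe_gen : ((gen K ζ : ↥(adj K ζ)) : Ω) = ζ := rfl

theorem isPrimitiveRoot_gen (hζ : IsPrimitiveRoot ζ N) : IsPrimitiveRoot (gen K ζ) N :=
  IsPrimitiveRoot.of_map_of_injective (f := (adj K ζ).val) (by simpa using hζ)
    (adj K ζ).val.injective

theorem isCyclotomicExtension_adj (hζ : IsPrimitiveRoot ζ N) :
    IsCyclotomicExtension {N} K ↥(adj K ζ) :=
  hζ.intermediateField_adjoin_isCyclotomicExtension K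

theorem isGalois_adj (hζ : IsPrimitiveRoot ζ N) : IsGalois K ↥(adj K ζ) :=
  haveI := isCyclotomicExtension_adj (K := K) hζ
  IsCyclotomicExtension.isGalois {N} K ↥(adj K ζ)

theorem finiteDimensional_adj (hζ : IsPrimitiveRoot ζ N) : FiniteDimensional K ↥(adj K ζ) :=
  haveI := isCyclotomicExtension_adj (K := K) hζ
  IsCyclotomicExtension.finiteDimensional {N} K ↥(adj K ζ)

omit [NormedField Ω] [IsUltrametricDist Ω] in
variable (K Ω) in
theorem normal_ambient {Ω : Type*} [Field Ω] [Algebra K Ω] [Algebra.IsAlgebraic K Ω]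
    [IsAlgClosed Ω] : Normal K Ω :=
  haveI : IsAlgClosure K Ω := ⟨inferInstance, inferInstance⟩
  IsAlgClosure.normal K Ω

/-- Every automorphism of `K(ζ)/K` sends `ζ` to `ζ ^ (Q ^ j)`, `j < d`. -/
theorem exists_pow_of_aut (hK : Setting Ω K p Q) (hN : ¬ p ∣ N) (hζ : IsPrimitiveRoot ζ N)
    (g : ↥(adj K ζ) ≃ₐ[K] ↥(adj K ζ)) :
    ∃ j < deg Q N, g (gen K ζ) = gen K ζ ^ (Q ^ j) := by
  have := isGalois_adj (K := K) hζ
  have := normal_ambient K (Ω := Ω)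
  obtain ⟨j, hj, h⟩ := exists_pow_of_algEquiv hK hN hζ (g.liftNormal Ω)
  refine ⟨j, hj, ?_⟩
  have h2 := g.liftNormal_commutes Ω (gen K ζ)
  apply (adj K ζ).val.injective
  simp only [IntermediateField.algebraMap_apply, coe_gen] at h2
  show ((g (gen K ζ) : ↥(adj K ζ)) : Ω) = ((gen K ζ ^ (Q ^ j) : ↥(adj K ζ)) : Ω)
  rw [SubmonoidClass.coe_pow, coe_gen, ← h2, h]

/-- The unit `Q mod N`. -/
noncomputable def unitQ {Q N : ℕ} (hcop : Nat.Coprime Q N) : (ZMod N)ˣ := ZMod.unitOfCoprime Q hcop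

theorem orderOf_unitQ {Q N : ℕ} (hcop : Nat.Coprime Q N) : orderOf (unitQ hcop) = deg Q N := by
  unfold deg unitQ
  rw [← orderOf_units, ZMod.coe_unitOfCoprime]

/-- `autToPow g` is a power of `Q`. -/
theorem autToPow_eq_pow (hK : Setting Ω K p Q) (hN : ¬ p ∣ N) (hζ : IsPrimitiveRoot ζ N)
    (g : ↥(adj K ζ) ≃ₐ[K] ↥(adj K ζ)) :
    ∃ j < deg Q N, (isPrimitiveRoot_gen (K := K) hζ).autToPow K g = unitQ (hK.coprime hN) ^ j := by
  obtain ⟨j, hj, h⟩ := exists_pow_of_aut hK hN hζ g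
  refine ⟨j, hj, ?_⟩
  have hgen := isPrimitiveRoot_gen (K := K) hζ
  have hspec := hgen.autToPow_spec K g
  rw [h, pow_eq_pow_iff_of_isPrimitiveRoot hgen] at hspec
  rw [← ZMod.natCast_eq_natCast_iff, ZMod.natCast_val, ZMod.cast_id', id_eq] at hspec
  apply Units.ext
  rw [hspec, Units.val_pow_eq_pow_val]
  unfold unitQ
  rw [ZMod.coe_unitOfCoprime]
  push_cast
  rfl

theorem coe_sum_smul (a : Fin (deg Q N) → K) (e : Fin (deg Q N) → ℕ) :
    ((∑ i, a i • gen K ζ ^ (e i) : ↥(adj K ζ)) : Ω) =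
      ∑ i, algebraMap K Ω (a i) * ζ ^ (e i) := by
  rw [AddSubmonoidClass.coe_finsetSum]
  refine Finset.sum_congr rfl fun i _ => ?_
  rw [Algebra.smul_def]
  rfl

/-- `1, ζ, …, ζ ^ (d-1)` are linearly independent over `K`. -/
theorem linearIndependent_pow (hK : Setting Ω K p Q) (hN : ¬ p ∣ N) (hζ : IsPrimitiveRoot ζ N) :
    LinearIndependent K (fun i : Fin (deg Q N) => gen K ζ ^ (i : ℕ)) := by
  rw [Fintype.linearIndependent_iff]
  intro c hc i
  have h1 := congrArg (fun x : ↥(adj K ζ) => (x : Ω)) hc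
  simp only [ZeroMemClass.coe_zero] at h1
  rw [coe_sum_smul c (fun i => (i : ℕ))] at h1
  have h3 := norm_le_norm_sum hK hN hζ c i
  rw [h1, norm_zero] at h3
  have h4 : algebraMap K Ω (c i) = 0 := norm_le_zero_iff.1 h3
  exact (map_eq_zero (algebraMap K Ω)).1 h4

theorem deg_le_finrank (hK : Setting Ω K p Q) (hN : ¬ p ∣ N) (hζ : IsPrimitiveRoot ζ N) :
    deg Q N ≤ Module.finrank K ↥(adj K ζ) := by
  have := finiteDimensional_adj (K := K) hζ
  have h := (linearIndependent_pow hK hN hζ).fintype_card_le_finrank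
  simpa using h

theorem card_aut_le (hK : Setting Ω K p Q) (hN : ¬ p ∣ N) (hζ : IsPrimitiveRoot ζ N) :
    Nat.card (↥(adj K ζ) ≃ₐ[K] ↥(adj K ζ)) ≤ deg Q N := by
  classical
  have hgen := isPrimitiveRoot_gen (K := K) hζ
  have := isCyclotomicExtension_adj (K := K) hζ
  have hinj := hgen.autToPow_injective K
  set u := unitQ (hK.coprime hN) with hu
  have hrange : ∀ g, hgen.autToPow K g ∈ Subgroup.zpowers u := by
    intro g
    obtain ⟨j, -, hj⟩ := autToPow_eq_pow hK hN hζ g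
    rw [hj]
    exact Subgroup.pow_mem _ (Subgroup.mem_zpowers u) j
  let f : (↥(adj K ζ) ≃ₐ[K] ↥(adj K ζ)) → Subgroup.zpowers u :=
    fun g => ⟨hgen.autToPow K g, hrange g⟩
  have hf : Function.Injective f := by
    intro g g' h
    exact hinj (congrArg Subtype.val h)
  have h1 := Nat.card_le_card_of_injective f hf
  rw [Nat.card_zpowers, orderOf_unitQ] at h1
  exact h1

theorem finrank_adj (hK : Setting Ω K p Q) (hN : ¬ p ∣ N) (hζ : IsPrimitiveRoot ζ N) :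
    Module.finrank K ↥(adj K ζ) = deg Q N := by
  have := finiteDimensional_adj (K := K) hζ
  have := isGalois_adj (K := K) hζ
  apply le_antisymm
  · rw [← IsGalois.card_aut_eq_finrank]
    exact card_aut_le hK hN hζ
  · exact deg_le_finrank hK hN hζ

theorem card_aut_adj (hK : Setting Ω K p Q) (hN : ¬ p ∣ N) (hζ : IsPrimitiveRoot ζ N) :
    Nat.card (↥(adj K ζ) ≃ₐ[K] ↥(adj K ζ)) = deg Q N := by
  have := finiteDimensional_adj (K := K) hζ
  have := isGalois_adj (K := K) hζ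
  rw [IsGalois.card_aut_eq_finrank, finrank_adj hK hN hζ]

/-- **The Frobenius** of `K(ζ)/K`: a generator `φ` of the Galois group with `φ ζ = ζ ^ Q`. -/
theorem exists_frobenius (hK : Setting Ω K p Q) (hN : ¬ p ∣ N) (hζ : IsPrimitiveRoot ζ N) :
    ∃ φ : ↥(adj K ζ) ≃ₐ[K] ↥(adj K ζ), φ (gen K ζ) = gen K ζ ^ Q ∧
      (∀ g, g ∈ Subgroup.zpowers φ) ∧ orderOf φ = deg Q N := by
  classical
  have hgen := isPrimitiveRoot_gen (K := K) hζ
  have := isCyclotomicExtension_adj (K := K) hζ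
  have hfd := finiteDimensional_adj (K := K) hζ
  have hinj := hgen.autToPow_injective K
  set u := unitQ (hK.coprime hN) with hu
  have hrange : ∀ g, hgen.autToPow K g ∈ Subgroup.zpowers u := by
    intro g
    obtain ⟨j, -, hj⟩ := autToPow_eq_pow hK hN hζ g
    rw [hj]
    exact Subgroup.pow_mem _ (Subgroup.mem_zpowers u) j
  let f : (↥(adj K ζ) ≃ₐ[K] ↥(adj K ζ)) → Subgroup.zpowers u :=
    fun g => ⟨hgen.autToPow K g, hrange g⟩
  have hf : Function.Injective f := by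
    intro g g' h
    exact hinj (congrArg Subtype.val h)
  have hcard : Nat.card (Subgroup.zpowers u) ≤ Nat.card (↥(adj K ζ) ≃ₐ[K] ↥(adj K ζ)) := by
    rw [Nat.card_zpowers, orderOf_unitQ, card_aut_adj hK hN hζ]
  have hbij := hf.bijective_of_nat_card_le hcard
  obtain ⟨φ, hφ⟩ := hbij.2 ⟨u, Subgroup.mem_zpowers u⟩
  have hφu : hgen.autToPow K φ = u := congrArg Subtype.val hφ
  refine ⟨φ, ?_, ?_, ?_⟩
  · have hspec := hgen.autToPow_spec K φ
    rw [← hspec, hφu, pow_eq_pow_iff_of_isPrimitiveRoot hgen]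
    have : ((u : (ZMod N)ˣ) : ZMod N) = (Q : ZMod N) := ZMod.coe_unitOfCoprime Q _
    rw [this, ZMod.val_natCast]
    exact Nat.mod_modEq Q N
  · intro g
    obtain ⟨j, -, hj⟩ := autToPow_eq_pow hK hN hζ g
    have : g = φ ^ j := by
      apply hinj
      rw [hj, map_pow, hφu]
    rw [this]
    exact Subgroup.pow_mem _ (Subgroup.mem_zpowers φ) j
  · rw [← orderOf_injective (hgen.autToPow K) hinj φ, hφu, orderOf_unitQ]

/-- Every element of `K(ζ)` is a `K`-combination of `1, ζ, …, ζ ^ (d-1)`. -/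
theorem exists_repr (hK : Setting Ω K p Q) (hN : ¬ p ∣ N) (hζ : IsPrimitiveRoot ζ N)
    (x : ↥(adj K ζ)) :
    ∃ a : Fin (deg Q N) → K, x = ∑ i, a i • gen K ζ ^ (i : ℕ) := by
  have hfd := finiteDimensional_adj (K := K) hζ
  have hspan := (linearIndependent_pow hK hN hζ).span_eq_top_of_card_eq_finrank'
    (by rw [Fintype.card_fin, finrank_adj hK hN hζ])
  have hx : x ∈ Submodule.span K (Set.range fun i : Fin (deg Q N) => gen K ζ ^ (i : ℕ)) := by
    rw [hspan]; exact Submodule.mem_top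
  obtain ⟨c, hc⟩ := (Submodule.mem_span_range_iff_exists_fun K).1 hx
  exact ⟨c, hc.symm⟩

/-- Norm of a combination: `‖∑ a i ζ ^ i‖ = max ‖a i‖`, in the form "equal to some `‖a j‖` which
dominates all the others". -/
theorem exists_norm_sum_eq (hK : Setting Ω K p Q) (hN : ¬ p ∣ N) (hζ : IsPrimitiveRoot ζ N)
    (a : Fin (deg Q N) → K) :
    ∃ j, ‖∑ i, algebraMap K Ω (a i) * ζ ^ (i : ℕ)‖ = ‖algebraMap K Ω (a j)‖ ∧
      ∀ i, ‖algebraMap K Ω (a i)‖ ≤ ‖algebraMap K Ω (a j)‖ := by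
  have hζ1 : ‖ζ‖ = 1 := norm_eq_one_of_isPrimitiveRoot hζ
  have j : Fin (deg Q N) := ⟨0, deg_pos (hK.coprime hN)⟩
  obtain ⟨j₀, -, hmax⟩ := Finset.exists_max_image Finset.univ
    (fun i => ‖algebraMap K Ω (a i)‖) ⟨j, Finset.mem_univ j⟩
  refine ⟨j₀, le_antisymm ?_ ?_, fun i => hmax i (Finset.mem_univ i)⟩
  · apply IsUltrametricDist.norm_sum_le_of_forall_le_of_nonneg (norm_nonneg _)
    intro i _
    rw [norm_mul, norm_pow, hζ1, one_pow, mul_one]
    exact hmax i (Finset.mem_univ i)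
  · exact norm_le_norm_sum hK hN hζ a j₀

/-- **`K(ζ)/K` is unramified**: the value group does not grow. -/
theorem exists_norm_eq (hK : Setting Ω K p Q) (hN : ¬ p ∣ N) (hζ : IsPrimitiveRoot ζ N)
    (x : ↥(adj K ζ)) : ∃ y : K, ‖(x : Ω)‖ = ‖algebraMap K Ω y‖ := by
  obtain ⟨a, rfl⟩ := exists_repr hK hN hζ x
  obtain ⟨j, hj, -⟩ := exists_norm_sum_eq hK hN hζ a
  exact ⟨a j, by rw [coe_sum_smul, hj]⟩

/-- **Integers**: an element of norm `≤ 1` of `K(ζ)` is a combination of powers of `ζ` with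
coefficients of norm `≤ 1` in `K`, i.e. `O_{K(ζ)} = O_K[ζ]`. -/
theorem exists_repr_int (hK : Setting Ω K p Q) (hN : ¬ p ∣ N) (hζ : IsPrimitiveRoot ζ N)
    (x : ↥(adj K ζ)) (hx : ‖(x : Ω)‖ ≤ 1) :
    ∃ a : Fin (deg Q N) → K, (∀ i, ‖algebraMap K Ω (a i)‖ ≤ 1) ∧
      x = ∑ i, a i • gen K ζ ^ (i : ℕ) := by
  obtain ⟨a, rfl⟩ := exists_repr hK hN hζ x
  obtain ⟨j, hj, hmax⟩ := exists_norm_sum_eq hK hN hζ a
  refine ⟨a, fun i => (hmax i).trans ?_, rfl⟩
  rw [← hj, ← coe_sum_smul]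
  exact hx

/-- **Frobenius congruence**: an automorphism `φ` with `φ ζ = ζ ^ Q` satisfies `φ x ≡ x ^ Q` modulo
the maximal ideal, for every integer `x` of `K(ζ)`. -/
theorem frobenius_congr (hK : Setting Ω K p Q) (hN : ¬ p ∣ N) (hζ : IsPrimitiveRoot ζ N)
    (φ : ↥(adj K ζ) ≃ₐ[K] ↥(adj K ζ)) (hφ : φ (gen K ζ) = gen K ζ ^ Q)
    (x : ↥(adj K ζ)) (hx : ‖(x : Ω)‖ ≤ 1) :
    ‖((φ x : ↥(adj K ζ)) : Ω) - (x : Ω) ^ Q‖ < 1 := by
  obtain ⟨F, hF⟩ := hK.exists_frob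
  have hζ1 : ‖ζ‖ = 1 := norm_eq_one_of_isPrimitiveRoot hζ
  obtain ⟨a, ha1, rfl⟩ := exists_repr_int hK hN hζ x hx
  have hφx : φ (∑ i, a i • gen K ζ ^ (i : ℕ)) = ∑ i, a i • gen K ζ ^ (Q * (i : ℕ)) := by
    rw [map_sum]
    refine Finset.sum_congr rfl fun i _ => ?_
    rw [Algebra.smul_def, Algebra.smul_def, map_mul, φ.commutes, map_pow, hφ, ← pow_mul]
  rw [hφx, coe_sum_smul, coe_sum_smul]
  have hterm : ∀ (e : ℕ) (i : Fin (deg Q N)), ‖algebraMap K Ω (a i) * ζ ^ e‖ ≤ 1 := by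
    intro e i
    rw [norm_mul, norm_pow, hζ1, one_pow, mul_one]
    exact ha1 i
  have hrdterm : ∀ (e : ℕ) (i : Fin (deg Q N)), rd Ω (algebraMap K Ω (a i) * ζ ^ e) =
      rd Ω (algebraMap K Ω (a i)) * rd Ω ζ ^ e := by
    intro e i
    rw [rd_mul (ha1 i) (by rw [norm_pow, hζ1, one_pow]), rd_pow hζ1.le]
  have hle1 : ‖∑ i, algebraMap K Ω (a i) * ζ ^ (Q * (i : ℕ))‖ ≤ 1 :=
    IsUltrametricDist.norm_sum_le_of_forall_le_of_nonneg zero_le_one (fun i _ => hterm _ i)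
  have hle2 : ‖∑ i, algebraMap K Ω (a i) * ζ ^ (i : ℕ)‖ ≤ 1 :=
    IsUltrametricDist.norm_sum_le_of_forall_le_of_nonneg zero_le_one (fun i _ => hterm _ i)
  have hle3 : ‖(∑ i, algebraMap K Ω (a i) * ζ ^ (i : ℕ)) ^ Q‖ ≤ 1 := by
    rw [norm_pow]; exact pow_le_one₀ (norm_nonneg _) hle2
  rw [← rd_eq_rd_iff hle1 hle3, rd_pow hle2, rd_sum _ _ (fun i _ => hterm _ i),
    rd_sum _ _ (fun i _ => hterm _ i), ← hF, map_sum]
  refine Finset.sum_congr rfl fun i _ => ?_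
  rw [hrdterm, hrdterm, map_mul, map_pow, hF, hF, ← pow_mul]
  congr 1
  rw [← rd_pow (ha1 i), eq_comm, rd_eq_rd_iff _ (ha1 i)]
  · exact hK.frob _ (ha1 i)
  · rw [norm_pow]; exact pow_le_one₀ (norm_nonneg _) (ha1 i)

theorem deg_pow_sub_one {Q n : ℕ} (hQ : 1 < Q) (hn : 0 < n) : deg Q (Q ^ n - 1) = n := by
  unfold deg
  have hlt : ∀ m, 0 < m → 1 < Q ^ m := fun m hm => Nat.one_lt_pow hm.ne' hQ
  rw [orderOf_eq_iff hn]
  constructor
  · rw [← Nat.cast_pow, ← Nat.cast_one (R := ZMod (Q ^ n - 1)), ZMod.natCast_eq_natCast_iff]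
    exact Nat.modEq_sub (hlt n hn).le
  · intro m hmn hm h
    rw [← Nat.cast_pow, ← Nat.cast_one (R := ZMod (Q ^ n - 1)), ZMod.natCast_eq_natCast_iff] at h
    have h1 := (Nat.modEq_iff_dvd' (hlt m hm).le).1 h.symm
    have h2 : Q ^ m < Q ^ n := Nat.pow_lt_pow_right hQ hmn
    have h4 : 1 < Q ^ m := hlt m hm
    have h3 : Q ^ n - 1 ≤ Q ^ m - 1 := Nat.le_of_dvd (by omega) h1
    omega

/-- **Main theorem**: for `N` prime to `p` and `ζ` a primitive `N`-th root of unity, `K(ζ)/K` is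
Galois, cyclic of degree `d = orderOf (Q mod N)`, generated by a Frobenius `φ` (`φ ζ = ζ ^ Q`,
`φ x ≡ x ^ Q` on integers), and unramified (every norm of `K(ζ)` is a norm of `K`). -/
theorem unramified_adjoin (hK : Setting Ω K p Q) (hN : ¬ p ∣ N) (hζ : IsPrimitiveRoot ζ N) :
    FiniteDimensional K ↥(adj K ζ) ∧ IsGalois K ↥(adj K ζ) ∧
    Module.finrank K ↥(adj K ζ) = deg Q N ∧
    ∃ φ : ↥(adj K ζ) ≃ₐ[K] ↥(adj K ζ),
      φ (gen K ζ) = gen K ζ ^ Q ∧ (∀ g, g ∈ Subgroup.zpowers φ) ∧ orderOf φ = deg Q N ∧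
      (∀ x : ↥(adj K ζ), ‖(x : Ω)‖ ≤ 1 → ‖((φ x : ↥(adj K ζ)) : Ω) - (x : Ω) ^ Q‖ < 1) ∧
      (∀ x : ↥(adj K ζ), ∃ y : K, ‖(x : Ω)‖ = ‖algebraMap K Ω y‖) := by
  obtain ⟨φ, h1, h2, h3⟩ := exists_frobenius hK hN hζ
  exact ⟨finiteDimensional_adj hζ, isGalois_adj hζ, finrank_adj hK hN hζ, φ, h1, h2, h3,
    fun x hx => frobenius_congr hK hN hζ φ h1 x hx, fun x => exists_norm_eq hK hN hζ x⟩

theorem Setting.not_dvd_pow_sub_one (hK : Setting Ω K p Q) {n : ℕ} (hn : 0 < n) :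
    ¬ p ∣ Q ^ n - 1 := by
  obtain ⟨f, hf, rfl⟩ := hK.exists_pow
  intro h
  have hq := (Fact.out : p.Prime)
  have h1 : p ∣ (p ^ f) ^ n := by
    rw [← pow_mul]
    exact dvd_pow_self p (Nat.mul_pos hf hn).ne'
  have h2 : 1 ≤ (p ^ f) ^ n := Nat.one_le_pow _ _ (pow_pos hq.pos f)
  have h3 : p ∣ (p ^ f) ^ n - ((p ^ f) ^ n - 1) := Nat.dvd_sub h1 h
  have h4 : (p ^ f) ^ n - ((p ^ f) ^ n - 1) = 1 := by omega
  rw [h4] at h3
  exact hq.one_lt.ne' (Nat.dvd_one.1 h3)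

end Field

end Fermat.Agent.S55.Local.UnramGeneric
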