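/-
S55 / LOCAL block: proof of `BrauerUnramBlocks.CycloUnram` (U-abs), helper85.

For an (LF) pair `L ⊆ M = L(ζ)`, `ζ` a primitive `N`-th root of unity with `‖(N : L)‖ = 1`:
`M/L` is Galois, unramified, cyclic, of degree the order of `#κ_L` modulo `N`.
Proof: instantiate `Local/UnramGeneric.lean` at `Ω := AlgebraicClosure M` with the spectral norm
over `L`, and transport along `M ≃ₐ[L] L⟮ζ⟯ ⊆ Ω`.
-/
import Mathlib
import Fermat.Agent.S55.Local.Basic
import Fermat.Agent.S55.Local.Blocks
import Fermat.Agent.S55.Local.BrauerUnramBlocks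
import Fermat.Agent.S55.Local.UnramGeneric

set_option autoImplicit false

open scoped NormedField NNReal

namespace Fermat.Agent.S55.Local.CycloUnramProof

open Valued Fermat.Agent.S55.Local Fermat.Agent.S55.Local.Blocks
  Fermat.Agent.S55.Local.BrauerUnramBlocks

section ResidueOfLF

variable (L : Type) [NontriviallyNormedField L] [IsUltrametricDist L] [ProperSpace L]

/-- The residue characteristic. -/
theorem exists_resChar : ∃ p : ℕ, p.Prime ∧ ‖(p : L)‖ < 1 := by
  obtain ⟨p, hp⟩ := CharP.exists 𝓀[L]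
  have hprime : p.Prime :=
    (CharP.char_is_prime_or_zero 𝓀[L] p).resolve_right (CharP.char_ne_zero_of_finite 𝓀[L] p)
  refine ⟨p, hprime, ?_⟩
  have h0 : ((p : ℕ) : 𝓀[L]) = 0 := CharP.cast_eq_zero _ p
  have h1 : UnramGeneric.res L (p : 𝒪[L]) = 0 := by
    rw [map_natCast]; exact h0
  rw [UnramGeneric.res_eq_zero_iff] at h1
  simpa using h1

theorem resCard_eq_pow (p : ℕ) [Fact p.Prime] (hp : ‖(p : L)‖ < 1) :
    ∃ f : ℕ, 0 < f ∧ resCard L = p ^ f := by
  have : Fintype 𝓀[L] := Fintype.ofFinite _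
  have := UnramGeneric.charP_kbar L p hp
  obtain ⟨n, -, hn⟩ := FiniteField.card 𝓀[L] p
  refine ⟨n, n.pos, ?_⟩
  unfold resCard
  rw [Nat.card_eq_fintype_card, hn]

theorem frob_L (x : L) (hx : ‖x‖ ≤ 1) : ‖x ^ resCard L - x‖ < 1 := by
  have : Fintype 𝓀[L] := Fintype.ofFinite _
  have h := FiniteField.pow_card (UnramGeneric.res L (UnramGeneric.mkO L x hx))
  rw [← Nat.card_eq_fintype_card, ← map_pow, ← sub_eq_zero, ← map_sub,
    UnramGeneric.res_eq_zero_iff] at h
  exact h

theorem reps_L : ∃ R : Finset L, R.card = resCard L ∧ (∀ r ∈ R, ‖r‖ ≤ 1) ∧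
    ∀ r ∈ R, ∀ r' ∈ R, r ≠ r' → ‖r - r'‖ = 1 := by
  classical
  have : Fintype 𝓀[L] := Fintype.ofFinite _
  have hsurj : Function.Surjective (UnramGeneric.res L) := IsLocalRing.residue_surjective
  let s : 𝓀[L] → L := fun y => ((Function.surjInv hsurj y : 𝒪[L]) : L)
  have hs1 : ∀ y, ‖s y‖ ≤ 1 := fun y => UnramGeneric.norm_coe_le_one L _
  have hsy : ∀ y, UnramGeneric.rd L (s y) = y := by
    intro y
    rw [UnramGeneric.rd_coe]
    exact Function.surjInv_eq hsurj y
  have hinj : Function.Injective s := by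
    intro y y' h
    rw [← hsy y, ← hsy y', h]
  refine ⟨Finset.univ.image s, ?_, ?_, ?_⟩
  · rw [Finset.card_image_of_injective _ hinj, Finset.card_univ]
    unfold resCard
    rw [Nat.card_eq_fintype_card]
  · intro r hr
    obtain ⟨y, -, rfl⟩ := Finset.mem_image.1 hr
    exact hs1 y
  · intro r hr r' hr' hne
    obtain ⟨y, -, rfl⟩ := Finset.mem_image.1 hr
    obtain ⟨y', -, rfl⟩ := Finset.mem_image.1 hr'
    apply le_antisymm
    · have h := IsUltrametricDist.norm_add_le_max (s y) (-(s y'))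
      rw [norm_neg, ← sub_eq_add_neg] at h
      exact h.trans (max_le (hs1 y) (hs1 y'))
    · by_contra hlt
      rw [not_le, ← UnramGeneric.rd_eq_rd_iff (hs1 y) (hs1 y'), hsy, hsy] at hlt
      exact hne (congrArg s hlt)

end ResidueOfLF

section Main

open IntermediateField

/-- **(U-abs)** -/
theorem cycloUnram : CycloUnram := by
  intro L M _ _ _ _ _ _ _ _ N ζ hN hζ hgen
  have hN0 : N ≠ 0 := by
    rintro rfl
    simp at hN
  have : NeZero N := ⟨hN0⟩
  obtain ⟨p, hpP, hp⟩ := exists_resChar L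
  have : Fact p.Prime := ⟨hpP⟩
  -- the ambient field
  have : Algebra.IsAlgebraic L (AlgebraicClosure M) :=
    Algebra.IsAlgebraic.trans L M (AlgebraicClosure M)
  let _ : NormedField (AlgebraicClosure M) := spectralNorm.normedField L (AlgebraicClosure M)
  have : IsUltrametricDist (AlgebraicClosure M) :=
    IsUltrametricDist.isUltrametricDist_of_isNonarchimedean_norm
      (isNonarchimedean_spectralNorm (K := L) (L := AlgebraicClosure M))
  have hnormL : ∀ x : L, ‖algebraMap L (AlgebraicClosure M) x‖ = ‖x‖ :=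
    fun x => spectralNorm_extends (K := L) (L := AlgebraicClosure M) x
  have hnormM : ∀ x : M, ‖algebraMap M (AlgebraicClosure M) x‖ = ‖x‖ := by
    intro x
    rw [Local.norm_eq_spectralNorm L M x]
    exact (spectralNorm.eq_of_tower (K := L) (L := AlgebraicClosure M) (E := M) x).symm
  -- the setting
  have hpΩ : ‖(p : AlgebraicClosure M)‖ < 1 := by
    rw [← map_natCast (algebraMap L (AlgebraicClosure M)), hnormL]
    exact hp
  have hset : UnramGeneric.Setting (AlgebraicClosure M) L p (resCard L) := by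
    refine ⟨hpΩ, fun τ x => (spectralNorm_eq_of_equiv τ x).symm, resCard_eq_pow L p hp, ?_, ?_⟩
    · intro x hx
      rw [hnormL] at hx
      rw [← map_pow, ← map_sub, hnormL]
      exact frob_L L x hx
    · obtain ⟨R, hcard, hR1, hpair⟩ := reps_L L
      refine ⟨R, hcard, fun r hr => by rw [hnormL]; exact hR1 r hr, fun r hr r' hr' hne => ?_⟩
      rw [← map_sub, hnormL]
      exact hpair r hr r' hr' hne
  have hNp : ¬ p ∣ N := by
    rintro ⟨m, rfl⟩
    rw [Nat.cast_mul, norm_mul] at hN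
    have h1 : ‖(m : L)‖ ≤ 1 := IsUltrametricDist.norm_natCast_le_one L m
    have h2 : ‖(p : L)‖ * ‖(m : L)‖ < 1 := by
      calc ‖(p : L)‖ * ‖(m : L)‖ ≤ ‖(p : L)‖ * 1 :=
            mul_le_mul_of_nonneg_left h1 (norm_nonneg _)
        _ < 1 := by rw [mul_one]; exact hp
    linarith
  -- the root of unity in the ambient field
  set ζ' : AlgebraicClosure M := algebraMap M (AlgebraicClosure M) ζ with hζ'
  have hζ'prim : IsPrimitiveRoot ζ' N :=
    hζ.map_of_injective (algebraMap M (AlgebraicClosure M)).injective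
  obtain ⟨hfd, hgal, hrank, φ, -, hφgen, -, -, hunr⟩ :=
    UnramGeneric.unramified_adjoin hset hNp hζ'prim
  -- `M ≃ L⟮ζ'⟯`
  let ι : M →ₐ[L] AlgebraicClosure M := IsScalarTower.toAlgHom L M (AlgebraicClosure M)
  have hrange : ι.fieldRange = UnramGeneric.adj L ζ' := by
    rw [AlgHom.fieldRange_eq_map, ← hgen, IntermediateField.adjoin_map]
    simp [ι, hζ']
  let e : M ≃ₐ[L] ↥(UnramGeneric.adj L ζ') :=
    (AlgEquiv.ofInjectiveField ι).trans (IntermediateField.equivOfEq hrange)
  have he : ∀ x : M, ((e x : ↥(UnramGeneric.adj L ζ')) : AlgebraicClosure M) =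
      algebraMap M (AlgebraicClosure M) x := fun x => rfl
  refine ⟨?_, ?_, ?_, ?_⟩
  · exact IsGalois.of_algEquiv e.symm
  · intro x
    obtain ⟨y, hy⟩ := hunr (e x)
    exact ⟨y, by rw [← hnormM x, ← he x, hy, hnormL]⟩
  · have hcyc : IsCyclic (↥(UnramGeneric.adj L ζ') ≃ₐ[L] ↥(UnramGeneric.adj L ζ')) :=
      ⟨⟨φ, fun g => hφgen g⟩⟩
    exact isCyclic_of_surjective (AlgEquiv.autCongr e.symm) (AlgEquiv.autCongr e.symm).surjective
  · intro k
    have hfin : Module.finrank L M = UnramGeneric.deg (resCard L) N := by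
      rw [← hrank]
      exact e.toLinearEquiv.finrank_eq
    rw [hfin]
    unfold UnramGeneric.deg
    rw [orderOf_dvd_iff_pow_eq_one, ← Nat.cast_pow, ← Nat.cast_one (R := ZMod N),
      ZMod.natCast_eq_natCast_iff]

end Main

end Fermat.Agent.S55.Local.CycloUnramProof
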