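/-
S55 / LOCAL block (helper85): literal proof of `Blocks.UnramExists` — every (LF) field `K` has,
for each `n ≥ 1`, an unramified cyclic Galois (LF) extension of degree `n`, namely
`CyclotomicField (Q ^ n - 1) K` (`Q = #κ_K`) with the spectral norm (helper36's `FiniteExtLF`).

Reusable pieces:
* `two_le_resCard K`, `norm_natCast_eq_one_of_not_dvd`, `norm_pow_sub_one K n`;
* `finrank_eq_of_clause` : the degree clause of `CycloUnram` at `N = Q ^ n - 1` forces degree `n`;
* `cyclo K N hN` : `CycloUnram` instantiated at `CyclotomicField N K`.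
-/
import Mathlib
import Fermat.Agent.S55.Local.Basic
import Fermat.Agent.S55.Local.Blocks
import Fermat.Agent.S55.Local.BrauerUnramBlocks
import Fermat.Agent.S55.Local.UnramGeneric
import Fermat.Agent.S55.Local.CycloUnramProof
import Fermat.Agent.S55.Global.FiniteExtLF

set_option autoImplicit false
set_option linter.style.haveILetI false

open scoped NormedField NNReal

namespace Fermat.Agent.S55.Local.UnramExistsProof

open Valued Fermat.Agent.S55.Local Fermat.Agent.S55.Local.Blocks
  Fermat.Agent.S55.Local.BrauerUnramBlocks Fermat.Agent.S55.Global.FiniteExtLF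

section Arith

/-- The degree clause of `CycloUnram` at `N = Q ^ n - 1` pins the degree to `n`. -/
theorem finrank_eq_of_clause {Q n d : ℕ} (hQ : 2 ≤ Q) (hn : 0 < n)
    (h : ∀ k : ℕ, Q ^ k ≡ 1 [MOD Q ^ n - 1] ↔ d ∣ k) : d = n := by
  have h1 : UnramGeneric.deg Q (Q ^ n - 1) = n := UnramGeneric.deg_pow_sub_one hQ hn
  have key : ∀ k : ℕ, ((Q : ZMod (Q ^ n - 1)) ^ k = 1) ↔ d ∣ k := by
    intro k
    rw [← h k, ← Nat.cast_pow, ← Nat.cast_one (R := ZMod (Q ^ n - 1)),
      ZMod.natCast_eq_natCast_iff]
  rw [← h1]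
  unfold UnramGeneric.deg
  apply Nat.dvd_antisymm
  · exact (key _).1 (pow_orderOf_eq_one _)
  · exact orderOf_dvd_of_pow_eq_one ((key d).2 dvd_rfl)

end Arith

section LF

variable (K : Type) [NontriviallyNormedField K] [IsUltrametricDist K] [ProperSpace K]

theorem two_le_resCard : 2 ≤ resCard K := by
  obtain ⟨p, hp, hpK⟩ := CycloUnramProof.exists_resChar K
  haveI : Fact p.Prime := ⟨hp⟩
  obtain ⟨f, hf, hQ⟩ := CycloUnramProof.resCard_eq_pow K p hpK
  rw [hQ]
  calc 2 ≤ p := hp.two_le
    _ = p ^ 1 := (pow_one p).symm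
    _ ≤ p ^ f := Nat.pow_le_pow_right hp.pos hf

/-- Integers prime to the residue characteristic are units. -/
theorem norm_natCast_eq_one_of_not_dvd (p : ℕ) [Fact p.Prime] (hp : ‖(p : K)‖ < 1) (N : ℕ)
    (hN : ¬ p ∣ N) : ‖(N : K)‖ = 1 := by
  have hle : ‖(N : K)‖ ≤ 1 := IsUltrametricDist.norm_natCast_le_one K N
  refine le_antisymm hle ?_
  by_contra hlt
  rw [not_le] at hlt
  haveI := UnramGeneric.charP_kbar K p hp
  have h1 : UnramGeneric.res K (N : 𝒪[K]) = 0 := by
    rw [UnramGeneric.res_eq_zero_iff]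
    simpa using hlt
  rw [map_natCast] at h1
  exact hN ((CharP.cast_eq_zero_iff (UnramGeneric.kbar K) p N).1 h1)

theorem norm_pow_sub_one (n : ℕ) (hn : 0 < n) : ‖((resCard K ^ n - 1 : ℕ) : K)‖ = 1 := by
  obtain ⟨p, hp, hpK⟩ := CycloUnramProof.exists_resChar K
  haveI : Fact p.Prime := ⟨hp⟩
  obtain ⟨f, hf, hQ⟩ := CycloUnramProof.resCard_eq_pow K p hpK
  apply norm_natCast_eq_one_of_not_dvd K p hpK
  intro hdvd
  have h1 : p ∣ resCard K ^ n := by
    rw [hQ, ← pow_mul]
    exact dvd_pow_self p (Nat.mul_pos hf hn).ne'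
  have h2 : 1 ≤ resCard K ^ n := Nat.one_le_pow _ _ (by have := two_le_resCard K; omega)
  have h3 : p ∣ 1 := by
    have := (Nat.dvd_sub h1 hdvd)
    rwa [Nat.sub_sub_self h2] at this
  exact hp.one_lt.ne' (Nat.dvd_one.1 h3)

end LF

section Cyclo

variable (K : Type) [NontriviallyNormedField K] [IsUltrametricDist K] [ProperSpace K]

/-- `CycloUnram` instantiated at `CyclotomicField N K` with the spectral norm. -/
theorem cyclo (N : ℕ) (hN : ‖(N : K)‖ = 1) :
    haveI : NeZero (N : K) := ⟨fun h => by rw [h, norm_zero] at hN; exact zero_ne_one hN⟩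
    haveI : NeZero N :=
      ⟨fun h => by rw [h, Nat.cast_zero, norm_zero] at hN; exact zero_ne_one hN⟩
    haveI : FiniteDimensional K (CyclotomicField N K) :=
      IsCyclotomicExtension.finiteDimensional {N} K (CyclotomicField N K)
    letI := nontriviallyNormedFieldExt K (CyclotomicField N K)
    letI := normedAlgebraExt K (CyclotomicField N K)
    IsGalois K (CyclotomicField N K) ∧ IsUnram K (CyclotomicField N K) ∧
      IsCyclic (CyclotomicField N K ≃ₐ[K] CyclotomicField N K) ∧
      ∀ k : ℕ, (resCard K) ^ k ≡ 1 [MOD N] ↔ Module.finrank K (CyclotomicField N K) ∣ k := by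
  haveI : NeZero (N : K) := ⟨fun h => by rw [h, norm_zero] at hN; exact zero_ne_one hN⟩
  haveI : NeZero N := ⟨fun h => by rw [h, Nat.cast_zero, norm_zero] at hN; exact zero_ne_one hN⟩
  haveI : FiniteDimensional K (CyclotomicField N K) :=
    IsCyclotomicExtension.finiteDimensional {N} K (CyclotomicField N K)
  letI := nontriviallyNormedFieldExt K (CyclotomicField N K)
  letI := normedAlgebraExt K (CyclotomicField N K)
  haveI := isUltrametricDistExt K (CyclotomicField N K)
  haveI := properSpaceExt K (CyclotomicField N K)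
  have hζ := IsCyclotomicExtension.zeta_spec N K (CyclotomicField N K)
  have htop : IntermediateField.adjoin K {IsCyclotomicExtension.zeta N K (CyclotomicField N K)}
      = ⊤ := by
    rw [← IntermediateField.toSubalgebra_injective.eq_iff, IntermediateField.top_toSubalgebra,
      IntermediateField.adjoin_simple_toSubalgebra_of_isAlgebraic
        (Algebra.IsAlgebraic.isAlgebraic _)]
    exact IsCyclotomicExtension.adjoin_primitive_root_eq_top hζ
  exact CycloUnramProof.cycloUnram K (CyclotomicField N K) N _ hN hζ htop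

end Cyclo

/-- **Unramified extensions of every degree exist** (`Blocks.UnramExists`, literally). -/
theorem unramExists : UnramExists := by
  intro K _ _ _ n hn
  have hN := norm_pow_sub_one K n hn
  have hne : NeZero ((resCard K ^ n - 1 : ℕ) : K) :=
    ⟨fun h => by rw [h, norm_zero] at hN; exact zero_ne_one hN⟩
  have hne' : NeZero (resCard K ^ n - 1) :=
    ⟨fun h => by rw [h, Nat.cast_zero, norm_zero] at hN; exact zero_ne_one hN⟩
  have hcyclo : IsCyclotomicExtension {resCard K ^ n - 1} K
      (CyclotomicField (resCard K ^ n - 1) K) := CyclotomicField.isCyclotomicExtension _ K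
  have : FiniteDimensional K (CyclotomicField (resCard K ^ n - 1) K) :=
    IsCyclotomicExtension.finiteDimensional {resCard K ^ n - 1} K _
  obtain ⟨hgal, hunr, hcyc, hdeg⟩ := cyclo K (resCard K ^ n - 1) hN
  exact ⟨CyclotomicField (resCard K ^ n - 1) K, nontriviallyNormedFieldExt K _,
    isUltrametricDistExt K _, properSpaceExt K _, normedAlgebraExt K _, inferInstance, hgal, hcyc,
    finrank_eq_of_clause (two_le_resCard K) hn hdeg, hunr⟩

end Fermat.Agent.S55.Local.UnramExistsProof
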