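/-
S55 / local class formation (helper26): the UNRAMIFIED case, abstract form.

Part 1 (`NormGroup`): in the additive `qa`-language of `S55/LocalNormIndex` (`X = Additive Eˣ`,
`D = σ - 1`, `N` the norm, `ord` the normalised valuation): if the units `U = ker ord` satisfy
`[U ∩ ker D : N U] = 1` and `e = 1` (some `c ∈ ker D` has `ord c = 1`), then an element `x ∈ ker D`
is a norm iff `n ∣ ord x`, and `ker D / N X ≃+ ZMod n` via `ord`.

Part 2 (`Units`): a local ring `O` with an automorphism `σ` of order dividing `n`, an element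
`π` of the maximal ideal fixed by `σ`, `π`-adically separated and complete; if modulo `π` the norm
and the trace are onto the `σ`-invariants and the two Hilbert 90 statements hold, then
* every `σ`-invariant unit is the norm of a unit (`exists_norm_eq_of_fixed`);
* every unit of norm one is of the form `σ y / y` (`exists_div_eq_of_norm_eq_one`).
-/
import Mathlib
import Fermat.Agent.S14.HerbrandPrime
import Fermat.Agent.S55.LocalNormIndex
import Fermat.Agent.S55.CohTrivialApprox

set_option autoImplicit false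
set_option linter.unusedSectionVars false

namespace Fermat.Agent.S55.Local.UnramAbs

open Fermat.Agent.S14.HerbrandPrime

section NormGroup

variable {X : Type*} [AddCommGroup X] (n : ℕ) (D N : X →+ X) (ord : X →+ ℤ)

/-- In the unramified situation an invariant element is a norm iff `n` divides its valuation. -/
theorem exists_N_eq_iff (hordN : ∀ x, ord (N x) = n * ord x)
    (hNfix : ∀ c, D c = 0 → N c = n • c) (he : ∃ c, D c = 0 ∧ ord c = 1)
    (hU0 : qa D N ord.ker = 1) {x : X} (hx : D x = 0) :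
    (∃ y, N y = x) ↔ (n : ℤ) ∣ ord x := by
  constructor
  · rintro ⟨y, rfl⟩
    exact ⟨ord y, hordN y⟩
  · rintro ⟨k, hk⟩
    obtain ⟨c, hc, hc1⟩ := he
    have hle : ord.ker ⊓ D.ker ≤ ord.ker.map N := by
      unfold qa at hU0
      exact AddSubgroup.relIndex_eq_one.mp hU0
    have hz : x - N (k • c) ∈ ord.ker ⊓ D.ker := by
      refine ⟨?_, ?_⟩
      · change ord (x - N (k • c)) = 0
        rw [map_sub, hordN, map_zsmul, hc1, hk, smul_eq_mul, mul_one, sub_self]
      · change D (x - N (k • c)) = 0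
        rw [map_sub, hx, map_zsmul, hNfix c hc, map_zsmul, map_nsmul, hc, smul_zero, smul_zero,
          sub_zero]
    obtain ⟨y, -, hy⟩ := hle hz
    exact ⟨y + k • c, by rw [map_add, hy]; abel⟩

/-- The invariant of the unramified layer: `x ↦ ord x mod n` on `ker D`. -/
noncomputable def invHom : D.ker →+ ZMod n :=
  (Int.castAddHom (ZMod n)).comp (ord.comp D.ker.subtype)

@[simp] theorem invHom_apply (x : D.ker) : invHom n D ord x = ((ord (x : X) : ℤ) : ZMod n) := rfl

theorem invHom_surjective (he : ∃ c, D c = 0 ∧ ord c = 1) :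
    Function.Surjective (invHom n D ord) := by
  obtain ⟨c, hc, hc1⟩ := he
  intro z
  obtain ⟨k, rfl⟩ := ZMod.intCast_surjective z
  refine ⟨⟨k • c, by change D (k • c) = 0; rw [map_zsmul, hc, smul_zero]⟩, ?_⟩
  rw [invHom_apply]
  simp [map_zsmul, hc1]

theorem invHom_eq_zero_iff (hordN : ∀ x, ord (N x) = n * ord x)
    (hNfix : ∀ c, D c = 0 → N c = n • c) (he : ∃ c, D c = 0 ∧ ord c = 1)
    (hU0 : qa D N ord.ker = 1) (x : D.ker) :
    invHom n D ord x = 0 ↔ ∃ y, N y = (x : X) := by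
  rw [invHom_apply, ZMod.intCast_zmod_eq_zero_iff_dvd,
    exists_N_eq_iff n D N ord hordN hNfix he hU0 x.2]

/-- `ker D / N X ≃+ ZMod n` (the invariant map of an unramified layer), as a statement about the
kernel of `invHom`. -/
theorem ker_invHom (hordN : ∀ x, ord (N x) = n * ord x)
    (hNfix : ∀ c, D c = 0 → N c = n • c) (he : ∃ c, D c = 0 ∧ ord c = 1)
    (hU0 : qa D N ord.ker = 1) :
    (invHom n D ord).ker = (N.range).addSubgroupOf D.ker := by
  ext x
  rw [AddMonoidHom.mem_ker, invHom_eq_zero_iff n D N ord hordN hNfix he hU0,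
    AddSubgroup.mem_addSubgroupOf, AddMonoidHom.mem_range]

/-- The invariant isomorphism `ker D / N X ≃+ ZMod n`. -/
noncomputable def invEquiv (hordN : ∀ x, ord (N x) = n * ord x)
    (hNfix : ∀ c, D c = 0 → N c = n • c) (he : ∃ c, D c = 0 ∧ ord c = 1)
    (hU0 : qa D N ord.ker = 1) :
    (D.ker ⧸ (N.range).addSubgroupOf D.ker) ≃+ ZMod n :=
  (QuotientAddGroup.quotientAddEquivOfEq
      (ker_invHom n D N ord hordN hNfix he hU0).symm).trans
    (QuotientAddGroup.quotientKerEquivOfSurjective (invHom n D ord)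
      (invHom_surjective n D ord he))

theorem invEquiv_mk (hordN : ∀ x, ord (N x) = n * ord x)
    (hNfix : ∀ c, D c = 0 → N c = n • c) (he : ∃ c, D c = 0 ∧ ord c = 1)
    (hU0 : qa D N ord.ker = 1) (x : D.ker) :
    invEquiv n D N ord hordN hNfix he hU0 (QuotientAddGroup.mk x)
      = ((ord (x : X) : ℤ) : ZMod n) := rfl

end NormGroup

/-! ## Part 2: units of an unramified extension -/

open Fermat.Agent.S55.CohTrivialApprox in
/-- Multiplicative form of `CohTrivialApprox.exists_eq_map_of_filtration`. -/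
theorem approx_mul {G : Type*} [CommGroup G] (f g : G →* G) (hfg : ∀ x, f (g x) = 1)
    (V : ℕ → Subgroup G) (hgV : ∀ i, (V i).map g ≤ V i)
    (hsep : ∀ x, (∀ i, x ∈ V i) → x = 1)
    (hcomplete : ∀ a : ℕ → G, (∀ i, a i ∈ V i) →
      ∃ s ∈ V 0, ∀ i, s / ∏ j ∈ Finset.range i, a j ∈ V i)
    (hstep : ∀ i, ∀ x ∈ V i, f x = 1 → ∃ y ∈ V i, x / g y ∈ V (i + 1))
    {x : G} (hx : x ∈ V 0) (hfx : f x = 1) : ∃ y ∈ V 0, g y = x := by
  have := exists_eq_map_of_filtration (X := Additive G) (MonoidHom.toAdditive f)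
    (MonoidHom.toAdditive g) (fun x => hfg (Additive.toMul x))
    (fun i => (V i).toAddSubgroup)
    (fun i => by
      rintro _ ⟨y, hy, rfl⟩
      exact hgV i ⟨Additive.toMul y, hy, rfl⟩)
    (fun x h => hsep (Additive.toMul x) h)
    (fun a ha => by
      obtain ⟨s, hs, h⟩ := hcomplete (fun i => Additive.toMul (a i)) ha
      refine ⟨Additive.ofMul s, hs, fun i => ?_⟩
      have h1 : Additive.ofMul s - ∑ j ∈ Finset.range i, a j
          = Additive.ofMul (s / ∏ j ∈ Finset.range i, Additive.toMul (a j)) := by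
        rw [ofMul_div, ofMul_prod]
        simp
      rw [h1]
      exact h i)
    (fun i x hx hfx => by
      obtain ⟨y, hy, h⟩ := hstep i (Additive.toMul x) hx hfx
      exact ⟨Additive.ofMul y, hy, h⟩)
    (x := Additive.ofMul x) hx hfx
  obtain ⟨y, hy, h⟩ := this
  exact ⟨Additive.toMul y, hy, h⟩

section Units

variable {O : Type*} [CommRing O]

theorem prod_one_add_mul {ι : Type*} (s : Finset ι) (t : O) (c : ι → O) :
    ∃ r, ∏ j ∈ s, (1 + t * c j) = 1 + t * ∑ j ∈ s, c j + t ^ 2 * r := by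
  classical
  induction s using Finset.induction_on with
  | empty => exact ⟨0, by simp⟩
  | insert a s ha ih =>
    obtain ⟨r, hr⟩ := ih
    refine ⟨r + c a * ∑ j ∈ s, c j + t * c a * r, ?_⟩
    rw [Finset.prod_insert ha, Finset.sum_insert ha, hr]
    ring

theorem prod_range_shift {M : Type*} [CommMonoid M] (n : ℕ) (f : ℕ → M) (hf : f n = f 0) :
    ∏ j ∈ Finset.range n, f (j + 1) = ∏ j ∈ Finset.range n, f j := by
  cases n with
  | zero => simp
  | succ m =>
    rw [Finset.prod_range_succ (fun j => f (j + 1)) m, Finset.prod_range_succ' f m, hf]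

theorem sum_range_shift {M : Type*} [AddCommMonoid M] (n : ℕ) (f : ℕ → M) (hf : f n = f 0) :
    ∑ j ∈ Finset.range n, f (j + 1) = ∑ j ∈ Finset.range n, f j := by
  cases n with
  | zero => simp
  | succ m =>
    rw [Finset.sum_range_succ (fun j => f (j + 1)) m, Finset.sum_range_succ' f m, hf]

variable (σ : O ≃+* O) (n : ℕ)

/-- The norm `∏_{j<n} σ^j x`. -/
def nm : O →* O where
  toFun x := ∏ j ∈ Finset.range n, (σ ^ j) x
  map_one' := by simp
  map_mul' x y := by simp [Finset.prod_mul_distrib]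

/-- The trace `∑_{j<n} σ^j x`. -/
def tr : O →+ O where
  toFun x := ∑ j ∈ Finset.range n, (σ ^ j) x
  map_zero' := by simp
  map_add' x y := by simp [Finset.sum_add_distrib]

theorem nm_apply (x : O) : nm σ n x = ∏ j ∈ Finset.range n, (σ ^ j) x := rfl
theorem tr_apply (x : O) : tr σ n x = ∑ j ∈ Finset.range n, (σ ^ j) x := rfl

variable {σ n}

theorem pow_succ_apply (j : ℕ) (x : O) : (σ ^ (j + 1)) x = σ ((σ ^ j) x) := by
  rw [pow_succ', RingAut.mul_apply]

theorem pow_succ_apply' (j : ℕ) (x : O) : (σ ^ (j + 1)) x = (σ ^ j) (σ x) := by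
  rw [pow_succ, RingAut.mul_apply]

theorem sigma_nm (hσ : σ ^ n = 1) (x : O) : σ (nm σ n x) = nm σ n x := by
  rw [nm_apply, map_prod]
  simp_rw [← pow_succ_apply]
  exact prod_range_shift n (fun j => (σ ^ j) x) (by simp [hσ])

theorem nm_sigma (hσ : σ ^ n = 1) (x : O) : nm σ n (σ x) = nm σ n x := by
  rw [nm_apply, nm_apply]
  simp_rw [← pow_succ_apply']
  exact prod_range_shift n (fun j => (σ ^ j) x) (by simp [hσ])

theorem tr_sigma (hσ : σ ^ n = 1) (x : O) : tr σ n (σ x) = tr σ n x := by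
  rw [tr_apply, tr_apply]
  simp_rw [← pow_succ_apply']
  exact sum_range_shift n (fun j => (σ ^ j) x) (by simp [hσ])

theorem pow_apply_of_fixed {π : O} (hπ : σ π = π) (j : ℕ) : (σ ^ j) π = π := by
  induction j with
  | zero => simp
  | succ j ih => rw [pow_succ_apply, ih, hπ]

/-- `nm (1 + t b) = 1 + t tr b + t² r` for `σ`-fixed `t`. -/
theorem nm_one_add_mul {t : O} (ht : σ t = t) (b : O) :
    ∃ r, nm σ n (1 + t * b) = 1 + t * tr σ n b + t ^ 2 * r := by
  obtain ⟨r, hr⟩ := prod_one_add_mul (Finset.range n) t (fun j => (σ ^ j) b)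
  refine ⟨r, ?_⟩
  rw [nm_apply, tr_apply, ← hr]
  refine Finset.prod_congr rfl fun j _ => ?_
  rw [map_add, map_one, map_mul, pow_apply_of_fixed ht]

end Units

section Units2

variable {O : Type*} [CommRing O]

theorem isUnit_add_of_mem_maximalIdeal [IsLocalRing O] {u m : O} (hu : IsUnit u)
    (hm : m ∈ IsLocalRing.maximalIdeal O) : IsUnit (u + m) := by
  have h : IsUnit ((u + m) + (-m)) := by simpa using hu
  rcases IsLocalRing.isUnit_or_isUnit_of_isUnit_add h with h1 | h1
  · exact h1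
  · exact absurd h1 ((IsLocalRing.mem_maximalIdeal _).mp ((IsLocalRing.maximalIdeal O).neg_mem hm))

variable (π : O)

/-- The `i`-th unit group `{u : u ≡ 1 mod π^i}`. -/
def Ulevel (i : ℕ) : Subgroup Oˣ where
  carrier := {u | (u : O) - 1 ∈ Ideal.span {π ^ i}}
  one_mem' := by simp
  mul_mem' := by
    intro u v hu hv
    have : ((u * v : Oˣ) : O) - 1 = (u : O) * ((v : O) - 1) + ((u : O) - 1) := by
      push_cast; ring
    change ((u * v : Oˣ) : O) - 1 ∈ Ideal.span {π ^ i}
    rw [this]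
    exact Ideal.add_mem _ (Ideal.mul_mem_left _ _ hv) hu
  inv_mem' := by
    intro u hu
    have : ((u⁻¹ : Oˣ) : O) - 1 = -((u⁻¹ : Oˣ) : O) * ((u : O) - 1) := by
      have h1 : ((u⁻¹ : Oˣ) : O) * (u : O) = 1 := by simp
      linear_combination h1
    change ((u⁻¹ : Oˣ) : O) - 1 ∈ Ideal.span {π ^ i}
    rw [this]
    exact Ideal.mul_mem_left _ _ hu

variable {π}

theorem mem_Ulevel {i : ℕ} {u : Oˣ} : u ∈ Ulevel π i ↔ (u : O) - 1 ∈ Ideal.span {π ^ i} := Iff.rfl

theorem Ulevel_zero : Ulevel π 0 = ⊤ := by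
  ext u
  simp [mem_Ulevel]

/-- `u v / w ∈ U_i` as soon as `u v - w ∈ (π^i)`. -/
theorem div_mem_Ulevel {i : ℕ} {u w : Oˣ} (h : (u : O) - w ∈ Ideal.span {π ^ i}) :
    u / w ∈ Ulevel π i := by
  rw [mem_Ulevel]
  have : ((u / w : Oˣ) : O) - 1 = ((w⁻¹ : Oˣ) : O) * ((u : O) - w) := by
    have h1 : ((w⁻¹ : Oˣ) : O) * (w : O) = 1 := by simp
    rw [div_eq_mul_inv]; push_cast
    linear_combination h1
  rw [this]
  exact Ideal.mul_mem_left _ _ h

theorem pow_mul_eq_zero (hπ0 : ∀ x : O, π * x = 0 → x = 0) (i : ℕ) {x : O}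
    (h : π ^ i * x = 0) : x = 0 := by
  induction i with
  | zero => simpa using h
  | succ i ih =>
    apply ih
    apply hπ0
    rw [← mul_assoc, ← pow_succ']
    exact h

end Units2

section Units3

variable {O : Type*} [CommRing O] [IsLocalRing O]

/-- Abstract unramified datum. -/
structure UnramDatum (σ : O ≃+* O) (n : ℕ) (π : O) : Prop where
  mem_max : π ∈ IsLocalRing.maximalIdeal O
  regular : ∀ x : O, π * x = 0 → x = 0
  fixed : σ π = π
  pow_eq_one : σ ^ n = 1
  separated : ∀ x : O, (∀ i, x ∈ Ideal.span {π ^ i}) → x = 0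
  complete : ∀ a : ℕ → O, ∃ s, ∀ i, s - ∑ j ∈ Finset.range i, π ^ j * a j ∈ Ideal.span {π ^ i}
  norm_onto : ∀ u : O, IsUnit u → σ u = u → ∃ y, IsUnit y ∧ u - nm σ n y ∈ Ideal.span {π}
  trace_onto : ∀ a : O, σ a = a → ∃ b, a - tr σ n b ∈ Ideal.span {π}
  h90_mul : ∀ u : O, IsUnit u → nm σ n u - 1 ∈ Ideal.span {π} →
    ∃ y, IsUnit y ∧ u * y - σ y ∈ Ideal.span {π}
  h90_add : ∀ a : O, tr σ n a ∈ Ideal.span {π} → ∃ b, a - (σ b - b) ∈ Ideal.span {π}

variable {σ : O ≃+* O} {n : ℕ} {π : O}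

/-- `σ` on units. -/
def sigmaU (σ : O ≃+* O) : Oˣ →* Oˣ := Units.map (σ : O →* O)

/-- norm on units. -/
def nmU (σ : O ≃+* O) (n : ℕ) : Oˣ →* Oˣ := Units.map (nm σ n)

/-- `u ↦ σ u / u` on units. -/
def dU (σ : O ≃+* O) : Oˣ →* Oˣ := sigmaU σ / MonoidHom.id Oˣ

@[simp] theorem coe_sigmaU (u : Oˣ) : ((sigmaU σ u : Oˣ) : O) = σ u := rfl
@[simp] theorem coe_nmU (u : Oˣ) : ((nmU σ n u : Oˣ) : O) = nm σ n u := rfl
theorem dU_apply (u : Oˣ) : dU σ u = sigmaU σ u / u := rfl

namespace UnramDatum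

variable (h : UnramDatum σ n π)
include h

theorem isUnit_one_add {i : ℕ} (hi : 1 ≤ i) (b : O) : IsUnit (1 + π ^ i * b) := by
  apply isUnit_add_of_mem_maximalIdeal isUnit_one
  obtain ⟨k, rfl⟩ := Nat.exists_eq_add_of_le' hi
  have : π ^ (k + 1) * b = π * (π ^ k * b) := by ring
  rw [this]
  exact Ideal.mul_mem_right _ _ h.mem_max

theorem span_pow_le (i j : ℕ) (hij : i ≤ j) :
    Ideal.span {π ^ j} ≤ Ideal.span ({π ^ i} : Set O) := by
  rw [Ideal.span_singleton_le_span_singleton]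
  exact pow_dvd_pow π hij

theorem sigma_mem_span {i : ℕ} {x : O} (hx : x ∈ Ideal.span {π ^ i}) (j : ℕ) :
    (σ ^ j) x ∈ Ideal.span {π ^ i} := by
  rw [Ideal.mem_span_singleton'] at hx ⊢
  obtain ⟨c, rfl⟩ := hx
  exact ⟨(σ ^ j) c, by rw [map_mul, map_pow, pow_apply_of_fixed h.fixed]⟩

theorem sigmaU_mem {i : ℕ} {u : Oˣ} (hu : u ∈ Ulevel π i) : sigmaU σ u ∈ Ulevel π i := by
  rw [mem_Ulevel] at hu ⊢
  have := h.sigma_mem_span hu 1
  simpa using this

theorem dU_mem {i : ℕ} {u : Oˣ} (hu : u ∈ Ulevel π i) : dU σ u ∈ Ulevel π i := by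
  rw [dU_apply]
  exact (Ulevel π i).div_mem (h.sigmaU_mem hu) hu

theorem nmU_mem {i : ℕ} {u : Oˣ} (hu : u ∈ Ulevel π i) : nmU σ n u ∈ Ulevel π i := by
  have key : ∀ m : ℕ, (Units.map ((σ ^ m : O ≃+* O) : O →* O)) u ∈ Ulevel π i := by
    intro m
    rw [mem_Ulevel] at hu ⊢
    have := h.sigma_mem_span hu m
    simpa using this
  have : nmU σ n u = ∏ j ∈ Finset.range n, (Units.map ((σ ^ j : O ≃+* O) : O →* O)) u := by
    ext
    simp [nm_apply]
  rw [this]
  exact Subgroup.prod_mem _ fun j _ => key j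

/-- Step for `(D, N)`: an invariant unit of level `i` is a norm modulo level `i + 1`. -/
theorem step_DN (i : ℕ) (u : Oˣ) (hu : u ∈ Ulevel π i) (hfix : dU σ u = 1) :
    ∃ y ∈ Ulevel π i, u / nmU σ n y ∈ Ulevel π (i + 1) := by
  have hσu : σ (u : O) = u := by
    have h1 : sigmaU σ u = u := by rwa [dU_apply, div_eq_one] at hfix
    simpa using congrArg (fun v : Oˣ => (v : O)) h1
  rcases Nat.eq_zero_or_pos i with rfl | hi
  · obtain ⟨y, hy, hyu⟩ := h.norm_onto u u.isUnit hσu
    refine ⟨hy.unit, by rw [Ulevel_zero]; trivial, div_mem_Ulevel ?_⟩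
    simpa using hyu
  · rw [mem_Ulevel, Ideal.mem_span_singleton'] at hu
    obtain ⟨c, hc⟩ := hu
    have hu' : (u : O) = 1 + π ^ i * c := by rw [mul_comm, hc]; ring
    have hσc : σ c = c := by
      have h1 : π ^ i * (σ c - c) = 0 := by
        have h2 : σ (u : O) = 1 + π ^ i * σ c := by
          rw [hu', map_add, map_one, map_mul, map_pow, h.fixed]
        rw [hσu, hu'] at h2
        linear_combination -h2
      exact sub_eq_zero.mp (pow_mul_eq_zero h.regular i h1)
    obtain ⟨b, hb⟩ := h.trace_onto c hσc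
    rw [Ideal.mem_span_singleton'] at hb
    obtain ⟨d, hd⟩ := hb
    have hyunit := h.isUnit_one_add hi b
    obtain ⟨r, hr⟩ := nm_one_add_mul (σ := σ) (n := n) (t := π ^ i)
      (by rw [map_pow, h.fixed]) b
    refine ⟨hyunit.unit, ?_, div_mem_Ulevel ?_⟩
    · rw [mem_Ulevel, Ideal.mem_span_singleton']
      exact ⟨b, by simp [mul_comm]⟩
    · rw [coe_nmU, IsUnit.unit_spec, hr, hu', Ideal.mem_span_singleton']
      obtain ⟨k, rfl⟩ := Nat.exists_eq_add_of_le' hi
      refine ⟨d - π ^ k * r, ?_⟩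
      linear_combination π ^ (k + 1) * hd

/-- Step for `(N, D)`: a unit of norm one and level `i` is of the form `σ y / y` modulo level
`i + 1`. -/
theorem step_ND (i : ℕ) (u : Oˣ) (hu : u ∈ Ulevel π i) (hnm : nmU σ n u = 1) :
    ∃ y ∈ Ulevel π i, u / dU σ y ∈ Ulevel π (i + 1) := by
  have hnu : nm σ n (u : O) = 1 := by
    simpa using congrArg (fun v : Oˣ => (v : O)) hnm
  rcases Nat.eq_zero_or_pos i with rfl | hi
  · obtain ⟨y, hy, hyu⟩ := h.h90_mul u u.isUnit (by rw [hnu, sub_self]; exact zero_mem _)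
    refine ⟨hy.unit, by rw [Ulevel_zero]; trivial, ?_⟩
    have : u / dU σ hy.unit = (u * hy.unit) / sigmaU σ hy.unit := by
      rw [dU_apply, div_div_eq_mul_div]
    rw [this]
    apply div_mem_Ulevel
    simpa using hyu
  · rw [mem_Ulevel, Ideal.mem_span_singleton'] at hu
    obtain ⟨c, hc⟩ := hu
    have hu' : (u : O) = 1 + π ^ i * c := by rw [mul_comm, hc]; ring
    obtain ⟨r, hr⟩ := nm_one_add_mul (σ := σ) (n := n) (t := π ^ i)
      (by rw [map_pow, h.fixed]) c
    have htr : tr σ n c ∈ Ideal.span {π} := by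
      have h1 : π ^ i * (tr σ n c + π ^ i * r) = 0 := by
        rw [← hu', hnu] at hr
        linear_combination -hr
      have h2 := pow_mul_eq_zero h.regular i h1
      rw [Ideal.mem_span_singleton']
      obtain ⟨k, rfl⟩ := Nat.exists_eq_add_of_le' hi
      exact ⟨-(π ^ k * r), by linear_combination -h2⟩
    obtain ⟨b, hb⟩ := h.h90_add c htr
    rw [Ideal.mem_span_singleton'] at hb
    obtain ⟨d, hd⟩ := hb
    have hyunit := h.isUnit_one_add hi b
    refine ⟨hyunit.unit, ?_, ?_⟩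
    · rw [mem_Ulevel, Ideal.mem_span_singleton']
      exact ⟨b, by simp [mul_comm]⟩
    · have : u / dU σ hyunit.unit = (u * hyunit.unit) / sigmaU σ hyunit.unit := by
        rw [dU_apply, div_div_eq_mul_div]
      rw [this]
      apply div_mem_Ulevel
      rw [Units.val_mul, coe_sigmaU, IsUnit.unit_spec, hu', map_add, map_one, map_mul, map_pow,
        h.fixed, Ideal.mem_span_singleton']
      obtain ⟨k, rfl⟩ := Nat.exists_eq_add_of_le' hi
      refine ⟨d + π ^ k * c * b, ?_⟩
      linear_combination π ^ (k + 1) * hd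

end UnramDatum

end Units3

section Units4

variable {O : Type*} [CommRing O] [IsLocalRing O]
variable {σ : O ≃+* O} {n : ℕ} {π : O}

namespace UnramDatum

variable (h : UnramDatum σ n π)
include h

theorem sep_units (u : Oˣ) (hu : ∀ i, u ∈ Ulevel π i) : u = 1 := by
  have : (u : O) - 1 = 0 := h.separated _ hu
  exact Units.ext (by simpa using sub_eq_zero.mp this)

theorem complete_units (a : ℕ → Oˣ) (ha : ∀ i, a i ∈ Ulevel π i) :
    ∃ s ∈ Ulevel π 0, ∀ i, s / ∏ j ∈ Finset.range i, a j ∈ Ulevel π i := by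
  classical
  have hc : ∀ i, ∃ c : O, c * π ^ i = (a i : O) - 1 := fun i =>
    Ideal.mem_span_singleton'.mp (ha i)
  choose c hc using hc
  set P : ℕ → Oˣ := fun i => ∏ j ∈ Finset.range i, a j with hP
  have hPsum : ∀ i, ((P i : Oˣ) : O) = 1 + ∑ j ∈ Finset.range i, π ^ j * ((P j : O) * c j) := by
    intro i
    induction i with
    | zero => simp [hP]
    | succ i ih =>
      have h1 : P (i + 1) = P i * a i := Finset.prod_range_succ _ _
      rw [h1, Finset.sum_range_succ, Units.val_mul, ← add_assoc, ← ih]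
      linear_combination (-(P i : O)) * hc i
  obtain ⟨s', hs'⟩ := h.complete (fun j => (P j : O) * c j)
  have hsP : ∀ i, (1 + s') - (P i : O) ∈ Ideal.span {π ^ i} := by
    intro i
    have := hs' i
    rw [hPsum i]
    convert this using 1
    ring
  have hunit : IsUnit (1 + s') := by
    have h1 := hsP 1
    have h2 : (1 + s') = (P 1 : O) + ((1 + s') - (P 1 : O)) := by ring
    rw [h2]
    apply isUnit_add_of_mem_maximalIdeal (P 1).isUnit
    rw [pow_one] at h1
    exact (Ideal.span_singleton_le_iff_mem _).mpr h.mem_max h1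
  refine ⟨hunit.unit, by rw [Ulevel_zero]; trivial, fun i => div_mem_Ulevel ?_⟩
  rw [IsUnit.unit_spec]
  exact hsP i

/-- **`Ĥ⁰(G, U) = 0`**: every `σ`-invariant unit is the norm of a unit. -/
theorem exists_norm_eq_of_fixed (u : Oˣ) (hu : σ (u : O) = u) : ∃ y : Oˣ, nm σ n (y : O) = u := by
  have hfix : dU σ u = 1 := by
    rw [dU_apply, div_eq_one]
    exact Units.ext (by simpa using hu)
  obtain ⟨y, -, hy⟩ := approx_mul (dU σ) (nmU σ n)
    (fun x => by
      rw [dU_apply, div_eq_one]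
      exact Units.ext (by simpa using sigma_nm h.pow_eq_one (x : O)))
    (Ulevel π)
    (fun i => by rintro _ ⟨y, hy, rfl⟩; exact h.nmU_mem hy)
    h.sep_units h.complete_units h.step_DN
    (x := u) (by rw [Ulevel_zero]; trivial) hfix
  exact ⟨y, by simpa using congrArg (fun v : Oˣ => (v : O)) hy⟩

/-- **`Ĥ⁻¹(G, U) = H¹(G, U) = 0`**: every unit of norm one is of the form `σ y / y`. -/
theorem exists_div_eq_of_norm_eq_one (u : Oˣ) (hu : nm σ n (u : O) = 1) :
    ∃ y : Oˣ, σ (y : O) = u * y := by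
  have hnm : nmU σ n u = 1 := Units.ext (by simpa using hu)
  obtain ⟨y, -, hy⟩ := approx_mul (nmU σ n) (dU σ)
    (fun x => by
      have h1 : nmU σ n (sigmaU σ x) = nmU σ n x :=
        Units.ext (by simpa using nm_sigma h.pow_eq_one (x : O))
      rw [dU_apply, map_div, h1, div_self'])
    (Ulevel π)
    (fun i => by rintro _ ⟨y, hy, rfl⟩; exact h.dU_mem hy)
    h.sep_units h.complete_units h.step_ND
    (x := u) (by rw [Ulevel_zero]; trivial) hnm
  refine ⟨y, ?_⟩
  rw [dU_apply, div_eq_iff_eq_mul] at hy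
  simpa using congrArg (fun v : Oˣ => (v : O)) hy

end UnramDatum

end Units4

end Fermat.Agent.S55.Local.UnramAbs
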