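/-
S55 / local class formation (helper26): residue-field inputs of the unramified datum.

For a field `k` with an automorphism `τ` whose powers `τ^0, …, τ^(n-1)` are pairwise distinct and
`τ^n = 1` (`nm`, `tr` from `UnramAbs`):
* `trace_onto_field`, `h90_mul_field` (Dedekind independence / Lagrange resolvent; any field);
* `norm_onto_field`, `h90_add_field` (finite `k`, by counting).
Then `unramDatum_of_residue` / `unramDatum_of_orderOf`: a local ring `O` with finite residue field,
maximal ideal `(π)`, `π`-adically separated and complete, `σ π = π`, `σ^n = 1` and `σ` inducing an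
automorphism of exact order `n` on the residue field is an `UnramDatum`; hence
`UnramDatum.exists_norm_eq_of_fixed` and `UnramDatum.exists_div_eq_of_norm_eq_one` apply.
-/
import Mathlib
import Fermat.Agent.S55.Local.UnramAbs

set_option autoImplicit false
set_option linter.unusedSectionVars false

namespace Fermat.Agent.S55.Local.UnramResidue

open Fermat.Agent.S55.Local.UnramAbs

section FiniteFieldAut

variable {k : Type*} [Field k] (τ : k ≃+* k) (n : ℕ)

/-- Dedekind independence for the powers of an automorphism of exact order `n`. -/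
theorem dedekind_pow (hord : ∀ i j, i < n → j < n → τ ^ i = τ ^ j → i = j)
    (c : ℕ → k) (hc : ∀ x, ∑ j ∈ Finset.range n, c j * (τ ^ j) x = 0) :
    ∀ j, j < n → c j = 0 := by
  have hli := linearIndependent_monoidHom k k
  have hinj : Function.Injective (fun j : Fin n => (((τ ^ (j : ℕ) : k ≃+* k) : k →* k))) := by
    intro i j hij
    apply Fin.ext
    apply hord _ _ i.2 j.2
    ext x
    exact DFunLike.congr_fun hij x
  have hli' := hli.comp _ hinj
  rw [Fintype.linearIndependent_iff] at hli'
  have := hli' (fun j => c j) (by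
    funext x
    have h := hc x
    rw [Finset.sum_range] at h
    simpa [Finset.sum_apply] using h)
  intro j hj
  exact this ⟨j, hj⟩

end FiniteFieldAut

section FiniteFieldAut2

variable {k : Type*} [Field k] {τ : k ≃+* k} {n : ℕ}

theorem exists_tr_ne_zero (hn : 0 < n) (hord : ∀ i j, i < n → j < n → τ ^ i = τ ^ j → i = j) :
    ∃ b, tr τ n b ≠ 0 := by
  by_contra hcon
  simp only [not_exists, ne_eq, not_not] at hcon
  have := dedekind_pow τ n hord (fun _ => 1) (fun x => by simpa [tr_apply] using hcon x) 0 hn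
  exact one_ne_zero this

theorem tr_mul_of_fixed {a : k} (ha : τ a = a) (b : k) : tr τ n (a * b) = a * tr τ n b := by
  rw [tr_apply, tr_apply, Finset.mul_sum]
  refine Finset.sum_congr rfl fun j _ => ?_
  rw [map_mul, pow_apply_of_fixed ha]

/-- The trace is onto the invariants. -/
theorem trace_onto_field (hn : 0 < n) (hτ : τ ^ n = 1)
    (hord : ∀ i j, i < n → j < n → τ ^ i = τ ^ j → i = j) (a : k) (ha : τ a = a) :
    ∃ b, tr τ n b = a := by
  obtain ⟨b, hb⟩ := exists_tr_ne_zero hn hord
  have hfix : τ (tr τ n b) = tr τ n b := by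
    have := tr_sigma hτ b
    rw [tr_apply, map_sum]
    simp_rw [← pow_succ_apply]
    exact sum_range_shift n (fun j => (τ ^ j) b) (by simp [hτ])
  refine ⟨a * (tr τ n b)⁻¹ * b, ?_⟩
  have h1 : τ (a * (tr τ n b)⁻¹) = a * (tr τ n b)⁻¹ := by
    rw [map_mul, map_inv₀, ha, hfix]
  rw [tr_mul_of_fixed h1, mul_assoc, inv_mul_cancel₀ hb, mul_one]

/-- The partial norms `c j = ∏_{i<j} τ^i u`. -/
def partialNm (τ : k ≃+* k) (u : k) (j : ℕ) : k := ∏ i ∈ Finset.range j, (τ ^ i) u

theorem partialNm_succ (u : k) (j : ℕ) :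
    partialNm τ u (j + 1) = u * τ (partialNm τ u j) := by
  unfold partialNm
  rw [Finset.prod_range_succ', map_prod, mul_comm]
  have h0 : (τ ^ 0) u = u := by simp
  rw [h0]
  congr 1
  refine Finset.prod_congr rfl fun i _ => ?_
  rw [pow_succ_apply]

/-- Multiplicative Hilbert 90 (Lagrange resolvent). -/
theorem h90_mul_field (hn : 0 < n) (hτ : τ ^ n = 1)
    (hord : ∀ i j, i < n → j < n → τ ^ i = τ ^ j → i = j) (u : k) (hu : nm τ n u = 1) :
    ∃ y, y ≠ 0 ∧ u * y = τ y := by
  have hex : ∃ b, ∑ j ∈ Finset.range n, partialNm τ u j * (τ ^ j) b ≠ 0 := by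
    by_contra hcon
    simp only [not_exists, ne_eq, not_not] at hcon
    have := dedekind_pow τ n hord (partialNm τ u) hcon 0 hn
    simp [partialNm] at this
  obtain ⟨b, hb⟩ := hex
  set y := ∑ j ∈ Finset.range n, partialNm τ u j * (τ ^ j) b with hy
  have key : u * τ y = y := by
    rw [hy, map_sum, Finset.mul_sum]
    have h1 : ∀ j ∈ Finset.range n, u * τ (partialNm τ u j * (τ ^ j) b)
        = partialNm τ u (j + 1) * (τ ^ (j + 1)) b := by
      intro j _
      rw [map_mul, partialNm_succ, pow_succ_apply]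
      ring
    rw [Finset.sum_congr rfl h1]
    exact sum_range_shift n (fun j => partialNm τ u j * (τ ^ j) b) (by
      have : partialNm τ u n = 1 := hu
      show partialNm τ u n * (τ ^ n) b = partialNm τ u 0 * (τ ^ 0) b
      rw [this, hτ]
      simp [partialNm])
  have hτy : τ y ≠ 0 := by
    intro h0
    rw [h0, mul_zero] at key
    exact hb key.symm
  refine ⟨y⁻¹, inv_ne_zero hb, ?_⟩
  rw [map_inv₀]
  field_simp
  exact key

end FiniteFieldAut2

section Counting

variable {k : Type*} [Field k] [Finite k] {τ : k ≃+* k} {n : ℕ}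

/-- The norm is onto the invariant units (counting + Hilbert 90). -/
theorem norm_onto_field (hn : 0 < n) (hτ : τ ^ n = 1)
    (hord : ∀ i j, i < n → j < n → τ ^ i = τ ^ j → i = j) (u : k) (hu0 : u ≠ 0) (hu : τ u = u) :
    ∃ y, y ≠ 0 ∧ nm τ n y = u := by
  classical
  have hle : (nmU τ n).range ≤ (dU τ).ker := by
    rintro _ ⟨x, rfl⟩
    rw [MonoidHom.mem_ker, dU_apply, div_eq_one]
    exact Units.ext (by simpa using sigma_nm hτ (x : k))
  have hker : (nmU τ n).ker = (dU τ).range := by
    apply le_antisymm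
    · intro x hx
      rw [MonoidHom.mem_ker] at hx
      have hx' : nm τ n (x : k) = 1 := by simpa using congrArg (fun v : kˣ => (v : k)) hx
      obtain ⟨y, hy0, hy⟩ := h90_mul_field hn hτ hord (x : k) hx'
      refine ⟨Units.mk0 y hy0, ?_⟩
      rw [dU_apply, div_eq_iff_eq_mul]
      exact Units.ext (by simpa using hy.symm)
    · rintro _ ⟨y, rfl⟩
      rw [MonoidHom.mem_ker, dU_apply, map_div]
      have h1 : nmU τ n (sigmaU τ y) = nmU τ n y :=
        Units.ext (by simpa using nm_sigma hτ (y : k))
      rw [h1, div_self']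
  have hcard1 := (nmU τ n).ker.card_mul_index
  have hcard2 := (dU τ).ker.card_mul_index
  rw [Subgroup.index_ker] at hcard1 hcard2
  rw [hker] at hcard1
  have hpos : 0 < Nat.card (dU τ).range := Nat.card_pos
  have hcard : Nat.card (dU τ).ker = Nat.card (nmU τ n).range := by
    have : Nat.card (dU τ).range * Nat.card (nmU τ n).range
        = Nat.card (dU τ).range * Nat.card (dU τ).ker := by
      rw [hcard1, mul_comm, hcard2]
    exact (Nat.eq_of_mul_eq_mul_left hpos this).symm
  have heq := Subgroup.eq_of_le_of_card_ge hle hcard.le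
  have hmem : Units.mk0 u hu0 ∈ (dU τ).ker := by
    rw [MonoidHom.mem_ker, dU_apply, div_eq_one]
    exact Units.ext (by simpa using hu)
  rw [← heq] at hmem
  obtain ⟨y, hy⟩ := hmem
  exact ⟨y, y.ne_zero, by simpa using congrArg (fun v : kˣ => (v : k)) hy⟩

/-- Additive Hilbert 90 (counting + surjectivity of the trace). -/
theorem h90_add_field (hn : 0 < n) (hτ : τ ^ n = 1)
    (hord : ∀ i j, i < n → j < n → τ ^ i = τ ^ j → i = j) (a : k) (ha : tr τ n a = 0) :
    ∃ b, a = τ b - b := by
  classical
  set ψ : k →+ k := (τ : k →+ k) - AddMonoidHom.id k with hψ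
  have hψa : ∀ b, ψ b = τ b - b := fun b => rfl
  set F : AddSubgroup k := ψ.ker with hF
  -- `tr` maps onto `F`
  have hrange : (tr τ n).range = F := by
    apply le_antisymm
    · rintro _ ⟨b, rfl⟩
      rw [hF, AddMonoidHom.mem_ker, hψa, sub_eq_zero]
      rw [tr_apply, map_sum]
      simp_rw [← pow_succ_apply]
      exact sum_range_shift n (fun j => (τ ^ j) b) (by simp [hτ])
    · intro x hx
      rw [hF, AddMonoidHom.mem_ker, hψa, sub_eq_zero] at hx
      obtain ⟨b, hb⟩ := trace_onto_field hn hτ hord x hx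
      exact ⟨b, hb⟩
  have hle : ψ.range ≤ (tr τ n).ker := by
    rintro _ ⟨b, rfl⟩
    rw [AddMonoidHom.mem_ker, hψa, map_sub, tr_sigma hτ, sub_self]
  have hcard1 := (tr τ n).ker.card_mul_index
  have hcard2 := ψ.ker.card_mul_index
  rw [AddSubgroup.index_ker] at hcard1 hcard2
  rw [hrange] at hcard1
  have hpos : 0 < Nat.card F := Nat.card_pos
  have hcard : Nat.card (tr τ n).ker = Nat.card ψ.range := by
    have : Nat.card F * Nat.card (tr τ n).ker = Nat.card F * Nat.card ψ.range := by
      rw [mul_comm, hcard1, hcard2]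
    exact Nat.eq_of_mul_eq_mul_left hpos this
  have heq := AddSubgroup.eq_of_le_of_card_ge hle hcard.le
  have hmem : a ∈ (tr τ n).ker := ha
  rw [← heq] at hmem
  obtain ⟨b, hb⟩ := hmem
  exact ⟨b, hb.symm⟩

end Counting

section Transfer

open IsLocalRing

variable {O : Type*} [CommRing O] [IsLocalRing O] (σ : O ≃+* O) (n : ℕ) (π : O)

theorem mapAut_residue (σ : O ≃+* O) (x : O) :
    (ResidueField.mapAut σ) (residue O x) = residue O (σ x) := by
  change ResidueField.map (σ : O →+* O) (residue O x) = _
  rw [ResidueField.map_residue]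
  rfl

theorem mapAut_pow_residue (σ : O ≃+* O) (j : ℕ) (x : O) :
    ((ResidueField.mapAut σ) ^ j) (residue O x) = residue O ((σ ^ j) x) := by
  rw [← map_pow, mapAut_residue]

theorem residue_nm (x : O) :
    residue O (nm σ n x) = nm (ResidueField.mapAut σ) n (residue O x) := by
  rw [nm_apply, nm_apply, map_prod]
  exact Finset.prod_congr rfl fun j _ => (mapAut_pow_residue σ j x).symm

theorem residue_tr (x : O) :
    residue O (tr σ n x) = tr (ResidueField.mapAut σ) n (residue O x) := by
  rw [tr_apply, tr_apply, map_sum]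
  exact Finset.sum_congr rfl fun j _ => (mapAut_pow_residue σ j x).symm

variable {σ n π}

theorem mem_span_iff_residue (hmax : maximalIdeal O = Ideal.span {π}) (x : O) :
    x ∈ Ideal.span {π} ↔ residue O x = 0 := by
  rw [← hmax, residue_eq_zero_iff]

/-- **The unramified datum from residue-field hypotheses.** -/
theorem unramDatum_of_residue [Finite (ResidueField O)] (hn : 0 < n)
    (hmax : maximalIdeal O = Ideal.span {π})
    (hreg : ∀ x : O, π * x = 0 → x = 0) (hfix : σ π = π) (hσ : σ ^ n = 1)
    (hsep : ∀ x : O, (∀ i, x ∈ Ideal.span {π ^ i}) → x = 0)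
    (hcompl : ∀ a : ℕ → O, ∃ s, ∀ i,
      s - ∑ j ∈ Finset.range i, π ^ j * a j ∈ Ideal.span {π ^ i})
    (hord : ∀ i j, i < n → j < n →
      (ResidueField.mapAut σ) ^ i = (ResidueField.mapAut σ) ^ j → i = j) :
    UnramDatum σ n π := by
  set τ := ResidueField.mapAut σ with hτdef
  have hτ : τ ^ n = 1 := by rw [hτdef, ← map_pow, hσ, map_one]
  refine
    { mem_max := by rw [hmax]; exact Ideal.subset_span rfl
      regular := hreg
      fixed := hfix
      pow_eq_one := hσ
      separated := hsep
      complete := hcompl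
      norm_onto := ?_
      trace_onto := ?_
      h90_mul := ?_
      h90_add := ?_ }
  · intro u hu hσu
    have hu0 : residue O u ≠ 0 := (residue_ne_zero_iff_isUnit u).mpr hu
    have hfixu : τ (residue O u) = residue O u := by rw [hτdef, mapAut_residue, hσu]
    obtain ⟨ybar, hy0, hy⟩ := norm_onto_field hn hτ hord (residue O u) hu0 hfixu
    obtain ⟨y, rfl⟩ := residue_surjective ybar
    refine ⟨y, (residue_ne_zero_iff_isUnit y).mp hy0, ?_⟩
    rw [mem_span_iff_residue hmax, map_sub, residue_nm, hy, sub_self]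
  · intro a hσa
    have hfixa : τ (residue O a) = residue O a := by rw [hτdef, mapAut_residue, hσa]
    obtain ⟨bbar, hb⟩ := trace_onto_field hn hτ hord (residue O a) hfixa
    obtain ⟨b, rfl⟩ := residue_surjective bbar
    refine ⟨b, ?_⟩
    rw [mem_span_iff_residue hmax, map_sub, residue_tr, hb, sub_self]
  · intro u hu hnu
    rw [mem_span_iff_residue hmax, map_sub, map_one, residue_nm, sub_eq_zero] at hnu
    obtain ⟨ybar, hy0, hy⟩ := h90_mul_field hn hτ hord (residue O u) hnu
    obtain ⟨y, rfl⟩ := residue_surjective ybar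
    refine ⟨y, (residue_ne_zero_iff_isUnit y).mp hy0, ?_⟩
    rw [mem_span_iff_residue hmax, map_sub, map_mul, hy, hτdef, mapAut_residue, sub_self]
  · intro a hta
    rw [mem_span_iff_residue hmax, residue_tr] at hta
    obtain ⟨bbar, hb⟩ := h90_add_field hn hτ hord (residue O a) hta
    obtain ⟨b, rfl⟩ := residue_surjective bbar
    refine ⟨b, ?_⟩
    rw [mem_span_iff_residue hmax, map_sub, map_sub, hb, hτdef, mapAut_residue, sub_self]

/-- Variant with `orderOf`. -/
theorem unramDatum_of_orderOf [Finite (ResidueField O)] (hn : 0 < n)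
    (hmax : maximalIdeal O = Ideal.span {π})
    (hreg : ∀ x : O, π * x = 0 → x = 0) (hfix : σ π = π) (hσ : σ ^ n = 1)
    (hsep : ∀ x : O, (∀ i, x ∈ Ideal.span {π ^ i}) → x = 0)
    (hcompl : ∀ a : ℕ → O, ∃ s, ∀ i,
      s - ∑ j ∈ Finset.range i, π ^ j * a j ∈ Ideal.span {π ^ i})
    (hord : orderOf (ResidueField.mapAut σ) = n) :
    UnramDatum σ n π :=
  unramDatum_of_residue hn hmax hreg hfix hσ hsep hcompl (fun i j hi hj hij => by
    apply pow_injOn_Iio_orderOf (x := ResidueField.mapAut σ)
    · rw [hord]; exact hi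
    · rw [hord]; exact hj
    · exact hij)

end Transfer

end Fermat.Agent.S55.Local.UnramResidue
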