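/-
S55 / local class formation (helper26): TRIVIALITY OF INERTIA in the unramified situation,
abstract form.

`O` a local ring whose maximal ideal is generated by `π`, with FINITE residue field, `π`-adically
separated and complete (raw forms, as in `Local/UnramResidue.lean`).  A ring automorphism `t` of
finite order of `O` which fixes `π` and induces the identity on the residue field is the identity
(`eq_one_of_mapAut_eq_one`).  Consequently, for `σ` of finite order fixing `π`,
`orderOf (ResidueField.mapAut σ) = orderOf σ` (`orderOf_mapAut`): this is the hypothesis `hord` of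
`UnramResidue.unramDatum_of_orderOf`, obtained WITHOUT `e · f = n`.

Proof.  Prime order `ℓ`: if `ℓ ≠ 0` in the residue field `k` then `x ≡ ℓ⁻¹ · tr x`; if `ℓ = 0` in
`k` then `k` is perfect of characteristic `ℓ`, `x̄ = z̄ ^ ℓ` and `x ≡ N z`.  In both cases
`O = O^t + π O`, and successive approximation gives `O = O^t`.  General order: induction.
-/
import Mathlib
import Fermat.Agent.S55.Local.UnramResidue

set_option autoImplicit false
set_option linter.unusedSectionVars false

namespace Fermat.Agent.S55.Local.UnramInertia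

open IsLocalRing Fermat.Agent.S55.Local.UnramAbs Fermat.Agent.S55.Local.UnramResidue

section Approx

variable {O : Type*} [CommRing O] {π : O}

/-- Successive approximation: if every element is congruent modulo `π` to a `t`-fixed element,
and `O` is `π`-adically separated and complete, then `t` is the identity. -/
theorem fixed_of_approx (t : O ≃+* O) (hfix : t π = π)
    (hsep : ∀ x : O, (∀ i, x ∈ Ideal.span {π ^ i}) → x = 0)
    (hcompl : ∀ a : ℕ → O, ∃ s, ∀ i,
      s - ∑ j ∈ Finset.range i, π ^ j * a j ∈ Ideal.span {π ^ i})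
    (hstep : ∀ x : O, ∃ r, t r = r ∧ x - r ∈ Ideal.span {π}) (x : O) : t x = x := by
  choose r hr hxr using hstep
  have hq : ∀ x : O, ∃ q, x - r x = π * q := fun x => Ideal.mem_span_singleton'.mp (hxr x) |>.imp
    fun q hq => by rw [← hq, mul_comm]
  choose q hq using hq
  -- the sequence of remainders
  let xs : ℕ → O := fun i => Nat.rec x (fun _ y => q y) i
  have xs_succ : ∀ i, xs (i + 1) = q (xs i) := fun i => rfl
  have xs_zero : xs 0 = x := rfl
  let a : ℕ → O := fun i => r (xs i)
  have key : ∀ i, x - ∑ j ∈ Finset.range i, π ^ j * a j = π ^ i * xs i := by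
    intro i
    induction i with
    | zero => simp [xs_zero]
    | succ i ih =>
      rw [Finset.sum_range_succ, ← sub_sub, ih, xs_succ, pow_succ, mul_assoc, ← hq (xs i)]
      ring
  obtain ⟨s, hs⟩ := hcompl a
  have hxs : x = s := by
    have : x - s = 0 := by
      apply hsep
      intro i
      have h1 : x - s = (x - ∑ j ∈ Finset.range i, π ^ j * a j)
          - (s - ∑ j ∈ Finset.range i, π ^ j * a j) := by ring
      rw [h1]
      refine Ideal.sub_mem _ ?_ (hs i)
      rw [key i]
      exact Ideal.mul_mem_right _ _ (Ideal.subset_span rfl)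
    exact sub_eq_zero.mp this
  -- `t` fixes the partial sums
  have hta : ∀ i, t (∑ j ∈ Finset.range i, π ^ j * a j) = ∑ j ∈ Finset.range i, π ^ j * a j := by
    intro i
    rw [map_sum]
    refine Finset.sum_congr rfl fun j _ => ?_
    rw [map_mul, map_pow, hfix]
    congr 1
    exact hr (xs j)
  have hts : t s - s = 0 := by
    apply hsep
    intro i
    have h1 : t s - s = t (s - ∑ j ∈ Finset.range i, π ^ j * a j)
        - (s - ∑ j ∈ Finset.range i, π ^ j * a j) := by
      rw [map_sub, hta i]; ring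
    rw [h1]
    refine Ideal.sub_mem _ ?_ (hs i)
    obtain ⟨c, hc⟩ := Ideal.mem_span_singleton'.mp (hs i)
    rw [← hc, map_mul, map_pow, hfix]
    exact Ideal.mul_mem_left _ _ (Ideal.subset_span rfl)
  rw [hxs]
  exact sub_eq_zero.mp hts

end Approx

section Inertia

variable {O : Type*} [CommRing O] [IsLocalRing O] {π : O}

theorem sigma_tr (σ : O ≃+* O) (n : ℕ) (hσ : σ ^ n = 1) (x : O) : σ (tr σ n x) = tr σ n x := by
  rw [tr_apply, map_sum]
  have : ∑ j ∈ Finset.range n, σ ((σ ^ j) x) = tr σ n (σ x) := by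
    rw [tr_apply]
    refine Finset.sum_congr rfl fun j _ => ?_
    rw [← pow_succ_apply, pow_succ_apply']
  rw [this, tr_sigma hσ, tr_apply]

/-- Prime order case. -/
theorem eq_one_of_mapAut_eq_one_prime [Finite (ResidueField O)]
    (hmax : maximalIdeal O = Ideal.span {π})
    (hsep : ∀ x : O, (∀ i, x ∈ Ideal.span {π ^ i}) → x = 0)
    (hcompl : ∀ a : ℕ → O, ∃ s, ∀ i,
      s - ∑ j ∈ Finset.range i, π ^ j * a j ∈ Ideal.span {π ^ i})
    (t : O ≃+* O) (hfix : t π = π) (ℓ : ℕ) (hℓ : ℓ.Prime) (htℓ : t ^ ℓ = 1)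
    (hres : ResidueField.mapAut t = 1) : t = 1 := by
  have hresx : ∀ (j : ℕ) (x : O), residue O ((t ^ j) x) = residue O x := by
    intro j x
    rw [← mapAut_pow_residue, hres, one_pow]
    rfl
  ext x
  refine fixed_of_approx t hfix hsep hcompl (fun x => ?_) x
  by_cases hℓk : ((ℓ : ℕ) : ResidueField O) = 0
  · -- characteristic `ℓ`: use the norm of a lift of an `ℓ`-th root
    have : Fact ℓ.Prime := ⟨hℓ⟩
    have : CharP (ResidueField O) ℓ := (CharP.charP_iff_prime_eq_zero hℓ).mpr hℓk
    obtain ⟨zbar, hz⟩ := surjective_frobenius (ResidueField O) ℓ (residue O x)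
    obtain ⟨z, rfl⟩ := residue_surjective zbar
    refine ⟨nm t ℓ z, sigma_nm htℓ z, ?_⟩
    rw [mem_span_iff_residue hmax, map_sub, nm_apply, map_prod]
    have : ∏ j ∈ Finset.range ℓ, residue O ((t ^ j) z) = (residue O z) ^ ℓ := by
      rw [Finset.prod_congr rfl fun j _ => hresx j z, Finset.prod_const, Finset.card_range]
    rw [this, ← hz, frobenius_def, sub_self]
  · -- `ℓ` invertible: use the trace
    have hu : IsUnit ((ℓ : ℕ) : O) := by
      rw [← residue_ne_zero_iff_isUnit, map_natCast]
      exact hℓk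
    obtain ⟨v, hv⟩ := hu
    have htv : t ((v⁻¹ : Oˣ) : O) = ((v⁻¹ : Oˣ) : O) := by
      have h1 : t (v : O) = v := by rw [hv, map_natCast]
      have h2 : t ((v⁻¹ : Oˣ) : O) * (v : O) = 1 := by
        rw [← h1, ← map_mul, Units.inv_mul, map_one]
      calc t ((v⁻¹ : Oˣ) : O) = t ((v⁻¹ : Oˣ) : O) * ((v : O) * ((v⁻¹ : Oˣ) : O)) := by
            rw [Units.mul_inv, mul_one]
        _ = (t ((v⁻¹ : Oˣ) : O) * (v : O)) * ((v⁻¹ : Oˣ) : O) := by ring
        _ = ((v⁻¹ : Oˣ) : O) := by rw [h2, one_mul]
    refine ⟨((v⁻¹ : Oˣ) : O) * tr t ℓ x, ?_, ?_⟩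
    · rw [map_mul, htv, sigma_tr t ℓ htℓ]
    · rw [mem_span_iff_residue hmax, map_sub, map_mul, tr_apply, map_sum]
      have : ∑ j ∈ Finset.range ℓ, residue O ((t ^ j) x) = (ℓ : ℕ) • residue O x := by
        rw [Finset.sum_congr rfl fun j _ => hresx j x, Finset.sum_const, Finset.card_range]
      rw [this, nsmul_eq_mul, ← map_natCast (residue O), ← hv, ← mul_assoc, ← map_mul,
        Units.inv_mul, map_one, one_mul, sub_self]

/-- **Triviality of inertia**: an automorphism of finite order fixing `π` and trivial on the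
residue field is the identity. -/
theorem eq_one_of_mapAut_eq_one [Finite (ResidueField O)]
    (hmax : maximalIdeal O = Ideal.span {π})
    (hsep : ∀ x : O, (∀ i, x ∈ Ideal.span {π ^ i}) → x = 0)
    (hcompl : ∀ a : ℕ → O, ∃ s, ∀ i,
      s - ∑ j ∈ Finset.range i, π ^ j * a j ∈ Ideal.span {π ^ i})
    (d : ℕ) : ∀ (t : O ≃+* O), t π = π → 0 < d → t ^ d = 1 →
      ResidueField.mapAut t = 1 → t = 1 := by
  induction d using Nat.strong_induction_on with
  | _ d ih =>
    intro t hfix hd htd hres
    by_cases hd1 : d = 1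
    · rw [hd1, pow_one] at htd; exact htd
    obtain ⟨ℓ, hℓ, hℓd⟩ := Nat.exists_prime_and_dvd hd1
    obtain ⟨m, rfl⟩ := hℓd
    have hm : 0 < m := Nat.pos_of_ne_zero (by rintro rfl; simp at hd)
    have hmlt : m < ℓ * m := by
      have := hℓ.one_lt
      nlinarith
    -- `s = t ^ m` has order dividing `ℓ`
    have hs : t ^ m = 1 := by
      apply eq_one_of_mapAut_eq_one_prime hmax hsep hcompl (t ^ m) ?_ ℓ hℓ ?_ ?_
      · exact pow_apply_of_fixed hfix m
      · rw [← pow_mul, mul_comm]; exact htd
      · rw [map_pow, hres, one_pow]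
    exact ih m hmlt t hfix hm hs hres

/-- The residue automorphism has the same order as `σ`. -/
theorem orderOf_mapAut [Finite (ResidueField O)]
    (hmax : maximalIdeal O = Ideal.span {π})
    (hsep : ∀ x : O, (∀ i, x ∈ Ideal.span {π ^ i}) → x = 0)
    (hcompl : ∀ a : ℕ → O, ∃ s, ∀ i,
      s - ∑ j ∈ Finset.range i, π ^ j * a j ∈ Ideal.span {π ^ i})
    (σ : O ≃+* O) (hfix : σ π = π) (n : ℕ) (hn : 0 < n) (hσ : σ ^ n = 1) :
    orderOf (ResidueField.mapAut σ) = orderOf σ := by
  apply Nat.dvd_antisymm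
  · exact orderOf_map_dvd _ σ
  · apply orderOf_dvd_of_pow_eq_one
    set m := orderOf (ResidueField.mapAut σ) with hm
    apply eq_one_of_mapAut_eq_one hmax hsep hcompl n (σ ^ m) (pow_apply_of_fixed hfix m) hn
    · rw [← pow_mul, mul_comm, pow_mul, hσ, one_pow]
    · rw [map_pow, hm, pow_orderOf_eq_one]

/-- The unramified datum when `σ` has exact order `n`: no residue hypothesis needed. -/
theorem unramDatum_of_orderOf_eq [Finite (ResidueField O)] {σ : O ≃+* O} {n : ℕ} (hn : 0 < n)
    (hmax : maximalIdeal O = Ideal.span {π})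
    (hreg : ∀ x : O, π * x = 0 → x = 0) (hfix : σ π = π)
    (hsep : ∀ x : O, (∀ i, x ∈ Ideal.span {π ^ i}) → x = 0)
    (hcompl : ∀ a : ℕ → O, ∃ s, ∀ i,
      s - ∑ j ∈ Finset.range i, π ^ j * a j ∈ Ideal.span {π ^ i})
    (hord : orderOf σ = n) : UnramDatum σ n π := by
  have hσ : σ ^ n = 1 := by rw [← hord]; exact pow_orderOf_eq_one σ
  exact unramDatum_of_orderOf hn hmax hreg hfix hσ hsep hcompl
    (by rw [orderOf_mapAut hmax hsep hcompl σ hfix n hn hσ, hord])

end Inertia

end Fermat.Agent.S55.Local.UnramInertia
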