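/-
S55 / local class formation (helper26): the UNRAMIFIED case in the abstract (LF) setting of
`Local/Basic.lean` / `Local/Blocks.lean` (helper43):
`K`, `E` nonarchimedean local fields (`[NontriviallyNormedField] [IsUltrametricDist] [ProperSpace]`),
`[NormedAlgebra K E] [FiniteDimensional K E] [IsGalois K E]`, `E/K` unramified
(`Blocks.IsUnram K E`: same value groups), `σ` a generator of `Gal(E/K)`, `n = [E : K]`.

Instantiating `UnramAbs.UnramDatum` (via `UnramInertia.unramDatum_of_orderOf_eq`) for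
`O = 𝒪[E]`, `π = unif K`, `σ|𝒪[E]`:

* `exists_unit_norm_eq` : every norm-one element of `Kˣ` is the norm of a norm-one element of `Eˣ`;
* `exists_div_eq_of_norm_eq_one` : a norm-one `y : Eˣ` with `N y = 1` is `σ z / z`, `‖z‖ = 1`;
* `mem_range_unitsNorm_iff` : `x ∈ N Eˣ ↔ n ∣ ord x`;  `index_range_unitsNorm : [Kˣ : N Eˣ] = n`.
-/
import Mathlib
import Fermat.Agent.S55.Local.Basic
import Fermat.Agent.S55.Local.Blocks
import Fermat.Agent.S55.Local.UnramInertia

set_option autoImplicit false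
set_option linter.unusedSectionVars false

open scoped NormedField Valued
open IsLocalRing

namespace Fermat.Agent.S55.Local.UnramLF

open Fermat.Agent.S55.Local Fermat.Agent.S55.Local.Blocks
open Fermat.Agent.S55.Local.UnramAbs Fermat.Agent.S55.Local.UnramResidue
open Fermat.Agent.S55.Local.UnramInertia

section Group

/-- In a finite cyclic group generated by `σ`, a product over the powers of `σ` is a product over
the group. -/
theorem prod_range_pow_eq {G M : Type*} [Group G] [Fintype G] [CommMonoid M] (σ : G)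
    (hσ : ∀ τ, τ ∈ Subgroup.zpowers σ) (f : G → M) :
    ∏ j ∈ Finset.range (orderOf σ), f (σ ^ j) = ∏ τ, f τ := by
  classical
  have hinj : Set.InjOn (fun j : ℕ => σ ^ j) (Finset.range (orderOf σ) : Set ℕ) := by
    intro i hi j hj h
    exact pow_injOn_Iio_orderOf (by simpa using hi) (by simpa using hj) h
  rw [← Finset.prod_image (f := f) hinj]
  congr 1
  apply Finset.eq_univ_of_card
  rw [Finset.card_image_of_injOn hinj, Finset.card_range,
    orderOf_eq_card_of_forall_mem_zpowers hσ, Nat.card_eq_fintype_card]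

end Group

section Setup

variable {K E : Type} [NontriviallyNormedField K] [IsUltrametricDist K] [ProperSpace K]
  [NontriviallyNormedField E] [IsUltrametricDist E] [ProperSpace E]
  [NormedAlgebra K E] [FiniteDimensional K E]

/-- Restriction of a `K`-automorphism of `E` to the valuation ring. -/
noncomputable def intAut : (E ≃ₐ[K] E) →* (𝒪[E] ≃+* 𝒪[E]) where
  toFun σ :=
    { toFun := fun x => ⟨σ x, by
        rw [Valued.integer.mem_iff, norm_algEquiv_apply]; exact Valued.integer.norm_le_one x⟩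
      invFun := fun x => ⟨σ.symm x, by
        rw [Valued.integer.mem_iff, norm_algEquiv_apply]; exact Valued.integer.norm_le_one x⟩
      left_inv := fun x => Subtype.ext (σ.symm_apply_apply x)
      right_inv := fun x => Subtype.ext (σ.apply_symm_apply x)
      map_mul' := fun x y => Subtype.ext (map_mul σ (x : E) y)
      map_add' := fun x y => Subtype.ext (map_add σ (x : E) y) }
  map_one' := by ext; rfl
  map_mul' σ τ := by ext; rfl

@[simp] theorem coe_intAut (σ : E ≃ₐ[K] E) (x : 𝒪[E]) : ((intAut σ x : 𝒪[E]) : E) = σ x := rfl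

theorem coe_intAut_pow (σ : E ≃ₐ[K] E) (j : ℕ) (x : 𝒪[E]) :
    ((((intAut σ) ^ j) x : 𝒪[E]) : E) = (σ ^ j) x := by
  rw [← map_pow]; rfl

variable (K E) in
/-- The uniformizer of `K` as an element of `𝒪[E]`. -/
noncomputable def piE : 𝒪[E] :=
  ⟨algebraMap K E (unif K), by
    rw [Valued.integer.mem_iff, norm_algebraMap']; exact (norm_unif_lt_one K).le⟩

@[simp] theorem coe_piE : ((piE K E : 𝒪[E]) : E) = algebraMap K E (unif K) := rfl

theorem norm_piE : ‖piE K E‖ = ‖unif K‖ := by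
  change ‖algebraMap K E (unif K)‖ = _
  rw [norm_algebraMap']

theorem intAut_piE (σ : E ≃ₐ[K] E) : intAut σ (piE K E) = piE K E :=
  Subtype.ext (σ.commutes (unif K))

theorem mem_span_pow_iff (i : ℕ) (x : 𝒪[E]) :
    x ∈ Ideal.span {piE K E ^ i} ↔ ‖x‖ ≤ ‖unif K‖ ^ i := by
  have h := Valued.integer.coe_span_singleton_eq_closedBall (piE K E ^ i)
  have h2 : x ∈ (Ideal.span {piE K E ^ i} : Set 𝒪[E]) ↔ x ∈ Metric.closedBall 0 ‖piE K E ^ i‖ := by
    rw [h]
  rw [SetLike.mem_coe, mem_closedBall_zero_iff, norm_pow, norm_piE] at h2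
  exact h2

theorem mem_span_iff (x : 𝒪[E]) :
    x ∈ Ideal.span {piE K E} ↔ ‖x‖ ≤ ‖unif K‖ := by
  have := mem_span_pow_iff (K := K) 1 x
  rwa [pow_one, pow_one] at this

/-- Discreteness: in `K`, `‖y‖ < 1` implies `‖y‖ ≤ ‖unif K‖`. -/
theorem norm_le_unif_of_lt_one {y : K} (hy : ‖y‖ < 1) : ‖y‖ ≤ ‖unif K‖ := by
  by_cases hy0 : y = 0
  · rw [hy0, norm_zero]; exact (norm_unif_pos K).le
  obtain ⟨m, hm⟩ := exists_norm_eq_zpow K hy0
  rw [hm] at hy ⊢
  have hm0 : 0 < m := by
    by_contra hcon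
    have hle : m ≤ 0 := not_lt.mp hcon
    have : (1 : ℝ) ≤ ‖unif K‖ ^ m := by
      have := zpow_le_zpow_right_of_le_one₀ (norm_unif_pos K) (norm_unif_lt_one K).le hle
      rwa [zpow_zero] at this
    exact absurd hy (not_lt.mpr this)
  have := zpow_le_zpow_right_of_le_one₀ (norm_unif_pos K) (norm_unif_lt_one K).le
    (show (1 : ℤ) ≤ m by omega)
  rwa [zpow_one] at this

/-- For `E/K` unramified the maximal ideal of `𝒪[E]` is generated by the uniformizer of `K`. -/
theorem maximalIdeal_eq_span (hunr : IsUnram K E) :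
    maximalIdeal 𝒪[E] = Ideal.span {piE K E} := by
  ext x
  rw [mem_maximalIdeal, mem_nonunits_iff, Valued.integer.isUnit_iff_norm_eq_one, mem_span_iff]
  constructor
  · intro hx
    have hlt : ‖x‖ < 1 := lt_of_le_of_ne (Valued.integer.norm_le_one x) hx
    obtain ⟨y, hy⟩ := hunr (x : E)
    have hxy : ‖x‖ = ‖y‖ := hy
    rw [hxy] at hlt ⊢
    exact norm_le_unif_of_lt_one hlt
  · intro hx h1
    rw [h1] at hx
    exact absurd (norm_unif_lt_one K) (not_lt.mpr hx)

theorem separated_piE (x : 𝒪[E]) (hx : ∀ i, x ∈ Ideal.span {piE K E ^ i}) : x = 0 := by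
  have h : ∀ i : ℕ, ‖x‖ ≤ ‖unif K‖ ^ i := fun i => (mem_span_pow_iff i x).mp (hx i)
  have hlim := tendsto_pow_atTop_nhds_zero_of_lt_one (norm_nonneg (unif K)) (norm_unif_lt_one K)
  have : ‖x‖ ≤ 0 := ge_of_tendsto' hlim h
  exact norm_le_zero_iff.mp this

theorem partial_sub_mem (a : ℕ → 𝒪[E]) {i j : ℕ} (hij : i ≤ j) :
    (∑ l ∈ Finset.range j, piE K E ^ l * a l) - ∑ l ∈ Finset.range i, piE K E ^ l * a l
      ∈ Ideal.span {piE K E ^ i} := by
  rw [← Finset.sum_Ico_eq_sub _ hij]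
  refine Ideal.sum_mem _ fun l hl => ?_
  have hil : i ≤ l := (Finset.mem_Ico.mp hl).1
  obtain ⟨d, rfl⟩ := Nat.exists_eq_add_of_le hil
  rw [pow_add, mul_assoc]
  exact Ideal.mul_mem_right _ _ (Ideal.subset_span rfl)

theorem complete_piE (a : ℕ → 𝒪[E]) :
    ∃ s : 𝒪[E], ∀ i, s - ∑ j ∈ Finset.range i, piE K E ^ j * a j ∈ Ideal.span {piE K E ^ i} := by
  set S : ℕ → 𝒪[E] := fun i => ∑ l ∈ Finset.range i, piE K E ^ l * a l with hS
  have hdist : ∀ i, dist (S i) (S (i + 1)) ≤ 1 * ‖unif K‖ ^ i := by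
    intro i
    rw [dist_comm, dist_eq_norm, one_mul]
    exact (mem_span_pow_iff i _).mp (partial_sub_mem a (Nat.le_succ i))
  have hcau : CauchySeq S := cauchySeq_of_le_geometric _ 1 (norm_unif_lt_one K) hdist
  obtain ⟨s, hs⟩ := cauchySeq_tendsto_of_complete hcau
  refine ⟨s, fun i => ?_⟩
  rw [mem_span_pow_iff]
  have hlim : Filter.Tendsto (fun j => S j - S i) Filter.atTop (nhds (s - S i)) :=
    hs.sub tendsto_const_nhds
  have hev : ∀ᶠ j in Filter.atTop, S j - S i ∈ Metric.closedBall (0 : 𝒪[E]) (‖unif K‖ ^ i) := by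
    filter_upwards [Filter.eventually_ge_atTop i] with j hj
    rw [mem_closedBall_zero_iff]
    exact (mem_span_pow_iff i _).mp (partial_sub_mem a hj)
  have := Metric.isClosed_closedBall.mem_of_tendsto hlim hev
  rwa [mem_closedBall_zero_iff] at this

/-- The restriction map to the valuation ring is injective. -/
theorem intAut_injective : Function.Injective (intAut (K := K) (E := E)) := by
  intro σ τ h
  ext x
  by_cases hx : x = 0
  · rw [hx, map_zero, map_zero]
  have hxpos : 0 < ‖x‖⁻¹ := inv_pos.mpr (norm_pos_iff.mpr hx)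
  obtain ⟨m, hm⟩ := exists_pow_lt_of_lt_one hxpos (norm_unif_lt_one K)
  have hc0 : algebraMap K E (unif K ^ m) ≠ 0 := by
    rw [Ne, map_eq_zero]
    exact pow_ne_zero _ (unif_ne_zero K)
  have hmem : algebraMap K E (unif K ^ m) * x ∈ 𝒪[E] := by
    rw [Valued.integer.mem_iff, norm_mul, norm_algebraMap', norm_pow]
    have := mul_lt_mul_of_pos_right hm (norm_pos_iff.mpr hx)
    rw [inv_mul_cancel₀ (norm_ne_zero_iff.mpr hx)] at this
    exact this.le
  have h1 := congrArg (fun f : 𝒪[E] ≃+* 𝒪[E] => ((f ⟨_, hmem⟩ : 𝒪[E]) : E)) h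
  simp only [coe_intAut, map_mul, AlgEquiv.commutes] at h1
  exact mul_left_cancel₀ hc0 h1

end Setup

section Main

variable {K E : Type} [NontriviallyNormedField K] [IsUltrametricDist K] [ProperSpace K]
  [NontriviallyNormedField E] [IsUltrametricDist E] [ProperSpace E]
  [NormedAlgebra K E] [FiniteDimensional K E] [IsGalois K E]

theorem orderOf_eq_finrank (σ : E ≃ₐ[K] E) (hσ : ∀ τ, τ ∈ Subgroup.zpowers σ) :
    orderOf σ = Module.finrank K E := by
  rw [orderOf_eq_card_of_forall_mem_zpowers hσ, IsGalois.card_aut_eq_finrank]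

/-- **The unramified datum of an unramified Galois extension of local fields.** -/
theorem unramDatum (hunr : IsUnram K E) (σ : E ≃ₐ[K] E) (hσ : ∀ τ, τ ∈ Subgroup.zpowers σ) :
    UnramDatum (intAut σ) (Module.finrank K E) (piE K E) := by
  refine unramDatum_of_orderOf_eq Module.finrank_pos (maximalIdeal_eq_span hunr) ?_
    (intAut_piE σ) separated_piE complete_piE ?_
  · intro x hx
    have hpi : piE K E ≠ 0 := by
      intro h0
      have := congrArg (fun z : 𝒪[E] => (z : E)) h0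
      simp only [coe_piE, ZeroMemClass.coe_zero, map_eq_zero] at this
      exact unif_ne_zero K this
    exact (mul_eq_zero.mp hx).resolve_left hpi
  · rw [orderOf_injective _ intAut_injective, orderOf_eq_finrank σ hσ]

/-- The abstract norm `nm` of `UnramAbs` is the field norm. -/
theorem coe_nm (σ : E ≃ₐ[K] E) (hσ : ∀ τ, τ ∈ Subgroup.zpowers σ) (y : 𝒪[E]) :
    ((nm (intAut σ) (Module.finrank K E) y : 𝒪[E]) : E)
      = algebraMap K E (Algebra.norm K (y : E)) := by
  rw [Algebra.norm_eq_prod_automorphisms, nm_apply, ← orderOf_eq_finrank σ hσ,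
    ← prod_range_pow_eq σ hσ (fun τ => τ (y : E))]
  rw [← Subring.subtype_apply, map_prod]
  exact Finset.prod_congr rfl fun j _ => coe_intAut_pow σ j y

/-- **`Ĥ⁰(G, U_E) = 0`**: every norm-one element of `Kˣ` is the norm of a norm-one element. -/
theorem exists_unit_norm_eq (hunr : IsUnram K E) (σ : E ≃ₐ[K] E)
    (hσ : ∀ τ, τ ∈ Subgroup.zpowers σ) (u : Kˣ) (hu : ‖(u : K)‖ = 1) :
    ∃ y : Eˣ, ‖(y : E)‖ = 1 ∧ Algebra.norm K (y : E) = u := by
  have hD := unramDatum hunr σ hσ
  have hmem : algebraMap K E u ∈ 𝒪[E] := by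
    rw [Valued.integer.mem_iff, norm_algebraMap', hu]
  have hunit : IsUnit (⟨algebraMap K E u, hmem⟩ : 𝒪[E]) := by
    rw [Valued.integer.isUnit_iff_norm_eq_one]
    change ‖algebraMap K E (u : K)‖ = 1
    rw [norm_algebraMap', hu]
  obtain ⟨y, hy⟩ := hD.exists_norm_eq_of_fixed hunit.unit (by
    rw [IsUnit.unit_spec]; exact Subtype.ext (σ.commutes u))
  refine ⟨Units.map (𝒪[E].subtype : 𝒪[E] →* E) y, Valued.integer.norm_coe_unit y, ?_⟩
  apply FaithfulSMul.algebraMap_injective K E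
  rw [Units.coe_map]
  change algebraMap K E (Algebra.norm K ((y : 𝒪[E]) : E)) = _
  rw [← coe_nm σ hσ, hy, IsUnit.unit_spec]

/-- **`H¹(G, U_E) = 0`**: a norm-one element of `Eˣ` of norm `1` over `K` is `σ z / z`. -/
theorem exists_div_eq_of_norm_eq_one (hunr : IsUnram K E) (σ : E ≃ₐ[K] E)
    (hσ : ∀ τ, τ ∈ Subgroup.zpowers σ) (y : Eˣ) (hy : ‖(y : E)‖ = 1)
    (hN : Algebra.norm K (y : E) = 1) :
    ∃ z : Eˣ, ‖(z : E)‖ = 1 ∧ σ (z : E) = y * z := by
  have hD := unramDatum hunr σ hσ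
  have hmem : (y : E) ∈ 𝒪[E] := by rw [Valued.integer.mem_iff, hy]
  have hunit : IsUnit (⟨(y : E), hmem⟩ : 𝒪[E]) := by
    rw [Valued.integer.isUnit_iff_norm_eq_one]
    exact hy
  obtain ⟨z, hz⟩ := hD.exists_div_eq_of_norm_eq_one hunit.unit (by
    rw [IsUnit.unit_spec]
    apply Subtype.ext
    rw [coe_nm σ hσ]
    change algebraMap K E (Algebra.norm K (y : E)) = 1
    rw [hN, map_one])
  refine ⟨Units.map (𝒪[E].subtype : 𝒪[E] →* E) z, Valued.integer.norm_coe_unit z, ?_⟩
  have := congrArg (fun w : 𝒪[E] => (w : E)) hz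
  simpa [IsUnit.unit_spec] using this

/-- `‖N y‖ = ‖y‖ ^ [E : K]`. -/
theorem norm_algebraNorm (y : E) : ‖Algebra.norm K y‖ = ‖y‖ ^ Module.finrank K E := by
  rw [← norm_algebraMap' E, Algebra.norm_eq_prod_automorphisms, norm_prod,
    Finset.prod_congr rfl (fun τ _ => norm_algEquiv_apply τ y), Finset.prod_const,
    Finset.card_univ, ← Nat.card_eq_fintype_card, IsGalois.card_aut_eq_finrank]

/-- **The norm group of an unramified extension**: `x ∈ N Eˣ ↔ [E : K] ∣ ord x`. -/
theorem mem_range_unitsNorm_iff (hunr : IsUnram K E) (σ : E ≃ₐ[K] E)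
    (hσ : ∀ τ, τ ∈ Subgroup.zpowers σ) (x : Kˣ) :
    x ∈ (unitsNorm K E).range ↔ (Module.finrank K E : ℤ) ∣ ord K x := by
  constructor
  · rintro ⟨y, rfl⟩
    obtain ⟨k, hk⟩ := hunr (y : E)
    have hk0 : k ≠ 0 := by
      intro h0
      rw [h0, norm_zero, norm_eq_zero] at hk
      exact y.ne_zero hk
    refine ⟨ord K (Units.mk0 k hk0), ?_⟩
    apply ord_eq_of_norm_eq
    change ‖Algebra.norm K (y : E)‖ = _
    rw [norm_algebraNorm, hk]
    have h1 : ‖k‖ = ‖unif K‖ ^ ord K (Units.mk0 k hk0) := norm_eq_zpow_ord K (Units.mk0 k hk0)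
    rw [h1, ← zpow_natCast, ← zpow_mul, mul_comm]
  · rintro ⟨m, hm⟩
    obtain ⟨u, hu1, hxu⟩ := exists_eq_zpow_mul K x
    obtain ⟨y, -, hy⟩ := exists_unit_norm_eq hunr σ hσ u hu1
    refine ⟨Units.map (algebraMap K E : K →* E) (unifUnit K ^ m) * y, ?_⟩
    rw [map_mul, hxu, hm]
    congr 1
    · apply Units.ext
      change Algebra.norm K (algebraMap K E ((unifUnit K ^ m : Kˣ) : K)) = _
      rw [Algebra.norm_algebraMap, ← Units.val_pow_eq_pow_val]
      congr 1
      rw [← zpow_natCast, ← zpow_mul, mul_comm]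
    · exact Units.ext hy

/-- **Norm index of an unramified extension**: `[Kˣ : N Eˣ] = [E : K]`. -/
theorem index_range_unitsNorm (hunr : IsUnram K E) (σ : E ≃ₐ[K] E)
    (hσ : ∀ τ, τ ∈ Subgroup.zpowers σ) :
    (unitsNorm K E).range.index = Module.finrank K E := by
  set n := Module.finrank K E with hn
  let f : Kˣ →* Multiplicative (ZMod n) :=
    (AddMonoidHom.toMultiplicative (Int.castAddHom (ZMod n))).comp (ordHom K)
  have hker : (unitsNorm K E).range = f.ker := by
    ext x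
    rw [mem_range_unitsNorm_iff hunr σ hσ, MonoidHom.mem_ker]
    change _ ↔ Multiplicative.ofAdd (((ord K x : ℤ) : ZMod n)) = 1
    rw [← ofAdd_zero, Multiplicative.ofAdd.injective.eq_iff,
      ZMod.intCast_zmod_eq_zero_iff_dvd]
  have hsurj : Function.Surjective f := by
    intro z
    obtain ⟨k, hk⟩ := ZMod.intCast_surjective (Multiplicative.toAdd z)
    obtain ⟨x, hx⟩ := ordHom_surjective K (Multiplicative.ofAdd k)
    refine ⟨x, ?_⟩
    change Multiplicative.ofAdd (((Multiplicative.toAdd (ordHom K x) : ℤ) : ZMod n)) = z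
    rw [hx, toAdd_ofAdd, hk, ofAdd_toAdd]
  rw [hker, Subgroup.index_ker, MonoidHom.range_eq_top.mpr hsurj, Nat.card_congr
    (Subgroup.topEquiv (G := Multiplicative (ZMod n))).toEquiv,
    Nat.card_congr Multiplicative.toAdd, Nat.card_zmod]

end Main

end Fermat.Agent.S55.Local.UnramLF
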