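/-
S55 / local class formation (helper26): an unramified Galois extension of local fields is CYCLIC,
in the abstract (LF) setting of `Local/Basic.lean` / `Local/Blocks.lean`.

`Gal(E/K) → RingAut 𝓀[E]`, `τ ↦ residue automorphism of τ|𝒪[E]`, is injective for `E/K`
unramified (`UnramInertia.eq_one_of_mapAut_eq_one`), and the ring automorphisms of a finite field
form a cyclic group.  Corollaries: the `∀ generator` hypotheses of `Local/UnramLF.lean` can be
discharged from `IsUnram` alone.
-/
import Mathlib
import Fermat.Agent.S55.Local.UnramLF

set_option autoImplicit false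
set_option linter.unusedSectionVars false

open scoped NormedField Valued
open IsLocalRing

namespace Fermat.Agent.S55.Local.UnramLFCyclic

open Fermat.Agent.S55.Local Fermat.Agent.S55.Local.Blocks
open Fermat.Agent.S55.Local.UnramAbs Fermat.Agent.S55.Local.UnramResidue
open Fermat.Agent.S55.Local.UnramInertia Fermat.Agent.S55.Local.UnramLF

section FiniteField

variable (k : Type*) [Field k] [Finite k]

/-- The ring automorphisms of a finite field form a cyclic group. -/
theorem isCyclic_ringAut : IsCyclic (RingAut k) := by
  obtain ⟨p, hp⟩ := CharP.exists k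
  have hprime : Fact p.Prime := ⟨(CharP.char_is_prime_or_zero k p).resolve_right
    (fun h0 => by
      subst h0
      have := CharP.charP_to_charZero k
      exact not_finite k)⟩
  let _ : Algebra (ZMod p) k := ZMod.algebra k p
  let f : RingAut k →* (k ≃ₐ[ZMod p] k) :=
    { toFun := fun e => AlgEquiv.ofRingEquiv (f := e) (fun x => by
        have h : (e : k →+* k).comp (algebraMap (ZMod p) k) = algebraMap (ZMod p) k :=
          Subsingleton.elim _ _
        exact RingHom.congr_fun h x)
      map_one' := by ext; rfl
      map_mul' := fun e₁ e₂ => by ext; rfl }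
  have hf : Function.Injective f := by
    intro e₁ e₂ h
    ext x
    exact congrArg (fun g : k ≃ₐ[ZMod p] k => g x) h
  exact isCyclic_of_injective f hf

end FiniteField

section Main

variable {K E : Type} [NontriviallyNormedField K] [IsUltrametricDist K] [ProperSpace K]
  [NontriviallyNormedField E] [IsUltrametricDist E] [ProperSpace E]
  [NormedAlgebra K E] [FiniteDimensional K E]

/-- The reduction map `Gal(E/K) → RingAut 𝓀[E]`. -/
noncomputable def redAut : (E ≃ₐ[K] E) →* RingAut 𝓀[E] :=
  (ResidueField.mapAut (R := 𝒪[E])).comp intAut

/-- For `E/K` unramified the reduction map is injective (the inertia group is trivial). -/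
theorem redAut_injective (hunr : IsUnram K E) :
    Function.Injective (redAut (K := K) (E := E)) := by
  rw [injective_iff_map_eq_one]
  intro τ hτ
  apply intAut_injective
  rw [map_one]
  have hfin : 0 < orderOf τ := orderOf_pos τ
  apply eq_one_of_mapAut_eq_one (maximalIdeal_eq_span hunr) separated_piE complete_piE
    (orderOf τ) (intAut τ) (intAut_piE τ) hfin
  · rw [← map_pow, pow_orderOf_eq_one, map_one]
  · exact hτ

/-- **An unramified Galois extension of local fields is cyclic.** -/
theorem isCyclic_of_isUnram (hunr : IsUnram K E) : IsCyclic (E ≃ₐ[K] E) := by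
  have := isCyclic_ringAut 𝓀[E]
  exact isCyclic_of_injective redAut (redAut_injective hunr)

variable [IsGalois K E]

/-- `Ĥ⁰(G, U_E) = 0`, generator-free form. -/
theorem exists_unit_norm_eq' (hunr : IsUnram K E) (u : Kˣ) (hu : ‖(u : K)‖ = 1) :
    ∃ y : Eˣ, ‖(y : E)‖ = 1 ∧ Algebra.norm K (y : E) = u := by
  obtain ⟨σ, hσ⟩ := (isCyclic_of_isUnram hunr).exists_zpow_surjective
  exact exists_unit_norm_eq hunr σ (fun τ => hσ τ) u hu

/-- The norm group of an unramified extension, generator-free form. -/
theorem mem_range_unitsNorm_iff' (hunr : IsUnram K E) (x : Kˣ) :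
    x ∈ (unitsNorm K E).range ↔ (Module.finrank K E : ℤ) ∣ ord K x := by
  obtain ⟨σ, hσ⟩ := (isCyclic_of_isUnram hunr).exists_zpow_surjective
  exact mem_range_unitsNorm_iff hunr σ (fun τ => hσ τ) x

/-- Norm index of an unramified extension, generator-free form. -/
theorem index_range_unitsNorm' (hunr : IsUnram K E) :
    (unitsNorm K E).range.index = Module.finrank K E := by
  obtain ⟨σ, hσ⟩ := (isCyclic_of_isUnram hunr).exists_zpow_surjective
  exact index_range_unitsNorm hunr σ (fun τ => hσ τ)

end Main

end Fermat.Agent.S55.Local.UnramLFCyclic
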