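/-
S55 / LOCAL block, row L9 (helper85): the field-theoretic construction feeding
`BrauerUnramField.exists_class_of_unram`.

* `kerResEquiv`, `algebraMap_norm_eq_prod_kerRes` : `Gal(M/E) ≃ kerRes K E M` and the norm as a
  product over `kerRes`.
* `existsFullOrder_of_tower` (abstract tower form): (LF) fields `K ⊆ E ⊆ M`, `F ⊆ M` with
  `M = E(ζ)`, `F = K(ζ)`, `ζ` a primitive `N`-th root of unity, `N = Q ^ [E:K] - 1`, `Q = #κ_K`:
  then `H²(Gal(E/K), Eˣ)` has a class of order exactly `[E : K]`.
* `isGalois_cyclotomicField` : `E(ζ_N)/K` is Galois when `E/K` is.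
* `existsFullOrder : Reduction2.ExistsFullOrder` (instantiation `M = CyclotomicField N E`,
  `F = CyclotomicField N K`, spectral norms), and the unconditional Local exports
  `h2Card : Blocks.H2Card`, `h2Cyclic : Blocks.H2Cyclic`, `h3Vanish : Reduction2.H3Vanish`.
-/
import Mathlib
import Fermat.Agent.S55.Local.Basic
import Fermat.Agent.S55.Local.Blocks
import Fermat.Agent.S55.Local.BrauerUnramBlocks
import Fermat.Agent.S55.Local.CycloUnramProof
import Fermat.Agent.S55.Local.UnramExistsProof
import Fermat.Agent.S55.Local.FundIdentity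
import Fermat.Agent.S55.Local.UnramLFCyclic
import Fermat.Agent.S55.Local.TowerTransport
import Fermat.Agent.S55.Local.BrauerUnramField
import Fermat.Agent.S55.Local.Reduction2
import Fermat.Agent.S55.Global.FiniteExtLF

set_option autoImplicit false
set_option linter.style.haveILetI false
set_option linter.unusedSectionVars false

open scoped NormedField NNReal

namespace Fermat.Agent.S55.Local.CycloTower

open Valued Fermat.Agent.S55.Local Fermat.Agent.S55.Local.Blocks
  Fermat.Agent.S55.Local.BrauerUnramBlocks Fermat.Agent.S55.Local.TowerTransport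

section KerRes

variable (K E M : Type) [Field K] [Field E] [Field M] [Algebra K E] [Algebra E M] [Algebra K M]
  [IsScalarTower K E M] [FiniteDimensional K M] [IsGalois K M] [Normal K E]

/-- `Gal(M/E) ≃ kerRes K E M`. -/
noncomputable def kerResEquiv : (M ≃ₐ[E] M) ≃ kerRes K E M where
  toFun σ := ⟨σ.restrictScalars K, (mem_kerRes_iff K E M _).2 fun x => σ.commutes x⟩
  invFun s :=
    { (s : M ≃ₐ[K] M) with
      commutes' := fun x => (mem_kerRes_iff K E M _).1 s.2 x }
  left_inv σ := by
    apply AlgEquiv.ext
    intro x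
    rfl
  right_inv s := by
    apply Subtype.ext
    apply AlgEquiv.ext
    intro x
    rfl

theorem kerResEquiv_apply (σ : M ≃ₐ[E] M) (x : M) :
    ((kerResEquiv K E M σ : kerRes K E M) : M ≃ₐ[K] M) x = σ x := rfl

/-- The norm from `M` to `E` as a product over `kerRes K E M`. -/
theorem algebraMap_norm_eq_prod_kerRes [IsGalois E M] [FiniteDimensional E M]
    [Fintype (kerRes K E M)] (y : M) :
    algebraMap E M (Algebra.norm E y) = ∏ s : kerRes K E M, ((s : M ≃ₐ[K] M) y) := by
  classical
  rw [Algebra.norm_eq_prod_automorphisms]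
  exact Fintype.prod_equiv (kerResEquiv K E M) _ _ (fun σ => rfl)

end KerRes

section Tower

variable (K E F M : Type)
  [NontriviallyNormedField K] [IsUltrametricDist K] [ProperSpace K]
  [NontriviallyNormedField E] [IsUltrametricDist E] [ProperSpace E]
  [NontriviallyNormedField F] [IsUltrametricDist F] [ProperSpace F]
  [NontriviallyNormedField M] [IsUltrametricDist M] [ProperSpace M]
  [NormedAlgebra K E] [FiniteDimensional K E] [IsGalois K E]
  [NormedAlgebra E M] [FiniteDimensional E M]
  [NormedAlgebra K M] [IsScalarTower K E M] [FiniteDimensional K M] [IsGalois K M]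
  [NormedAlgebra K F] [FiniteDimensional K F] [Algebra F M] [IsScalarTower K F M]

/-- **Row L9, abstract tower form.**  `M = E(ζ)`, `F = K(ζ)` with `ζ` a primitive root of unity
of order `N = Q ^ [E:K] - 1`: then `H²(Gal(E/K), Eˣ)` contains a class of order exactly `[E:K]`. -/
theorem existsFullOrder_of_tower (N : ℕ) (hNdef : N = resCard K ^ Module.finrank K E - 1)
    (ζ : F) (hζ : IsPrimitiveRoot ζ N) (hF : IntermediateField.adjoin K {ζ} = ⊤)
    (hM : IntermediateField.adjoin E {algebraMap F M ζ} = ⊤) :
    ∃ x : groupCohomology (Rep.ofAlgebraAutOnUnits K E) 2,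
      addOrderOf x = Module.finrank K E := by
  classical
  have hnpos : 0 < Module.finrank K E := Module.finrank_pos
  have hNK : ‖(N : K)‖ = 1 := by
    rw [hNdef]; exact UnramExistsProof.norm_pow_sub_one K _ hnpos
  have hNE : ‖(N : E)‖ = 1 := by
    have h : (N : E) = algebraMap K E (N : K) := (map_natCast _ N).symm
    rw [h, norm_algebraMap', hNK]
  -- `F/K`
  obtain ⟨hgalF, hunrF, hcycF, hdegF⟩ := CycloUnramProof.cycloUnram K F N ζ hNK hζ hF
  have hfinF : Module.finrank K F = Module.finrank K E := by
    apply UnramExistsProof.finrank_eq_of_clause (UnramExistsProof.two_le_resCard K) hnpos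
    intro k
    rw [← hNdef]
    exact hdegF k
  -- `M/E`
  have hζM : IsPrimitiveRoot (algebraMap F M ζ) N :=
    hζ.map_of_injective (algebraMap F M).injective
  obtain ⟨hgalM, hunrM, hcycM, hdegM⟩ := CycloUnramProof.cycloUnram E M N _ hNE hζM hM
  haveI := hgalM
  haveI := hgalF
  -- fundamental identity: `[M : E] ∣ e`
  have hfi := FundIdentity.fund_identity K E
  obtain ⟨hepos, hespec⟩ := FundIdentity.ramIdx_spec K E
  have hdvd : Module.finrank E M ∣ FundIdentity.ramIdx K E := by
    rw [← hdegM]
    change Nat.card 𝓀[E] ^ FundIdentity.ramIdx K E ≡ 1 [MOD N]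
    rw [hfi, hNdef]
    exact Nat.modEq_sub (Nat.one_le_pow _ _
      (lt_of_lt_of_le Nat.zero_lt_two (UnramExistsProof.two_le_resCard K)))
  -- `π_K` is a norm from `M` to `E`
  have hπ0 : algebraMap K E (unif K) ≠ 0 := by
    rw [Ne, map_eq_zero]; exact unif_ne_zero K
  have hord : ord E (Units.mk0 (algebraMap K E (unif K)) hπ0) = (FundIdentity.ramIdx K E : ℤ) := by
    apply ord_eq_of_norm_eq
    rw [Units.val_mk0, norm_algebraMap', hespec, zpow_natCast]
  have hmem : Units.mk0 (algebraMap K E (unif K)) hπ0 ∈ (unitsNorm E M).range := by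
    rw [UnramLFCyclic.mem_range_unitsNorm_iff' hunrM, hord]
    exact Int.natCast_dvd_natCast.2 hdvd
  obtain ⟨y, hy⟩ := hmem
  have hy' : Algebra.norm E (y : M) = algebraMap K E (unif K) := by
    have h := congrArg Units.val hy
    simpa using h
  letI : Fintype (kerRes K E M) := Fintype.ofFinite _
  have hii : ∃ y : Mˣ, algebraMap K M (unif K) =
      ∏ s : kerRes K E M, ((s : M ≃ₐ[K] M) (y : M)) := by
    refine ⟨y, ?_⟩
    rw [← algebraMap_norm_eq_prod_kerRes K E M (y : M), hy', ← IsScalarTower.algebraMap_apply]
  -- `F/K` is unramified, seen inside `M`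
  have hunr : ∀ x : F, ∃ y : K, ‖algebraMap F M x‖ = ‖y‖ := by
    intro x
    obtain ⟨y, hy⟩ := hunrF x
    refine ⟨y, ?_⟩
    rw [← hy, norm_eq_spectralNorm K M, norm_eq_spectralNorm K F, ← spectralNorm.eq_of_tower]
  -- disjointness
  have hadj : Algebra.adjoin E {algebraMap F M ζ} = ⊤ := by
    rw [← IntermediateField.adjoin_simple_toSubalgebra_of_isAlgebraic
      (Algebra.IsAlgebraic.isAlgebraic _), hM, IntermediateField.top_toSubalgebra]
  have hdisj : kerRes K E M ⊓ kerRes K F M = ⊥ := by
    rw [eq_bot_iff]
    intro s hs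
    obtain ⟨hsE, hsF⟩ := Subgroup.mem_inf.1 hs
    rw [Subgroup.mem_bot]
    have hsζ : s (algebraMap F M ζ) = algebraMap F M ζ := (mem_kerRes_iff K F M s).1 hsF ζ
    have h1 : (((kerResEquiv K E M).symm ⟨s, hsE⟩ : M ≃ₐ[E] M) : M →ₐ[E] M) = AlgHom.id E M := by
      apply AlgHom.ext_of_adjoin_eq_top hadj
      intro x hx
      rw [Set.mem_singleton_iff] at hx
      subst hx
      exact hsζ
    apply AlgEquiv.ext
    intro x
    exact congrArg (fun t : M →ₐ[E] M => t x) h1
  obtain ⟨x, hx⟩ := BrauerUnramField.exists_class_of_unram K E F M hdisj hcycF hunr hii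
  have hcard : Nat.card (F ≃ₐ[K] F) = Module.finrank K E := by
    rw [IsGalois.card_aut_eq_finrank, hfinF]
  rw [hcard] at hx
  obtain ⟨hfin, hdvdH⟩ := Reduction2.h2CardDvd K E
  refine ⟨x, Nat.dvd_antisymm ((addOrderOf_dvd_natCard x).trans hdvdH) ?_⟩
  exact hx _ (addOrderOf_nsmul_eq_zero x)

end Tower

section Final

open Polynomial Fermat.Agent.S55.Global.FiniteExtLF

variable (K E : Type)
  [NontriviallyNormedField K] [IsUltrametricDist K] [ProperSpace K]
  [NontriviallyNormedField E] [IsUltrametricDist E] [ProperSpace E]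
  [NormedAlgebra K E] [FiniteDimensional K E] [IsGalois K E]

/-- `E(ζ_N)/K` is Galois when `E/K` is. -/
theorem isGalois_cyclotomicField (N : ℕ) [NeZero N] [NeZero (N : E)] :
    IsGalois K (CyclotomicField N E) := by
  haveI : FiniteDimensional E (CyclotomicField N E) :=
    IsCyclotomicExtension.finiteDimensional {N} E _
  haveI : IsGalois E (CyclotomicField N E) := IsCyclotomicExtension.isGalois {N} E _
  haveI : Algebra.IsSeparable K (CyclotomicField N E) := Algebra.IsSeparable.trans K E _
  obtain ⟨p, hpsep, hpsplit⟩ := IsGalois.is_separable_splitting_field K E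
  haveI := hpsplit
  haveI : IsSplittingField E (CyclotomicField N E) ((X ^ N - 1 : K[X]).map (algebraMap K E)) := by
    rw [Polynomial.map_sub, Polynomial.map_one, Polynomial.map_pow, Polynomial.map_X]
    exact IsCyclotomicExtension.isSplittingField_X_pow_sub_one N E _
  haveI : IsSplittingField K (CyclotomicField N E) (p * (X ^ N - 1)) :=
    IsSplittingField.mul (K := E) (CyclotomicField N E) p (X ^ N - 1) hpsep.ne_zero (X_pow_sub_C_ne_zero (NeZero.pos N) (1 : K))
  haveI : Normal K (CyclotomicField N E) := Normal.of_isSplittingField (p * (X ^ N - 1))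
  exact ⟨⟩

/-- **Row L9 closed**: every finite Galois extension of local fields has a class of full order
in `H²(Gal(E/K), Eˣ)` (literally `Reduction2.ExistsFullOrder`). -/
theorem existsFullOrder_aux (N : ℕ) (hNdef : N = resCard K ^ Module.finrank K E - 1) :
    ∃ x : groupCohomology (Rep.ofAlgebraAutOnUnits K E) 2,
      addOrderOf x = Module.finrank K E := by
  classical
  have hnpos : 0 < Module.finrank K E := Module.finrank_pos
  have hNK : ‖(N : K)‖ = 1 := by
    rw [hNdef]; exact UnramExistsProof.norm_pow_sub_one K _ hnpos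
  have hNE : ‖(N : E)‖ = 1 := by
    have h : (N : E) = algebraMap K E (N : K) := (map_natCast _ N).symm
    rw [h, norm_algebraMap', hNK]
  haveI : NeZero N := ⟨fun h => by rw [h, Nat.cast_zero, norm_zero] at hNK; exact zero_ne_one hNK⟩
  haveI : NeZero (N : K) := ⟨fun h => by rw [h, norm_zero] at hNK; exact zero_ne_one hNK⟩
  haveI : NeZero (N : E) := ⟨fun h => by rw [h, norm_zero] at hNE; exact zero_ne_one hNE⟩
  -- the field `M = E(ζ_N)`
  haveI : FiniteDimensional E (CyclotomicField N E) :=
    IsCyclotomicExtension.finiteDimensional {N} E _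
  letI : NontriviallyNormedField (CyclotomicField N E) :=
    nontriviallyNormedFieldExt E (CyclotomicField N E)
  letI : NormedAlgebra E (CyclotomicField N E) := normedAlgebraExt E (CyclotomicField N E)
  haveI : IsUltrametricDist (CyclotomicField N E) := isUltrametricDistExt E (CyclotomicField N E)
  haveI : ProperSpace (CyclotomicField N E) := properSpaceExt E (CyclotomicField N E)
  letI : NormedAlgebra K (CyclotomicField N E) :=
    { (inferInstance : Algebra K (CyclotomicField N E)) with
      norm_smul_le := fun k m => by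
        rw [← IsScalarTower.algebraMap_smul E k m, norm_smul, norm_algebraMap'] }
  haveI : FiniteDimensional K (CyclotomicField N E) := FiniteDimensional.trans K E _
  haveI : IsGalois K (CyclotomicField N E) := isGalois_cyclotomicField K E N
  -- the field `F = K(ζ_N)`
  haveI : FiniteDimensional K (CyclotomicField N K) :=
    IsCyclotomicExtension.finiteDimensional {N} K _
  letI : NontriviallyNormedField (CyclotomicField N K) :=
    nontriviallyNormedFieldExt K (CyclotomicField N K)
  letI : NormedAlgebra K (CyclotomicField N K) := normedAlgebraExt K (CyclotomicField N K)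
  haveI : IsUltrametricDist (CyclotomicField N K) := isUltrametricDistExt K (CyclotomicField N K)
  haveI : ProperSpace (CyclotomicField N K) := properSpaceExt K (CyclotomicField N K)
  -- `F → M`
  haveI : IsSplittingField K (CyclotomicField N K) (cyclotomic N K) :=
    IsCyclotomicExtension.splitting_field_cyclotomic N K _
  have hsplits : Splits ((cyclotomic N K).map (algebraMap K (CyclotomicField N E))) := by
    rw [IsScalarTower.algebraMap_eq K E (CyclotomicField N E), ← Polynomial.map_map,
      map_cyclotomic]
    exact IsCyclotomicExtension.splits_cyclotomic E (CyclotomicField N E) (Set.mem_singleton N)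
  let φ : CyclotomicField N K →ₐ[K] CyclotomicField N E :=
    IsSplittingField.lift (CyclotomicField N K) (cyclotomic N K) hsplits
  letI : Algebra (CyclotomicField N K) (CyclotomicField N E) := φ.toRingHom.toAlgebra
  haveI : IsScalarTower K (CyclotomicField N K) (CyclotomicField N E) :=
    IsScalarTower.of_algebraMap_eq fun x => (φ.commutes x).symm
  -- generators
  have hζ := IsCyclotomicExtension.zeta_spec N K (CyclotomicField N K)
  have hF : IntermediateField.adjoin K {IsCyclotomicExtension.zeta N K (CyclotomicField N K)}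
      = ⊤ := by
    rw [← IntermediateField.toSubalgebra_injective.eq_iff, IntermediateField.top_toSubalgebra,
      IntermediateField.adjoin_simple_toSubalgebra_of_isAlgebraic
        (Algebra.IsAlgebraic.isAlgebraic _)]
    exact IsCyclotomicExtension.adjoin_primitive_root_eq_top hζ
  have hζM : IsPrimitiveRoot (algebraMap (CyclotomicField N K) (CyclotomicField N E)
      (IsCyclotomicExtension.zeta N K (CyclotomicField N K))) N :=
    hζ.map_of_injective (algebraMap (CyclotomicField N K) (CyclotomicField N E)).injective
  have hM : IntermediateField.adjoin E {algebraMap (CyclotomicField N K) (CyclotomicField N E)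
      (IsCyclotomicExtension.zeta N K (CyclotomicField N K))} = ⊤ := by
    rw [← IntermediateField.toSubalgebra_injective.eq_iff, IntermediateField.top_toSubalgebra,
      IntermediateField.adjoin_simple_toSubalgebra_of_isAlgebraic
        (Algebra.IsAlgebraic.isAlgebraic _)]
    exact IsCyclotomicExtension.adjoin_primitive_root_eq_top hζM
  exact existsFullOrder_of_tower K E (CyclotomicField N K) (CyclotomicField N E) N hNdef _ hζ hF hM

theorem existsFullOrder : Reduction2.ExistsFullOrder := by
  intro K E _ _ _ _ _ _ _ _ _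
  exact existsFullOrder_aux K E _ rfl

end Final

/-! ## The Local exports, unconditionally -/

/-- `#H²(Gal(E/K), Eˣ) = [E : K]` for every finite Galois extension of local fields. -/
theorem h2Card : Blocks.H2Card := Reduction2.h2Card_of_existsFullOrder existsFullOrder

/-- `H²(Gal(E/K), Eˣ)` is cyclic. -/
theorem h2Cyclic : Blocks.H2Cyclic := Reduction2.h2Cyclic_of_existsFullOrder existsFullOrder

/-- `H³(Gal(E/K), Eˣ) = 0`. -/
theorem h3Vanish : Reduction2.H3Vanish := Reduction2.h3Vanish_of_existsFullOrder existsFullOrder

end Fermat.Agent.S55.Local.CycloTower
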