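/-
S55 / local class formation (helper26): the FUNDAMENTAL IDENTITY `e · f = n` in cardinality form,
in the abstract (LF) setting of `Local/Basic.lean` (request (FI) of helper43, report #1697):

for local fields `K ⊆ E`, `[NormedAlgebra K E] [FiniteDimensional K E]`, with `‖unif K‖ = ‖unif E‖ ^ e`:

  `(Nat.card 𝓀[E]) ^ e = (Nat.card 𝓀[K]) ^ (finrank K E)`.

Proof: the index `[𝒪_E : π_K 𝒪_E]` computed in two ways.
(a) `π_E`-adic filtration: `e` steps, each with quotient `𝓀[E]`.
(b) `[Λ : π Λ]` is the same for commensurable lattices `Λ' ≤ Λ` (abstract group theory); for the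
    lattice spanned by a `K`-basis it is `(#𝓀[K]) ^ n`; commensurability follows from the continuity
    of the coordinates on a finite-dimensional space over a complete field.
No module theory (freeness of `𝒪_E` over `𝒪_K`) is used.
-/
import Mathlib
import Fermat.Agent.S55.Local.Basic
import Fermat.Agent.S55.Local.Blocks
import Fermat.Agent.S55.Local.UnramLF
import Fermat.Agent.S55.Local.BrauerUnramBlocks

set_option autoImplicit false
set_option linter.unusedSectionVars false

open scoped NormedField Valued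
open IsLocalRing

namespace Fermat.Agent.S55.Local.FundIdentity

open Fermat.Agent.S55.Local Fermat.Agent.S55.Local.Blocks

section Abstract

variable {A : Type*} [AddCommGroup A]

/-- `[Λ : φ Λ] = [Λ' : φ Λ']` for commensurable `Λ' ≤ Λ` and `φ` injective. -/
theorem relIndex_map_eq_of_commensurable (φ : A →+ A) (hφ : Function.Injective φ)
    {Λ' Λ : AddSubgroup A} (hle : Λ' ≤ Λ) (hfin : Λ'.relIndex Λ ≠ 0)
    (hΛ : Λ.map φ ≤ Λ) (hΛ' : Λ'.map φ ≤ Λ') :
    (Λ.map φ).relIndex Λ = (Λ'.map φ).relIndex Λ' := by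
  have h1 : (Λ'.map φ).relIndex (Λ.map φ) * (Λ.map φ).relIndex Λ = (Λ'.map φ).relIndex Λ :=
    AddSubgroup.relIndex_mul_relIndex _ _ _ (AddSubgroup.map_mono hle) hΛ
  have h2 : (Λ'.map φ).relIndex Λ' * Λ'.relIndex Λ = (Λ'.map φ).relIndex Λ :=
    AddSubgroup.relIndex_mul_relIndex _ _ _ hΛ' hle
  rw [AddSubgroup.relIndex_map_map_of_injective _ _ hφ] at h1
  have : Λ'.relIndex Λ * (Λ.map φ).relIndex Λ = Λ'.relIndex Λ * (Λ'.map φ).relIndex Λ' := by
    rw [h1, ← h2, mul_comm]
  exact Nat.eq_of_mul_eq_mul_left (Nat.pos_of_ne_zero hfin) this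

end Abstract

section Balls

variable {E : Type} [NontriviallyNormedField E] [IsUltrametricDist E] [ProperSpace E]

theorem mem_normBall {a x : E} : x ∈ normBall E a ↔ ‖x‖ ≤ ‖a‖ := Iff.rfl

theorem normBall_eq_of_norm_eq {a b : E} (h : ‖a‖ = ‖b‖) : normBall E a = normBall E b := by
  ext x; rw [mem_normBall, mem_normBall, h]

theorem normBall_mono {a b : E} (h : ‖a‖ ≤ ‖b‖) : normBall E a ≤ normBall E b :=
  fun _ hx => le_trans hx h

theorem map_mulLeft_normBall {c : E} (hc : c ≠ 0) (a : E) :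
    (normBall E a).map (AddMonoidHom.mulLeft c) = normBall E (c * a) := by
  ext x
  constructor
  · rintro ⟨y, hy, rfl⟩
    change ‖c * y‖ ≤ ‖c * a‖
    rw [norm_mul, norm_mul]
    exact mul_le_mul_of_nonneg_left hy (norm_nonneg c)
  · intro hx
    refine ⟨c⁻¹ * x, ?_, ?_⟩
    · change ‖c⁻¹ * x‖ ≤ ‖a‖
      have hx' : ‖x‖ ≤ ‖c‖ * ‖a‖ := by rw [← norm_mul]; exact hx
      rw [norm_mul, norm_inv, inv_mul_le_iff₀ (norm_pos_iff.mpr hc)]
      exact hx'
    · change c * (c⁻¹ * x) = x
      rw [← mul_assoc, mul_inv_cancel₀ hc, one_mul]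

theorem mulLeft_injective {c : E} (hc : c ≠ 0) :
    Function.Injective (AddMonoidHom.mulLeft c : E →+ E) :=
  fun _ _ h => mul_left_cancel₀ hc h

/-- The residue map on the unit ball. -/
noncomputable def resHom : (normBall E 1) →+ 𝓀[E] where
  toFun x := residue 𝒪[E] ⟨x.1, by
    rw [Valued.integer.mem_iff]; have := x.2; rwa [mem_normBall, norm_one] at this⟩
  map_zero' := by
    have : (⟨(0 : E), by rw [Valued.integer.mem_iff]; simp⟩ : 𝒪[E]) = 0 := rfl
    change residue 𝒪[E] ⟨(0 : E), _⟩ = 0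
    rw [this, map_zero]
  map_add' x y := by
    rw [← map_add]
    rfl

theorem resHom_surjective : Function.Surjective (resHom (E := E)) := by
  intro r
  obtain ⟨x, rfl⟩ := residue_surjective r
  refine ⟨⟨(x : E), ?_⟩, rfl⟩
  rw [mem_normBall, norm_one]
  exact Valued.integer.norm_le_one x

theorem resHom_eq_zero_iff (x : normBall E 1) : resHom x = 0 ↔ ‖(x : E)‖ ≤ ‖unif E‖ := by
  change residue 𝒪[E] ⟨x.1, _⟩ = 0 ↔ _
  rw [residue_eq_zero_iff, mem_maximalIdeal, mem_nonunits_iff,
    Valued.integer.isUnit_iff_norm_eq_one]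
  have hx1 : ‖(x : E)‖ ≤ 1 := by have := x.2; rwa [mem_normBall, norm_one] at this
  constructor
  · intro hne
    exact UnramLF.norm_le_unif_of_lt_one (lt_of_le_of_ne hx1 hne)
  · intro hle h1
    have h1' : ‖(x : E)‖ = 1 := h1
    rw [h1'] at hle
    exact absurd (norm_unif_lt_one E) (not_lt.mpr hle)

/-- `[𝒪_E : π_E 𝒪_E] = #𝓀[E]`. -/
theorem relIndex_unif : (normBall E (unif E)).relIndex (normBall E 1) = Nat.card 𝓀[E] := by
  have hker : (normBall E (unif E)).addSubgroupOf (normBall E 1) = (resHom (E := E)).ker := by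
    ext x
    rw [AddSubgroup.mem_addSubgroupOf, AddMonoidHom.mem_ker, resHom_eq_zero_iff, mem_normBall]
  change ((normBall E (unif E)).addSubgroupOf (normBall E 1)).index = _
  rw [hker, AddSubgroup.index_ker, AddMonoidHom.range_eq_top.mpr resHom_surjective]
  exact Nat.card_congr (AddSubgroup.topEquiv (G := 𝓀[E])).toEquiv

/-- `[𝒪_E : π_E^j 𝒪_E] = (#𝓀[E])^j`. -/
theorem relIndex_unif_pow (j : ℕ) :
    (normBall E (unif E ^ j)).relIndex (normBall E 1) = Nat.card 𝓀[E] ^ j := by
  induction j with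
  | zero => rw [pow_zero, pow_zero, AddSubgroup.relIndex_self]
  | succ j ih =>
    have hpow : ∀ i : ℕ, ‖unif E ^ (i + 1)‖ ≤ ‖unif E ^ i‖ := by
      intro i
      rw [pow_succ, norm_mul]
      exact mul_le_of_le_one_right (norm_nonneg _) (norm_unif_lt_one E).le
    have hle1 : normBall E (unif E ^ (j + 1)) ≤ normBall E (unif E ^ j) := normBall_mono (hpow j)
    have hle2 : normBall E (unif E ^ j) ≤ normBall E 1 := by
      apply normBall_mono
      rw [norm_pow, norm_one]
      exact pow_le_one₀ (norm_nonneg _) (norm_unif_lt_one E).le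
    have hc : unif E ^ j ≠ 0 := pow_ne_zero _ (unif_ne_zero E)
    have hstep : (normBall E (unif E ^ (j + 1))).relIndex (normBall E (unif E ^ j))
        = Nat.card 𝓀[E] := by
      have e1 : normBall E (unif E ^ (j + 1))
          = (normBall E (unif E)).map (AddMonoidHom.mulLeft (unif E ^ j)) := by
        rw [map_mulLeft_normBall hc, pow_succ]
      have e2 : normBall E (unif E ^ j)
          = (normBall E 1).map (AddMonoidHom.mulLeft (unif E ^ j)) := by
        rw [map_mulLeft_normBall hc, mul_one]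
      rw [e1, e2, AddSubgroup.relIndex_map_map_of_injective _ _ (mulLeft_injective hc),
        relIndex_unif]
    rw [← AddSubgroup.relIndex_mul_relIndex _ _ _ hle1 hle2, hstep, ih, pow_succ, mul_comm]

/-- the residue of an integer vanishes iff its norm is at most `‖unif E‖`. -/
theorem residue_eq_zero_iff_norm (y : 𝒪[E]) : residue 𝒪[E] y = 0 ↔ ‖(y : E)‖ ≤ ‖unif E‖ := by
  have h1 : (y : E) ∈ normBall E 1 := by
    rw [mem_normBall, norm_one]; exact Valued.integer.norm_le_one y
  exact resHom_eq_zero_iff (⟨(y : E), h1⟩ : normBall E 1)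

end Balls

section Lattice

variable {K E : Type} [NontriviallyNormedField K] [IsUltrametricDist K] [ProperSpace K]
  [NontriviallyNormedField E] [IsUltrametricDist E] [ProperSpace E]
  [NormedAlgebra K E] [FiniteDimensional K E]

variable {ι : Type} [Fintype ι] (b : Module.Basis ι K E)

/-- The lattice `{x | ∀ i, ‖xᵢ‖ ≤ ‖a‖}` in the coordinates of the basis `b`. -/
def lattice (a : K) : AddSubgroup E where
  carrier := {x | ∀ i, ‖b.repr x i‖ ≤ ‖a‖}
  zero_mem' := fun i => by simp
  add_mem' := fun {x y} hx hy i => by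
    rw [map_add, Finsupp.add_apply]
    exact (IsUltrametricDist.norm_add_le_max _ _).trans (max_le (hx i) (hy i))
  neg_mem' := fun {x} hx i => by
    rw [map_neg, Finsupp.neg_apply, norm_neg]; exact hx i

theorem mem_lattice {a : K} {x : E} : x ∈ lattice b a ↔ ∀ i, ‖b.repr x i‖ ≤ ‖a‖ := Iff.rfl

theorem lattice_mono {a a' : K} (h : ‖a‖ ≤ ‖a'‖) : lattice b a ≤ lattice b a' :=
  fun _ hx i => le_trans (hx i) h

theorem repr_algebraMap_mul (c : K) (y : E) (i : ι) :
    b.repr (algebraMap K E c * y) i = c * b.repr y i := by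
  rw [← Algebra.smul_def, map_smul, Finsupp.smul_apply, smul_eq_mul]

theorem map_mulLeft_lattice {c : K} (hc : c ≠ 0) (a : K) :
    (lattice b a).map (AddMonoidHom.mulLeft (algebraMap K E c)) = lattice b (c * a) := by
  ext x
  constructor
  · rintro ⟨y, hy, rfl⟩ i
    change ‖b.repr (algebraMap K E c * y) i‖ ≤ ‖c * a‖
    rw [repr_algebraMap_mul, norm_mul, norm_mul]
    exact mul_le_mul_of_nonneg_left (hy i) (norm_nonneg c)
  · intro hx
    refine ⟨algebraMap K E c⁻¹ * x, fun i => ?_, ?_⟩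
    · rw [repr_algebraMap_mul, norm_mul, norm_inv, inv_mul_le_iff₀ (norm_pos_iff.mpr hc),
        ← norm_mul]
      exact hx i
    · change algebraMap K E c * (algebraMap K E c⁻¹ * x) = x
      rw [← mul_assoc, ← map_mul, mul_inv_cancel₀ hc, map_one, one_mul]

/-- The coordinatewise residue map on the unit lattice. -/
noncomputable def latHom : (lattice b 1) →+ (ι → 𝓀[K]) where
  toFun x i := residue 𝒪[K] ⟨b.repr x.1 i, by
    rw [Valued.integer.mem_iff]; have := x.2 i; rwa [norm_one] at this⟩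
  map_zero' := by
    funext i
    have : (⟨(0 : K), by rw [Valued.integer.mem_iff]; simp⟩ : 𝒪[K]) = 0 := rfl
    change residue 𝒪[K] ⟨b.repr ((0 : lattice b 1) : E) i, _⟩ = 0
    rw [← map_zero (residue 𝒪[K])]
    congr 1
    apply Subtype.ext
    simp
  map_add' x y := by
    funext i
    change residue 𝒪[K] ⟨b.repr ((x + y : lattice b 1) : E) i, _⟩ = _
    rw [Pi.add_apply, ← map_add]
    congr 1
    apply Subtype.ext
    simp

theorem latHom_apply (x : lattice b 1) (i : ι) (h : b.repr x.1 i ∈ 𝒪[K]) :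
    latHom b x i = residue 𝒪[K] ⟨b.repr x.1 i, h⟩ := rfl

theorem latHom_surjective : Function.Surjective (latHom b) := by
  intro r
  choose a ha using fun i => residue_surjective (r i)
  have hmem : (∑ i, (a i : K) • b i) ∈ lattice b 1 := by
    intro i
    rw [b.repr_sum_self, norm_one]
    exact Valued.integer.norm_le_one (a i)
  refine ⟨⟨_, hmem⟩, ?_⟩
  funext i
  rw [← ha i]
  change residue 𝒪[K] ⟨b.repr (∑ j, (a j : K) • b j) i, _⟩ = _
  congr 1
  apply Subtype.ext
  change b.repr (∑ j, (a j : K) • b j) i = (a i : K)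
  rw [b.repr_sum_self]

theorem latHom_eq_zero_iff (x : lattice b 1) :
    latHom b x = 0 ↔ ∀ i, ‖b.repr x.1 i‖ ≤ ‖unif K‖ := by
  rw [funext_iff]
  refine forall_congr' fun i => ?_
  have h : b.repr x.1 i ∈ 𝒪[K] := by
    rw [Valued.integer.mem_iff]; have := x.2 i; rwa [norm_one] at this
  rw [latHom_apply b x i h, Pi.zero_apply, residue_eq_zero_iff_norm]

/-- `[Λ₀ : π Λ₀] = (#𝓀[K]) ^ n` for the basis lattice. -/
theorem relIndex_lattice_unif :
    (lattice b (unif K)).relIndex (lattice b 1) = Nat.card 𝓀[K] ^ Fintype.card ι := by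
  have hker : (lattice b (unif K)).addSubgroupOf (lattice b 1) = (latHom b).ker := by
    ext x
    rw [AddSubgroup.mem_addSubgroupOf, AddMonoidHom.mem_ker, latHom_eq_zero_iff, mem_lattice]
  change ((lattice b (unif K)).addSubgroupOf (lattice b 1)).index = _
  rw [hker, AddSubgroup.index_ker, AddMonoidHom.range_eq_top.mpr (latHom_surjective b),
    Nat.card_congr (AddSubgroup.topEquiv (G := ι → 𝓀[K])).toEquiv, Nat.card_fun,
    Nat.card_eq_fintype_card (α := ι)]

/-- Coordinates are bounded (equivalence of norms in finite dimension). -/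
theorem exists_coord_bound : ∃ C : ℝ, 0 < C ∧ ∀ (x : E) (i : ι), ‖b.repr x i‖ ≤ C * ‖x‖ := by
  let f : ι → (E →L[K] K) := fun i => LinearMap.toContinuousLinearMap (b.coord i)
  have hpos : 0 < ∑ i, ‖f i‖ + 1 := by
    have : 0 ≤ ∑ i, ‖f i‖ := Finset.sum_nonneg fun i _ => norm_nonneg (f i)
    linarith
  refine ⟨∑ i, ‖f i‖ + 1, hpos, fun x i => ?_⟩
  have h1 : ‖b.repr x i‖ ≤ ‖f i‖ * ‖x‖ := (f i).le_opNorm x
  have h2 : ‖f i‖ ≤ ∑ j, ‖f j‖ + 1 := by
    have := Finset.single_le_sum (f := fun j => ‖f j‖) (fun j _ => norm_nonneg (f j))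
      (Finset.mem_univ i)
    linarith
  exact h1.trans (mul_le_mul_of_nonneg_right h2 (norm_nonneg x))

/-- A small multiple of the basis lattice lies in the unit ball. -/
theorem exists_lattice_le : ∃ M : ℕ, lattice b (unif K ^ M) ≤ normBall E 1 := by
  set B : ℝ := ∑ i, ‖b i‖ + 1 with hB
  have hBpos : 0 < B := by
    have : 0 ≤ ∑ i, ‖b i‖ := Finset.sum_nonneg fun i _ => norm_nonneg (b i)
    linarith
  obtain ⟨M, hM⟩ := exists_pow_lt_of_lt_one (inv_pos.mpr hBpos) (norm_unif_lt_one K)
  refine ⟨M, fun x hx => ?_⟩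
  rw [mem_normBall, norm_one, ← b.sum_repr x]
  apply IsUltrametricDist.norm_sum_le_of_forall_le_of_nonneg zero_le_one
  intro i _
  rw [norm_smul]
  have h1 : ‖b.repr x i‖ ≤ ‖unif K‖ ^ M := by
    have := hx i; rwa [norm_pow] at this
  have h2 : ‖b i‖ ≤ B := by
    have := Finset.single_le_sum (f := fun j => ‖b j‖) (fun j _ => norm_nonneg (b j))
      (Finset.mem_univ i)
    linarith
  calc ‖b.repr x i‖ * ‖b i‖ ≤ ‖unif K‖ ^ M * B :=
        mul_le_mul h1 h2 (norm_nonneg _) (pow_nonneg (norm_nonneg _) _)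
    _ ≤ B⁻¹ * B := mul_le_mul_of_nonneg_right hM.le hBpos.le
    _ = 1 := inv_mul_cancel₀ hBpos.ne'

/-- A small ball lies in any multiple of the basis lattice. -/
theorem exists_ball_le (M : ℕ) :
    ∃ m : ℕ, normBall E (algebraMap K E (unif K ^ m)) ≤ lattice b (unif K ^ M) := by
  obtain ⟨C, hC, hbound⟩ := exists_coord_bound b
  obtain ⟨m', hm'⟩ := exists_pow_lt_of_lt_one (inv_pos.mpr hC) (norm_unif_lt_one K)
  refine ⟨M + m', fun x hx i => ?_⟩
  rw [mem_normBall, norm_algebraMap', norm_pow] at hx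
  rw [norm_pow]
  calc ‖b.repr x i‖ ≤ C * ‖x‖ := hbound x i
    _ ≤ C * ‖unif K‖ ^ (M + m') := mul_le_mul_of_nonneg_left hx hC.le
    _ = (C * ‖unif K‖ ^ m') * ‖unif K‖ ^ M := by rw [pow_add]; ring
    _ ≤ 1 * ‖unif K‖ ^ M := by
        apply mul_le_mul_of_nonneg_right _ (pow_nonneg (norm_nonneg _) _)
        have := mul_le_mul_of_nonneg_left hm'.le hC.le
        rwa [mul_inv_cancel₀ hC.ne'] at this
    _ = ‖unif K‖ ^ M := one_mul _

end Lattice

section Main

variable (K E : Type) [NontriviallyNormedField K] [IsUltrametricDist K] [ProperSpace K]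
  [NontriviallyNormedField E] [IsUltrametricDist E] [ProperSpace E]
  [NormedAlgebra K E] [FiniteDimensional K E]

/-- **Fundamental identity, cardinality form**: if `‖π_K‖ = ‖π_E‖ ^ e` then
`(#𝓀[E]) ^ e = (#𝓀[K]) ^ [E : K]`. -/
theorem card_residue_pow_eq (e : ℕ) (he : ‖unif K‖ = ‖unif E‖ ^ e) :
    Nat.card 𝓀[E] ^ e = Nat.card 𝓀[K] ^ Module.finrank K E := by
  let b := Module.finBasis K E
  have hπ0 : unif K ≠ 0 := unif_ne_zero K
  have hπE0 : algebraMap K E (unif K) ≠ 0 := by
    rw [Ne, map_eq_zero]; exact hπ0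
  obtain ⟨M, hM⟩ := exists_lattice_le b
  obtain ⟨m, hm⟩ := exists_ball_le b M
  have hQE : Nat.card 𝓀[E] ≠ 0 := Nat.card_pos.ne'
  -- finite index
  have hfin : (lattice b (unif K ^ M)).relIndex (normBall E 1) ≠ 0 := by
    have hball : normBall E (algebraMap K E (unif K ^ m)) = normBall E (unif E ^ (e * m)) := by
      apply normBall_eq_of_norm_eq
      rw [norm_algebraMap', norm_pow, he, norm_pow, pow_mul]
    have h1 := AddSubgroup.relIndex_mul_relIndex _ _ _ hm hM
    rw [hball, relIndex_unif_pow] at h1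
    intro h0
    rw [h0, mul_zero] at h1
    exact pow_ne_zero _ hQE h1.symm
  have hΛ : (normBall E 1).map (AddMonoidHom.mulLeft (algebraMap K E (unif K))) ≤ normBall E 1 := by
    rw [map_mulLeft_normBall hπE0, mul_one]
    apply normBall_mono
    rw [norm_algebraMap', norm_one]
    exact (norm_unif_lt_one K).le
  have hΛ' : (lattice b (unif K ^ M)).map (AddMonoidHom.mulLeft (algebraMap K E (unif K)))
      ≤ lattice b (unif K ^ M) := by
    rw [map_mulLeft_lattice b hπ0]
    apply lattice_mono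
    rw [norm_mul]
    exact mul_le_of_le_one_left (norm_nonneg _) (norm_unif_lt_one K).le
  have key := relIndex_map_eq_of_commensurable (AddMonoidHom.mulLeft (algebraMap K E (unif K)))
    (mulLeft_injective hπE0) hM hfin hΛ hΛ'
  rw [map_mulLeft_normBall hπE0, map_mulLeft_lattice b hπ0, mul_one] at key
  have hL : normBall E (algebraMap K E (unif K)) = normBall E (unif E ^ e) :=
    normBall_eq_of_norm_eq (by rw [norm_algebraMap', he, norm_pow])
  rw [hL, relIndex_unif_pow] at key
  have hc : unif K ^ M ≠ 0 := pow_ne_zero _ hπ0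
  have hcE : algebraMap K E (unif K ^ M) ≠ 0 := by
    rw [Ne, map_eq_zero]; exact hc
  have hR : (lattice b (unif K * unif K ^ M)).relIndex (lattice b (unif K ^ M))
      = (lattice b (unif K)).relIndex (lattice b 1) := by
    have e1 : lattice b (unif K * unif K ^ M)
        = (lattice b (unif K)).map (AddMonoidHom.mulLeft (algebraMap K E (unif K ^ M))) := by
      rw [map_mulLeft_lattice b hc, mul_comm]
    have e2 : lattice b (unif K ^ M)
        = (lattice b 1).map (AddMonoidHom.mulLeft (algebraMap K E (unif K ^ M))) := by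
      rw [map_mulLeft_lattice b hc, mul_one]
    rw [e1, e2, AddSubgroup.relIndex_map_map_of_injective _ _ (mulLeft_injective hcE)]
  rw [hR, relIndex_lattice_unif, Fintype.card_fin] at key
  exact key

/-- The ramification index of `E/K`: `‖π_K‖ = ‖π_E‖ ^ ramIdx`. -/
noncomputable def ramIdx : ℕ :=
  (ord E (Units.mk0 (algebraMap K E (unif K))
    (by rw [Ne, map_eq_zero]; exact unif_ne_zero K))).toNat

theorem ramIdx_spec : 0 < ramIdx K E ∧ ‖unif K‖ = ‖unif E‖ ^ ramIdx K E := by
  set u : Eˣ := Units.mk0 (algebraMap K E (unif K))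
    (by rw [Ne, map_eq_zero]; exact unif_ne_zero K) with hu
  have h1 : ‖unif K‖ = ‖unif E‖ ^ ord E u := by
    rw [← norm_eq_zpow_ord E u, hu, Units.val_mk0, norm_algebraMap']
  have hpos : 0 < ord E u := by
    by_contra hcon
    have hle : ord E u ≤ 0 := not_lt.mp hcon
    have : (1 : ℝ) ≤ ‖unif E‖ ^ ord E u := by
      have := zpow_le_zpow_right_of_le_one₀ (norm_unif_pos E) (norm_unif_lt_one E).le hle
      rwa [zpow_zero] at this
    rw [← h1] at this
    exact absurd (norm_unif_lt_one K) (not_lt.mpr this)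
  have hnat : ((ord E u).toNat : ℤ) = ord E u := Int.toNat_of_nonneg hpos.le
  refine ⟨?_, ?_⟩
  · change 0 < (ord E u).toNat
    omega
  · change ‖unif K‖ = ‖unif E‖ ^ (ord E u).toNat
    rw [← zpow_natCast, hnat]
    exact h1

/-- **Fundamental identity** `(#𝓀[E]) ^ e = (#𝓀[K]) ^ [E : K]` with `e = ramIdx K E`. -/
theorem fund_identity :
    Nat.card 𝓀[E] ^ ramIdx K E = Nat.card 𝓀[K] ^ Module.finrank K E :=
  card_residue_pow_eq K E (ramIdx K E) (ramIdx_spec K E).2

end Main

/-- **(FI)**: the closed Prop `BrauerUnramBlocks.FundIdentity` of helper43 (report #1697). -/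
theorem fundIdentity : BrauerUnramBlocks.FundIdentity := by
  intro K E _ _ _ _ _ _ _ _ e he
  rw [norm_algebraMap'] at he
  exact card_residue_pow_eq K E e he

end Fermat.Agent.S55.Local.FundIdentity
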