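/-
S55 / LOCAL block, row L9 (helper43): **a class of full order in `H²(Gal(E/K), Eˣ)`** for every
finite Galois extension `E/K` of (LF) fields — the last open input of the Local block.

Construction: `n = [E : K]`, `Q = #κ_K`, `N = Q ^ n - 1`, `M = E(ζ_N) = CyclotomicField N E` with the
spectral norm over `K` (helper36's `FiniteExtLF`), `F = K(ζ_N) ⊆ M`.  By `CycloUnram` (helper85's
`CycloUnramProof.cycloUnram`), `F/K` is unramified cyclic of degree `n` and `M/E` is unramified of
degree `r` with `Q_E ^ k ≡ 1 [MOD N] ↔ r ∣ k`; the fundamental identity (helper26's `FundIdentity`)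
`Q_E ^ e = Q ^ n ≡ 1` gives `r ∣ e`, hence `π_K ∈ N_{M/E} Mˣ` (helper26's
`UnramLFCyclic.mem_range_unitsNorm_iff'`).  Then `BrauerUnramField.exists_class_of_unram` produces a
class `x ∈ H²(Gal(E/K), Eˣ)` with `j • x = 0 → n ∣ j`; with `Reduction2.h2CardDvd` its order is `n`.

* `exists_class_of_cyclo` : the construction for an arbitrary `M = E(ζ)`, `ζ` a primitive `N`-th root,
  `‖N‖ = 1`, `ord_N Q = [E : K]`;
* `existsFullOrder_of_cycloUnram : CycloUnram → Reduction2.ExistsFullOrder`;
* `existsFullOrder : Reduction2.ExistsFullOrder` (unconditional);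
* `h2Card : Blocks.H2Card`, `h2Cyclic : Blocks.H2Cyclic`, `h3Vanish : Reduction2.H3Vanish`.
-/
import Mathlib
import Fermat.Agent.S55.Local.Basic
import Fermat.Agent.S55.Local.Blocks
import Fermat.Agent.S55.Local.BrauerUnramBlocks
import Fermat.Agent.S55.Local.BrauerUnramField
import Fermat.Agent.S55.Local.FundIdentity
import Fermat.Agent.S55.Local.UnramLFCyclic
import Fermat.Agent.S55.Local.Reduction2
import Fermat.Agent.S55.Local.CycloUnramProof
import Fermat.Agent.S55.Global.FiniteExtLF

set_option autoImplicit false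
set_option linter.unusedSectionVars false
set_option linter.style.haveILetI false

open scoped NormedField NNReal

namespace Fermat.Agent.S55.Local.BrauerUnramFinal

open Valued Fermat.Agent.S55.Local Fermat.Agent.S55.Local.Blocks
open Fermat.Agent.S55.Local.BrauerUnramBlocks

section ResCard

variable (K : Type) [NontriviallyNormedField K] [IsUltrametricDist K] [ProperSpace K]

theorem two_le_resCard : 2 ≤ resCard K := by
  unfold resCard
  have : Nontrivial 𝓀[K] := inferInstance
  have hfin : Finite 𝓀[K] := inferInstance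
  exact Finite.one_lt_card

theorem norm_resCard_lt_one : ‖(resCard K : K)‖ < 1 := by
  classical
  let _ : Fintype 𝓀[K] := Fintype.ofFinite _
  have h0 : ((resCard K : ℕ) : 𝓀[K]) = 0 := by
    unfold resCard
    rw [Nat.card_eq_fintype_card]
    exact Nat.cast_card_eq_zero 𝓀[K]
  have h1 : IsLocalRing.residue 𝒪[K] ((resCard K : ℕ) : 𝒪[K]) = 0 := by
    rw [map_natCast]; exact h0
  rw [IsLocalRing.residue_eq_zero_iff] at h1
  have h2 : ¬ IsUnit ((resCard K : ℕ) : 𝒪[K]) := (IsLocalRing.mem_maximalIdeal _).1 h1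
  have h3 : ‖(((resCard K : ℕ) : 𝒪[K]) : K)‖ ≤ 1 := Valued.integer.mem_iff.mp (Subtype.mem _)
  rcases lt_or_eq_of_le h3 with h | h
  · simpa using h
  · exact absurd (Valued.integer.isUnit_iff_norm_eq_one.mpr h) h2


/-- `N = Q ^ n - 1` is a unit at the residue characteristic. -/
theorem norm_pow_sub_one (n : ℕ) (hn : 0 < n) : ‖(((resCard K) ^ n - 1 : ℕ) : K)‖ = 1 := by
  have h1 : 1 ≤ (resCard K) ^ n := Nat.one_le_pow _ _ (by have := two_le_resCard K; omega)
  rw [Nat.cast_sub h1, Nat.cast_pow, Nat.cast_one]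
  have h2 : ‖((resCard K : ℕ) : K) ^ n‖ < 1 := by
    rw [norm_pow]
    exact pow_lt_one₀ (norm_nonneg _) (norm_resCard_lt_one K) hn.ne'
  have h3 : ‖((resCard K : ℕ) : K) ^ n + (-1)‖ = max ‖((resCard K : ℕ) : K) ^ n‖ ‖(-1 : K)‖ :=
    IsUltrametricDist.norm_add_eq_max_of_norm_ne_norm (by
      rw [norm_neg, norm_one]; exact h2.ne)
  rw [sub_eq_add_neg, h3, norm_neg, norm_one]
  exact max_eq_right h2.le

theorem pow_sub_one_pos (n : ℕ) (hn : 0 < n) : 0 < (resCard K) ^ n - 1 := by
  have h2 := two_le_resCard K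
  have : 2 ^ 1 ≤ (resCard K) ^ n := by
    calc 2 ^ 1 ≤ (resCard K) ^ 1 := by simpa using h2
      _ ≤ (resCard K) ^ n := Nat.pow_le_pow_right (by omega) hn
  omega

/-- the order of `Q` modulo `Q ^ n - 1` is `n`. -/
theorem pow_modEq_one_iff (n : ℕ) (hn : 0 < n) (k : ℕ) :
    (resCard K) ^ k ≡ 1 [MOD (resCard K) ^ n - 1] ↔ n ∣ k := by
  set Q := resCard K with hQ
  have hQ2 : 2 ≤ Q := two_le_resCard K
  have h1 : 1 ≤ Q ^ n := Nat.one_le_pow _ _ (by omega)
  have hbase : Q ^ n ≡ 1 [MOD Q ^ n - 1] := by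
    have : Q ^ n = (Q ^ n - 1) + 1 := by omega
    calc Q ^ n = (Q ^ n - 1) + 1 := this
      _ ≡ 0 + 1 [MOD Q ^ n - 1] := Nat.ModEq.add_right 1 (Nat.modEq_zero_iff_dvd.mpr dvd_rfl)
      _ = 1 := by norm_num
  have hred : ∀ a b : ℕ, Q ^ (n * a + b) ≡ Q ^ b [MOD Q ^ n - 1] := by
    intro a b
    rw [pow_add, pow_mul]
    calc (Q ^ n) ^ a * Q ^ b ≡ 1 ^ a * Q ^ b [MOD Q ^ n - 1] :=
          Nat.ModEq.mul_right _ (Nat.ModEq.pow a hbase)
      _ = Q ^ b := by rw [one_pow, one_mul]
  constructor
  · intro h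
    rw [← Nat.div_add_mod k n] at h
    have h2 : Q ^ (k % n) ≡ 1 [MOD Q ^ n - 1] := (hred (k / n) (k % n)).symm.trans h
    have hb : k % n < n := Nat.mod_lt k hn
    have h3 : k % n = 0 := by
      by_contra hne
      have hpos : 0 < k % n := Nat.pos_of_ne_zero hne
      have h4 : 1 < Q ^ (k % n) := Nat.one_lt_pow hne (by omega)
      have h5 : Q ^ n - 1 ∣ Q ^ (k % n) - 1 := (Nat.modEq_iff_dvd' h4.le).mp h2.symm
      have h6 : Q ^ n - 1 ≤ Q ^ (k % n) - 1 := Nat.le_of_dvd (by omega) h5
      have h7 : Q ^ (k % n) < Q ^ n := Nat.pow_lt_pow_right (by omega) hb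
      omega
    exact Nat.dvd_of_mod_eq_zero h3
  · rintro ⟨m, rfl⟩
    have := hred m 0
    simpa using this

end ResCard


section Construction

open Fermat.Agent.S55.Global.FiniteExtLF Fermat.Agent.S55.Local.TowerTransport

variable (K E : Type) [NontriviallyNormedField K] [IsUltrametricDist K] [ProperSpace K]
  [NontriviallyNormedField E] [IsUltrametricDist E] [ProperSpace E]
  [NormedAlgebra K E] [FiniteDimensional K E] [IsGalois K E]
  (M : Type) [Field M] [Algebra E M] [Algebra K M] [IsScalarTower K E M]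
  [FiniteDimensional E M]

/-- the spectral norm on `M` over `K` restricts to the norm of `E` -/
theorem norm_algebraMap_E [FiniteDimensional K M] (x : E) :
    letI := nontriviallyNormedFieldExt K M
    ‖algebraMap E M x‖ = ‖x‖ := by
  letI := nontriviallyNormedFieldExt K M
  rw [norm_def K M, norm_eq_spectralNorm K E x]
  unfold spectralNorm
  congr 1
  exact minpoly.algebraMap_eq (algebraMap E M).injective x


/-- **Main construction.** -/
theorem exists_class_of_cyclo (hU : CycloUnram) [IsGalois E M] [Normal K M]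
    (N : ℕ) (hNK : ‖(N : K)‖ = 1)
    (hord : ∀ k : ℕ, (resCard K) ^ k ≡ 1 [MOD N] ↔ Module.finrank K E ∣ k)
    (ζ : M) (hζ : IsPrimitiveRoot ζ N) (htop : IntermediateField.adjoin E {ζ} = ⊤) :
    ∃ x : groupCohomology (Rep.ofAlgebraAutOnUnits K E) 2,
      ∀ j : ℕ, j • x = 0 → Module.finrank K E ∣ j := by
  classical
  haveI : FiniteDimensional K M := FiniteDimensional.trans K E M
  letI := nontriviallyNormedFieldExt K M
  letI := normedAlgebraExt K M
  haveI := isUltrametricDistExt K M
  haveI := properSpaceExt K M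
  have hnE : ∀ x : E, ‖algebraMap E M x‖ = ‖x‖ := norm_algebraMap_E K E M
  letI : NormedAlgebra E M :=
    { (inferInstance : Algebra E M) with
      norm_smul_le := fun x y => by
        rw [Algebra.smul_def, norm_mul, hnE] }
  haveI : Algebra.IsSeparable K M := Algebra.IsSeparable.trans K E M
  haveI : IsGalois K M := ⟨⟩
  set n := Module.finrank K E with hn
  -- Step 1: M / E is unramified
  have hNE : ‖(N : E)‖ = 1 := by
    have : (N : E) = algebraMap K E (N : K) := (map_natCast (algebraMap K E) N).symm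
    rw [this, norm_algebraMap', hNK]
  obtain ⟨-, hunrEM, -, hdegEM⟩ := hU E M N ζ hNE hζ htop
  -- Step 2: F = K(ζ)
  let F : IntermediateField K M := IntermediateField.adjoin K {ζ}
  have hζF : ζ ∈ F := IntermediateField.mem_adjoin_simple_self K ζ
  let ζF : F := ⟨ζ, hζF⟩
  have hζF' : IsPrimitiveRoot ζF N := by
    apply IsPrimitiveRoot.of_map_of_injective (f := algebraMap F M) _ (algebraMap F M).injective
    exact hζ
  have htopF : IntermediateField.adjoin K {ζF} = ⊤ := by
    apply IntermediateField.lift_injective F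
    rw [IntermediateField.lift_adjoin_simple, IntermediateField.lift_top]
  haveI : ProperSpace F := UglyLF.properSpace_intermediateField F
  obtain ⟨hgalF, hunrF, hcycF, hdegF⟩ := hU K F N ζF hNK hζF' htopF
  have hFn : Module.finrank K F = n := by
    apply Nat.dvd_antisymm
    · exact (hdegF n).1 ((hord n).2 dvd_rfl)
    · exact (hord _).1 ((hdegF _).2 dvd_rfl)
  haveI : IsGalois K F := hgalF
  have hcardF : Nat.card (F ≃ₐ[K] F) = n := by
    rw [IsGalois.card_aut_eq_finrank, hFn]
  -- Step 3: the norm clause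
  have hdvd : (Module.finrank E M : ℤ) ∣ (FundIdentity.ramIdx K E : ℤ) := by
    have h1 : resCard E ^ FundIdentity.ramIdx K E = resCard K ^ n :=
      FundIdentity.fund_identity K E
    have h2 : resCard E ^ FundIdentity.ramIdx K E ≡ 1 [MOD N] := by
      rw [h1]; exact (hord n).2 dvd_rfl
    exact Int.natCast_dvd_natCast.mpr ((hdegEM _).1 h2)
  set x : Eˣ := Units.mk0 (algebraMap K E (unif K))
    (by rw [Ne, map_eq_zero]; exact unif_ne_zero K) with hx
  have hordx : ord E x = (FundIdentity.ramIdx K E : ℤ) := by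
    apply ord_eq_of_norm_eq
    rw [hx, Units.val_mk0, norm_algebraMap', zpow_natCast]
    exact (FundIdentity.ramIdx_spec K E).2
  have hxmem : x ∈ (unitsNorm E M).range := by
    rw [UnramLFCyclic.mem_range_unitsNorm_iff' hunrEM x, hordx]
    exact hdvd
  obtain ⟨y, hy⟩ := hxmem
  have hy' : Algebra.norm E (y : M) = algebraMap K E (unif K) := by
    have := congrArg Units.val hy
    simpa [hx] using this
  haveI : Normal K E := IsGalois.to_normal
  haveI : Normal K F := IsGalois.to_normal
  haveI : Finite (kerRes K E M) := inferInstance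
  letI : Fintype (kerRes K E M) := Fintype.ofFinite _
  -- the comparison `Gal(M/E) → kerRes K E M`
  let f : (M ≃ₐ[E] M) → kerRes K E M := fun τ =>
    ⟨τ.restrictScalars K, (mem_kerRes_iff K E M _).2 (fun z => τ.commutes z)⟩
  have hfbij : Function.Bijective f := by
    constructor
    · intro τ₁ τ₂ h
      have h1 : τ₁.restrictScalars K = τ₂.restrictScalars K := congrArg Subtype.val h
      exact AlgEquiv.restrictScalars_injective K h1
    · rintro ⟨σ, hσ⟩
      refine ⟨AlgEquiv.ofRingEquiv (f := σ.toRingEquiv)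
        (fun z => (mem_kerRes_iff K E M σ).1 hσ z), ?_⟩
      apply Subtype.ext
      apply AlgEquiv.ext
      intro z
      rfl
  have hii : ∃ y : Mˣ, algebraMap K M (unif K)
      = ∏ s : kerRes K E M, ((s : M ≃ₐ[K] M) (y : M)) := by
    refine ⟨y, ?_⟩
    rw [IsScalarTower.algebraMap_apply K E M, ← hy', Algebra.norm_eq_prod_automorphisms E (y : M)]
    exact Fintype.prod_bijective f hfbij _ _ (fun τ => rfl)
  -- Step 4: linear disjointness
  have htopA : Algebra.adjoin E {ζ} = ⊤ := IntermediateField.adjoin_eq_top_iff.mp htop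
  have hdisj : kerRes K E M ⊓ kerRes K F M = ⊥ := by
    rw [eq_bot_iff]
    intro σ hσ
    rw [Subgroup.mem_inf] at hσ
    obtain ⟨hσE, hσF⟩ := hσ
    rw [Subgroup.mem_bot]
    have h1 : ∀ z : E, σ (algebraMap E M z) = algebraMap E M z := (mem_kerRes_iff K E M σ).1 hσE
    have h2 : σ ζ = ζ := (mem_kerRes_iff K F M σ).1 hσF ζF
    let τ : M ≃ₐ[E] M := AlgEquiv.ofRingEquiv (f := σ.toRingEquiv) h1
    have hτ : (τ : M →ₐ[E] M) = AlgHom.id E M := by
      apply AlgHom.ext_of_adjoin_eq_top htopA
      intro z hz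
      rw [Set.mem_singleton_iff] at hz
      subst hz
      exact h2
    apply AlgEquiv.ext
    intro z
    have := DFunLike.congr_fun hτ z
    exact this
  have hunr : ∀ z : F, ∃ w : K, ‖algebraMap F M z‖ = ‖w‖ := fun z => hunrF z
  obtain ⟨c, hc⟩ := BrauerUnramField.exists_class_of_unram K E F M hdisj hcycF hunr hii
  refine ⟨c, fun j hj => ?_⟩
  have := hc j hj
  rwa [hcardF] at this

end Construction

section Final

open Fermat.Agent.S55.Global.FiniteExtLF Polynomial

variable (K E : Type) [NontriviallyNormedField K] [IsUltrametricDist K] [ProperSpace K]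
  [NontriviallyNormedField E] [IsUltrametricDist E] [ProperSpace E]
  [NormedAlgebra K E] [FiniteDimensional K E] [IsGalois K E]

/-- `E(ζ_N)` is normal over `K` when `E / K` is Galois. -/
theorem normal_cyclotomicField (N : ℕ) [NeZero ((N : ℕ) : E)] [NeZero N] :
    Normal K (CyclotomicField N E) := by
  obtain ⟨p, hpsep, hpsplit⟩ := IsGalois.is_separable_splitting_field K E
  haveI := hpsplit
  haveI h1 : IsSplittingField E (CyclotomicField N E) (cyclotomic N E) :=
    IsCyclotomicExtension.splitting_field_cyclotomic N E (CyclotomicField N E)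
  haveI h2 : IsSplittingField E (CyclotomicField N E) ((cyclotomic N K).map (algebraMap K E)) := by
    rw [map_cyclotomic]; exact h1
  haveI h3 : IsSplittingField K (CyclotomicField N E) (p * cyclotomic N K) :=
    IsSplittingField.mul (K := E) (CyclotomicField N E) p (cyclotomic N K) hpsep.ne_zero
      (cyclotomic_ne_zero N K)
  exact Normal.of_isSplittingField (p * cyclotomic N K)

theorem exists_class (hU : CycloUnram) :
    ∃ x : groupCohomology (Rep.ofAlgebraAutOnUnits K E) 2,
      ∀ j : ℕ, j • x = 0 → Module.finrank K E ∣ j := by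
  have hn : 0 < Module.finrank K E := Module.finrank_pos
  set N : ℕ := resCard K ^ Module.finrank K E - 1 with hN
  have hNK : ‖(N : K)‖ = 1 := norm_pow_sub_one K _ hn
  have hNE : ‖(N : E)‖ = 1 := by
    have : (N : E) = algebraMap K E (N : K) := (map_natCast (algebraMap K E) N).symm
    rw [this, norm_algebraMap', hNK]
  haveI : NeZero ((N : ℕ) : E) := ⟨fun h => by rw [h, norm_zero] at hNE; exact zero_ne_one hNE⟩
  haveI : NeZero N :=
    ⟨fun h => by rw [h, Nat.cast_zero, norm_zero] at hNE; exact zero_ne_one hNE⟩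
  haveI : FiniteDimensional E (CyclotomicField N E) :=
    IsCyclotomicExtension.finiteDimensional {N} E (CyclotomicField N E)
  haveI : IsGalois E (CyclotomicField N E) :=
    IsCyclotomicExtension.isGalois {N} E (CyclotomicField N E)
  haveI : Normal K (CyclotomicField N E) := normal_cyclotomicField K E N
  have hζ := IsCyclotomicExtension.zeta_spec N E (CyclotomicField N E)
  have htop : IntermediateField.adjoin E {IsCyclotomicExtension.zeta N E (CyclotomicField N E)}
      = ⊤ :=
    IntermediateField.adjoin_eq_top_of_algebra _ _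
      (IsCyclotomicExtension.adjoin_primitive_root_eq_top hζ)
  exact exists_class_of_cyclo K E (CyclotomicField N E) hU N hNK
    (fun k => pow_modEq_one_iff K _ hn k) _ hζ htop

/-- **Row L9**: a class of full order exists, given `(U-abs)`. -/
theorem existsFullOrder_of_cycloUnram (hU : CycloUnram) : Reduction2.ExistsFullOrder := by
  intro K E _ _ _ _ _ _ _ _ _
  obtain ⟨x, hx⟩ := exists_class K E hU
  obtain ⟨hfin, hdvd⟩ := Reduction2.h2CardDvd K E
  refine ⟨x, Nat.dvd_antisymm ?_ ?_⟩
  · apply addOrderOf_dvd_of_nsmul_eq_zero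
    obtain ⟨m, hm⟩ := hdvd
    rw [hm, mul_comm, mul_nsmul, card_nsmul_eq_zero']
  · exact hx _ (addOrderOf_nsmul_eq_zero x)

/-- **Row L9, unconditional.** -/
theorem existsFullOrder : Reduction2.ExistsFullOrder :=
  existsFullOrder_of_cycloUnram CycloUnramProof.cycloUnram

/-- **`#H²(Gal(E/K), Eˣ) = [E : K]`** (`Blocks.H2Card`, unconditional). -/
theorem h2Card : Blocks.H2Card := Reduction2.h2Card_of_existsFullOrder existsFullOrder

/-- **`H²(Gal(E/K), Eˣ)` is cyclic** (`Blocks.H2Cyclic`, unconditional). -/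
theorem h2Cyclic : Blocks.H2Cyclic := Reduction2.h2Cyclic_of_existsFullOrder existsFullOrder

/-- **`H³(Gal(E/K), Eˣ) = 0`** (`Reduction2.H3Vanish`, unconditional). -/
theorem h3Vanish : Reduction2.H3Vanish := Reduction2.h3Vanish_of_existsFullOrder existsFullOrder

end Final

end Fermat.Agent.S55.Local.BrauerUnramFinal
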