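import Mathlib
import Fermat.Agent.S55.Local.Basic
import Fermat.Agent.S55.Local.Blocks
import Fermat.Agent.S55.Tate.LES
import Fermat.Agent.S55.Tate.SplittingAug

/-!
# S55 / Local: the valuation sequence `1 → U_E → Eˣ → ℤ → 0` in Galois cohomology  (row (U3))

`F ⊆ E` local fields in the (LF) setting of `Local/Basic.lean`, `[NormedAlgebra F E]`,
`G = E ≃ₐ[F] E` (finite-dimensionality / Galois are not needed for the statements here).

* `ordRepHom F E : Rep.ofAlgebraAutOnUnits F E ⟶ Rep.trivial ℤ G ℤ`, `x ↦ ord E x` (equivariant since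
  automorphisms are isometries), surjective, kernel = units of norm one;
* `ordSC F E ι w`, `ordSC_shortExact` : for ANY `U : Rep ℤ G` with an injective `ι : U ⟶ Eˣ` whose
  range is the set of norm-one units: the short exact sequence `0 → U → Eˣ → ℤ → 0`;
* `bijective_map_g_of_isZero` (abstract): in a short exact sequence of `Rep ℤ G`,
  `Hⁿ(X₁) = 0 = Hⁿ⁺¹(X₁)` implies `Hⁿ(X₂) → Hⁿ(X₃)` bijective;
* `bijective_ord_map` : `Hⁿ(G, U) = 0 = Hⁿ⁺¹(G, U)` ⟹ `ord_* : Hⁿ(G, Eˣ) → Hⁿ(G, ℤ)` bijective
  (for unramified `E/F` the hypotheses hold for `n = 2`: cohomological triviality of the units).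
-/

set_option autoImplicit false
set_option linter.unusedSectionVars false

open CategoryTheory CategoryTheory.Limits groupCohomology Rep

namespace Fermat.Agent.S55.Local.UnramOrdCoh

open Fermat.Agent.S55.Local Fermat.Agent.S55.Tate.LES

/-! ### Abstract: vanishing of the sub-object gives a bijection -/

section Abstract

variable {G : Type} [Group G] {X : ShortComplex (Rep ℤ G)} (hX : X.ShortExact)

include hX in
theorem injective_map_g_of_isZero (n : ℕ) (h1 : IsZero (groupCohomology X.X₁ n)) :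
    Function.Injective (groupCohomology.map (MonoidHom.id G) X.g n) := by
  intro x y hxy
  have h0 : groupCohomology.map (MonoidHom.id G) X.g n (x - y) = 0 := by
    rw [map_sub, hxy, sub_self]
  obtain ⟨z, hz⟩ := exists_map_f_eq hX n (x - y) h0
  have hz0 : z = 0 := eq_zero_of_isZero h1 z
  rw [hz0, map_zero] at hz
  exact sub_eq_zero.1 hz.symm

include hX in
theorem surjective_map_g_of_isZero (n : ℕ) (h2 : IsZero (groupCohomology X.X₁ (n + 1))) :
    Function.Surjective (groupCohomology.map (MonoidHom.id G) X.g n) := by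
  intro x
  exact exists_map_g_eq hX n x (eq_zero_of_isZero h2 _)

include hX in
/-- In a short exact sequence `0 → X₁ → X₂ → X₃ → 0` of `G`-modules with
`Hⁿ(G, X₁) = 0 = Hⁿ⁺¹(G, X₁)`, the map `Hⁿ(G, X₂) → Hⁿ(G, X₃)` is bijective. -/
theorem bijective_map_g_of_isZero (n : ℕ) (h1 : IsZero (groupCohomology X.X₁ n))
    (h2 : IsZero (groupCohomology X.X₁ (n + 1))) :
    Function.Bijective (groupCohomology.map (MonoidHom.id G) X.g n) :=
  ⟨injective_map_g_of_isZero hX n h1, surjective_map_g_of_isZero hX n h2⟩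

end Abstract

/-! ### The valuation morphism -/

section Ord

variable (F E : Type) [NontriviallyNormedField F] [IsUltrametricDist F] [ProperSpace F]
  [NontriviallyNormedField E] [IsUltrametricDist E] [ProperSpace E]
  [NormedAlgebra F E] [Algebra.IsAlgebraic F E]

/-- `ord` as an additive map on `Additive Eˣ`. -/
noncomputable def ordAdd : Additive Eˣ →+ ℤ where
  toFun x := ord E (Additive.toMul x)
  map_zero' := ord_one E
  map_add' _ _ := ord_mul E _ _

@[simp] theorem ordAdd_apply (x : Additive Eˣ) : ordAdd E x = ord E (Additive.toMul x) := rfl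

theorem ordAdd_surjective : Function.Surjective (ordAdd E) := by
  intro n
  obtain ⟨x, hx⟩ := ordHom_surjective E (Multiplicative.ofAdd n)
  refine ⟨Additive.ofMul x, ?_⟩
  rw [ordHom_apply] at hx
  exact Multiplicative.ofAdd.injective hx

/-- The valuation `Eˣ → ℤ` as a morphism of `Gal(E/F)`-modules (trivial action on `ℤ`). -/
noncomputable def ordRepHom :
    Rep.ofAlgebraAutOnUnits F E ⟶ Rep.trivial ℤ (E ≃ₐ[F] E) ℤ :=
  Rep.ofHom (ρ := Representation.ofMulDistribMulAction (E ≃ₐ[F] E) Eˣ)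
    (σ := Representation.trivial ℤ (E ≃ₐ[F] E) ℤ)
    ⟨(ordAdd E).toIntLinearMap, fun g => by
      ext x
      change ord E (g • Additive.toMul x) = ord E (Additive.toMul x)
      exact ord_map_algEquiv g (Additive.toMul x)⟩

theorem ordRepHom_apply (x : Additive Eˣ) :
    (ordRepHom F E).hom (x : (Rep.ofAlgebraAutOnUnits F E).V) = ord E (Additive.toMul x) := rfl

theorem ordRepHom_surjective : Function.Surjective (ordRepHom F E).hom :=
  ordAdd_surjective E

theorem ordRepHom_eq_zero_iff (x : Additive Eˣ) :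
    (ordRepHom F E).hom (x : (Rep.ofAlgebraAutOnUnits F E).V) = 0 ↔
      ‖((Additive.toMul x : Eˣ) : E)‖ = 1 := by
  rw [ordRepHom_apply]
  exact ord_eq_zero_iff E _

end Ord

/-! ### The valuation sequence and its consequence on cohomology -/

section SES

open Fermat.Agent.S55.Tate.SplittingAug

variable (F E : Type) [NontriviallyNormedField F] [IsUltrametricDist F] [ProperSpace F]
  [NontriviallyNormedField E] [IsUltrametricDist E] [ProperSpace E]
  [NormedAlgebra F E] [Algebra.IsAlgebraic F E]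

variable {F E} in
/-- The short complex `0 → U → Eˣ → ℤ → 0` for a sub-object `ι : U ⟶ Eˣ` with norm-one values. -/
noncomputable def ordSC {U : Rep ℤ (E ≃ₐ[F] E)} (ι : U ⟶ Rep.ofAlgebraAutOnUnits F E)
    (hval : ∀ u : U, ‖((Additive.toMul (ι.hom u : Additive Eˣ) : Eˣ) : E)‖ = 1) :
    ShortComplex (Rep ℤ (E ≃ₐ[F] E)) :=
  ShortComplex.mk ι (ordRepHom F E) (by
    apply Rep.hom_ext
    refine DFunLike.ext _ _ fun u => ?_
    exact (ordRepHom_eq_zero_iff F E (ι.hom u)).2 (hval u))

variable {F E} in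
/-- `0 → U → Eˣ → ℤ → 0` is short exact as soon as `ι` is injective with range the units of
norm one. -/
theorem ordSC_shortExact {U : Rep ℤ (E ≃ₐ[F] E)} (ι : U ⟶ Rep.ofAlgebraAutOnUnits F E)
    (hval : ∀ u : U, ‖((Additive.toMul (ι.hom u : Additive Eˣ) : Eˣ) : E)‖ = 1)
    (hinj : Function.Injective ι.hom)
    (hsurj : ∀ x : Additive Eˣ, ‖((Additive.toMul x : Eˣ) : E)‖ = 1 → ∃ u : U, ι.hom u = x) :
    (ordSC ι hval).ShortExact := by
  refine shortExact_of_elementwise (ordSC ι hval) hinj (ordRepHom_surjective F E) ?_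
  intro x hx
  exact hsurj x ((ordRepHom_eq_zero_iff F E x).1 hx)

variable {F E} in
/-- **(U3), local form.**  If `Hⁿ(G, U) = 0 = Hⁿ⁺¹(G, U)` for the units `U` of norm one, the
valuation induces a bijection `Hⁿ(G, Eˣ) → Hⁿ(G, ℤ)`. -/
theorem bijective_ord_map {U : Rep ℤ (E ≃ₐ[F] E)} (ι : U ⟶ Rep.ofAlgebraAutOnUnits F E)
    (hval : ∀ u : U, ‖((Additive.toMul (ι.hom u : Additive Eˣ) : Eˣ) : E)‖ = 1)
    (hinj : Function.Injective ι.hom)
    (hsurj : ∀ x : Additive Eˣ, ‖((Additive.toMul x : Eˣ) : E)‖ = 1 → ∃ u : U, ι.hom u = x)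
    (n : ℕ) (h1 : IsZero (groupCohomology U n)) (h2 : IsZero (groupCohomology U (n + 1))) :
    Function.Bijective (groupCohomology.map (A := Rep.ofAlgebraAutOnUnits F E)
      (B := Rep.trivial ℤ (E ≃ₐ[F] E) ℤ) (MonoidHom.id (E ≃ₐ[F] E)) (ordRepHom F E) n) :=
  bijective_map_g_of_isZero (ordSC_shortExact ι hval hinj hsurj) n h1 h2

end SES

end Fermat.Agent.S55.Local.UnramOrdCoh
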