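/-
S55 / local class formation (helper59): GLUE from the concrete unit data `(T)` of the Local plan
(report #1366) to the local norm index `[Kˣ : N Eˣ] = [E : K]` for a cyclic extension `E/K`,
via the abstract `LocalNormIndex.normIndex_eq` and `CohTrivialApprox.qa_eq_one_of_filtration`.

Everything here is for ABSTRACT fields `K E : Type` (universe 0, as in Mathlib's Hilbert 90 file)
with `E/K` finite Galois, `σ` a generator of `Gal(E/K)`, a surjective `Gal`-invariant valuation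
`v : Eˣ →* Multiplicative ℤ` and a filtration `V : ℕ → Subgroup Eˣ` as produced by
`Local/Concrete.lean` (target `(T)`).
-/
import Mathlib
import Fermat.Agent.S55.LocalNormIndex
import Fermat.Agent.S55.CohTrivialApprox

set_option autoImplicit false

namespace Fermat.Agent.S55.Local.NormIndexGlue

open Fermat.Agent.S14.HerbrandPrime

variable {K E : Type} [Field K] [Field E] [Algebra K E] [FiniteDimensional K E]

/-- `x ↦ σ x / x` on units. -/
noncomputable def Dm (σ : E ≃ₐ[K] E) : Eˣ →* Eˣ :=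
  MulDistribMulAction.toMonoidHom Eˣ σ / MonoidHom.id Eˣ

/-- `x ↦ ∏_τ τ x` on units. -/
noncomputable def Nm : Eˣ →* Eˣ :=
  ∏ τ : E ≃ₐ[K] E, MulDistribMulAction.toMonoidHom Eˣ τ

omit [FiniteDimensional K E] in
@[simp] lemma Dm_apply (σ : E ≃ₐ[K] E) (x : Eˣ) : Dm σ x = σ • x / x := rfl

@[simp] lemma Nm_apply (x : Eˣ) : Nm (K := K) x = ∏ τ : E ≃ₐ[K] E, τ • x := by
  simp [Nm]

lemma smul_Nm (σ : E ≃ₐ[K] E) (x : Eˣ) : σ • Nm (K := K) x = Nm (K := K) x := by
  rw [Nm_apply, Finset.smul_prod']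
  simp only [← mul_smul]
  exact Fintype.prod_bijective (fun τ => σ * τ) (Group.mulLeft_bijective σ) _ _ (fun _ => rfl)

lemma Nm_smul (σ : E ≃ₐ[K] E) (x : Eˣ) : Nm (K := K) (σ • x) = Nm (K := K) x := by
  rw [Nm_apply, Nm_apply]
  simp only [← mul_smul]
  exact Fintype.prod_bijective (fun τ => τ * σ) (Group.mulRight_bijective σ) _ _ (fun _ => rfl)

lemma Dm_Nm (σ : E ≃ₐ[K] E) (x : Eˣ) : Dm σ (Nm (K := K) x) = 1 := by
  rw [Dm_apply, smul_Nm, div_self']

lemma Nm_Dm (σ : E ≃ₐ[K] E) (x : Eˣ) : Nm (K := K) (Dm σ x) = 1 := by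
  rw [Dm_apply, map_div, Nm_smul, div_self']

section main

variable [IsGalois K E]

/-- Hilbert 90 in the form needed: `N x = 1 ⇒ x = σ y / y`. -/
lemma exists_Dm_eq_of_Nm_eq_one (σ : E ≃ₐ[K] E) (hσ : ∀ τ, τ ∈ Subgroup.zpowers σ)
    (x : Eˣ) (hx : Nm (K := K) x = 1) : ∃ y : Eˣ, Dm σ y = x := by
  have : IsCyclic (E ≃ₐ[K] E) := ⟨σ, hσ⟩
  have hnorm : Algebra.norm K (x : E) = 1 := by
    apply (algebraMap K E).injective
    rw [Algebra.norm_eq_prod_automorphisms, map_one]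
    have := congrArg (fun u : Eˣ => (u : E)) hx
    simpa [Nm_apply, Units.coe_prod, AlgEquiv.smul_units_def] using this
  obtain ⟨y, hy⟩ := groupCohomology.exists_div_of_norm_eq_one (K := K) (L := E) hσ hnorm
  refine ⟨y⁻¹, ?_⟩
  ext
  simp only [Dm_apply, smul_inv', Units.val_div_eq_div_val, Units.val_inv_eq_inv_val,
    AlgEquiv.smul_units_def, Units.coe_map, MonoidHom.coe_coe]
  rw [← hy]
  field_simp

/-- Translation `Subgroup Eˣ` ↔ `AddSubgroup (Additive Eˣ)` for kernels. -/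
lemma toAdditive_ker {G H : Type*} [Group G] [Group H] (f : G →* H) :
    (MonoidHom.toAdditive f).ker = Subgroup.toAddSubgroup f.ker := by
  ext x; rfl

lemma toAdditive_map {G H : Type*} [Group G] [Group H] (f : G →* H) (A : Subgroup G) :
    (Subgroup.toAddSubgroup A).map (MonoidHom.toAdditive f) = Subgroup.toAddSubgroup (A.map f) := by
  ext x; rfl

lemma toAdditiveLeft_ker {G : Type*} [Group G] (f : G →* Multiplicative ℤ) :
    (MonoidHom.toAdditiveLeft f).ker = Subgroup.toAddSubgroup f.ker := by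
  ext x; rfl

/-- **Local norm index, cyclic case, from the unit data `(T)`**, in `Eˣ`:
`[ (Eˣ)^σ : N Eˣ ] = [E : K]`. -/
theorem relIndex_Nm_range (σ : E ≃ₐ[K] E) (hσ : ∀ τ, τ ∈ Subgroup.zpowers σ)
    (v : Eˣ →* Multiplicative ℤ) (hv : Function.Surjective v)
    (hvG : ∀ (τ : E ≃ₐ[K] E) (x : Eˣ), v (τ • x) = v x)
    (V : ℕ → Subgroup Eˣ) (hVU : V 0 ≤ v.ker) (hfin : (V 0).relIndex v.ker ≠ 0)
    (hstab : ∀ i (τ : E ≃ₐ[K] E), ∀ x ∈ V i, τ • x ∈ V i)
    (hsep : ∀ x, (∀ i, x ∈ V i) → x = 1)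
    (hcomplete : ∀ a : ℕ → Eˣ, (∀ i, a i ∈ V i) →
      ∃ s ∈ V 0, ∀ i, s / ∏ j ∈ Finset.range i, a j ∈ V i)
    (hstepDN : ∀ i, ∀ x ∈ V i, σ • x = x →
      ∃ y ∈ V i, x / (∏ τ : E ≃ₐ[K] E, τ • y) ∈ V (i + 1))
    (hstepND : ∀ i, ∀ x ∈ V i, (∏ τ : E ≃ₐ[K] E, τ • x) = 1 →
      ∃ y ∈ V i, x / (σ • y / y) ∈ V (i + 1)) :
    (Nm (K := K) (E := E)).range.relIndex (Dm σ).ker = Module.finrank K E := by
  classical
  set D : Additive Eˣ →+ Additive Eˣ := MonoidHom.toAdditive (Dm σ) with hD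
  set N : Additive Eˣ →+ Additive Eˣ := MonoidHom.toAdditive (Nm (K := K) (E := E)) with hN
  set ord : Additive Eˣ →+ ℤ := MonoidHom.toAdditiveLeft v with hord
  set W : ℕ → AddSubgroup (Additive Eˣ) := fun i => Subgroup.toAddSubgroup (V i) with hW
  have hn : Module.finrank K E ≠ 0 := Module.finrank_pos.ne'
  have hDN : ∀ x, D (N x) = 0 := fun x => congrArg Additive.ofMul (Dm_Nm σ x.toMul)
  have hND : ∀ x, N (D x) = 0 := fun x => congrArg Additive.ofMul (Nm_Dm σ x.toMul)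
  have hordS : Function.Surjective ord := fun z => by
    obtain ⟨x, hx⟩ := hv (Multiplicative.ofAdd z)
    exact ⟨Additive.ofMul x, congrArg Multiplicative.toAdd hx⟩
  have hordD : ∀ x, ord (D x) = 0 := fun x => by
    show Multiplicative.toAdd (v (Dm σ x.toMul)) = 0
    rw [Dm_apply, map_div, hvG, div_self']; rfl
  have hordN : ∀ x, ord (N x) = (Module.finrank K E : ℤ) * ord x := fun x => by
    show Multiplicative.toAdd (v (Nm (K := K) x.toMul)) = _ * Multiplicative.toAdd (v x.toMul)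
    rw [Nm_apply, map_prod]
    simp only [hvG, Finset.prod_const, Finset.card_univ, toAdd_pow]
    rw [← Nat.card_eq_fintype_card, IsGalois.card_aut_eq_finrank]
    simp
  have h90 : ∀ x, N x = 0 → ∃ y, D y = x := fun x hx => by
    obtain ⟨y, hy⟩ := exists_Dm_eq_of_Nm_eq_one σ hσ x.toMul (congrArg Additive.toMul hx)
    exact ⟨Additive.ofMul y, congrArg Additive.ofMul hy⟩
  have hWU : W 0 ≤ ord.ker := by
    rw [hord, toAdditiveLeft_ker]; exact fun x hx => hVU hx
  have hWI : (W 0).relIndex ord.ker ≠ 0 := by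
    rw [hord, toAdditiveLeft_ker]; exact hfin
  have hNm_mem : ∀ i, ∀ x ∈ V i, Nm (K := K) x ∈ V i := fun i x hx => by
    rw [Nm_apply]; exact Subgroup.prod_mem _ (fun τ _ => hstab i τ x hx)
  have hDm_mem : ∀ i, ∀ x ∈ V i, Dm σ x ∈ V i := fun i x hx => by
    rw [Dm_apply]; exact (V i).div_mem (hstab i σ x hx) hx
  have hDW : ∀ i, (W i).map D ≤ W i := by
    rintro i _ ⟨x, hx, rfl⟩; exact hDm_mem i x.toMul hx
  have hNW : ∀ i, (W i).map N ≤ W i := by
    rintro i _ ⟨x, hx, rfl⟩; exact hNm_mem i x.toMul hx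
  have hsepW : ∀ x, (∀ i, x ∈ W i) → x = 0 := fun x hx =>
    congrArg Additive.ofMul (hsep x.toMul hx)
  have hcompleteW : ∀ a : ℕ → Additive Eˣ, (∀ i, a i ∈ W i) →
      ∃ s ∈ W 0, ∀ i, s - ∑ j ∈ Finset.range i, a j ∈ W i := fun a ha => by
    obtain ⟨s, hs0, hs⟩ := hcomplete (fun i => (a i).toMul) ha
    refine ⟨Additive.ofMul s, hs0, fun i => ?_⟩
    have := hs i
    have e : (Additive.ofMul s - ∑ j ∈ Finset.range i, a j : Additive Eˣ)
        = Additive.ofMul (s / ∏ j ∈ Finset.range i, (a j).toMul) := by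
      rw [ofMul_div, ofMul_prod]; simp
    rw [e]; exact this
  have hV0 : qa D N (W 0) = 1 :=
    Fermat.Agent.S55.CohTrivialApprox.qa_eq_one_of_filtration D N hDN W hNW hsepW hcompleteW
      (fun i x hx hDx => by
        have hx' : σ • x.toMul = x.toMul := by
          have := congrArg Additive.toMul hDx
          simpa [hD, Dm_apply, div_eq_one] using this
        obtain ⟨y, hy, hxy⟩ := hstepDN i x.toMul hx hx'
        refine ⟨Additive.ofMul y, hy, ?_⟩
        show x.toMul / Nm (K := K) y ∈ V (i + 1)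
        rw [Nm_apply]; exact hxy)
  have hV1 : qa N D (W 0) = 1 :=
    Fermat.Agent.S55.CohTrivialApprox.qa_eq_one_of_filtration N D hND W hDW hsepW hcompleteW
      (fun i x hx hNx => by
        have hx' : (∏ τ : E ≃ₐ[K] E, τ • x.toMul) = 1 := by
          have := congrArg Additive.toMul hNx
          simpa [hN, Nm_apply] using this
        obtain ⟨y, hy, hxy⟩ := hstepND i x.toMul hx hx'
        exact ⟨Additive.ofMul y, hy, hxy⟩)
  have key := Fermat.Agent.S55.LocalNormIndex.normIndex_eq (Module.finrank K E) D N ord hn hDN hND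
    hordS hordD hordN h90 (W 0) hWU hWI (hDW 0) (hNW 0) hV0 hV1
  have e1 : ((⊤ : AddSubgroup (Additive Eˣ)).map N) = Subgroup.toAddSubgroup (Nm (K := K) (E := E)).range := by
    ext x
    constructor
    · rintro ⟨y, -, rfl⟩; exact ⟨y.toMul, rfl⟩
    · rintro ⟨y, hy⟩; exact ⟨Additive.ofMul y, trivial, congrArg Additive.ofMul hy⟩
  rw [e1, hD, toAdditive_ker] at key
  exact key

/-- The inclusion `Kˣ → Eˣ`. -/
noncomputable def ι : Kˣ →* Eˣ := Units.map (algebraMap K E : K →* E)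

omit [FiniteDimensional K E] [IsGalois K E] in
lemma ι_injective : Function.Injective (ι (K := K) (E := E)) :=
  Units.map_injective (algebraMap K E).injective

/-- The norm on units. -/
noncomputable def normU : Eˣ →* Kˣ := Units.map (Algebra.norm K : E →* K)

lemma ι_normU (x : Eˣ) : ι (normU (K := K) x) = Nm (K := K) x := by
  ext
  simp [ι, normU, Nm_apply, Units.coe_prod, AlgEquiv.smul_units_def,
    Algebra.norm_eq_prod_automorphisms]

lemma Nm_range_eq : (Nm (K := K) (E := E)).range = (normU (K := K) (E := E)).range.map ι := by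
  ext x
  constructor
  · rintro ⟨y, rfl⟩; exact ⟨normU y, ⟨y, rfl⟩, ι_normU y⟩
  · rintro ⟨_, ⟨y, rfl⟩, rfl⟩; exact ⟨y, (ι_normU y).symm⟩

lemma Dm_ker_eq (σ : E ≃ₐ[K] E) (hσ : ∀ τ, τ ∈ Subgroup.zpowers σ) :
    (Dm σ).ker = (⊤ : Subgroup Kˣ).map ι := by
  ext x
  constructor
  · intro hx
    have hx1 : σ • x = x := by
      have : σ • x / x = 1 := hx
      exact div_eq_one.mp this
    have hfix : ∀ τ : E ≃ₐ[K] E, τ (x : E) = x := by
      intro τ
      obtain ⟨k, rfl⟩ := Subgroup.mem_zpowers_iff.mp (hσ τ)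
      have h2 : ∀ k : ℤ, (σ ^ k) • x = x := by
        intro k
        have hmem : σ ∈ MulAction.stabilizer (E ≃ₐ[K] E) x := hx1
        exact (Subgroup.zpow_mem _ hmem k)
      have := congrArg (fun u : Eˣ => (u : E)) (h2 k)
      simpa [AlgEquiv.smul_units_def] using this
    have hmem : (x : E) ∈ (⊥ : IntermediateField K E) := by
      rw [IsGalois.mem_bot_iff_fixed]
      exact hfix
    obtain ⟨a, ha⟩ := IntermediateField.mem_bot.mp hmem
    have ha0 : a ≠ 0 := by
      rintro rfl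
      rw [map_zero] at ha
      exact x.ne_zero ha.symm
    refine ⟨Units.mk0 a ha0, trivial, ?_⟩
    ext
    simpa [ι] using ha
  · rintro ⟨a, -, rfl⟩
    show σ • ι (K := K) (E := E) a / ι (K := K) (E := E) a = 1
    rw [div_eq_one]
    ext
    simp [ι, AlgEquiv.smul_units_def]

/-- **Local norm index, cyclic case, from the unit data `(T)`**: `[Kˣ : N_{E/K} Eˣ] = [E : K]`. -/
theorem index_norm_range (σ : E ≃ₐ[K] E) (hσ : ∀ τ, τ ∈ Subgroup.zpowers σ)
    (v : Eˣ →* Multiplicative ℤ) (hv : Function.Surjective v)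
    (hvG : ∀ (τ : E ≃ₐ[K] E) (x : Eˣ), v (τ • x) = v x)
    (V : ℕ → Subgroup Eˣ) (hVU : V 0 ≤ v.ker) (hfin : (V 0).relIndex v.ker ≠ 0)
    (hstab : ∀ i (τ : E ≃ₐ[K] E), ∀ x ∈ V i, τ • x ∈ V i)
    (hsep : ∀ x, (∀ i, x ∈ V i) → x = 1)
    (hcomplete : ∀ a : ℕ → Eˣ, (∀ i, a i ∈ V i) →
      ∃ s ∈ V 0, ∀ i, s / ∏ j ∈ Finset.range i, a j ∈ V i)
    (hstepDN : ∀ i, ∀ x ∈ V i, σ • x = x →
      ∃ y ∈ V i, x / (∏ τ : E ≃ₐ[K] E, τ • y) ∈ V (i + 1))
    (hstepND : ∀ i, ∀ x ∈ V i, (∏ τ : E ≃ₐ[K] E, τ • x) = 1 →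
      ∃ y ∈ V i, x / (σ • y / y) ∈ V (i + 1)) :
    (Units.map (Algebra.norm K : E →* K)).range.index = Module.finrank K E := by
  have key := relIndex_Nm_range σ hσ v hv hvG V hVU hfin hstab hsep hcomplete hstepDN hstepND
  rw [Nm_range_eq, Dm_ker_eq σ hσ, Subgroup.relIndex_map_map_of_injective _ _ ι_injective,
    Subgroup.relIndex_top_right] at key
  exact key

end main

section cohomology

open CategoryTheory Rep Rep.FiniteCyclicGroup

universe u

/-- For a finite cyclic group `G = ⟨g⟩` and `A : Rep k G`: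
`|H²(G, A)| = [ker (ρ g - 1) : range N]` (both sides `0` when infinite). -/
theorem card_H2_eq_relIndex {k G : Type u} [CommRing k] [CommGroup G] [Fintype G] (A : Rep k G)
    (g : G) (hg : ∀ x, x ∈ Subgroup.zpowers g) :
    Nat.card (groupCohomology A 2) =
      (LinearMap.range A.norm.hom.toLinearMap).toAddSubgroup.relIndex
        (LinearMap.ker (applyAsHom A g - 𝟙 A).hom.toLinearMap).toAddSubgroup := by
  have hev : Even 2 := even_two
  set π := groupCohomologyπEven A g hg 2 hev with hπ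
  have hsurj : Function.Surjective π := by
    rw [← ModuleCat.epi_iff_surjective]
    rw [hπ]
    unfold groupCohomologyπEven
    have h1 : IsIso (ShortComplex.moduleCatCyclesIso (normHomCompSub A g)).inv := inferInstance
    have h2 : Epi (ShortComplex.moduleCatCyclesIso (normHomCompSub A g)).inv := inferInstance
    have h3 : Epi ((normHomCompSub A g).homologyπ ≫ (groupCohomologyIsoEven A g hg 2 hev).inv) :=
      epi_comp _ _
    refine @epi_comp _ _ _ _ _ _ ?_ _ ?_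
    · exact h2
    · exact h3
  let f : (LinearMap.ker (applyAsHom A g - 𝟙 A).hom.toLinearMap) →+ groupCohomology A 2 :=
    (π.hom : _ →ₗ[k] _).toAddMonoidHom
  have hfs : Function.Surjective f := hsurj
  have hker : f.ker = ((LinearMap.range A.norm.hom.toLinearMap).toAddSubgroup).addSubgroupOf
      (LinearMap.ker (applyAsHom A g - 𝟙 A).hom.toLinearMap).toAddSubgroup := by
    ext x
    exact groupCohomologyπEven_eq_zero_iff A g hg 2 hev x
  have e := QuotientAddGroup.quotientKerEquivOfSurjective f hfs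
  rw [← Nat.card_congr e.toEquiv, hker]
  rfl

variable [IsGalois K E]

omit [IsGalois K E] in
lemma norm_ofAlgebraAutOnUnits_apply (x : Eˣ) :
    ((Rep.ofAlgebraAutOnUnits K E).norm.hom.toLinearMap (Additive.ofMul x : Additive Eˣ) :
      Additive Eˣ) = Additive.ofMul (Nm (K := K) x) := by
  rw [Nm_apply, ofMul_prod]
  exact (LinearMap.sum_apply _ _ _).trans rfl

omit [FiniteDimensional K E] [IsGalois K E] in
attribute [local instance] IsCyclic.commGroup in
lemma sub_ofAlgebraAutOnUnits_apply [IsCyclic (E ≃ₐ[K] E)] (σ : E ≃ₐ[K] E) (x : Eˣ) :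
    ((applyAsHom (Rep.ofAlgebraAutOnUnits K E) σ - 𝟙 _).hom.toLinearMap
      (Additive.ofMul x : Additive Eˣ) : Additive Eˣ) = Additive.ofMul (Dm σ x) := by
  rw [Dm_apply, ofMul_div]
  simp only [sub_hom, Rep.hom_id,
    Representation.IntertwiningMap.sub_toLinearMap, Representation.IntertwiningMap.toLinearMap_id]
  rfl

attribute [local instance] IsCyclic.commGroup in
/-- For `E/K` cyclic with generator `σ`: `|H²(Gal(E/K), Eˣ)| = [(Eˣ)^σ : N Eˣ]`. -/
theorem card_H2_units_eq_relIndex (σ : E ≃ₐ[K] E) (hσ : ∀ τ, τ ∈ Subgroup.zpowers σ) :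
    Nat.card (groupCohomology.H2 (Rep.ofAlgebraAutOnUnits K E)) =
      (Nm (K := K) (E := E)).range.relIndex (Dm σ).ker := by
  have : IsCyclic (E ≃ₐ[K] E) := ⟨σ, hσ⟩
  have h := card_H2_eq_relIndex (Rep.ofAlgebraAutOnUnits K E) σ hσ
  have e1 : (LinearMap.range (Rep.ofAlgebraAutOnUnits K E).norm.hom.toLinearMap).toAddSubgroup
      = Subgroup.toAddSubgroup (Nm (K := K) (E := E)).range := by
    ext x
    constructor
    · rintro ⟨y, rfl⟩
      exact ⟨Additive.toMul y, (congrArg Additive.toMul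
        (norm_ofAlgebraAutOnUnits_apply (K := K) (Additive.toMul y))).symm⟩
    · rintro ⟨y, hy⟩
      exact ⟨Additive.ofMul y, (norm_ofAlgebraAutOnUnits_apply (K := K) y).trans
        (congrArg Additive.ofMul hy)⟩
  have e2 : (LinearMap.ker
      (applyAsHom (Rep.ofAlgebraAutOnUnits K E) σ - 𝟙 _).hom.toLinearMap).toAddSubgroup
      = Subgroup.toAddSubgroup (Dm σ).ker := by
    ext x
    have h1 := sub_ofAlgebraAutOnUnits_apply (K := K) σ (Additive.toMul x)
    constructor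
    · intro hx
      have hx' : (applyAsHom (Rep.ofAlgebraAutOnUnits K E) σ - 𝟙 _).hom.toLinearMap x = 0 := hx
      exact congrArg Additive.toMul (h1.symm.trans hx')
    · intro hx
      have hx' : Dm σ (Additive.toMul x) = 1 := hx
      exact h1.trans (congrArg Additive.ofMul hx')
  exact h.trans (congrArg₂ AddSubgroup.relIndex e1 e2)

/-- **`|H²(Gal(E/K), Eˣ)| = [E : K]` for cyclic `E/K`, from the unit data `(T)`.** -/
theorem card_H2_units (σ : E ≃ₐ[K] E) (hσ : ∀ τ, τ ∈ Subgroup.zpowers σ)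
    (v : Eˣ →* Multiplicative ℤ) (hv : Function.Surjective v)
    (hvG : ∀ (τ : E ≃ₐ[K] E) (x : Eˣ), v (τ • x) = v x)
    (V : ℕ → Subgroup Eˣ) (hVU : V 0 ≤ v.ker) (hfin : (V 0).relIndex v.ker ≠ 0)
    (hstab : ∀ i (τ : E ≃ₐ[K] E), ∀ x ∈ V i, τ • x ∈ V i)
    (hsep : ∀ x, (∀ i, x ∈ V i) → x = 1)
    (hcomplete : ∀ a : ℕ → Eˣ, (∀ i, a i ∈ V i) →
      ∃ s ∈ V 0, ∀ i, s / ∏ j ∈ Finset.range i, a j ∈ V i)
    (hstepDN : ∀ i, ∀ x ∈ V i, σ • x = x →
      ∃ y ∈ V i, x / (∏ τ : E ≃ₐ[K] E, τ • y) ∈ V (i + 1))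
    (hstepND : ∀ i, ∀ x ∈ V i, (∏ τ : E ≃ₐ[K] E, τ • x) = 1 →
      ∃ y ∈ V i, x / (σ • y / y) ∈ V (i + 1)) :
    Nat.card (groupCohomology.H2 (Rep.ofAlgebraAutOnUnits K E)) = Module.finrank K E := by
  rw [card_H2_units_eq_relIndex σ hσ]
  exact relIndex_Nm_range σ hσ v hv hvG V hVU hfin hstab hsep hcomplete hstepDN hstepND

end cohomology

end Fermat.Agent.S55.Local.NormIndexGlue
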