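/-
S55 / local class formation (helper26): the units of an UNRAMIFIED extension are cohomologically
trivial, in the abstract (LF) setting of `Local/Basic.lean` / `Local/Blocks.lean`.

* `isZero_even_of_forall`, `isZero_odd_of_forall` : vanishing criteria for the cohomology of a
  finite cyclic group (Mathlib `Rep.FiniteCyclicGroup`).
* `unitsSub E`, `unitsRep K E : Rep ℤ (E ≃ₐ[K] E)`, `unitsIncl K E : unitsRep K E ⟶ Eˣ`.
* `isZero_unitsRep hunr i (hi : 0 < i)` : `Hⁱ(Gal(E/K), U_E) = 0` for all `i > 0`, `E/K` unramified.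
* cocycle forms in degree `2` and `1`.
-/
import Mathlib
import Fermat.Agent.S55.Local.Basic
import Fermat.Agent.S55.Local.Blocks
import Fermat.Agent.S55.Local.UnramLFCyclic
import Fermat.Agent.S55.Local.NormIndexGlue

set_option autoImplicit false
set_option linter.unusedSectionVars false

open CategoryTheory CategoryTheory.Limits

namespace Fermat.Agent.S55.Local.UnramUnitsCoh

open Fermat.Agent.S55.Local Fermat.Agent.S55.Local.Blocks
open Fermat.Agent.S55.Local.UnramLF Fermat.Agent.S55.Local.UnramLFCyclic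

section Cyclic

open Rep Rep.FiniteCyclicGroup

universe u

variable {k G : Type u} [CommRing k] [CommGroup G] [Fintype G] (A : Rep k G) (g : G)
  (hg : ∀ x, x ∈ Subgroup.zpowers g)

include hg

/-- Even degrees: if every `g`-invariant element is a norm, `Hⁱ(G, A) = 0` (`i > 0` even). -/
theorem isZero_even_of_forall (i : ℕ) [NeZero i] (hi : Even i)
    (h : ∀ x : A, A.ρ g x = x → ∃ y : A, A.norm.hom y = x) :
    IsZero (groupCohomology A i) := by
  refine IsZero.of_iso ?_ (groupCohomologyIsoEven A g hg i hi)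
  rw [← ShortComplex.exact_iff_isZero_homology, ShortComplex.moduleCat_exact_iff]
  intro x hx
  have hx' : A.ρ g x = x := by
    have : (applyAsHom A g - 𝟙 A).hom x = 0 := hx
    rw [sub_hom] at this
    exact sub_eq_zero.mp this
  obtain ⟨y, hy⟩ := h x hx'
  exact ⟨y, hy⟩

/-- Odd degrees: if every element of norm `0` is of the form `g y - y`, `Hⁱ(G, A) = 0`
(`i` odd). -/
theorem isZero_odd_of_forall (i : ℕ) (hi : Odd i)
    (h : ∀ x : A, A.norm.hom x = 0 → ∃ y : A, A.ρ g y - y = x) :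
    IsZero (groupCohomology A i) := by
  refine IsZero.of_iso ?_ (groupCohomologyIsoOdd A g hg i hi)
  rw [← ShortComplex.exact_iff_isZero_homology, ShortComplex.moduleCat_exact_iff]
  intro x hx
  obtain ⟨y, hy⟩ := h x hx
  refine ⟨y, ?_⟩
  change (applyAsHom A g - 𝟙 A).hom y = x
  rw [sub_hom]
  exact hy

end Cyclic

section Units

variable (K E : Type) [NontriviallyNormedField K] [IsUltrametricDist K] [ProperSpace K]
  [NontriviallyNormedField E] [IsUltrametricDist E] [ProperSpace E]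
  [NormedAlgebra K E] [FiniteDimensional K E]

/-- The norm-one units of `E`. -/
def unitsSub : Subgroup Eˣ where
  carrier := {x | ‖(x : E)‖ = 1}
  one_mem' := by simp
  mul_mem' := fun {x y} hx hy => by
    change ‖((x * y : Eˣ) : E)‖ = 1
    rw [Units.val_mul, norm_mul, hx, hy, one_mul]
  inv_mem' := fun {x} hx => by
    change ‖((x⁻¹ : Eˣ) : E)‖ = 1
    rw [Units.val_inv_eq_inv_val, norm_inv, hx, inv_one]

variable {E} in
theorem mem_unitsSub {x : Eˣ} : x ∈ unitsSub E ↔ ‖(x : E)‖ = 1 := Iff.rfl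

variable {K E} in
theorem smul_mem_unitsSub (τ : E ≃ₐ[K] E) {x : Eˣ} (hx : x ∈ unitsSub E) :
    τ • x ∈ unitsSub E := by
  rw [mem_unitsSub, AlgEquiv.smul_units_def, Units.coe_map]
  change ‖τ (x : E)‖ = 1
  rw [norm_algEquiv_apply]
  exact hx

/-- The Galois action on the norm-one units. -/
instance unitsAction : MulDistribMulAction (E ≃ₐ[K] E) (unitsSub E) where
  smul τ x := ⟨τ • (x : Eˣ), smul_mem_unitsSub τ x.2⟩
  one_smul := fun _ => Subtype.ext (one_smul _ _)
  mul_smul := fun _ _ _ => Subtype.ext (mul_smul _ _ _)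
  smul_mul := fun _ _ _ => Subtype.ext (smul_mul' _ _ _)
  smul_one := fun _ => Subtype.ext (smul_one _)

variable {K E} in
@[simp] theorem coe_smul_unitsSub (τ : E ≃ₐ[K] E) (x : unitsSub E) :
    ((τ • x : unitsSub E) : Eˣ) = τ • (x : Eˣ) := rfl

/-- The norm-one units as a representation of `Gal(E/K)`. -/
noncomputable def unitsRep : Rep ℤ (E ≃ₐ[K] E) :=
  Rep.ofMulDistribMulAction (E ≃ₐ[K] E) (unitsSub E)

/-- The inclusion `U_E → Eˣ` as a morphism of representations. -/
noncomputable def unitsIncl : unitsRep K E ⟶ Rep.ofAlgebraAutOnUnits K E :=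
  Rep.ofHom ⟨(AddMonoidHom.toIntLinearMap
    (MonoidHom.toAdditive (unitsSub E).subtype) : Additive (unitsSub E) →ₗ[ℤ] Additive Eˣ),
    fun g => by ext x; rfl⟩

variable {K E}

theorem unitsRep_ρ_apply (τ : E ≃ₐ[K] E) (x : unitsSub E) :
    (unitsRep K E).ρ τ (Additive.ofMul x) = Additive.ofMul (τ • x) := rfl

theorem unitsRep_norm_apply (x : unitsSub E) :
    ((unitsRep K E).norm.hom (Additive.ofMul x) : Additive (unitsSub E))
      = Additive.ofMul (∏ τ : E ≃ₐ[K] E, τ • x) := by
  rw [ofMul_prod]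
  exact (LinearMap.sum_apply _ _ _).trans rfl

theorem coe_prod_smul (x : unitsSub E) :
    (((∏ τ : E ≃ₐ[K] E, τ • x : unitsSub E) : Eˣ) : E) = ∏ τ : E ≃ₐ[K] E, τ ((x : Eˣ) : E) := by
  have h1 : ((∏ τ : E ≃ₐ[K] E, τ • x : unitsSub E) : Eˣ) = ∏ τ : E ≃ₐ[K] E, τ • (x : Eˣ) := by
    rw [← Subgroup.coe_subtype, map_prod]
    rfl
  rw [h1, Units.coe_prod]
  rfl

variable [IsGalois K E]

attribute [local instance] IsCyclic.commGroup in
/-- **Cohomological triviality of the units of an unramified extension**: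
`Hⁱ(Gal(E/K), U_E) = 0` for all `i > 0`. -/
theorem isZero_unitsRep (hunr : IsUnram K E) (i : ℕ) (hi : 0 < i) :
    IsZero (groupCohomology (unitsRep K E) i) := by
  have : IsCyclic (E ≃ₐ[K] E) := isCyclic_of_isUnram hunr
  obtain ⟨σ, hσ⟩ := (isCyclic_of_isUnram hunr).exists_zpow_surjective
  have hσ' : ∀ τ, τ ∈ Subgroup.zpowers σ := fun τ => hσ τ
  rcases Nat.even_or_odd i with hev | hodd
  · have : NeZero i := ⟨hi.ne'⟩
    refine isZero_even_of_forall (unitsRep K E) σ hσ' i hev ?_
    intro x0 hx0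
    -- `x` is a `σ`-invariant unit, hence comes from `K`
    let x : unitsSub E := Additive.toMul (show Additive (unitsSub E) from x0)
    have hxx : x0 = Additive.ofMul x := rfl
    have hx : (unitsRep K E).ρ σ (Additive.ofMul x) = Additive.ofMul x := hx0
    rw [hxx]
    rw [unitsRep_ρ_apply] at hx
    have hx1 : σ • (x : Eˣ) = (x : Eˣ) := by
      have := congrArg (fun z : Additive (unitsSub E) => ((Additive.toMul z : unitsSub E) : Eˣ)) hx
      simpa using this
    have hker : (x : Eˣ) ∈ (NormIndexGlue.Dm σ).ker := by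
      rw [MonoidHom.mem_ker, NormIndexGlue.Dm_apply, hx1, div_self']
    rw [NormIndexGlue.Dm_ker_eq σ hσ'] at hker
    obtain ⟨u, -, hu⟩ := hker
    have hu1 : ‖(u : K)‖ = 1 := by
      have h1 : ‖((x : Eˣ) : E)‖ = 1 := x.2
      rw [← hu] at h1
      change ‖algebraMap K E (u : K)‖ = 1 at h1
      rwa [norm_algebraMap'] at h1
    obtain ⟨y, hy1, hy⟩ := exists_unit_norm_eq hunr σ hσ' u hu1
    refine ⟨Additive.ofMul (⟨y, mem_unitsSub.mpr hy1⟩ : unitsSub E), ?_⟩
    rw [unitsRep_norm_apply]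
    congr 1
    apply Subtype.ext
    apply Units.ext
    rw [coe_prod_smul, ← Algebra.norm_eq_prod_automorphisms, ← hu]
    change algebraMap K E (Algebra.norm K (y : E)) = algebraMap K E (u : K)
    rw [hy]
  · refine isZero_odd_of_forall (unitsRep K E) σ hσ' i hodd ?_
    intro x0 hx0
    let x : unitsSub E := Additive.toMul (show Additive (unitsSub E) from x0)
    have hxx : x0 = Additive.ofMul x := rfl
    have hx : ((unitsRep K E).norm.hom (Additive.ofMul x) : Additive (unitsSub E)) = 0 := hx0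
    rw [hxx]
    rw [unitsRep_norm_apply] at hx
    have hx1 : (∏ τ : E ≃ₐ[K] E, τ • x : unitsSub E) = 1 :=
      congrArg (fun z : Additive (unitsSub E) => Additive.toMul z) hx
    have hN : Algebra.norm K (((x : Eˣ) : E)) = 1 := by
      apply FaithfulSMul.algebraMap_injective K E
      rw [Algebra.norm_eq_prod_automorphisms, ← coe_prod_smul, hx1, map_one]
      rfl
    obtain ⟨z, hz1, hz⟩ := exists_div_eq_of_norm_eq_one hunr σ hσ' (x : Eˣ) x.2 hN
    let z' : unitsSub E := ⟨z, mem_unitsSub.mpr hz1⟩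
    refine ⟨Additive.ofMul z', ?_⟩
    rw [unitsRep_ρ_apply]
    change Additive.ofMul ((σ • z') / z') = Additive.ofMul x
    congr 1
    apply Subtype.ext
    apply Units.ext
    change ((σ • z / z : Eˣ) : E) = ((x : Eˣ) : E)
    rw [Units.val_div_eq_div_val, AlgEquiv.smul_units_def, Units.coe_map]
    change σ (z : E) / (z : E) = _
    rw [hz, mul_div_assoc, div_self z.ne_zero, mul_one]

/-! ### Cocycle forms -/

open groupCohomology

/-- The inclusion `Additive U_E → Additive Eˣ`. -/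
def inclAdd : Additive (unitsSub E) →+ Additive Eˣ :=
  MonoidHom.toAdditive (unitsSub E).subtype

theorem inclAdd_injective : Function.Injective (inclAdd (E := E)) := by
  intro a b h
  have : ((Additive.toMul a : unitsSub E) : Eˣ) = ((Additive.toMul b : unitsSub E) : Eˣ) := h
  exact congrArg Additive.ofMul (Subtype.ext this)

omit [IsGalois K E] in
theorem inclAdd_ρ (g : E ≃ₐ[K] E) (a : Additive (unitsSub E)) :
    inclAdd ((unitsRep K E).ρ g a) = (Rep.ofAlgebraAutOnUnits K E).ρ g (inclAdd a) := rfl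

omit [IsGalois K E] in
theorem inclAdd_add (a b : (unitsRep K E)) : inclAdd (a + b) = inclAdd a + inclAdd b := rfl

omit [IsGalois K E] in
theorem inclAdd_sub (a b : (unitsRep K E)) : inclAdd (a - b) = inclAdd a - inclAdd b := rfl

/-- lift a unit-valued element. -/
def liftUnit (a : Additive Eˣ) (ha : ‖((Additive.toMul a : Eˣ) : E)‖ = 1) :
    Additive (unitsSub E) :=
  Additive.ofMul (⟨Additive.toMul a, mem_unitsSub.mpr ha⟩ : unitsSub E)

theorem inclAdd_liftUnit (a : Additive Eˣ) (ha : ‖((Additive.toMul a : Eˣ) : E)‖ = 1) :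
    inclAdd (liftUnit a ha) = a := rfl

theorem norm_inclAdd (a : Additive (unitsSub E)) :
    ‖((Additive.toMul (inclAdd a) : Eˣ) : E)‖ = 1 := (Additive.toMul a).2

/-- **Degree 2, cocycle form**: for `E/K` unramified, a `2`-cocycle of `Gal(E/K)` in `Eˣ` with
norm-one values is the coboundary of a `1`-cochain with norm-one values. -/
theorem unit_cocycle₂_eq_d (hunr : IsUnram K E)
    (f : (E ≃ₐ[K] E) × (E ≃ₐ[K] E) → Additive Eˣ)
    (hf : f ∈ cocycles₂ (Rep.ofAlgebraAutOnUnits K E))
    (hunit : ∀ p, ‖((Additive.toMul (f p) : Eˣ) : E)‖ = 1) :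
    ∃ x : (E ≃ₐ[K] E) → Additive Eˣ, (∀ g, ‖((Additive.toMul (x g) : Eˣ) : E)‖ = 1) ∧
      (d₁₂ (Rep.ofAlgebraAutOnUnits K E)).hom x = f := by
  set f' : (E ≃ₐ[K] E) × (E ≃ₐ[K] E) → (unitsRep K E) := fun p => liftUnit (f p) (hunit p)
    with hf'def
  have hf' : f' ∈ cocycles₂ (unitsRep K E) := by
    rw [mem_cocycles₂_iff (A := unitsRep K E)]
    intro g h j
    apply inclAdd_injective
    have := (mem_cocycles₂_iff (A := Rep.ofAlgebraAutOnUnits K E) f).mp hf g h j
    rw [inclAdd_add (K := K), inclAdd_add (K := K), inclAdd_ρ]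
    exact this
  have hzero : H2π (unitsRep K E) ⟨f', hf'⟩ = 0 := by
    have hsub : Subsingleton (H2 (unitsRep K E)) :=
      ModuleCat.subsingleton_of_isZero (isZero_unitsRep hunr 2 (by norm_num))
    exact Subsingleton.elim _ _
  rw [H2π_eq_zero_iff] at hzero
  obtain ⟨x', hx'⟩ := hzero
  refine ⟨fun g => inclAdd (x' g), fun g => norm_inclAdd (x' g), ?_⟩
  funext p
  have h1 := congrFun hx' p
  rw [d₁₂_hom_apply] at h1 ⊢
  have h2 := congrArg inclAdd h1
  rw [inclAdd_add (K := K), inclAdd_sub (K := K), inclAdd_ρ] at h2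
  exact h2

/-- **Degree 1, cocycle form**: for `E/K` unramified, a `1`-cocycle of `Gal(E/K)` in `Eˣ` with
norm-one values is the coboundary of a norm-one element. -/
theorem unit_cocycle₁_eq_d (hunr : IsUnram K E)
    (f : (E ≃ₐ[K] E) → Additive Eˣ)
    (hf : f ∈ cocycles₁ (Rep.ofAlgebraAutOnUnits K E))
    (hunit : ∀ g, ‖((Additive.toMul (f g) : Eˣ) : E)‖ = 1) :
    ∃ a : Additive Eˣ, ‖((Additive.toMul a : Eˣ) : E)‖ = 1 ∧
      (d₀₁ (Rep.ofAlgebraAutOnUnits K E)).hom a = f := by
  set f' : (E ≃ₐ[K] E) → (unitsRep K E) := fun g => liftUnit (f g) (hunit g) with hf'def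
  have hf' : f' ∈ cocycles₁ (unitsRep K E) := by
    rw [mem_cocycles₁_iff (A := unitsRep K E)]
    intro g h
    apply inclAdd_injective
    have := (mem_cocycles₁_iff (A := Rep.ofAlgebraAutOnUnits K E) f).mp hf g h
    rw [inclAdd_add (K := K), inclAdd_ρ]
    exact this
  have hzero : H1π (unitsRep K E) ⟨f', hf'⟩ = 0 := by
    have hsub : Subsingleton (H1 (unitsRep K E)) :=
      ModuleCat.subsingleton_of_isZero (isZero_unitsRep hunr 1 (by norm_num))
    exact Subsingleton.elim _ _
  rw [H1π_eq_zero_iff] at hzero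
  obtain ⟨a', ha'⟩ := hzero
  refine ⟨inclAdd a', norm_inclAdd a', ?_⟩
  funext g
  have h1 := congrFun ha' g
  rw [d₀₁_hom_apply] at h1 ⊢
  have h2 := congrArg inclAdd h1
  rw [inclAdd_sub (K := K), inclAdd_ρ] at h2
  exact h2

end Units

end Fermat.Agent.S55.Local.UnramUnitsCoh
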