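/-
S55 / local class formation (helper26): complements to `Local/UnramUnitsCoh.lean`
(requested by helper56, `G.semilocal.subCoind` / `UnitClassUnram`):
the inclusion `unitsIncl K E : unitsRep K E ⟶ Eˣ` is injective on carriers and its range is
exactly the set of norm-one units.
-/
import Mathlib
import Fermat.Agent.S55.Local.UnramUnitsCoh

set_option autoImplicit false
set_option linter.unusedSectionVars false

open CategoryTheory CategoryTheory.Limits

namespace Fermat.Agent.S55.Local.UnramUnitsCoh2

open Fermat.Agent.S55.Local Fermat.Agent.S55.Local.Blocks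
open Fermat.Agent.S55.Local.UnramUnitsCoh

variable {K E : Type} [NontriviallyNormedField K] [IsUltrametricDist K] [ProperSpace K]
  [NontriviallyNormedField E] [IsUltrametricDist E] [ProperSpace E]
  [NormedAlgebra K E] [FiniteDimensional K E]

/-- On carriers, `unitsIncl` is the inclusion `inclAdd`. -/
theorem unitsIncl_hom_apply (a : unitsRep K E) :
    (unitsIncl K E).hom a = inclAdd (E := E) a := rfl

/-- `unitsIncl` applied to `ofMul x` is `ofMul (x : Eˣ)`. -/
theorem unitsIncl_hom_ofMul (x : unitsSub E) :
    (unitsIncl K E).hom (Additive.ofMul x : Additive (unitsSub E))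
      = (Additive.ofMul (x : Eˣ) : Additive Eˣ) := rfl

/-- The inclusion `U_E → Eˣ` is injective. -/
theorem unitsIncl_injective : Function.Injective (unitsIncl K E).hom := by
  intro a b h
  exact inclAdd_injective (E := E) h

/-- Values of `unitsIncl` have norm one. -/
theorem norm_unitsIncl (a : unitsRep K E) :
    ‖((Additive.toMul (show Additive Eˣ from (unitsIncl K E).hom a) : Eˣ) : E)‖ = 1 :=
  norm_inclAdd (E := E) a

/-- The range of `unitsIncl` is the set of norm-one units (element form). -/
theorem mem_range_unitsIncl_iff (b : Rep.ofAlgebraAutOnUnits K E) :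
    b ∈ Set.range (unitsIncl K E).hom ↔
      ‖((Additive.toMul (show Additive Eˣ from b) : Eˣ) : E)‖ = 1 := by
  constructor
  · rintro ⟨a, rfl⟩
    exact norm_unitsIncl a
  · intro hb
    exact ⟨liftUnit (show Additive Eˣ from b) hb, rfl⟩

/-- The range of `unitsIncl` is the set of norm-one units (`ofMul` form). -/
theorem ofMul_mem_range_unitsIncl_iff (u : Eˣ) :
    (Additive.ofMul u : Additive Eˣ) ∈ Set.range (unitsIncl K E).hom ↔ ‖(u : E)‖ = 1 :=
  mem_range_unitsIncl_iff (K := K) (E := E) (Additive.ofMul u : Additive Eˣ)

/-- The range of `unitsIncl`, as a set. -/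
theorem range_unitsIncl :
    Set.range (unitsIncl K E).hom
      = {b | ‖((Additive.toMul (show Additive Eˣ from b) : Eˣ) : E)‖ = 1} := by
  ext b
  exact mem_range_unitsIncl_iff b

/-- Same statements for the underlying linear map's range (as a submodule). -/
theorem mem_linearMap_range_unitsIncl_iff (b : Rep.ofAlgebraAutOnUnits K E) :
    b ∈ LinearMap.range (unitsIncl K E).hom.toLinearMap ↔
      ‖((Additive.toMul (show Additive Eˣ from b) : Eˣ) : E)‖ = 1 := by
  rw [LinearMap.mem_range]
  exact mem_range_unitsIncl_iff (K := K) (E := E) b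

end Fermat.Agent.S55.Local.UnramUnitsCoh2
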