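/-
S55 / Local — CONSUMER FORM of the power index (helper11): for ANY normed field `K` that is a
finite-dimensional normed `ℚ_q`-algebra (e.g. `↥E`, `E : IntermediateField ℚ_[q] (PadicAlgCl q)`
finite over `ℚ_q`, with Mathlib's subfield norm) and containing a primitive `p`-th root of unity:

  `index_pow_wild : [Kˣ : Kˣᵖ] = p ^ ([K : ℚ_p] + 2)`   (`q = p`)
  `index_pow_tame : [Kˣ : Kˣᵖ] = p ^ 2`                 (`q ≠ p`)
  `index_pow_le   : [Kˣ : Kˣᵖ] ≤ p ^ (2 + if q = p then [K : ℚ_q] else 0)`,  `index_pow_ne_zero`.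

The statements do not mention the norm, so no instance juggling is needed on the consumer side.
(`PowIndexProof.powIndex` + `LocalDegreeIndex` + `LocalDatum` instances.)
-/
import Mathlib
import Fermat.Agent.S55.Local.LocalDegreeIndex
import Fermat.Agent.S55.Local.PowIndexProof
import Fermat.Agent.S55.Local.LocalDatum

set_option autoImplicit false
set_option linter.unusedSectionVars false

open Module

namespace Fermat.Agent.S55.Local.PowIndexConcrete

open Fermat.Agent.S55.Local

variable (q p : ℕ) [hq : Fact q.Prime] [hp : Fact p.Prime]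
variable (K : Type) [NormedField K] [NormedAlgebra ℚ_[q] K] [FiniteDimensional ℚ_[q] K]

/-- `q = p`, `μ_p ⊆ K`: `[Kˣ : Kˣᵖ] = p ^ ([K : ℚ_p] + 2)`, for ANY normed field `K` which is a
finite-dimensional normed `ℚ_p`-algebra (e.g. `↥E`, `E : IntermediateField ℚ_[p] (PadicAlgCl p)`). -/
theorem index_pow_wild (p : ℕ) [hp : Fact p.Prime] (K : Type) [NormedField K]
    [NormedAlgebra ℚ_[p] K] [FiniteDimensional ℚ_[p] K] {ζ : K} (hζ : IsPrimitiveRoot ζ p) :
    (powMonoidHom p : Kˣ →* Kˣ).range.index = p ^ (finrank ℚ_[p] K + 2) := by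
  let _ := LocalDatum.nontriviallyNormedField p K
  have := LocalDatum.isUltrametricDist p K
  have := LocalDatum.properSpace p K
  exact LocalDegreeIndex.powIndex_padic_of_primitiveRoot p K PowIndexProof.powIndex hζ

/-- `q ≠ p`, `μ_p ⊆ K`: `[Kˣ : Kˣᵖ] = p ^ 2`. -/
theorem index_pow_tame (hqp : q ≠ p) {ζ : K} (hζ : IsPrimitiveRoot ζ p) :
    (powMonoidHom p : Kˣ →* Kˣ).range.index = p ^ 2 := by
  let _ := LocalDatum.nontriviallyNormedField q K
  have := LocalDatum.isUltrametricDist q K
  have := LocalDatum.properSpace q K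
  have : CharZero K := (RingHom.charZero_iff (algebraMap ℚ_[q] K).injective).mp inferInstance
  have hpK : ‖(p : K)‖ = 1 := by
    rw [← map_natCast (algebraMap ℚ_[q] K), norm_algebraMap', Padic.norm_natCast_eq_one_iff]
    exact (Nat.coprime_primes hq.out hp.out).mpr hqp
  exact LocalDegreeIndex.powIndex_tame_of_primitiveRoot K PowIndexProof.powIndex p hpK hζ

/-- Uniform upper bound used by count (C6)[b]. -/
theorem index_pow_le {ζ : K} (hζ : IsPrimitiveRoot ζ p) :
    (powMonoidHom p : Kˣ →* Kˣ).range.index ≤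
      p ^ (2 + if q = p then finrank ℚ_[q] K else 0) := by
  by_cases h : q = p
  · subst h
    rw [if_pos rfl, index_pow_wild _ K hζ, add_comm]
  · rw [if_neg h, add_zero, index_pow_tame q p K h hζ]

include q in
theorem index_pow_ne_zero {ζ : K} (hζ : IsPrimitiveRoot ζ p) :
    (powMonoidHom p : Kˣ →* Kˣ).range.index ≠ 0 := by
  by_cases h : q = p
  · subst h
    rw [index_pow_wild _ K hζ]
    exact pow_ne_zero _ hp.out.ne_zero
  · rw [index_pow_tame q p K h hζ]
    exact pow_ne_zero _ hp.out.ne_zero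

example (E : IntermediateField ℚ_[q] (PadicAlgCl q)) [FiniteDimensional ℚ_[q] E] {ζ : E}
    (hζ : IsPrimitiveRoot ζ p) :
    (powMonoidHom p : (↥E)ˣ →* (↥E)ˣ).range.index ≤
      p ^ (2 + if q = p then finrank ℚ_[q] E else 0) :=
  index_pow_le q p E hζ

end Fermat.Agent.S55.Local.PowIndexConcrete
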