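/-
S55 / LOCAL block (acting sub-architect helper59): closed Props of the local class formation, in
language (B): finite extensions of `ℚ_[q]` inside `PadicAlgCl q`, Mathlib group cohomology of
`Gal(E/K)` acting on `Eˣ` (`Rep.ofAlgebraAutOnUnits K E`).

SETTING: `q` prime, `K : IntermediateField ℚ_[q] (PadicAlgCl q)` finite over `ℚ_[q]`,
`E : IntermediateField K (PadicAlgCl q)` finite Galois over `K`.

* `LocalUnitDataStatement` (T): for cyclic `E/K` a valuation `v` and a cohomologically trivial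
  complete filtration `V` of an open subgroup of the units (target of `Local/Concrete.lean`).
* `NormIndexStatement` (L-b): `[Kˣ : N Eˣ] = [E : K]` for cyclic `E/K`.
* `H2CardCyclicStatement`: `|H²(Gal(E/K), Eˣ)| = [E : K]` for cyclic `E/K`.
* `H2CardStatement`, `H2CyclicStatement` (L-a): the same for ALL Galois `E/K`, and cyclicity.
* `H3VanishStatement` (L-c): `H³(Gal(E/K), Eˣ) = 0`.

The Galois action on units is written `Units.map (τ : E →* E) x` (= `τ • x` by `rfl`,
`AlgEquiv.smul_units_def`), which avoids an expensive instance search in this concrete setting.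

Proved here: `normIndex_of_unitData`, `h2CardCyclic_of_unitData`.
-/
import Mathlib
import Fermat.Agent.S55.Local.NormIndexGlue

set_option autoImplicit false

namespace Fermat.Agent.S55.Local.UnitDataBlocks

open Fermat.Agent.S55.Local.NormIndexGlue

/-- (T): the concrete unit data for a cyclic extension. -/
def LocalUnitDataStatement : Prop :=
  ∀ (q : ℕ) [Fact q.Prime] (K : IntermediateField ℚ_[q] (PadicAlgCl q))
    [FiniteDimensional ℚ_[q] K] (E : IntermediateField K (PadicAlgCl q))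
    [FiniteDimensional K E] [IsGalois K E]
    (σ : E ≃ₐ[K] E) (_hσ : ∀ τ, τ ∈ Subgroup.zpowers σ),
    ∃ (v : Eˣ →* Multiplicative ℤ) (V : ℕ → Subgroup Eˣ),
      Function.Surjective v ∧
      (∀ x : Eˣ, v x = 1 ↔ ‖((x : E) : PadicAlgCl q)‖ = 1) ∧
      (∀ (τ : E ≃ₐ[K] E) (x : Eˣ), v (Units.map (τ : E →* E) x) = v x) ∧
      V 0 ≤ v.ker ∧ (V 0).relIndex v.ker ≠ 0 ∧
      (∀ i (τ : E ≃ₐ[K] E), ∀ x ∈ V i, Units.map (τ : E →* E) x ∈ V i) ∧
      (∀ x, (∀ i, x ∈ V i) → x = 1) ∧
      (∀ a : ℕ → Eˣ, (∀ i, a i ∈ V i) →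
        ∃ s ∈ V 0, ∀ i, s / ∏ j ∈ Finset.range i, a j ∈ V i) ∧
      (∀ i, ∀ x ∈ V i, Units.map (σ : E →* E) x = x →
        ∃ y ∈ V i, x / (∏ τ : E ≃ₐ[K] E, Units.map (τ : E →* E) y) ∈ V (i + 1)) ∧
      (∀ i, ∀ x ∈ V i, (∏ τ : E ≃ₐ[K] E, Units.map (τ : E →* E) x) = 1 →
        ∃ y ∈ V i, x / (Units.map (σ : E →* E) y / y) ∈ V (i + 1))

/-- (L-b): the local norm index for cyclic extensions. -/
def NormIndexStatement : Prop :=
  ∀ (q : ℕ) [Fact q.Prime] (K : IntermediateField ℚ_[q] (PadicAlgCl q))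
    [FiniteDimensional ℚ_[q] K] (E : IntermediateField K (PadicAlgCl q))
    [FiniteDimensional K E] [IsGalois K E] [IsCyclic (E ≃ₐ[K] E)],
    (Units.map (Algebra.norm K : E →* K)).range.index = Module.finrank K E

/-- `|H²(Gal(E/K), Eˣ)| = [E : K]` for cyclic `E/K`. -/
def H2CardCyclicStatement : Prop :=
  ∀ (q : ℕ) [Fact q.Prime] (K : IntermediateField ℚ_[q] (PadicAlgCl q))
    [FiniteDimensional ℚ_[q] K] (E : IntermediateField K (PadicAlgCl q))
    [FiniteDimensional K E] [IsGalois K E] [IsCyclic (E ≃ₐ[K] E)],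
    Nat.card (groupCohomology.H2 (Rep.ofAlgebraAutOnUnits K E)) = Module.finrank K E

/-- (L-a), order: `|H²(Gal(E/K), Eˣ)| = [E : K]` for every finite Galois `E/K`. -/
def H2CardStatement : Prop :=
  ∀ (q : ℕ) [Fact q.Prime] (K : IntermediateField ℚ_[q] (PadicAlgCl q))
    [FiniteDimensional ℚ_[q] K] (E : IntermediateField K (PadicAlgCl q))
    [FiniteDimensional K E] [IsGalois K E],
    Nat.card (groupCohomology.H2 (Rep.ofAlgebraAutOnUnits K E)) = Module.finrank K E

/-- (L-a), structure: `H²(Gal(E/K), Eˣ)` is cyclic. -/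
def H2CyclicStatement : Prop :=
  ∀ (q : ℕ) [Fact q.Prime] (K : IntermediateField ℚ_[q] (PadicAlgCl q))
    [FiniteDimensional ℚ_[q] K] (E : IntermediateField K (PadicAlgCl q))
    [FiniteDimensional K E] [IsGalois K E],
    IsAddCyclic (groupCohomology.H2 (Rep.ofAlgebraAutOnUnits K E))

/-- (L-c): `H³(Gal(E/K), Eˣ) = 0`. -/
def H3VanishStatement : Prop :=
  ∀ (q : ℕ) [Fact q.Prime] (K : IntermediateField ℚ_[q] (PadicAlgCl q))
    [FiniteDimensional ℚ_[q] K] (E : IntermediateField K (PadicAlgCl q))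
    [FiniteDimensional K E] [IsGalois K E],
    Subsingleton (groupCohomology (Rep.ofAlgebraAutOnUnits K E) 3)

theorem normIndex_of_unitData (h : LocalUnitDataStatement) : NormIndexStatement := by
  intro q _ K _ E _ _ hcyc
  obtain ⟨σ, hσ⟩ := hcyc.exists_zpow_surjective
  have hσ' : ∀ τ, τ ∈ Subgroup.zpowers σ := fun τ => hσ τ
  obtain ⟨v, V, hv, -, hvG, hVU, hfin, hstab, hsep, hcomplete, hDN, hND⟩ := h q K E σ hσ'
  exact index_norm_range σ hσ' v hv hvG V hVU hfin hstab hsep hcomplete hDN hND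

theorem h2CardCyclic_of_unitData (h : LocalUnitDataStatement) : H2CardCyclicStatement := by
  intro q _ K _ E _ _ hcyc
  obtain ⟨σ, hσ⟩ := hcyc.exists_zpow_surjective
  have hσ' : ∀ τ, τ ∈ Subgroup.zpowers σ := fun τ => hσ τ
  obtain ⟨v, V, hv, -, hvG, hVU, hfin, hstab, hsep, hcomplete, hDN, hND⟩ := h q K E σ hσ'
  exact card_H2_units σ hσ' v hv hvG V hVU hfin hstab hsep hcomplete hDN hND

end Fermat.Agent.S55.Local.UnitDataBlocks
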