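import Mathlib
import Fermat.Agent.S55.Local.LocalDatum

/-!
# S55 / Local (L5): unramified extensions inside `PadicAlgCl q`

Setting: `q` prime, `Ω := PadicAlgCl q`, `K : IntermediateField ℚ_[q] Ω` finite over `ℚ_[q]`, with
residue field of cardinality `Q`.  For `N` prime to `q` and `ζ : Ω` a primitive `N`-th root of unity we
show that `K(ζ)/K` is Galois, cyclic of degree `d := orderOf (Q : ZMod N)`, generated by a Frobenius
`φ` (`φ ζ = ζ ^ Q`, `φ x ≡ x ^ Q` modulo the maximal ideal), and unramified (`e = 1`: the value group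
does not grow; the integers of `K(ζ)` are `O_K[ζ]`).  No Hensel lemma is used.
-/

set_option autoImplicit false

namespace Fermat.Agent.S55.Local.UnramExt

open Valued Polynomial
open scoped NNReal

variable (q : ℕ) [Fact q.Prime]

/-! ### The residue field of `PadicAlgCl q` -/

/-- The residue field of `PadicAlgCl q`. -/
abbrev kbar : Type := 𝓀[PadicAlgCl q]

/-- The residue map. -/
noncomputable def res : 𝒪[PadicAlgCl q] →+* kbar q := IsLocalRing.residue _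

/-- Packaging an element of norm `≤ 1`. -/
def mkO (x : PadicAlgCl q) (hx : ‖x‖ ≤ 1) : 𝒪[PadicAlgCl q] := ⟨x, Valued.integer.mem_iff.2 hx⟩

@[simp] theorem coe_mkO (x : PadicAlgCl q) (hx : ‖x‖ ≤ 1) :
    ((mkO q x hx : 𝒪[PadicAlgCl q]) : PadicAlgCl q) = x := rfl

theorem norm_coe_le_one (x : 𝒪[PadicAlgCl q]) : ‖(x : PadicAlgCl q)‖ ≤ 1 :=
  Valued.integer.mem_iff.1 x.2

theorem res_eq_zero_iff (x : 𝒪[PadicAlgCl q]) : res q x = 0 ↔ ‖(x : PadicAlgCl q)‖ < 1 := by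
  unfold res
  rw [IsLocalRing.residue_eq_zero_iff, IsLocalRing.mem_maximalIdeal, mem_nonunits_iff,
    Valuation.Integer.not_isUnit_iff_valuation_lt_one]
  rw [PadicAlgCl.valuation_def, ← NNReal.coe_lt_coe]
  simp

theorem res_eq_res_iff (x y : 𝒪[PadicAlgCl q]) :
    res q x = res q y ↔ ‖(x : PadicAlgCl q) - y‖ < 1 := by
  rw [← sub_eq_zero, ← map_sub, res_eq_zero_iff]
  rfl

theorem res_surjective : Function.Surjective (res q) := IsLocalRing.residue_surjective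

theorem norm_q_lt_one : ‖(q : PadicAlgCl q)‖ < 1 := by
  rw [← map_natCast (algebraMap ℚ_[q] (PadicAlgCl q)), PadicAlgCl.norm_extends, Padic.norm_p]
  exact inv_lt_one_of_one_lt₀ (by exact_mod_cast (Fact.out : q.Prime).one_lt)

instance charP_kbar : CharP (kbar q) q := by
  have h : ((q : ℕ) : kbar q) = 0 := by
    have : res q (q : 𝒪[PadicAlgCl q]) = 0 := by
      rw [res_eq_zero_iff]
      simpa using norm_q_lt_one q
    simpa using this
  exact (CharP.charP_iff_prime_eq_zero (Fact.out : q.Prime)).2 h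

/-- Total version of the residue map on `PadicAlgCl q` (junk value `0` outside the unit ball). -/
noncomputable def rd (x : PadicAlgCl q) : kbar q :=
  if h : ‖x‖ ≤ 1 then res q (mkO q x h) else 0

theorem rd_of_le {x : PadicAlgCl q} (h : ‖x‖ ≤ 1) : rd q x = res q (mkO q x h) := dif_pos h

theorem rd_coe (x : 𝒪[PadicAlgCl q]) : rd q (x : PadicAlgCl q) = res q x := by
  rw [rd_of_le q (norm_coe_le_one q x)]
  rfl

theorem rd_eq_rd_iff {x y : PadicAlgCl q} (hx : ‖x‖ ≤ 1) (hy : ‖y‖ ≤ 1) :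
    rd q x = rd q y ↔ ‖x - y‖ < 1 := by
  rw [rd_of_le q hx, rd_of_le q hy, res_eq_res_iff]
  rfl

theorem rd_eq_zero_iff {x : PadicAlgCl q} (hx : ‖x‖ ≤ 1) : rd q x = 0 ↔ ‖x‖ < 1 := by
  rw [rd_of_le q hx, res_eq_zero_iff]
  rfl

theorem rd_pow {x : PadicAlgCl q} (hx : ‖x‖ ≤ 1) (n : ℕ) : rd q (x ^ n) = rd q x ^ n := by
  have hle : ‖x ^ n‖ ≤ 1 := by
    rw [norm_pow]; exact pow_le_one₀ (norm_nonneg _) hx
  rw [rd_of_le q hle, rd_of_le q hx, ← map_pow]
  rfl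

theorem rd_mul {x y : PadicAlgCl q} (hx : ‖x‖ ≤ 1) (hy : ‖y‖ ≤ 1) :
    rd q (x * y) = rd q x * rd q y := by
  have hle : ‖x * y‖ ≤ 1 := by
    rw [norm_mul]; exact mul_le_one₀ hx (norm_nonneg _) hy
  rw [rd_of_le q hle, rd_of_le q hx, rd_of_le q hy, ← map_mul]
  rfl

theorem rd_one : rd q (1 : PadicAlgCl q) = 1 := by
  rw [rd_of_le q (by simp), ← map_one (res q)]
  rfl

theorem rd_add {x y : PadicAlgCl q} (hx : ‖x‖ ≤ 1) (hy : ‖y‖ ≤ 1) :
    rd q (x + y) = rd q x + rd q y := by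
  have hle : ‖x + y‖ ≤ 1 :=
    (IsUltrametricDist.norm_add_le_max x y).trans (max_le hx hy)
  rw [rd_of_le q hle, rd_of_le q hx, rd_of_le q hy, ← map_add]
  rfl

theorem rd_zero : rd q (0 : PadicAlgCl q) = 0 := by
  rw [rd_eq_zero_iff q (by simp)]
  simp

theorem rd_sum {ι : Type*} (s : Finset ι) (f : ι → PadicAlgCl q) (hf : ∀ i ∈ s, ‖f i‖ ≤ 1) :
    rd q (∑ i ∈ s, f i) = ∑ i ∈ s, rd q (f i) := by
  classical
  induction s using Finset.induction_on with
  | empty => simp [rd_zero]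
  | insert a s ha ih =>
    rw [Finset.sum_insert ha, Finset.sum_insert ha, rd_add q (hf a (Finset.mem_insert_self a s)),
      ih (fun i hi => hf i (Finset.mem_insert_of_mem hi))]
    exact IsUltrametricDist.norm_sum_le_of_forall_le_of_nonneg zero_le_one
      (fun i hi => hf i (Finset.mem_insert_of_mem hi))

/-! ### Galois action on the residue field -/

theorem norm_algEquiv (τ : PadicAlgCl q ≃ₐ[ℚ_[q]] PadicAlgCl q) (x : PadicAlgCl q) :
    ‖τ x‖ = ‖x‖ :=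
  (spectralNorm_eq_of_equiv τ x).symm

variable (K : IntermediateField ℚ_[q] (PadicAlgCl q))

theorem norm_algEquivK (τ : PadicAlgCl q ≃ₐ[K] PadicAlgCl q) (x : PadicAlgCl q) : ‖τ x‖ = ‖x‖ :=
  norm_algEquiv q (τ.restrictScalars ℚ_[q]) x

/-- The ring endomorphism of the integers induced by an automorphism. -/
noncomputable def autO (τ : PadicAlgCl q ≃ₐ[K] PadicAlgCl q) :
    𝒪[PadicAlgCl q] →+* 𝒪[PadicAlgCl q] :=
  (((τ : PadicAlgCl q ≃+* PadicAlgCl q) : PadicAlgCl q →+* PadicAlgCl q).comp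
    (𝒪[PadicAlgCl q]).subtype).codRestrict 𝒪[PadicAlgCl q] (fun x => by
      apply Valued.integer.mem_iff.2
      simp only [RingHom.coe_comp, Function.comp_apply, Subring.coe_subtype]
      have := norm_algEquivK q K τ (x : PadicAlgCl q)
      simp only [RingHom.coe_coe, AlgEquiv.coe_ringEquiv] at this ⊢
      rw [this]
      exact norm_coe_le_one q x)

@[simp] theorem coe_autO (τ : PadicAlgCl q ≃ₐ[K] PadicAlgCl q) (x : 𝒪[PadicAlgCl q]) :
    ((autO q K τ x : 𝒪[PadicAlgCl q]) : PadicAlgCl q) = τ (x : PadicAlgCl q) := rfl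

instance isLocalHom_autO (τ : PadicAlgCl q ≃ₐ[K] PadicAlgCl q) : IsLocalHom (autO q K τ) := by
  constructor
  intro a ha
  by_contra hcon
  rw [Valuation.Integer.not_isUnit_iff_valuation_lt_one] at hcon
  have h2 : ¬ (Valued.v ((autO q K τ a : 𝒪[PadicAlgCl q]) : PadicAlgCl q) < 1) := by
    rw [← Valuation.Integer.not_isUnit_iff_valuation_lt_one]
    exact not_not.2 ha
  apply h2
  rw [PadicAlgCl.valuation_def, ← NNReal.coe_lt_coe] at hcon ⊢
  simp only [coe_nnnorm, NNReal.coe_one, coe_autO] at hcon ⊢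
  rwa [norm_algEquivK]

/-- The ring endomorphism of the residue field induced by an automorphism. -/
noncomputable def autBar (τ : PadicAlgCl q ≃ₐ[K] PadicAlgCl q) : kbar q →+* kbar q :=
  IsLocalRing.ResidueField.map (autO q K τ)

theorem autBar_res (τ : PadicAlgCl q ≃ₐ[K] PadicAlgCl q) (x : 𝒪[PadicAlgCl q]) :
    autBar q K τ (res q x) = res q (autO q K τ x) :=
  IsLocalRing.ResidueField.map_residue _ _

theorem autBar_rd (τ : PadicAlgCl q ≃ₐ[K] PadicAlgCl q) {x : PadicAlgCl q} (hx : ‖x‖ ≤ 1) :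
    autBar q K τ (rd q x) = rd q (τ x) := by
  rw [rd_of_le q hx, autBar_res, ← rd_coe]
  rfl


/-! ### Residue data of `K` -/

/-- `Q` is the cardinality of the residue field of `K`: every integer of `K` satisfies
`x ^ Q ≡ x`, and there are `Q` pairwise incongruent integers of `K`. -/
structure ResidueData (Q : ℕ) : Prop where
  exists_pow : ∃ f : ℕ, 0 < f ∧ Q = q ^ f
  frob : ∀ x : PadicAlgCl q, x ∈ K → ‖x‖ ≤ 1 → ‖x ^ Q - x‖ < 1
  reps : ∃ R : Finset (PadicAlgCl q), R.card = Q ∧ (∀ r ∈ R, r ∈ K ∧ ‖r‖ ≤ 1) ∧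
    ∀ r ∈ R, ∀ r' ∈ R, r ≠ r' → ‖r - r'‖ = 1

variable {q K}

theorem ResidueData.one_lt {Q : ℕ} (hK : ResidueData q K Q) : 1 < Q := by
  obtain ⟨f, hf, rfl⟩ := hK.exists_pow
  exact Nat.one_lt_pow hf.ne' (Fact.out : q.Prime).one_lt

/-- Every element of the residue field fixed by `x ↦ x ^ Q` is the residue of an integer of `K`. -/
theorem ResidueData.exists_rep {Q : ℕ} (hK : ResidueData q K Q) {x : kbar q} (hx : x ^ Q = x) :
    ∃ r : PadicAlgCl q, r ∈ K ∧ ‖r‖ ≤ 1 ∧ rd q r = x := by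
  classical
  obtain ⟨R, hcard, hR, hpair⟩ := hK.reps
  have hQ1 := hK.one_lt
  set T : Finset (kbar q) := R.image (rd q) with hT
  set Z : Finset (kbar q) := (X ^ Q - X : (kbar q)[X]).roots.toFinset with hZ
  have hne : (X ^ Q - X : (kbar q)[X]) ≠ 0 := FiniteField.X_pow_card_sub_X_ne_zero _ hQ1
  have hTcard : T.card = Q := by
    rw [hT, Finset.card_image_of_injOn, hcard]
    intro r hr r' hr' h
    by_contra hne'
    have h1 := hpair r hr r' hr' hne'
    rw [rd_eq_rd_iff q (hR r hr).2 (hR r' hr').2] at h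
    linarith
  have hTZ : T ⊆ Z := by
    intro y hy
    obtain ⟨r, hr, rfl⟩ := Finset.mem_image.1 hy
    rw [hZ, Multiset.mem_toFinset, mem_roots hne]
    simp only [IsRoot.def, eval_sub, eval_pow, eval_X]
    rw [sub_eq_zero]
    have h1 := hK.frob r (hR r hr).1 (hR r hr).2
    have hle : ‖r ^ Q‖ ≤ 1 := by
      rw [norm_pow]; exact pow_le_one₀ (norm_nonneg _) (hR r hr).2
    rw [← rd_eq_rd_iff q hle (hR r hr).2, rd_pow q (hR r hr).2] at h1
    exact h1
  have hZcard : Z.card ≤ Q := by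
    calc Z.card ≤ (X ^ Q - X : (kbar q)[X]).roots.card := Multiset.toFinset_card_le _
      _ ≤ (X ^ Q - X : (kbar q)[X]).natDegree := card_roots' _
      _ = Q := FiniteField.X_pow_card_sub_X_natDegree_eq _ hQ1
  have hEq : T = Z := Finset.eq_of_subset_of_card_le hTZ (by rw [hTcard]; exact hZcard)
  have hxZ : x ∈ Z := by
    rw [hZ, Multiset.mem_toFinset, mem_roots hne]
    simp only [IsRoot.def, eval_sub, eval_pow, eval_X]
    rw [hx, sub_self]
  rw [← hEq] at hxZ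
  obtain ⟨r, hr, rfl⟩ := Finset.mem_image.1 hxZ
  exact ⟨r, (hR r hr).1, (hR r hr).2, rfl⟩

/-- Elements of the residue field fixed by `x ↦ x ^ Q` are fixed by every `K`-automorphism. -/
theorem ResidueData.autBar_eq {Q : ℕ} (hK : ResidueData q K Q)
    (τ : PadicAlgCl q ≃ₐ[K] PadicAlgCl q) {x : kbar q} (hx : x ^ Q = x) :
    autBar q K τ x = x := by
  obtain ⟨r, hrK, hr1, rfl⟩ := hK.exists_rep hx
  rw [autBar_rd q K τ hr1]
  have : τ r = r := by
    have := τ.commutes (⟨r, hrK⟩ : K)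
    simpa using this
  rw [this]


/-! ### Roots of unity of order prime to `q` -/

section Roots

variable {N : ℕ} [NeZero N] {ζ : PadicAlgCl q}

theorem norm_eq_one_of_pow_eq_one {x : PadicAlgCl q} {n : ℕ} (hn : n ≠ 0) (h : x ^ n = 1) :
    ‖x‖ = 1 := by
  have : ‖x‖ ^ n = 1 := by rw [← norm_pow, h, norm_one]
  exact (pow_eq_one_iff_of_nonneg (norm_nonneg _) hn).1 this

theorem IsPrimitiveRoot_norm_eq_one (hζ : IsPrimitiveRoot ζ N) : ‖ζ‖ = 1 :=
  norm_eq_one_of_pow_eq_one (NeZero.ne N) hζ.pow_eq_one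

omit [NeZero N] in
theorem neZero_natCast_kbar (hN : ¬ q ∣ N) : NeZero ((N : ℕ) : kbar q) :=
  ⟨fun h => hN ((CharP.cast_eq_zero_iff (kbar q) q N).1 h)⟩

/-- The residue of a primitive `N`-th root of unity (`q ∤ N`) is a primitive `N`-th root of unity. -/
theorem isPrimitiveRoot_rd (hN : ¬ q ∣ N) (hζ : IsPrimitiveRoot ζ N) :
    IsPrimitiveRoot (rd q ζ) N := by
  have h1 : ‖ζ‖ ≤ 1 := (IsPrimitiveRoot_norm_eq_one hζ).le
  have hO : IsPrimitiveRoot (mkO q ζ h1) N :=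
    IsPrimitiveRoot.of_map_of_injective (f := (𝒪[PadicAlgCl q]).subtype)
      (by simpa using hζ) Subtype.val_injective
  have hroot := (hO.isRoot_cyclotomic (NeZero.pos N)).map (f := res q)
  rw [map_cyclotomic] at hroot
  have := neZero_natCast_kbar (q := q) hN
  rw [rd_of_le q h1]
  exact isRoot_cyclotomic_iff.1 hroot

/-- The residue map is injective on `N`-th roots of unity (`q ∤ N`). -/
theorem eq_of_rd_eq_of_pow_eq_one (hN : ¬ q ∣ N) (hζ : IsPrimitiveRoot ζ N)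
    {ξ ξ' : PadicAlgCl q} (hξ : ξ ^ N = 1) (hξ' : ξ' ^ N = 1) (h : rd q ξ = rd q ξ') : ξ = ξ' := by
  obtain ⟨i, hi, rfl⟩ := hζ.eq_pow_of_pow_eq_one hξ
  obtain ⟨j, hj, rfl⟩ := hζ.eq_pow_of_pow_eq_one hξ'
  have h1 : ‖ζ‖ ≤ 1 := (IsPrimitiveRoot_norm_eq_one hζ).le
  rw [rd_pow q h1, rd_pow q h1] at h
  rw [(isPrimitiveRoot_rd hN hζ).pow_inj hi hj h]

end Roots


/-! ### Two abstract lemmas on conjugates under a Frobenius -/

section Abstract

variable {k : Type*} [Field k] (F : k →+* k) (Q d : ℕ) (z : k)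

/-- If `z ^ (Q ^ j)`, `j < d`, are distinct, then `1, z, …, z ^ (d-1)` are linearly independent over
the fixed field of `F = (· ^ Q)`. -/
theorem abstract_indep (hF : ∀ x, F x = x ^ Q)
    (hinj : ∀ i < d, ∀ j < d, z ^ (Q ^ i) = z ^ (Q ^ j) → i = j)
    (c : Fin d → k) (hc : ∀ i, c i ^ Q = c i) (h0 : ∑ i, c i * z ^ (i : ℕ) = 0) :
    ∀ i, c i = 0 := by
  classical
  set g : k[X] := ∑ i : Fin d, C (c i) * X ^ (i : ℕ) with hg
  have hdeg : g.degree < d := degree_sum_fin_lt c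
  have hmap : g.map F = g := by
    rw [hg, Polynomial.map_sum]
    refine Finset.sum_congr rfl fun i _ => ?_
    rw [Polynomial.map_mul, map_C, Polynomial.map_pow, map_X, hF, hc]
  have heval : ∀ j : ℕ, g.eval (z ^ (Q ^ j)) = 0 := by
    intro j
    induction j with
    | zero =>
      rw [pow_zero, pow_one, hg, eval_finsetSum]
      simpa [eval_mul, eval_C, eval_pow, eval_X] using h0
    | succ j ih =>
      have : z ^ Q ^ (j + 1) = F (z ^ Q ^ j) := by
        rw [hF, ← pow_mul, pow_succ]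
      rw [this, ← hmap, eval_map, eval₂_hom, ih, map_zero]
  have hcoeff : ∀ i : Fin d, g.coeff i = c i := by
    intro i
    rw [hg, finsetSum_coeff]
    simp only [coeff_C_mul, coeff_X_pow]
    rw [Finset.sum_eq_single i]
    · simp
    · intro j _ hji
      have : (i : ℕ) ≠ (j : ℕ) := fun h => hji (Fin.ext h.symm)
      simp [this]
    · simp
  have hg0 : g = 0 := by
    by_contra hne
    have hnat : g.natDegree < d := (natDegree_lt_iff_degree_lt hne).2 hdeg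
    set s : Finset k := (Finset.range d).image (fun j => z ^ (Q ^ j)) with hs
    have hcard : s.card = d := by
      rw [hs, Finset.card_image_of_injOn, Finset.card_range]
      intro i hi j hj h
      exact hinj i (Finset.mem_range.1 hi) j (Finset.mem_range.1 hj) h
    apply hne
    apply eq_zero_of_natDegree_lt_card_of_eval_eq_zero' g s
    · intro x hx
      obtain ⟨j, _, rfl⟩ := Finset.mem_image.1 hx
      exact heval j
    · rw [hcard]; exact hnat
  intro i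
  rw [← hcoeff i, hg0, coeff_zero]

/-- A ring endomorphism fixing the fixed field of `F = (· ^ Q)` sends `z` to a conjugate
`z ^ (Q ^ j)`. -/
theorem abstract_conj (hF : ∀ x, F x = x ^ Q) (hd : 0 < d) (hzd : z ^ (Q ^ d) = z)
    (σ : k →+* k) (hσ : ∀ x, x ^ Q = x → σ x = x) :
    ∃ j < d, σ z = z ^ (Q ^ j) := by
  classical
  set P : k[X] := ∏ j ∈ Finset.range d, (X - C (z ^ (Q ^ j))) with hP
  have hmapF : P.map F = P := by
    rw [hP, Polynomial.map_prod]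
    have h1 : ∀ j, (X - C (z ^ (Q ^ j)) : k[X]).map F = X - C (z ^ (Q ^ (j + 1))) := by
      intro j
      rw [Polynomial.map_sub, map_X, map_C, hF, ← pow_mul, ← pow_succ]
    simp only [h1]
    have h2 := Finset.prod_range_succ' (fun j => (X - C (z ^ (Q ^ j)) : k[X])) d
    have h3 := Finset.prod_range_succ (fun j => (X - C (z ^ (Q ^ j)) : k[X])) d
    rw [h2] at h3
    have h4 : (X - C (z ^ (Q ^ d)) : k[X]) = X - C (z ^ (Q ^ 0)) := by
      rw [hzd, pow_zero, pow_one]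
    rw [h4] at h3
    exact mul_right_cancel₀ (X_sub_C_ne_zero _) h3
  have hcoeffF : ∀ i, (P.coeff i) ^ Q = P.coeff i := by
    intro i
    have := congrArg (fun p => p.coeff i) hmapF
    simp only [coeff_map, hF] at this
    exact this
  have hmapσ : P.map σ = P := by
    ext i
    rw [coeff_map, hσ _ (hcoeffF i)]
  have hroot : P.eval z = 0 := by
    rw [hP, eval_prod]
    apply Finset.prod_eq_zero (Finset.mem_range.2 hd)
    simp
  have hroot' : P.eval (σ z) = 0 := by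
    conv_lhs => rw [← hmapσ]
    rw [eval_map, eval₂_hom, hroot, map_zero]
  rw [hP, eval_prod, Finset.prod_eq_zero_iff] at hroot'
  obtain ⟨j, hj, hj0⟩ := hroot'
  refine ⟨j, Finset.mem_range.1 hj, ?_⟩
  simpa [sub_eq_zero] using hj0

end Abstract

/-! ### The core computation in the residue field -/

section Core

variable {Q : ℕ} {N : ℕ} [NeZero N] {ζ : PadicAlgCl q}

/-- The Frobenius `x ↦ x ^ Q` of the residue field as a ring homomorphism. -/
theorem ResidueData.exists_frob (hK : ResidueData q K Q) :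
    ∃ F : kbar q →+* kbar q, ∀ x, F x = x ^ Q := by
  obtain ⟨f, -, rfl⟩ := hK.exists_pow
  have : ExpChar (kbar q) q := ExpChar.prime Fact.out
  exact ⟨iterateFrobenius (kbar q) q f, fun x => iterateFrobenius_def q f x⟩

omit [NeZero N] in
theorem ResidueData.coprime (hK : ResidueData q K Q) (hN : ¬ q ∣ N) : Nat.Coprime Q N := by
  obtain ⟨f, -, rfl⟩ := hK.exists_pow
  exact Nat.Coprime.pow_left _ ((Nat.Prime.coprime_iff_not_dvd Fact.out).2 hN)

/-- The degree of `K(ζ_N)/K`: the order of `Q` modulo `N`. -/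
noncomputable def deg (Q N : ℕ) : ℕ := orderOf (Q : ZMod N)

omit [Fact q.Prime] [NeZero N] in
theorem deg_pos (hcop : Nat.Coprime Q N) : 0 < deg Q N := by
  have h : ((ZMod.unitOfCoprime Q hcop : (ZMod N)ˣ) : ZMod N) = (Q : ZMod N) :=
    ZMod.coe_unitOfCoprime Q hcop
  unfold deg
  rw [← h, orderOf_units]
  exact orderOf_pos _

omit [Fact q.Prime] in
theorem pow_deg_modEq (Q N : ℕ) : Q ^ deg Q N ≡ 1 [MOD N] := by
  rw [← ZMod.natCast_eq_natCast_iff]
  push_cast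
  exact pow_orderOf_eq_one _

omit [Fact q.Prime] [NeZero N] in
theorem eq_of_pow_modEq {i j : ℕ} (hi : i < deg Q N) (hj : j < deg Q N)
    (h : Q ^ i ≡ Q ^ j [MOD N]) : i = j := by
  rw [← ZMod.natCast_eq_natCast_iff] at h
  push_cast at h
  exact pow_injOn_Iio_orderOf (Set.mem_Iio.2 hi) (Set.mem_Iio.2 hj) h

omit [Fact q.Prime] in
theorem pow_eq_pow_iff_of_isPrimitiveRoot {M : Type*} [CommMonoid M] {z : M}
    (h : IsPrimitiveRoot z N) (a b : ℕ) : z ^ a = z ^ b ↔ a ≡ b [MOD N] := by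
  rw [← pow_mod_orderOf z a, ← pow_mod_orderOf z b, ← h.eq_orderOf]
  constructor
  · intro hh
    exact h.pow_inj (Nat.mod_lt _ (NeZero.pos N)) (Nat.mod_lt _ (NeZero.pos N)) hh
  · intro hh
    rw [Nat.ModEq] at hh
    rw [hh]

theorem rd_pow_deg (hN : ¬ q ∣ N) (hζ : IsPrimitiveRoot ζ N) :
    rd q ζ ^ (Q ^ deg Q N) = rd q ζ := by
  have h := isPrimitiveRoot_rd hN hζ
  conv_rhs => rw [← pow_one (rd q ζ)]
  rw [pow_eq_pow_iff_of_isPrimitiveRoot h]
  exact pow_deg_modEq Q N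

theorem rd_pow_inj (hN : ¬ q ∣ N) (hζ : IsPrimitiveRoot ζ N) :
    ∀ i < deg Q N, ∀ j < deg Q N, rd q ζ ^ (Q ^ i) = rd q ζ ^ (Q ^ j) → i = j := by
  intro i hi j hj h
  have hz := isPrimitiveRoot_rd hN hζ
  rw [pow_eq_pow_iff_of_isPrimitiveRoot hz] at h
  exact eq_of_pow_modEq hi hj h

/-- **Upper bound**: every `K`-automorphism sends `ζ` to `ζ ^ (Q ^ j)` for some `j < d`. -/
theorem exists_pow_of_algEquiv (hK : ResidueData q K Q) (hN : ¬ q ∣ N) (hζ : IsPrimitiveRoot ζ N)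
    (τ : PadicAlgCl q ≃ₐ[K] PadicAlgCl q) :
    ∃ j < deg Q N, τ ζ = ζ ^ (Q ^ j) := by
  obtain ⟨F, hF⟩ := hK.exists_frob
  have h1 : ‖ζ‖ ≤ 1 := (IsPrimitiveRoot_norm_eq_one hζ).le
  obtain ⟨j, hj, hjeq⟩ := abstract_conj F Q (deg Q N) (rd q ζ) hF (deg_pos (hK.coprime hN))
    (rd_pow_deg hN hζ) (autBar q K τ) (fun x hx => hK.autBar_eq τ hx)
  refine ⟨j, hj, ?_⟩
  rw [autBar_rd q K τ h1, ← rd_pow q h1] at hjeq
  refine eq_of_rd_eq_of_pow_eq_one hN hζ ?_ ?_ hjeq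
  · rw [← map_pow, hζ.pow_eq_one, map_one]
  · rw [← pow_mul, mul_comm, pow_mul, hζ.pow_eq_one, one_pow]

/-- **Lemma N** (the powers of `ζ` are an orthogonal system over `K`): for `a i ∈ K`,
`‖a j‖ ≤ ‖∑ i < d, a i * ζ ^ i‖`. -/
theorem norm_le_norm_sum (hK : ResidueData q K Q) (hN : ¬ q ∣ N) (hζ : IsPrimitiveRoot ζ N)
    (a : Fin (deg Q N) → PadicAlgCl q) (ha : ∀ i, a i ∈ K) (j : Fin (deg Q N)) :
    ‖a j‖ ≤ ‖∑ i, a i * ζ ^ (i : ℕ)‖ := by
  obtain ⟨F, hF⟩ := hK.exists_frob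
  have hζ1 : ‖ζ‖ = 1 := IsPrimitiveRoot_norm_eq_one hζ
  obtain ⟨j₀, -, hmax⟩ := Finset.exists_max_image Finset.univ (fun i => ‖a i‖)
    ⟨j, Finset.mem_univ j⟩
  rcases eq_or_ne (a j₀) 0 with h0 | h0
  · have := hmax j (Finset.mem_univ j)
    rw [h0, norm_zero] at this
    exact this.trans (norm_nonneg _)
  set c := a j₀ with hc
  have hcpos : 0 < ‖c‖ := norm_pos_iff.2 h0
  set b : Fin (deg Q N) → PadicAlgCl q := fun i => a i * c⁻¹ with hb
  have hbK : ∀ i, b i ∈ K := fun i => K.mul_mem (ha i) (K.inv_mem (ha j₀))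
  have hb1 : ∀ i, ‖b i‖ ≤ 1 := by
    intro i
    rw [hb, norm_mul, norm_inv, ← div_eq_mul_inv, div_le_one hcpos]
    exact hmax i (Finset.mem_univ i)
  have hbζ : ∀ i : Fin (deg Q N), ‖b i * ζ ^ (i : ℕ)‖ ≤ 1 := by
    intro i
    rw [norm_mul, norm_pow, hζ1, one_pow, mul_one]
    exact hb1 i
  have hsum : ∑ i, b i * ζ ^ (i : ℕ) = (∑ i, a i * ζ ^ (i : ℕ)) * c⁻¹ := by
    rw [Finset.sum_mul]
    refine Finset.sum_congr rfl fun i _ => ?_
    rw [hb]; ring
  have hle : ‖∑ i, b i * ζ ^ (i : ℕ)‖ ≤ 1 :=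
    IsUltrametricDist.norm_sum_le_of_forall_le_of_nonneg zero_le_one (fun i _ => hbζ i)
  have hge : ¬ ‖∑ i, b i * ζ ^ (i : ℕ)‖ < 1 := by
    intro hlt
    rw [← rd_eq_zero_iff q hle, rd_sum q _ _ (fun i _ => hbζ i)] at hlt
    have hterm : ∀ i : Fin (deg Q N), rd q (b i * ζ ^ (i : ℕ)) = rd q (b i) * rd q ζ ^ (i : ℕ) := by
      intro i
      rw [rd_mul q (hb1 i) (by rw [norm_pow, hζ1, one_pow]), rd_pow q hζ1.le]
    simp only [hterm] at hlt
    have hfix : ∀ i, rd q (b i) ^ Q = rd q (b i) := by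
      intro i
      rw [← rd_pow q (hb1 i), rd_eq_rd_iff q _ (hb1 i)]
      · exact hK.frob _ (hbK i) (hb1 i)
      · rw [norm_pow]; exact pow_le_one₀ (norm_nonneg _) (hb1 i)
    have := abstract_indep F Q (deg Q N) (rd q ζ) hF (rd_pow_inj hN hζ) (fun i => rd q (b i))
      hfix hlt j₀
    have hb0 : b j₀ = 1 := by rw [hb]; exact mul_inv_cancel₀ h0
    rw [hb0, rd_one] at this
    exact one_ne_zero this
  rw [hsum, norm_mul, norm_inv, ← div_eq_mul_inv, not_lt, one_le_div hcpos] at hge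
  exact (hmax j (Finset.mem_univ j)).trans hge

end Core


/-! ### The field `K(ζ)` -/

open IntermediateField

section Field

variable {Q : ℕ} {N : ℕ} [NeZero N] {ζ : PadicAlgCl q}

variable (K ζ) in
/-- The field `K(ζ)`. -/
noncomputable abbrev adj : IntermediateField ↥K (PadicAlgCl q) := (↥K)⟮ζ⟯

variable (K ζ) in
/-- `ζ` as an element of `K(ζ)`. -/
noncomputable def gen : ↥(adj K ζ) := ⟨ζ, mem_adjoin_simple_self _ ζ⟩

@[simp] theorem coe_gen : ((gen K ζ : ↥(adj K ζ)) : PadicAlgCl q) = ζ := rfl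

omit [NeZero N] in
theorem isPrimitiveRoot_gen (hζ : IsPrimitiveRoot ζ N) : IsPrimitiveRoot (gen K ζ) N :=
  IsPrimitiveRoot.of_map_of_injective (f := (adj K ζ).val) (by simpa using hζ)
    (adj K ζ).val.injective

theorem isCyclotomicExtension_adj (hζ : IsPrimitiveRoot ζ N) :
    IsCyclotomicExtension {N} ↥K ↥(adj K ζ) :=
  hζ.intermediateField_adjoin_isCyclotomicExtension ↥K

theorem isGalois_adj (hζ : IsPrimitiveRoot ζ N) : IsGalois ↥K ↥(adj K ζ) :=
  haveI := isCyclotomicExtension_adj (K := K) hζ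
  IsCyclotomicExtension.isGalois {N} ↥K ↥(adj K ζ)

theorem finiteDimensional_adj (hζ : IsPrimitiveRoot ζ N) : FiniteDimensional ↥K ↥(adj K ζ) :=
  haveI := isCyclotomicExtension_adj (K := K) hζ
  IsCyclotomicExtension.finiteDimensional {N} ↥K ↥(adj K ζ)

/-- Every automorphism of `K(ζ)/K` sends `ζ` to `ζ ^ (Q ^ j)`, `j < d`. -/
theorem exists_pow_of_aut (hK : ResidueData q K Q) (hN : ¬ q ∣ N) (hζ : IsPrimitiveRoot ζ N)
    (g : ↥(adj K ζ) ≃ₐ[↥K] ↥(adj K ζ)) :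
    ∃ j < deg Q N, g (gen K ζ) = gen K ζ ^ (Q ^ j) := by
  have := isGalois_adj (K := K) hζ
  obtain ⟨j, hj, h⟩ := exists_pow_of_algEquiv hK hN hζ (g.liftNormal (PadicAlgCl q))
  refine ⟨j, hj, ?_⟩
  have h2 := g.liftNormal_commutes (PadicAlgCl q) (gen K ζ)
  apply (adj K ζ).val.injective
  simp only [IntermediateField.algebraMap_apply, coe_gen] at h2
  show ((g (gen K ζ) : ↥(adj K ζ)) : PadicAlgCl q) = ((gen K ζ ^ (Q ^ j) : ↥(adj K ζ)) : PadicAlgCl q)
  rw [SubmonoidClass.coe_pow, coe_gen, ← h2, h]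

/-- The unit `Q mod N`. -/
noncomputable def unitQ (hcop : Nat.Coprime Q N) : (ZMod N)ˣ := ZMod.unitOfCoprime Q hcop

omit [Fact q.Prime] [NeZero N] in
theorem orderOf_unitQ (hcop : Nat.Coprime Q N) : orderOf (unitQ hcop) = deg Q N := by
  unfold deg unitQ
  rw [← orderOf_units, ZMod.coe_unitOfCoprime]

/-- `autToPow g` is a power of `Q`. -/
theorem autToPow_eq_pow (hK : ResidueData q K Q) (hN : ¬ q ∣ N) (hζ : IsPrimitiveRoot ζ N)
    (g : ↥(adj K ζ) ≃ₐ[↥K] ↥(adj K ζ)) :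
    ∃ j < deg Q N, (isPrimitiveRoot_gen (K := K) hζ).autToPow ↥K g = unitQ (hK.coprime hN) ^ j := by
  obtain ⟨j, hj, h⟩ := exists_pow_of_aut hK hN hζ g
  refine ⟨j, hj, ?_⟩
  have hgen := isPrimitiveRoot_gen (K := K) hζ
  have hspec := hgen.autToPow_spec ↥K g
  rw [h, pow_eq_pow_iff_of_isPrimitiveRoot hgen] at hspec
  rw [← ZMod.natCast_eq_natCast_iff, ZMod.natCast_val, ZMod.cast_id', id_eq] at hspec
  apply Units.ext
  rw [hspec, Units.val_pow_eq_pow_val]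
  unfold unitQ
  rw [ZMod.coe_unitOfCoprime]
  push_cast
  rfl

/-- `1, ζ, …, ζ ^ (d-1)` are linearly independent over `K`. -/
theorem linearIndependent_pow (hK : ResidueData q K Q) (hN : ¬ q ∣ N) (hζ : IsPrimitiveRoot ζ N) :
    LinearIndependent ↥K (fun i : Fin (deg Q N) => gen K ζ ^ (i : ℕ)) := by
  rw [Fintype.linearIndependent_iff]
  intro c hc i
  have h1 := congrArg (fun x : ↥(adj K ζ) => (x : PadicAlgCl q)) hc
  simp only [AddSubmonoidClass.coe_finsetSum, ZeroMemClass.coe_zero] at h1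
  have h2 : ∑ i : Fin (deg Q N), ((c i : ↥K) : PadicAlgCl q) * ζ ^ (i : ℕ) = 0 := by
    rw [← h1]
    refine Finset.sum_congr rfl fun i _ => ?_
    rfl
  have h3 := norm_le_norm_sum hK hN hζ (fun i => ((c i : ↥K) : PadicAlgCl q))
    (fun i => (c i).2) i
  rw [h2, norm_zero] at h3
  have h4 : ((c i : ↥K) : PadicAlgCl q) = 0 := norm_le_zero_iff.1 h3
  exact Subtype.ext h4

theorem deg_le_finrank (hK : ResidueData q K Q) (hN : ¬ q ∣ N) (hζ : IsPrimitiveRoot ζ N) :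
    deg Q N ≤ Module.finrank ↥K ↥(adj K ζ) := by
  have := finiteDimensional_adj (K := K) hζ
  have h := (linearIndependent_pow hK hN hζ).fintype_card_le_finrank
  simpa using h

theorem card_aut_le (hK : ResidueData q K Q) (hN : ¬ q ∣ N) (hζ : IsPrimitiveRoot ζ N) :
    Nat.card (↥(adj K ζ) ≃ₐ[↥K] ↥(adj K ζ)) ≤ deg Q N := by
  classical
  have hgen := isPrimitiveRoot_gen (K := K) hζ
  have := isCyclotomicExtension_adj (K := K) hζ
  have hinj := hgen.autToPow_injective ↥K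
  set u := unitQ (hK.coprime hN) with hu
  have hrange : ∀ g, hgen.autToPow ↥K g ∈ Subgroup.zpowers u := by
    intro g
    obtain ⟨j, -, hj⟩ := autToPow_eq_pow hK hN hζ g
    rw [hj]
    exact Subgroup.pow_mem _ (Subgroup.mem_zpowers u) j
  let f : (↥(adj K ζ) ≃ₐ[↥K] ↥(adj K ζ)) → Subgroup.zpowers u :=
    fun g => ⟨hgen.autToPow ↥K g, hrange g⟩
  have hf : Function.Injective f := by
    intro g g' h
    exact hinj (congrArg Subtype.val h)
  have h1 := Nat.card_le_card_of_injective f hf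
  rw [Nat.card_zpowers, orderOf_unitQ] at h1
  exact h1

theorem finrank_adj (hK : ResidueData q K Q) (hN : ¬ q ∣ N) (hζ : IsPrimitiveRoot ζ N) :
    Module.finrank ↥K ↥(adj K ζ) = deg Q N := by
  have := finiteDimensional_adj (K := K) hζ
  have := isGalois_adj (K := K) hζ
  apply le_antisymm
  · rw [← IsGalois.card_aut_eq_finrank]
    exact card_aut_le hK hN hζ
  · exact deg_le_finrank hK hN hζ

theorem card_aut_adj (hK : ResidueData q K Q) (hN : ¬ q ∣ N) (hζ : IsPrimitiveRoot ζ N) :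
    Nat.card (↥(adj K ζ) ≃ₐ[↥K] ↥(adj K ζ)) = deg Q N := by
  have := finiteDimensional_adj (K := K) hζ
  have := isGalois_adj (K := K) hζ
  rw [IsGalois.card_aut_eq_finrank, finrank_adj hK hN hζ]

/-- **The Frobenius** of `K(ζ)/K`: a generator `φ` of the Galois group with `φ ζ = ζ ^ Q`. -/
theorem exists_frobenius (hK : ResidueData q K Q) (hN : ¬ q ∣ N) (hζ : IsPrimitiveRoot ζ N) :
    ∃ φ : ↥(adj K ζ) ≃ₐ[↥K] ↥(adj K ζ), φ (gen K ζ) = gen K ζ ^ Q ∧
      (∀ g, g ∈ Subgroup.zpowers φ) ∧ orderOf φ = deg Q N := by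
  classical
  have hgen := isPrimitiveRoot_gen (K := K) hζ
  have := isCyclotomicExtension_adj (K := K) hζ
  have hfd := finiteDimensional_adj (K := K) hζ
  have hinj := hgen.autToPow_injective ↥K
  set u := unitQ (hK.coprime hN) with hu
  have hrange : ∀ g, hgen.autToPow ↥K g ∈ Subgroup.zpowers u := by
    intro g
    obtain ⟨j, -, hj⟩ := autToPow_eq_pow hK hN hζ g
    rw [hj]
    exact Subgroup.pow_mem _ (Subgroup.mem_zpowers u) j
  let f : (↥(adj K ζ) ≃ₐ[↥K] ↥(adj K ζ)) → Subgroup.zpowers u :=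
    fun g => ⟨hgen.autToPow ↥K g, hrange g⟩
  have hf : Function.Injective f := by
    intro g g' h
    exact hinj (congrArg Subtype.val h)
  have hcard : Nat.card (Subgroup.zpowers u) ≤ Nat.card (↥(adj K ζ) ≃ₐ[↥K] ↥(adj K ζ)) := by
    rw [Nat.card_zpowers, orderOf_unitQ, card_aut_adj hK hN hζ]
  have hbij := hf.bijective_of_nat_card_le hcard
  obtain ⟨φ, hφ⟩ := hbij.2 ⟨u, Subgroup.mem_zpowers u⟩
  have hφu : hgen.autToPow ↥K φ = u := congrArg Subtype.val hφ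
  refine ⟨φ, ?_, ?_, ?_⟩
  · have hspec := hgen.autToPow_spec ↥K φ
    rw [← hspec, hφu, pow_eq_pow_iff_of_isPrimitiveRoot hgen]
    have : ((u : (ZMod N)ˣ) : ZMod N) = (Q : ZMod N) := ZMod.coe_unitOfCoprime Q _
    rw [this, ZMod.val_natCast]
    exact Nat.mod_modEq Q N
  · intro g
    obtain ⟨j, -, hj⟩ := autToPow_eq_pow hK hN hζ g
    have : g = φ ^ j := by
      apply hinj
      rw [hj, map_pow, hφu]
    rw [this]
    exact Subgroup.pow_mem _ (Subgroup.mem_zpowers φ) j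
  · rw [← orderOf_injective (hgen.autToPow ↥K) hinj φ, hφu, orderOf_unitQ]

/-- Every element of `K(ζ)` is a `K`-combination of `1, ζ, …, ζ ^ (d-1)`. -/
theorem exists_repr (hK : ResidueData q K Q) (hN : ¬ q ∣ N) (hζ : IsPrimitiveRoot ζ N)
    (x : ↥(adj K ζ)) :
    ∃ a : Fin (deg Q N) → ↥K, x = ∑ i, a i • gen K ζ ^ (i : ℕ) := by
  have hfd := finiteDimensional_adj (K := K) hζ
  have hspan := (linearIndependent_pow hK hN hζ).span_eq_top_of_card_eq_finrank'
    (by rw [Fintype.card_fin, finrank_adj hK hN hζ])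
  have hx : x ∈ Submodule.span ↥K (Set.range fun i : Fin (deg Q N) => gen K ζ ^ (i : ℕ)) := by
    rw [hspan]; exact Submodule.mem_top
  obtain ⟨c, hc⟩ := (Submodule.mem_span_range_iff_exists_fun ↥K).1 hx
  exact ⟨c, hc.symm⟩

omit [NeZero N] in
theorem coe_sum_smul (a : Fin (deg Q N) → ↥K) (e : Fin (deg Q N) → ℕ) :
    ((∑ i, a i • gen K ζ ^ (e i) : ↥(adj K ζ)) : PadicAlgCl q) =
      ∑ i, ((a i : ↥K) : PadicAlgCl q) * ζ ^ (e i) := by
  rw [AddSubmonoidClass.coe_finsetSum]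
  refine Finset.sum_congr rfl fun i _ => ?_
  rfl

/-- Norm of a combination: `‖∑ a i ζ ^ i‖ = max ‖a i‖`, in the form "equal to some `‖a j‖` which
dominates all the others". -/
theorem exists_norm_sum_eq (hK : ResidueData q K Q) (hN : ¬ q ∣ N) (hζ : IsPrimitiveRoot ζ N)
    (a : Fin (deg Q N) → ↥K) :
    ∃ j, ‖∑ i, ((a i : ↥K) : PadicAlgCl q) * ζ ^ (i : ℕ)‖ = ‖((a j : ↥K) : PadicAlgCl q)‖ ∧
      ∀ i, ‖((a i : ↥K) : PadicAlgCl q)‖ ≤ ‖((a j : ↥K) : PadicAlgCl q)‖ := by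
  have hζ1 : ‖ζ‖ = 1 := IsPrimitiveRoot_norm_eq_one hζ
  have j : Fin (deg Q N) := ⟨0, deg_pos (hK.coprime hN)⟩
  obtain ⟨j₀, -, hmax⟩ := Finset.exists_max_image Finset.univ
    (fun i => ‖((a i : ↥K) : PadicAlgCl q)‖) ⟨j, Finset.mem_univ j⟩
  refine ⟨j₀, le_antisymm ?_ ?_, fun i => hmax i (Finset.mem_univ i)⟩
  · apply IsUltrametricDist.norm_sum_le_of_forall_le_of_nonneg (norm_nonneg _)
    intro i _
    rw [norm_mul, norm_pow, hζ1, one_pow, mul_one]
    exact hmax i (Finset.mem_univ i)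
  · exact norm_le_norm_sum hK hN hζ (fun i => ((a i : ↥K) : PadicAlgCl q)) (fun i => (a i).2) j₀

/-- **`K(ζ)/K` is unramified**: the value group does not grow. -/
theorem exists_norm_eq (hK : ResidueData q K Q) (hN : ¬ q ∣ N) (hζ : IsPrimitiveRoot ζ N)
    (x : ↥(adj K ζ)) : ∃ y : ↥K, ‖(x : PadicAlgCl q)‖ = ‖(y : PadicAlgCl q)‖ := by
  obtain ⟨a, rfl⟩ := exists_repr hK hN hζ x
  obtain ⟨j, hj, -⟩ := exists_norm_sum_eq hK hN hζ a
  exact ⟨a j, by rw [coe_sum_smul, hj]⟩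

/-- **Integers**: an element of norm `≤ 1` of `K(ζ)` is a combination of powers of `ζ` with
coefficients of norm `≤ 1` in `K`, i.e. `O_{K(ζ)} = O_K[ζ]`. -/
theorem exists_repr_int (hK : ResidueData q K Q) (hN : ¬ q ∣ N) (hζ : IsPrimitiveRoot ζ N)
    (x : ↥(adj K ζ)) (hx : ‖(x : PadicAlgCl q)‖ ≤ 1) :
    ∃ a : Fin (deg Q N) → ↥K, (∀ i, ‖((a i : ↥K) : PadicAlgCl q)‖ ≤ 1) ∧
      x = ∑ i, a i • gen K ζ ^ (i : ℕ) := by
  obtain ⟨a, rfl⟩ := exists_repr hK hN hζ x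
  obtain ⟨j, hj, hmax⟩ := exists_norm_sum_eq hK hN hζ a
  refine ⟨a, fun i => (hmax i).trans ?_, rfl⟩
  rw [← hj, ← coe_sum_smul]
  exact hx

/-- **Frobenius congruence**: an automorphism `φ` with `φ ζ = ζ ^ Q` satisfies `φ x ≡ x ^ Q` modulo
the maximal ideal, for every integer `x` of `K(ζ)`. -/
theorem frobenius_congr (hK : ResidueData q K Q) (hN : ¬ q ∣ N) (hζ : IsPrimitiveRoot ζ N)
    (φ : ↥(adj K ζ) ≃ₐ[↥K] ↥(adj K ζ)) (hφ : φ (gen K ζ) = gen K ζ ^ Q)
    (x : ↥(adj K ζ)) (hx : ‖(x : PadicAlgCl q)‖ ≤ 1) :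
    ‖((φ x : ↥(adj K ζ)) : PadicAlgCl q) - (x : PadicAlgCl q) ^ Q‖ < 1 := by
  obtain ⟨F, hF⟩ := hK.exists_frob
  have hζ1 : ‖ζ‖ = 1 := IsPrimitiveRoot_norm_eq_one hζ
  obtain ⟨a, ha1, rfl⟩ := exists_repr_int hK hN hζ x hx
  have hφx : φ (∑ i, a i • gen K ζ ^ (i : ℕ)) = ∑ i, a i • gen K ζ ^ (Q * (i : ℕ)) := by
    rw [map_sum]
    refine Finset.sum_congr rfl fun i _ => ?_
    rw [Algebra.smul_def, Algebra.smul_def, map_mul, φ.commutes, map_pow, hφ, ← pow_mul]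
  rw [hφx, coe_sum_smul, coe_sum_smul]
  have hterm : ∀ (e : ℕ) (i : Fin (deg Q N)), ‖((a i : ↥K) : PadicAlgCl q) * ζ ^ e‖ ≤ 1 := by
    intro e i
    rw [norm_mul, norm_pow, hζ1, one_pow, mul_one]
    exact ha1 i
  have hrdterm : ∀ (e : ℕ) (i : Fin (deg Q N)), rd q (((a i : ↥K) : PadicAlgCl q) * ζ ^ e) =
      rd q ((a i : ↥K) : PadicAlgCl q) * rd q ζ ^ e := by
    intro e i
    rw [rd_mul q (ha1 i) (by rw [norm_pow, hζ1, one_pow]), rd_pow q hζ1.le]
  have hle1 : ‖∑ i, ((a i : ↥K) : PadicAlgCl q) * ζ ^ (Q * (i : ℕ))‖ ≤ 1 :=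
    IsUltrametricDist.norm_sum_le_of_forall_le_of_nonneg zero_le_one (fun i _ => hterm _ i)
  have hle2 : ‖∑ i, ((a i : ↥K) : PadicAlgCl q) * ζ ^ (i : ℕ)‖ ≤ 1 :=
    IsUltrametricDist.norm_sum_le_of_forall_le_of_nonneg zero_le_one (fun i _ => hterm _ i)
  have hle3 : ‖(∑ i, ((a i : ↥K) : PadicAlgCl q) * ζ ^ (i : ℕ)) ^ Q‖ ≤ 1 := by
    rw [norm_pow]; exact pow_le_one₀ (norm_nonneg _) hle2
  rw [← rd_eq_rd_iff q hle1 hle3, rd_pow q hle2, rd_sum q _ _ (fun i _ => hterm _ i),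
    rd_sum q _ _ (fun i _ => hterm _ i), ← hF, map_sum]
  refine Finset.sum_congr rfl fun i _ => ?_
  rw [hrdterm, hrdterm, map_mul, map_pow, hF, hF, ← pow_mul]
  congr 1
  rw [← rd_pow q (ha1 i), eq_comm, rd_eq_rd_iff q _ (ha1 i)]
  · exact hK.frob _ (a i).2 (ha1 i)
  · rw [norm_pow]; exact pow_le_one₀ (norm_nonneg _) (ha1 i)

end Field

/-! ### Existence of residue data -/

section Exists

variable (K)

/-- The integers of `K`, as a subring of the integers of `PadicAlgCl q`. -/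
noncomputable def intK : Subring 𝒪[PadicAlgCl q] :=
  K.toSubfield.toSubring.comap (𝒪[PadicAlgCl q]).subtype

theorem mem_intK (x : 𝒪[PadicAlgCl q]) : x ∈ intK K ↔ (x : PadicAlgCl q) ∈ K := Iff.rfl

/-- The residue field of `K`, as a subring of the residue field of `PadicAlgCl q`. -/
noncomputable def resK : Subring (kbar q) := (intK K).map (res q)

theorem mem_resK (y : kbar q) :
    y ∈ resK K ↔ ∃ x : PadicAlgCl q, x ∈ K ∧ ‖x‖ ≤ 1 ∧ rd q x = y := by
  unfold resK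
  rw [Subring.mem_map]
  constructor
  · rintro ⟨x, hx, rfl⟩
    exact ⟨x, (mem_intK K x).1 hx, norm_coe_le_one q x, rd_coe q x⟩
  · rintro ⟨x, hxK, hx1, rfl⟩
    exact ⟨mkO q x hx1, hxK, (rd_of_le q hx1).symm⟩

theorem finite_resK [FiniteDimensional ℚ_[q] K] : (resK K : Set (kbar q)).Finite := by
  classical
  obtain ⟨R, hR1, hR⟩ := LocalDatum.exists_finite_residue_system q ↥K
  apply Set.Finite.subset (R.image (fun r : ↥K => rd q (r : PadicAlgCl q))).finite_toSet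
  intro y hy
  obtain ⟨x, hxK, hx1, rfl⟩ := (mem_resK K y).1 hy
  obtain ⟨r, hr, hxr⟩ := hR ⟨x, hxK⟩ hx1
  rw [Finset.mem_coe, Finset.mem_image]
  refine ⟨r, hr, ?_⟩
  have h1 : ‖(r : PadicAlgCl q)‖ ≤ 1 := hR1 r hr
  rw [eq_comm]
  exact (rd_eq_rd_iff q hx1 h1).2 hxr

/-- A finite subring `κ` of a field of characteristic `q`: its cardinality is a positive power of
`q` and all its elements satisfy `x ^ |κ| = x`. -/
theorem finite_subring_card {k : Type*} [Field k] (p : ℕ) [Fact p.Prime] [CharP k p]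
    (κ : Subring k) (hfin : (κ : Set k).Finite) :
    ∃ f : ℕ, 0 < f ∧ Nat.card κ = p ^ f ∧ ∀ x ∈ κ, x ^ (p ^ f) = x := by
  classical
  have : Fintype κ := hfin.fintype
  let _ : Field κ := Fintype.fieldOfDomain κ
  have : CharP κ p := (RingHom.charP_iff κ.subtype Subtype.val_injective p).2 inferInstance
  obtain ⟨n, -, hn⟩ := FiniteField.card κ p
  refine ⟨n, n.pos, ?_, ?_⟩
  · rw [Nat.card_eq_fintype_card, hn]
  · intro x hx
    have h := FiniteField.pow_card (⟨x, hx⟩ : κ)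
    rw [hn] at h
    exact congrArg Subtype.val h

/-- **Residue data exist** for every finite extension of `ℚ_[q]` inside `PadicAlgCl q`. -/
theorem exists_residueData [FiniteDimensional ℚ_[q] K] : ∃ Q : ℕ, ResidueData q K Q := by
  classical
  obtain ⟨f, hf, hcard, hpow⟩ := finite_subring_card q (resK K) (finite_resK K)
  refine ⟨q ^ f, ⟨f, hf, rfl⟩, ?_, ?_⟩
  · intro x hxK hx1
    have hmem : rd q x ∈ resK K := (mem_resK K _).2 ⟨x, hxK, hx1, rfl⟩
    have h := hpow _ hmem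
    rw [← rd_pow q hx1, rd_eq_rd_iff q _ hx1] at h
    · exact h
    · rw [norm_pow]; exact pow_le_one₀ (norm_nonneg _) hx1
  · have : Fintype (resK K) := (finite_resK K).fintype
    have hch : ∀ y : resK K, ∃ x : PadicAlgCl q, x ∈ K ∧ ‖x‖ ≤ 1 ∧ rd q x = y :=
      fun y => (mem_resK K _).1 y.2
    choose g hgK hg1 hgy using hch
    have hginj : Function.Injective g := by
      intro y y' h
      apply Subtype.ext
      rw [← hgy y, ← hgy y', h]
    refine ⟨Finset.univ.image g, ?_, ?_, ?_⟩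
    · rw [Finset.card_image_of_injective _ hginj, Finset.card_univ, ← Nat.card_eq_fintype_card,
        hcard]
    · intro r hr
      obtain ⟨y, -, rfl⟩ := Finset.mem_image.1 hr
      exact ⟨hgK y, hg1 y⟩
    · intro r hr r' hr' hne
      obtain ⟨y, -, rfl⟩ := Finset.mem_image.1 hr
      obtain ⟨y', -, rfl⟩ := Finset.mem_image.1 hr'
      apply le_antisymm
      · have h := IsUltrametricDist.norm_add_le_max (g y) (-(g y'))
        rw [norm_neg, ← sub_eq_add_neg] at h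
        exact h.trans (max_le (hg1 y) (hg1 y'))
      · by_contra hlt
        rw [not_le, ← rd_eq_rd_iff q (hg1 y) (hg1 y'), hgy, hgy] at hlt
        exact hne (congrArg g (Subtype.ext hlt))


end Exists

/-! ### Main theorems -/

section Main

omit [Fact q.Prime] in
theorem deg_pow_sub_one {Q n : ℕ} (hQ : 1 < Q) (hn : 0 < n) : deg Q (Q ^ n - 1) = n := by
  unfold deg
  have hlt : ∀ m, 0 < m → 1 < Q ^ m := fun m hm => Nat.one_lt_pow hm.ne' hQ
  rw [orderOf_eq_iff hn]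
  constructor
  · rw [← Nat.cast_pow, ← Nat.cast_one (R := ZMod (Q ^ n - 1)), ZMod.natCast_eq_natCast_iff]
    exact Nat.modEq_sub (hlt n hn).le
  · intro m hmn hm h
    rw [← Nat.cast_pow, ← Nat.cast_one (R := ZMod (Q ^ n - 1)), ZMod.natCast_eq_natCast_iff] at h
    have h1 := (Nat.modEq_iff_dvd' (hlt m hm).le).1 h.symm
    have h2 : Q ^ m < Q ^ n := Nat.pow_lt_pow_right hQ hmn
    have h4 : 1 < Q ^ m := hlt m hm
    have h3 : Q ^ n - 1 ≤ Q ^ m - 1 := Nat.le_of_dvd (by omega) h1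
    omega


/-- **Main theorem**: for `N` prime to `q` and `ζ` a primitive `N`-th root of unity, `K(ζ)/K` is
Galois, cyclic of degree `d = orderOf (Q mod N)`, generated by a Frobenius `φ` (`φ ζ = ζ ^ Q`,
`φ x ≡ x ^ Q` on integers), and unramified (every norm of `K(ζ)` is a norm of `K`). -/
theorem unramified_adjoin {Q N : ℕ} [NeZero N] {ζ : PadicAlgCl q} (hK : ResidueData q K Q)
    (hN : ¬ q ∣ N) (hζ : IsPrimitiveRoot ζ N) :
    FiniteDimensional ↥K ↥(adj K ζ) ∧ IsGalois ↥K ↥(adj K ζ) ∧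
    Module.finrank ↥K ↥(adj K ζ) = deg Q N ∧
    ∃ φ : ↥(adj K ζ) ≃ₐ[↥K] ↥(adj K ζ),
      φ (gen K ζ) = gen K ζ ^ Q ∧ (∀ g, g ∈ Subgroup.zpowers φ) ∧ orderOf φ = deg Q N ∧
      (∀ x : ↥(adj K ζ), ‖(x : PadicAlgCl q)‖ ≤ 1 →
        ‖((φ x : ↥(adj K ζ)) : PadicAlgCl q) - (x : PadicAlgCl q) ^ Q‖ < 1) ∧
      (∀ x : ↥(adj K ζ), ∃ y : ↥K, ‖(x : PadicAlgCl q)‖ = ‖(y : PadicAlgCl q)‖) := by
  obtain ⟨φ, h1, h2, h3⟩ := exists_frobenius hK hN hζ
  exact ⟨finiteDimensional_adj hζ, isGalois_adj hζ, finrank_adj hK hN hζ, φ, h1, h2, h3,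
    fun x hx => frobenius_congr hK hN hζ φ h1 x hx, fun x => exists_norm_eq hK hN hζ x⟩

theorem ResidueData.not_dvd_pow_sub_one {Q : ℕ} (hK : ResidueData q K Q) {n : ℕ} (hn : 0 < n) :
    ¬ q ∣ Q ^ n - 1 := by
  obtain ⟨f, hf, rfl⟩ := hK.exists_pow
  intro h
  have hq := (Fact.out : q.Prime)
  have h1 : q ∣ (q ^ f) ^ n := by
    rw [← pow_mul]
    exact dvd_pow_self q (Nat.mul_pos hf hn).ne'
  have h2 : 1 ≤ (q ^ f) ^ n := Nat.one_le_pow _ _ (pow_pos hq.pos f)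
  have h3 : q ∣ (q ^ f) ^ n - ((q ^ f) ^ n - 1) := Nat.dvd_sub h1 h
  have h4 : (q ^ f) ^ n - ((q ^ f) ^ n - 1) = 1 := by omega
  rw [h4] at h3
  exact hq.one_lt.ne' (Nat.dvd_one.1 h3)

/-- **The unramified extension of degree `n`** of `K` inside `PadicAlgCl q`. -/
theorem exists_unramified [FiniteDimensional ℚ_[q] K] (n : ℕ) (hn : 0 < n) :
    ∃ (Q : ℕ) (_ : ResidueData q K Q) (E : IntermediateField ↥K (PadicAlgCl q))
      (_ : FiniteDimensional ↥K ↥E) (_ : IsGalois ↥K ↥E) (φ : ↥E ≃ₐ[↥K] ↥E),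
      Module.finrank ↥K ↥E = n ∧ (∀ g, g ∈ Subgroup.zpowers φ) ∧ orderOf φ = n ∧
      (∀ x : ↥E, ‖(x : PadicAlgCl q)‖ ≤ 1 →
        ‖((φ x : ↥E) : PadicAlgCl q) - (x : PadicAlgCl q) ^ Q‖ < 1) ∧
      (∀ x : ↥E, ∃ y : ↥K, ‖(x : PadicAlgCl q)‖ = ‖(y : PadicAlgCl q)‖) := by
  obtain ⟨Q, hK⟩ := exists_residueData K
  have hQ := hK.one_lt
  have hN0 : Q ^ n - 1 ≠ 0 := by
    have := Nat.one_lt_pow hn.ne' hQ
    omega
  have : NeZero (Q ^ n - 1) := ⟨hN0⟩
  obtain ⟨ζ, hζ⟩ := HasEnoughRootsOfUnity.exists_primitiveRoot (PadicAlgCl q) (Q ^ n - 1)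
  obtain ⟨h1, h2, h3, φ, -, h5, h6, h7, h8⟩ :=
    unramified_adjoin hK (hK.not_dvd_pow_sub_one hn) hζ
  rw [deg_pow_sub_one hQ hn] at h3 h6
  exact ⟨Q, hK, adj K ζ, h1, h2, φ, h3, h5, h6, h7, h8⟩

end Main

end Fermat.Agent.S55.Local.UnramExt
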