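import Mathlib
import Fermat.Agent.S55.Local.AlgLF
import Fermat.Agent.S55.Local.AlgLFGroup
import Fermat.Agent.S55.Local.CycloTower

/-!
# S55 / Local: the Local block in purely algebraic form, UNCONDITIONAL

`Local/CycloTower.lean` closes the Local block (`H2Card`, `H2Cyclic`, `H3Vanish`).  Here the
norm-free forms of `Local/AlgLF.lean` (fields finite over `ℚ_[q]`) and `Local/AlgLFGroup.lean`
(a finite group `D` acting faithfully on a field `E` finite over `ℚ_[q]`) are restated without
hypotheses.
-/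

set_option autoImplicit false
set_option linter.unusedSectionVars false

namespace Fermat.Agent.S55.Local.AlgLFFinal

open groupCohomology CategoryTheory CategoryTheory.Limits
open Fermat.Agent.S55.Local

section Field

variable (q : ℕ) [Fact q.Prime]
variable (F E : Type) [Field F] [Algebra ℚ_[q] F] [FiniteDimensional ℚ_[q] F]
  [Field E] [Algebra F E] [FiniteDimensional F E] [IsGalois F E]

include q

/-- `#H²(Gal(E/F), Eˣ) = [E : F]`. -/
theorem h2Card :
    Nat.card (groupCohomology (Rep.ofAlgebraAutOnUnits F E) 2) = Module.finrank F E :=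
  AlgLF.h2Card q F E CycloTower.h2Card

/-- `H²(Gal(E/F), Eˣ)` is cyclic. -/
theorem h2Cyclic : IsAddCyclic (groupCohomology (Rep.ofAlgebraAutOnUnits F E) 2) :=
  AlgLF.h2Cyclic q F E CycloTower.h2Cyclic

/-- `H³(Gal(E/F), Eˣ) = 0`. -/
theorem h3Vanish : IsZero (groupCohomology (Rep.ofAlgebraAutOnUnits F E) 3) :=
  AlgLF.h3Vanish q F E CycloTower.h3Vanish

/-- A class of order exactly `[E : F]`. -/
theorem existsFullOrder :
    ∃ x : groupCohomology (Rep.ofAlgebraAutOnUnits F E) 2, addOrderOf x = Module.finrank F E :=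
  AlgLF.existsFullOrder q F E CycloTower.existsFullOrder

end Field

section Group

variable (q : ℕ) [Fact q.Prime]
variable (E : Type) [Field E] [Algebra ℚ_[q] E] [FiniteDimensional ℚ_[q] E]
variable (D : Type) [Group D] [Finite D] [MulSemiringAction D E] [FaithfulSMul D E]
  [SMulCommClass D ℚ_[q] E]
variable [MulDistribMulAction D Eˣ] (hD : ∀ (d : D) (u : Eˣ), ((d • u : Eˣ) : E) = d • (u : E))

include q hD

/-- `#H²(D, Eˣ) = #D`. -/
theorem h2Card_group :
    Nat.card (groupCohomology (Rep.ofMulDistribMulAction D Eˣ) 2) = Nat.card D :=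
  AlgLFGroup.h2Card q E D hD CycloTower.h2Card

/-- `H²(D, Eˣ)` is cyclic. -/
theorem h2Cyclic_group : IsAddCyclic (groupCohomology (Rep.ofMulDistribMulAction D Eˣ) 2) :=
  AlgLFGroup.h2Cyclic q E D hD CycloTower.h2Cyclic

/-- **Local Tate**: `H³(D, Eˣ) = 0`. -/
theorem isZero_H3_group : IsZero (groupCohomology (Rep.ofMulDistribMulAction D Eˣ) 3) :=
  AlgLFGroup.isZero_H3 q E D hD CycloTower.h3Vanish

end Group

end Fermat.Agent.S55.Local.AlgLFFinal
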