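/-
S55 / local class formation, piece `Local.Concrete` (helper30).

Concrete facts about a finite extension `E` of `ℚ_[q]` inside `PadicAlgCl q`:
the norm is invariant under automorphisms, the value group is discrete (uniformiser),
the normalised valuation `ordHom : Additive Eˣ →+ ℤ`, compactness of the unit ball.
-/
import Mathlib

set_option autoImplicit false

namespace Fermat.Agent.S55.Local.Concrete

variable {q : ℕ} [Fact q.Prime]

/-- The norm of an element of `PadicAlgCl q` only depends on its minimal polynomial. -/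
theorem norm_eq_of_minpoly_eq {x y : PadicAlgCl q}
    (h : minpoly ℚ_[q] x = minpoly ℚ_[q] y) : ‖x‖ = ‖y‖ := by
  rw [← PadicAlgCl.spectralNorm_eq, ← PadicAlgCl.spectralNorm_eq]
  unfold spectralNorm
  rw [h]

variable (E : IntermediateField ℚ_[q] (PadicAlgCl q))

theorem norm_coe (x : E) : ‖(x : PadicAlgCl q)‖ = ‖x‖ := rfl

/-- Every `ℚ_[q]`-automorphism of `E` is an isometry. -/
theorem norm_algEquiv (σ : E ≃ₐ[ℚ_[q]] E) (x : E) : ‖σ x‖ = ‖x‖ := by
  rw [← norm_coe, ← norm_coe]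
  apply norm_eq_of_minpoly_eq
  rw [← IntermediateField.minpoly_eq, ← IntermediateField.minpoly_eq, minpoly.algEquiv_eq]

theorem norm_natCast_q : ‖((q : ℕ) : E)‖ = (q : ℝ)⁻¹ := by
  rw [← norm_coe]
  have : (((q : ℕ) : E) : PadicAlgCl q) = algebraMap ℚ_[q] (PadicAlgCl q) (q : ℚ_[q]) := by
    simp
  rw [this, PadicAlgCl.norm_extends, Padic.norm_p]

theorem q_pos : (0 : ℝ) < q := by exact_mod_cast (Fact.out : q.Prime).pos

theorem one_lt_q : (1 : ℝ) < q := by exact_mod_cast (Fact.out : q.Prime).one_lt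

/-- For `x ≠ 0` in `E`, `‖x‖ ^ [E : ℚ_q]` is an integral power of `q`. -/
theorem exists_norm_pow_finrank_eq (x : E) (hx : x ≠ 0) :
    ∃ k : ℤ, ‖x‖ ^ (Module.finrank ℚ_[q] E) = (q : ℝ) ^ k := by
  have hint : IsIntegral ℚ_[q] x := Algebra.IsIntegral.isIntegral x
  obtain ⟨m, hm⟩ := minpoly.degree_dvd hint
  set f := minpoly ℚ_[q] x with hf
  have hn : 0 < f.natDegree := minpoly.natDegree_pos hint
  have hc0 : f.coeff 0 ≠ 0 := minpoly.coeff_zero_ne_zero hint hx
  have h1 : ‖x‖ = ‖f.coeff 0‖ ^ (1 / (f.natDegree : ℝ)) := by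
    rw [← norm_coe, ← PadicAlgCl.spectralNorm_eq,
      spectralNorm.spectralNorm_eq_norm_coeff_zero_rpow, ← IntermediateField.minpoly_eq]
  have h2 : ‖x‖ ^ f.natDegree = ‖f.coeff 0‖ := by
    rw [h1, ← Real.rpow_natCast, ← Real.rpow_mul (norm_nonneg _), one_div,
      inv_mul_cancel₀ (by exact_mod_cast hn.ne'), Real.rpow_one]
  refine ⟨-(f.coeff 0).valuation * m, ?_⟩
  rw [hm, pow_mul, h2, Padic.norm_eq_zpow_neg_valuation hc0, zpow_mul, zpow_natCast]

variable [FiniteDimensional ℚ_[q] E]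

theorem finrank_pos' : 0 < Module.finrank ℚ_[q] E := Module.finrank_pos

/-- The subgroup of `ℤ` of exponents `k` with `q ^ k ∈ ‖Eˣ‖ ^ [E : ℚ_q]`. -/
def expSubgroup : AddSubgroup ℤ where
  carrier := {k | ∃ x : E, x ≠ 0 ∧ ‖x‖ ^ (Module.finrank ℚ_[q] E) = (q : ℝ) ^ k}
  zero_mem' := ⟨1, one_ne_zero, by simp⟩
  add_mem' := by
    rintro a b ⟨x, hx, hxa⟩ ⟨y, hy, hyb⟩
    refine ⟨x * y, mul_ne_zero hx hy, ?_⟩
    rw [norm_mul, mul_pow, hxa, hyb, zpow_add₀ q_pos.ne']
  neg_mem' := by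
    rintro a ⟨x, hx, hxa⟩
    refine ⟨x⁻¹, inv_ne_zero hx, ?_⟩
    rw [norm_inv, inv_pow, hxa, zpow_neg]

theorem neg_finrank_mem_expSubgroup :
    -(Module.finrank ℚ_[q] E : ℤ) ∈ expSubgroup E := by
  refine ⟨((q : ℕ) : E), ?_, ?_⟩
  · have : (0 : ℝ) < ‖((q : ℕ) : E)‖ := by
      rw [norm_natCast_q]; exact inv_pos.mpr q_pos
    exact norm_pos_iff.mp this
  · rw [norm_natCast_q, zpow_neg, zpow_natCast, inv_pow]

/-- **Discreteness of the value group**: there is a uniformiser. -/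
theorem exists_uniformizer :
    ∃ ϖ : E, 0 < ‖ϖ‖ ∧ ‖ϖ‖ < 1 ∧ ∀ x : E, x ≠ 0 → ∃ n : ℤ, ‖x‖ = ‖ϖ‖ ^ n := by
  set d := Module.finrank ℚ_[q] E with hd
  have hdpos : 0 < d := finrank_pos' E
  obtain ⟨a, ha⟩ := Int.subgroup_cyclic (expSubgroup E)
  have hamem : a ∈ expSubgroup E := by rw [ha]; exact AddSubgroup.subset_closure rfl
  have ha0 : a ≠ 0 := by
    rintro rfl
    have h := neg_finrank_mem_expSubgroup E
    rw [ha, AddSubgroup.mem_closure_singleton] at h
    obtain ⟨k, hk⟩ := h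
    simp at hk
    omega
  -- an element with exponent `-|a|`
  obtain ⟨ϖ, hϖ0, hϖ⟩ : ∃ x : E, x ≠ 0 ∧ ‖x‖ ^ d = (q : ℝ) ^ (-(|a|)) := by
    rcases le_or_gt 0 a with h | h
    · rw [abs_of_nonneg h]
      exact (expSubgroup E).neg_mem hamem
    · rw [abs_of_neg h, neg_neg]
      exact hamem
  have hϖpos : 0 < ‖ϖ‖ := norm_pos_iff.mpr hϖ0
  have habs : 0 < |a| := abs_pos.mpr ha0
  refine ⟨ϖ, hϖpos, ?_, ?_⟩
  · by_contra hge
    push Not at hge
    have h1 : (1 : ℝ) ≤ ‖ϖ‖ ^ d := one_le_pow₀ hge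
    rw [hϖ, zpow_neg] at h1
    have h2 : (1 : ℝ) < (q : ℝ) ^ |a| := one_lt_zpow₀ one_lt_q habs
    have h3 : ((q : ℝ) ^ |a|)⁻¹ < 1 := inv_lt_one_of_one_lt₀ h2
    linarith
  · intro x hx
    obtain ⟨k, hk⟩ := exists_norm_pow_finrank_eq E x hx
    have hkmem : k ∈ expSubgroup E := ⟨x, hx, hk⟩
    rw [ha, AddSubgroup.mem_closure_singleton] at hkmem
    obtain ⟨m, hm⟩ := hkmem
    -- `k = m * a = n * (-|a|)`
    obtain ⟨n, hn⟩ : ∃ n : ℤ, k = n * (-|a|) := by
      rcases le_or_gt 0 a with h | h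
      · refine ⟨-m, ?_⟩
        rw [abs_of_nonneg h, ← hm]; simp
      · refine ⟨m, ?_⟩
        rw [abs_of_neg h, ← hm]; simp
    refine ⟨n, ?_⟩
    have h1 : ‖x‖ ^ d = (‖ϖ‖ ^ n) ^ d := by
      rw [hk, hn, mul_comm, zpow_mul, ← hϖ, ← zpow_natCast (‖ϖ‖ ^ n), ← zpow_mul, mul_comm,
        zpow_mul, zpow_natCast]
    exact (pow_left_inj₀ (norm_nonneg x) (zpow_nonneg hϖpos.le n) hdpos.ne').mp h1

/-- A chosen uniformiser of `E`. -/
noncomputable def unif : E := (exists_uniformizer E).choose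

theorem unif_norm_pos : 0 < ‖unif E‖ := (exists_uniformizer E).choose_spec.1

theorem unif_norm_lt_one : ‖unif E‖ < 1 := (exists_uniformizer E).choose_spec.2.1

theorem unif_ne_zero : unif E ≠ 0 := norm_pos_iff.mp (unif_norm_pos E)

theorem exists_norm_eq_zpow (x : E) (hx : x ≠ 0) : ∃ n : ℤ, ‖x‖ = ‖unif E‖ ^ n :=
  (exists_uniformizer E).choose_spec.2.2 x hx

theorem zpow_unif_injective : Function.Injective (fun n : ℤ => ‖unif E‖ ^ n) :=
  (zpow_right_strictAnti₀ (unif_norm_pos E) (unif_norm_lt_one E)).injective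

/-- The normalised valuation of a unit of `E`. -/
noncomputable def ord (x : Eˣ) : ℤ := (exists_norm_eq_zpow E x x.ne_zero).choose

theorem norm_eq_zpow_ord (x : Eˣ) : ‖(x : E)‖ = ‖unif E‖ ^ ord E x :=
  (exists_norm_eq_zpow E x x.ne_zero).choose_spec

theorem ord_eq_of_norm_eq {x : Eˣ} {n : ℤ} (h : ‖(x : E)‖ = ‖unif E‖ ^ n) : ord E x = n := by
  apply zpow_unif_injective E
  change ‖unif E‖ ^ ord E x = ‖unif E‖ ^ n
  rw [← norm_eq_zpow_ord, h]

theorem ord_mul (x y : Eˣ) : ord E (x * y) = ord E x + ord E y := by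
  apply ord_eq_of_norm_eq
  rw [Units.val_mul, norm_mul, norm_eq_zpow_ord, norm_eq_zpow_ord,
    zpow_add₀ (unif_norm_pos E).ne']

theorem ord_one : ord E 1 = 0 := by
  apply ord_eq_of_norm_eq
  simp

/-- The normalised valuation as an additive homomorphism `Additive Eˣ →+ ℤ`. -/
noncomputable def ordHom : Additive Eˣ →+ ℤ where
  toFun x := ord E x.toMul
  map_zero' := ord_one E
  map_add' x y := ord_mul E x.toMul y.toMul

theorem ordHom_apply (x : Additive Eˣ) : ordHom E x = ord E x.toMul := rfl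

theorem ordHom_surjective : Function.Surjective (ordHom E) := by
  intro n
  refine ⟨Additive.ofMul ((Units.mk0 (unif E) (unif_ne_zero E)) ^ n), ?_⟩
  rw [ordHom_apply]
  apply ord_eq_of_norm_eq
  simp

theorem ord_eq_zero_iff (x : Eˣ) : ord E x = 0 ↔ ‖(x : E)‖ = 1 := by
  constructor
  · intro h
    rw [norm_eq_zpow_ord, h, zpow_zero]
  · intro h
    apply ord_eq_of_norm_eq
    rw [h, zpow_zero]

theorem mem_ker_ordHom_iff (x : Additive Eˣ) :
    x ∈ (ordHom E).ker ↔ ‖((x.toMul : Eˣ) : E)‖ = 1 := by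
  rw [AddMonoidHom.mem_ker, ordHom_apply, ord_eq_zero_iff]

theorem ord_map_algEquiv (σ : E ≃ₐ[ℚ_[q]] E) (x : Eˣ) :
    ord E (Units.map (σ : E →* E) x) = ord E x := by
  apply ord_eq_of_norm_eq
  rw [Units.coe_map]
  change ‖σ (x : E)‖ = _
  rw [norm_algEquiv, norm_eq_zpow_ord]

/-! ### Compactness -/

instance instProperSpace : ProperSpace E := FiniteDimensional.proper ℚ_[q] E

instance instCompleteSpace : CompleteSpace E := FiniteDimensional.complete ℚ_[q] E

theorem isCompact_unitBall : IsCompact (Metric.closedBall (0 : E) 1) :=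
  isCompact_closedBall 0 1

/-! ### Principal unit subgroups -/

theorem norm_sub_le_max' (a b : E) : ‖a - b‖ ≤ max ‖a‖ ‖b‖ := by
  have h := IsUltrametricDist.norm_add_le_max a (-b)
  rwa [norm_neg, ← sub_eq_add_neg] at h

theorem norm_eq_one_of_norm_sub_one_lt {x : E} (h : ‖x - 1‖ < 1) : ‖x‖ = 1 := by
  have h1 : x = (x - 1) + 1 := by ring
  have h2 : ‖(x - 1) + 1‖ = max ‖x - 1‖ ‖(1 : E)‖ :=
    IsUltrametricDist.norm_add_eq_max_of_norm_ne_norm (by rw [norm_one]; exact h.ne)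
  rw [h1, h2, norm_one, max_eq_right h.le]

/-- The subgroup `{u : ‖u - 1‖ ≤ r}` of `Eˣ` (written additively), for `r < 1`. -/
def ballSubgroup (r : ℝ) (hr0 : 0 ≤ r) (hr : r < 1) : AddSubgroup (Additive Eˣ) where
  carrier := {u | ‖((u.toMul : Eˣ) : E) - 1‖ ≤ r}
  zero_mem' := by
    change ‖(((1 : Eˣ) : E)) - 1‖ ≤ r
    simpa using hr0
  add_mem' := by
    intro u v hu hv
    change ‖((u.toMul * v.toMul : Eˣ) : E) - 1‖ ≤ r
    set a := ((u.toMul : Eˣ) : E) with ha
    set b := ((v.toMul : Eˣ) : E) with hb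
    have hu' : ‖a - 1‖ ≤ r := hu
    have hv' : ‖b - 1‖ ≤ r := hv
    have h1 : a * b - 1 = (a - 1) * (b - 1) + ((a - 1) + (b - 1)) := by ring
    rw [Units.val_mul, h1]
    refine (IsUltrametricDist.norm_add_le_max _ _).trans (max_le ?_ ?_)
    · rw [norm_mul]
      calc ‖a - 1‖ * ‖b - 1‖ ≤ r * 1 :=
            mul_le_mul hu' (hv'.trans hr.le) (norm_nonneg _) hr0
        _ = r := mul_one r
    · exact (IsUltrametricDist.norm_add_le_max _ _).trans (max_le hu' hv')
  neg_mem' := by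
    intro u hu
    change ‖(((u.toMul)⁻¹ : Eˣ) : E) - 1‖ ≤ r
    set a := ((u.toMul : Eˣ) : E) with ha
    have hu' : ‖a - 1‖ ≤ r := hu
    have ha1 : ‖a‖ = 1 := norm_eq_one_of_norm_sub_one_lt E (hu'.trans_lt hr)
    have ha0 : a ≠ 0 := (u.toMul).ne_zero
    have h1 : a⁻¹ - 1 = -(a - 1) * a⁻¹ := by field_simp; ring
    rw [Units.val_inv_eq_inv_val, h1, norm_mul, norm_neg, norm_inv, ha1, inv_one, mul_one]
    exact hu'

theorem mem_ballSubgroup_iff {r : ℝ} (hr0 : 0 ≤ r) (hr : r < 1) (u : Additive Eˣ) :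
    u ∈ ballSubgroup E r hr0 hr ↔ ‖((u.toMul : Eˣ) : E) - 1‖ ≤ r := Iff.rfl

theorem ballSubgroup_le_ker {r : ℝ} (hr0 : 0 ≤ r) (hr : r < 1) :
    ballSubgroup E r hr0 hr ≤ (ordHom E).ker := by
  intro u hu
  rw [mem_ker_ordHom_iff]
  exact norm_eq_one_of_norm_sub_one_lt E (lt_of_le_of_lt hu hr)

/-- The principal unit subgroups have finite index in the unit group. -/
theorem relIndex_ballSubgroup_ne_zero {r : ℝ} (hr0 : 0 < r) (hr : r < 1) :
    (ballSubgroup E r hr0.le hr).relIndex (ordHom E).ker ≠ 0 := by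
  classical
  set U := (ordHom E).ker with hU
  set W := (ballSubgroup E r hr0.le hr).addSubgroupOf U with hW
  obtain ⟨t, -, htfin, hcover⟩ := (isCompact_unitBall E).finite_cover_balls hr0
  have : Finite t := htfin
  -- the coordinate of an element of `U`
  let val : U → E := fun u => (((u : Additive Eˣ).toMul : Eˣ) : E)
  have hval1 : ∀ u : U, ‖val u‖ = 1 := fun u => (mem_ker_ordHom_iff E _).mp u.2
  let S : (U ⧸ W) → Set t := fun c => {x | ∃ u : U, (QuotientAddGroup.mk u : U ⧸ W) = c ∧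
    ‖val u - (x : E)‖ < r}
  have hinj : Function.Injective S := by
    intro c c' hcc
    obtain ⟨u, rfl⟩ := QuotientAddGroup.mk_surjective c
    obtain ⟨u', rfl⟩ := QuotientAddGroup.mk_surjective c'
    -- a point of `t` near `u`
    have hu : val u ∈ Metric.closedBall (0 : E) 1 := by
      rw [mem_closedBall_zero_iff, hval1]
    obtain ⟨x, hxt, hx⟩ := Set.mem_iUnion₂.mp (hcover hu)
    have hxS : (⟨x, hxt⟩ : t) ∈ S (QuotientAddGroup.mk u) :=
      ⟨u, rfl, by simpa [dist_eq_norm] using hx⟩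
    rw [hcc] at hxS
    obtain ⟨u'', hu'', hx''⟩ := hxS
    rw [← hu'']
    rw [QuotientAddGroup.eq]
    -- `-u + u'' ∈ W`
    change (-u + u'' : U) ∈ W
    rw [hW, AddSubgroup.mem_addSubgroupOf, mem_ballSubgroup_iff]
    have hclose : ‖val u'' - val u‖ < r := by
      have h1 : val u'' - val u = (val u'' - x) - (val u - x) := by ring
      rw [h1]
      refine lt_of_le_of_lt (norm_sub_le_max' E _ _) (max_lt hx'' ?_)
      simpa [dist_eq_norm] using hx
    have hu0 : val u ≠ 0 := fun h => by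
      have := hval1 u; rw [h, norm_zero] at this; exact zero_ne_one this
    have hcoe : ((((-u + u'' : U) : Additive Eˣ).toMul : Eˣ) : E) = (val u)⁻¹ * val u'' := by
      simp [val]
    rw [hcoe]
    have h2 : (val u)⁻¹ * val u'' - 1 = (val u)⁻¹ * (val u'' - val u) := by
      field_simp
    rw [h2, norm_mul, norm_inv, hval1, inv_one, one_mul]
    exact hclose.le
  have hfin : Finite (U ⧸ W) := Finite.of_injective S hinj
  rw [AddSubgroup.relIndex]
  exact AddSubgroup.index_ne_zero_of_finite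

end Fermat.Agent.S55.Local.Concrete
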