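/-
S55 / Local.CyclicCocycle (helper70): explicit 2-cocycles of a finite cyclic group.

`G` finite, generated by `σ`, `n = orderOf σ = Nat.card G`, `idx σ g` the exponent `i < n` with
`σ ^ i = g`.  For `a : A` the cochain `cyc σ a (g, h) = a` if `n ≤ idx g + idx h`, else `0`.

* (a) `cyc_mem_cocycles₂` : `cyc σ a` is a 2-cocycle if `a` is invariant.
* (b) `cyc_mem_coboundaries₂_iff` : `cyc σ a` is a coboundary iff `a` is a norm.
* (c) `exists_cyc_sub_mem_coboundaries₂` : every 2-cocycle is cohomologous to some `cyc σ a`.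
* (d) `cyc_add`, `cyc_zero`, `cyc_neg`, `cyc_sub`, `cyc_smul`.
* `cycLin`, `cycLin_surjective`, `cycLin_eq_zero_iff`, `cycEquiv : A^G / N A ≃ₗ H²(G, A)`.
* (e) `cyc_restrict` : restriction to the subgroup generated by `σ ^ d`, `d ∣ n`.
* (f) `inflation_sub_mem_coboundaries₂` : inflation along a surjection of cyclic groups.
-/
import Mathlib

set_option autoImplicit false

open groupCohomology Finset

namespace Fermat.Agent.S55.Local.CyclicCocycleB

section Idx

variable {G : Type*} [Group G]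

open Classical in
/-- The exponent `i < orderOf σ` with `σ ^ i = g` (junk value `0` if `g` is not a power of `σ`). -/
noncomputable def idx (σ g : G) : ℕ :=
  if h : ∃ i, i < orderOf σ ∧ σ ^ i = g then h.choose else 0

theorem idx_pow {σ : G} (hσ : 0 < orderOf σ) (i : ℕ) : idx σ (σ ^ i) = i % orderOf σ := by
  have h : ∃ j, j < orderOf σ ∧ σ ^ j = σ ^ i :=
    ⟨i % orderOf σ, Nat.mod_lt _ hσ, pow_mod_orderOf σ i⟩
  rw [idx, dif_pos h]
  obtain ⟨h1, h2⟩ := h.choose_spec
  exact pow_injOn_Iio_orderOf (Set.mem_Iio.mpr h1) (Set.mem_Iio.mpr (Nat.mod_lt _ hσ))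
    (h2.trans (pow_mod_orderOf σ i).symm)

theorem idx_pow_of_lt {σ : G} {i : ℕ} (hi : i < orderOf σ) : idx σ (σ ^ i) = i := by
  rw [idx_pow (lt_of_le_of_lt (Nat.zero_le _) hi), Nat.mod_eq_of_lt hi]

theorem idx_lt {σ : G} (hσ : 0 < orderOf σ) (g : G) : idx σ g < orderOf σ := by
  unfold idx
  split_ifs with h
  · exact h.choose_spec.1
  · exact hσ

theorem exists_pow_eq_of_forall_mem_zpowers [Finite G] {σ : G}
    (hσ : ∀ g : G, g ∈ Subgroup.zpowers σ) (g : G) : ∃ i, i < orderOf σ ∧ σ ^ i = g := by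
  have h1 := hσ g
  rw [← mem_powers_iff_mem_zpowers] at h1
  obtain ⟨i, rfl⟩ := h1
  exact ⟨i % orderOf σ, Nat.mod_lt _ (orderOf_pos σ), pow_mod_orderOf σ i⟩

theorem pow_idx [Finite G] {σ : G} (hσ : ∀ g : G, g ∈ Subgroup.zpowers σ) (g : G) :
    σ ^ idx σ g = g := by
  have h := exists_pow_eq_of_forall_mem_zpowers hσ g
  rw [idx, dif_pos h]
  exact h.choose_spec.2

theorem orderOf_eq_card [Finite G] {σ : G} (hσ : ∀ g : G, g ∈ Subgroup.zpowers σ) :
    orderOf σ = Nat.card G :=
  orderOf_eq_card_of_forall_mem_zpowers hσ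

end Idx

section Cyc

variable {G : Type*} [Group G] {M : Type*}

/-- The standard 2-cochain of a cyclic group attached to `a`:
`(σ^i, σ^j) ↦ a` if `i + j ≥ n` and `0` otherwise (`0 ≤ i, j < n = orderOf σ`). -/
noncomputable def cyc [Zero M] (σ : G) (a : M) : G × G → M := fun p =>
  if orderOf σ ≤ idx σ p.1 + idx σ p.2 then a else 0

theorem cyc_apply [Zero M] (σ : G) (a : M) (g h : G) :
    cyc σ a (g, h) = if orderOf σ ≤ idx σ g + idx σ h then a else 0 := rfl

theorem cyc_zero [Zero M] (σ : G) : cyc σ (0 : M) = 0 := by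
  funext p
  simp [cyc]

theorem cyc_add [AddZeroClass M] (σ : G) (a b : M) : cyc σ (a + b) = cyc σ a + cyc σ b := by
  funext p
  simp only [cyc, Pi.add_apply]
  split_ifs
  · rfl
  · rw [add_zero]

theorem cyc_neg [SubtractionMonoid M] (σ : G) (a : M) : cyc σ (-a) = -cyc σ a := by
  funext p
  simp only [cyc, Pi.neg_apply]
  split_ifs
  · rfl
  · rw [neg_zero]

theorem cyc_sub [SubtractionMonoid M] (σ : G) (a b : M) : cyc σ (a - b) = cyc σ a - cyc σ b := by
  funext p
  simp only [cyc, Pi.sub_apply]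
  split_ifs
  · rfl
  · rw [sub_zero]

theorem cyc_pow_pow [Zero M] {σ : G} (a : M) {x y : ℕ} (hx : x < orderOf σ)
    (hy : y < orderOf σ) :
    cyc σ a (σ ^ x, σ ^ y) = if orderOf σ ≤ x + y then a else 0 := by
  rw [cyc_apply, idx_pow_of_lt hx, idx_pow_of_lt hy]

end Cyc

theorem add_mod_eq_ite {n x y : ℕ} (hx : x < n) (hy : y < n) :
    (x + y) % n = if n ≤ x + y then x + y - n else x + y := by
  split_ifs with h
  · rw [Nat.mod_eq_sub_mod h, Nat.mod_eq_of_lt (by omega)]
  · exact Nat.mod_eq_of_lt (by omega)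

section Cocycle

universe u

variable {k G : Type u} [CommRing k] [Group G] [Finite G] (A : Rep k G)
variable {σ : G} (hσ : ∀ g : G, g ∈ Subgroup.zpowers σ)
include hσ

theorem idx_mul (g h : G) : idx σ (g * h) = (idx σ g + idx σ h) % orderOf σ := by
  conv_lhs => rw [← pow_idx hσ g, ← pow_idx hσ h, ← pow_add]
  exact idx_pow (orderOf_pos σ) _

theorem ρ_eq_of_ρ_gen {a : A} (ha : A.ρ σ a = a) (g : G) : A.ρ g a = a := by
  rw [← pow_idx hσ g, map_pow]
  generalize idx σ g = i
  induction i with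
  | zero => simp
  | succ i ih => rw [pow_succ, Module.End.mul_apply, ha, ih]

/-- **(a)** `cyc σ a` is a 2-cocycle when `a` is invariant. -/
theorem cyc_mem_cocycles₂ {a : A} (ha : A.ρ σ a = a) : cyc σ a ∈ cocycles₂ A := by
  rw [mem_cocycles₂_iff]
  intro g h j
  have hn := orderOf_pos σ
  have hx := idx_lt hn g
  have hy := idx_lt hn h
  have hz := idx_lt hn j
  have hρ : A.ρ g (cyc σ a (h, j)) = cyc σ a (h, j) := by
    rw [cyc_apply]
    split_ifs
    · exact ρ_eq_of_ρ_gen A hσ ha g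
    · exact map_zero _
  rw [hρ]
  simp only [cyc_apply, idx_mul hσ, add_mod_eq_ite hx hy, add_mod_eq_ite hy hz]
  split_ifs <;> first | (exfalso; omega) | simp

end Cocycle

section Periodic

variable {M : Type*} [AddCommGroup M]

theorem sum_range_period_add (F : ℕ → M) (n : ℕ) (hF : ∀ k, F (n + k) = F k) (m : ℕ) :
    ∑ k ∈ range (n + m), F k = ∑ k ∈ range n, F k + ∑ k ∈ range m, F k := by
  rw [Finset.sum_range_add]
  congr 1
  exact Finset.sum_congr rfl fun k _ => hF k

theorem sum_range_add_eq_mod (F : ℕ → M) (n : ℕ) (hF : ∀ k, F (n + k) = F k) {x y : ℕ}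
    (hx : x < n) (hy : y < n) :
    ∑ k ∈ range (x + y), F k =
      ∑ k ∈ range ((x + y) % n), F k + (if n ≤ x + y then ∑ k ∈ range n, F k else 0) := by
  rw [add_mod_eq_ite hx hy]
  split_ifs with h
  · have : x + y = n + (x + y - n) := by omega
    conv_lhs => rw [this]
    rw [sum_range_period_add F n hF, add_comm]
  · rw [add_zero]

theorem sum_range_shift_of_period (F : ℕ → M) (n : ℕ) (hF : F n = F 0) :
    ∑ k ∈ range n, F (k + 1) = ∑ k ∈ range n, F k := by
  have h1 := Finset.sum_range_succ' F n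
  have h2 := Finset.sum_range_succ F n
  rw [h1, hF] at h2
  exact add_right_cancel h2

theorem sum_range_ite_succ_le (a : M) {n : ℕ} (hn : 0 < n) :
    ∑ k ∈ range n, (if n ≤ k + 1 then a else 0) = a := by
  rw [Finset.sum_eq_single (n - 1)]
  · rw [if_pos (by omega)]
  · intro k hk hne
    rw [Finset.mem_range] at hk
    rw [if_neg (by omega)]
  · intro h
    exact absurd (Finset.mem_range.mpr (by omega)) h

end Periodic

section Coboundary

universe u

variable {k G : Type u} [CommRing k] [Group G] [Fintype G] (A : Rep k G)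
variable {σ : G} (hσ : ∀ g : G, g ∈ Subgroup.zpowers σ)
include hσ

theorem sum_univ_eq_sum_range {M : Type*} [AddCommMonoid M] (F : G → M) :
    ∑ g : G, F g = ∑ k ∈ range (orderOf σ), F (σ ^ k) := by
  symm
  refine Finset.sum_nbij (fun k => σ ^ k) (fun _ _ => Finset.mem_univ _) ?_ ?_ (fun _ _ => rfl)
  · intro i hi j hj hij
    exact pow_injOn_Iio_orderOf (by simpa using hi) (by simpa using hj) hij
  · intro g _
    obtain ⟨i, hi, rfl⟩ := exists_pow_eq_of_forall_mem_zpowers hσ g
    exact ⟨i, by simpa using hi, rfl⟩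

omit [Fintype G] hσ in
theorem pow_orderOf_add (k : ℕ) : σ ^ (orderOf σ + k) = σ ^ k := by
  rw [pow_add, pow_orderOf_eq_one, one_mul]

/-- **(b), easy direction**: `cyc σ (N b)` is a coboundary. -/
theorem cyc_norm_mem_coboundaries₂ (b : A) :
    cyc σ (∑ g : G, A.ρ g b) ∈ coboundaries₂ A := by
  set n := orderOf σ with hn
  have hnpos : 0 < n := orderOf_pos σ
  set F : ℕ → A := fun k => A.ρ (σ ^ k) b with hF
  have hFper : ∀ k, F (n + k) = F k := fun k => by
    simp only [hF, hn, pow_orderOf_add]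
  have hnorm : ∑ g : G, A.ρ g b = ∑ k ∈ range n, F k := sum_univ_eq_sum_range hσ _
  refine ⟨fun g => ∑ k ∈ range (idx σ g), F k, ?_⟩
  funext ⟨g, h⟩
  rw [d₁₂_hom_apply]
  have hx := idx_lt hnpos g
  have hy := idx_lt hnpos h
  have h1 : A.ρ g (∑ k ∈ range (idx σ h), F k) = ∑ k ∈ range (idx σ h), F (idx σ g + k) := by
    rw [map_sum]
    refine Finset.sum_congr rfl fun k _ => ?_
    simp only [hF]
    conv_lhs => rw [← pow_idx hσ g]
    rw [← Module.End.mul_apply, ← map_mul, ← pow_add]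
  have h2 := Finset.sum_range_add F (idx σ g) (idx σ h)
  have h3 := sum_range_add_eq_mod F n hFper hx hy
  simp only [] at h1 ⊢
  rw [h1, idx_mul hσ, cyc_apply, hnorm]
  rw [h2] at h3
  rw [← hn]
  split_ifs at h3 ⊢ with hle
  · rw [← sub_eq_iff_eq_add] at h3
    rw [← h3]
    abel
  · rw [add_zero] at h3
    rw [← h3]
    abel

/-- **(b), main direction**: if `cyc σ a` is a coboundary then `a` is a norm. -/
theorem exists_norm_of_cyc_mem_coboundaries₂ {a : A}
    (h : cyc σ a ∈ coboundaries₂ A) : ∃ b : A, a = ∑ g : G, A.ρ g b := by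
  set n := orderOf σ with hn
  have hnpos : 0 < n := orderOf_pos σ
  rcases Nat.lt_or_ge 1 n with h1n | hn1
  · obtain ⟨c, hc⟩ := h
    refine ⟨c σ, ?_⟩
    have key : ∀ i ∈ range n, (if n ≤ i + 1 then a else 0) =
        A.ρ (σ ^ i) (c σ) - c (σ ^ (i + 1)) + c (σ ^ i) := by
      intro i hi
      rw [Finset.mem_range] at hi
      have := congrFun hc (σ ^ i, σ)
      rw [d₁₂_hom_apply] at this
      simp only [] at this
      rw [← pow_succ] at this
      rw [this, cyc_apply, idx_pow_of_lt hi]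
      have h1 : idx σ σ = 1 := by
        have := idx_pow_of_lt (σ := σ) h1n
        rwa [pow_one] at this
      rw [h1]
    have hsum := Finset.sum_congr rfl key
    rw [sum_range_ite_succ_le a hnpos, Finset.sum_add_distrib, Finset.sum_sub_distrib,
      sum_range_shift_of_period (fun i => c (σ ^ i)) n (by simp [hn, pow_orderOf_eq_one]),
      sub_add_cancel] at hsum
    rw [hsum, sum_univ_eq_sum_range hσ]
  · have hn1' : n = 1 := by omega
    refine ⟨a, ?_⟩
    rw [sum_univ_eq_sum_range hσ, ← hn, hn1', Finset.sum_range_one, pow_zero, map_one,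
      Module.End.one_apply]

/-- **(b)** `cyc σ a` is a coboundary iff `a` is a norm. -/
theorem cyc_mem_coboundaries₂_iff {a : A} :
    cyc σ a ∈ coboundaries₂ A ↔ ∃ b : A, a = ∑ g : G, A.ρ g b := by
  constructor
  · exact exists_norm_of_cyc_mem_coboundaries₂ A hσ
  · rintro ⟨b, rfl⟩
    exact cyc_norm_mem_coboundaries₂ A hσ b

end Coboundary

section Classify

universe u

variable {k G : Type u} [CommRing k] [Group G] (A : Rep k G) {σ : G}

/-- The telescoping identity for a 2-cocycle along the powers of `σ`. -/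
theorem cocycle_pow_pow (f : cocycles₂ A) (x y : ℕ) :
    f (σ ^ x, σ ^ y) = f (σ ^ x, 1) + ∑ i ∈ range (x + y), f (σ ^ i, σ)
      - ∑ i ∈ range x, f (σ ^ i, σ) - A.ρ (σ ^ x) (∑ i ∈ range y, f (σ ^ i, σ)) := by
  induction y with
  | zero => simp
  | succ y ih =>
    have hc := (mem_cocycles₂_iff f).1 f.2 (σ ^ x) (σ ^ y) σ
    rw [← pow_add, ← pow_succ] at hc
    have h1 : f (σ ^ x, σ ^ (y + 1)) =
        f (σ ^ (x + y), σ) + f (σ ^ x, σ ^ y) - A.ρ (σ ^ x) (f (σ ^ y, σ)) := by
      rw [hc]; abel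
    rw [h1, ih, ← add_assoc x y 1, Finset.sum_range_succ _ (x + y), Finset.sum_range_succ _ y,
      map_add]
    abel

variable [Finite G] (hσ : ∀ g : G, g ∈ Subgroup.zpowers σ)
include hσ

/-- **(c)** every 2-cocycle of a finite cyclic group is cohomologous to some `cyc σ a` with `a`
invariant. -/
theorem exists_cyc_sub_mem_coboundaries₂ (f : G × G → A) (hf : f ∈ cocycles₂ A) :
    ∃ a : A, A.ρ σ a = a ∧ f - cyc σ a ∈ coboundaries₂ A := by
  obtain ⟨f', hff⟩ : ∃ f' : cocycles₂ A, ∀ g h : G, f' (g, h) = f (g, h) :=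
    ⟨⟨f, hf⟩, fun _ _ => rfl⟩
  obtain ⟨n, hn⟩ : ∃ n, n = orderOf σ := ⟨_, rfl⟩
  have hnpos : 0 < n := hn ▸ orderOf_pos σ
  obtain ⟨F, hF⟩ : ∃ F : ℕ → A, ∀ i, F i = f' (σ ^ i, σ) := ⟨fun i => f' (σ ^ i, σ), fun _ => rfl⟩
  have hFper : ∀ i, F (n + i) = F i := fun i => by
    rw [hF, hF, hn, pow_orderOf_add]
  have hpn : σ ^ n = σ ^ 0 := by rw [hn, pow_orderOf_eq_one, pow_zero]
  refine ⟨∑ i ∈ range n, F i, ?_, ?_⟩
  · -- invariance of `a`
    have key : ∀ i ∈ range n,
        F (i + 1) + f' (σ, σ ^ i) = A.ρ σ (F i) + f' (σ, σ ^ (i + 1)) := by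
      intro i _
      have hc := (mem_cocycles₂_iff f').1 f'.2 σ (σ ^ i) σ
      rw [← pow_succ', ← pow_succ] at hc
      rw [hF, hF]
      exact hc
    have hsum := Finset.sum_congr rfl key
    rw [Finset.sum_add_distrib, Finset.sum_add_distrib,
      sum_range_shift_of_period F n (by rw [hF, hF, hpn]),
      sum_range_shift_of_period (fun i => f' (σ, σ ^ i)) n (by simp only [hpn]),
      ← map_sum (A.ρ σ) F (range n)] at hsum
    exact (add_right_cancel hsum).symm
  · refine ⟨fun g => f' (1, 1) - ∑ i ∈ range (idx σ g), F i, ?_⟩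
    funext ⟨g, h⟩
    rw [d₁₂_hom_apply]
    have hx : idx σ g < n := hn ▸ idx_lt (hn ▸ hnpos) g
    have hy : idx σ h < n := hn ▸ idx_lt (hn ▸ hnpos) h
    have h1 := cocycle_pow_pow A (σ := σ) f' (idx σ g) (idx σ h)
    rw [pow_idx hσ g, pow_idx hσ h, cocycles₂_map_one_snd] at h1
    simp only [← hF] at h1
    have h3 := sum_range_add_eq_mod F n hFper hx hy
    simp only [Pi.sub_apply, cyc_apply, idx_mul hσ, map_sub]
    rw [← hff, h1, h3, ← hn]
    split_ifs <;> abel

end Classify

section Restriction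

variable {G : Type*} [Group G] [Finite G] {M : Type*} [Zero M]

/-- The generator `σ ^ d` of `zpowers (σ ^ d)`, as an element of that subgroup. -/
def genPow (σ : G) (d : ℕ) : Subgroup.zpowers (σ ^ d) := ⟨σ ^ d, Subgroup.mem_zpowers _⟩

omit [Finite G] in
theorem genPow_generates (σ : G) (d : ℕ) (h : Subgroup.zpowers (σ ^ d)) :
    h ∈ Subgroup.zpowers (genPow σ d) := by
  obtain ⟨z, hz⟩ := Subgroup.mem_zpowers_iff.mp h.2
  refine Subgroup.mem_zpowers_iff.mpr ⟨z, Subtype.ext ?_⟩
  rw [Subgroup.coe_zpow]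
  exact hz

theorem orderOf_genPow {σ : G} {d : ℕ} (hd : d ∣ orderOf σ) :
    orderOf (genPow σ d) = orderOf σ / d := by
  have hd0 : d ≠ 0 := by
    rintro rfl
    exact (orderOf_pos σ).ne' (Nat.eq_zero_of_zero_dvd hd)
  rw [← Subgroup.orderOf_coe]
  exact orderOf_pow_of_dvd hd0 hd

/-- **(e) restriction**: on the subgroup generated by `σ ^ d` (`d ∣ n`), the cochain `cyc σ a`
restricts to `cyc (σ ^ d) a`. -/
theorem cyc_restrict {σ : G} {d : ℕ} (hd : d ∣ orderOf σ) (a : M)
    (h₁ h₂ : Subgroup.zpowers (σ ^ d)) :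
    cyc σ a ((h₁ : G), (h₂ : G)) = cyc (genPow σ d) a (h₁, h₂) := by
  have hd0 : 0 < d := by
    rcases Nat.eq_zero_or_pos d with rfl | h
    · exact absurd (Nat.eq_zero_of_zero_dvd hd) (orderOf_pos σ).ne'
    · exact h
  have hτ := orderOf_genPow hd
  have hnq : orderOf σ = d * (orderOf σ / d) := (Nat.mul_div_cancel' hd).symm
  have key : ∀ h : Subgroup.zpowers (σ ^ d), idx σ (h : G) = d * idx (genPow σ d) h := by
    intro h
    have h1 := pow_idx (genPow_generates σ d) h
    have h2 : idx (genPow σ d) h < orderOf σ / d := hτ ▸ idx_lt (orderOf_pos _) h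
    have h3 : (h : G) = σ ^ (d * idx (genPow σ d) h) := by
      conv_lhs => rw [← h1]
      rw [Subgroup.coe_pow, pow_mul]
      rfl
    rw [h3]
    apply idx_pow_of_lt
    calc d * idx (genPow σ d) h < d * (orderOf σ / d) := Nat.mul_lt_mul_of_pos_left h2 hd0
      _ = orderOf σ := hnq.symm
  rw [cyc_apply, cyc_apply, key h₁, key h₂, hτ]
  refine if_congr ?_ rfl rfl
  rw [← Nat.mul_add]
  conv_lhs => rw [hnq]
  exact Nat.mul_le_mul_left_iff hd0

end Restriction

section Inflation

universe u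

variable {k G' : Type u} [CommRing k] [Group G'] [Finite G'] (B : Rep k G')
variable {G : Type*} [Group G]

theorem inflation_arith {n m x y : ℕ} (hn : 0 < n) (hx : x < m * n) (hy : y < m * n) :
    ((x + y) % (m * n)) / n + (if m * n ≤ x + y then m else 0) =
      x / n + y / n + (if n ≤ x % n + y % n then 1 else 0) := by
  rw [← Nat.add_div hn, add_mod_eq_ite hx hy]
  split_ifs with h
  · rw [mul_comm m n, Nat.sub_mul_div]
    have : m ≤ (x + y) / n := by
      rw [Nat.le_div_iff_mul_le hn]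
      exact h
    omega
  · rw [add_zero]

/-- **(f) inflation**: for a surjection `φ : G' → G` of finite cyclic groups with
`φ σ' = σ`, `|G'| = m |G|`, the inflation of `cyc σ a` differs from `cyc σ' (m • a)` by a
coboundary (for any representation `B` of `G'` in which `a` is invariant). -/
theorem inflation_sub_mem_coboundaries₂ {σ' : G'} (hσ' : ∀ g : G', g ∈ Subgroup.zpowers σ')
    {σ : G} (φ : G' →* G) (hφ : φ σ' = σ) {m : ℕ} (hm : orderOf σ' = m * orderOf σ)
    {a : B} (ha : B.ρ σ' a = a) :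
    (fun p : G' × G' => cyc σ a (φ p.1, φ p.2) - cyc σ' (m • a) p) ∈ coboundaries₂ B := by
  have hN : 0 < orderOf σ' := orderOf_pos σ'
  have hn : 0 < orderOf σ := by
    rcases Nat.eq_zero_or_pos (orderOf σ) with h | h
    · rw [h, mul_zero] at hm
      omega
    · exact h
  refine ⟨fun g => -((idx σ' g / orderOf σ) • a), ?_⟩
  funext ⟨g, h⟩
  rw [d₁₂_hom_apply]
  have hx : idx σ' g < m * orderOf σ := hm ▸ idx_lt hN g
  have hy : idx σ' h < m * orderOf σ := hm ▸ idx_lt hN h
  have hρ : ∀ q : ℕ, B.ρ g (-(q • a)) = -(q • a) := fun q => by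
    rw [map_neg, map_nsmul, ρ_eq_of_ρ_gen B hσ' ha g]
  have hφidx : ∀ g : G', idx σ (φ g) = idx σ' g % orderOf σ := fun g => by
    conv_lhs => rw [← pow_idx hσ' g, map_pow, hφ]
    exact idx_pow hn _
  have harith := inflation_arith hn hx hy
  have hsmul := congrArg (fun t : ℕ => t • a) harith
  simp only [add_smul, ite_smul, zero_smul, one_smul] at hsmul
  simp only [hρ, cyc_apply, idx_mul hσ', hφidx, hm]
  rw [neg_sub_neg, eq_sub_of_add_eq hsmul]
  abel

end Inflation

theorem cyc_smul {G : Type*} [Group G] {k M : Type*} [Zero M] [SMulZeroClass k M] (σ : G) (r : k)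
    (a : M) : cyc σ (r • a) = r • cyc σ a := by
  funext p
  simp only [cyc, Pi.smul_apply]
  split_ifs
  · rfl
  · rw [smul_zero]

section H2

universe u

variable {k G : Type u} [CommRing k] [Group G] [Fintype G] (A : Rep k G)
variable {σ : G} (hσ : ∀ g : G, g ∈ Subgroup.zpowers σ)

/-- `a ↦ cyc σ a`, as a linear map from the invariants to the 2-cocycles. -/
noncomputable def cycCocycle : Representation.invariants A.ρ →ₗ[k] cocycles₂ A where
  toFun a := ⟨cyc σ (a : A), cyc_mem_cocycles₂ A hσ (a.2 σ)⟩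
  map_add' a b := Subtype.ext (cyc_add σ (a : A) (b : A))
  map_smul' r a := Subtype.ext (cyc_smul σ r (a : A))

@[simp]
theorem cycCocycle_coe (a : Representation.invariants A.ρ) :
    ((cycCocycle A hσ a : cocycles₂ A) : G × G → A) = cyc σ (a : A) := rfl

/-- `a ↦ [cyc σ a] ∈ H²(G, A)`, as a linear map from the invariants. -/
noncomputable def cycLin : Representation.invariants A.ρ →ₗ[k] H2 A :=
  (H2π A).hom ∘ₗ cycCocycle A hσ

theorem cycLin_apply (a : Representation.invariants A.ρ) :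
    cycLin A hσ a = H2π A (cycCocycle A hσ a) := rfl

/-- The class of `cyc σ a` vanishes iff `a` is a norm. -/
theorem cycLin_eq_zero_iff (a : Representation.invariants A.ρ) :
    cycLin A hσ a = 0 ↔ ∃ b : A, (a : A) = ∑ g : G, A.ρ g b := by
  rw [cycLin_apply, H2π_eq_zero_iff]
  exact cyc_mem_coboundaries₂_iff A hσ

/-- Every class in `H²(G, A)` is the class of some `cyc σ a`. -/
theorem cycLin_surjective : Function.Surjective (cycLin A hσ) := by
  intro x
  induction x using H2_induction_on with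
  | h f =>
    obtain ⟨a, ha, hcob⟩ := exists_cyc_sub_mem_coboundaries₂ A hσ f f.2
    refine ⟨⟨a, fun g => ρ_eq_of_ρ_gen A hσ ha g⟩, ?_⟩
    rw [cycLin_apply, H2π_eq_iff]
    have := neg_mem hcob
    rwa [neg_sub] at this

theorem mem_ker_cycLin (a : Representation.invariants A.ρ) :
    a ∈ LinearMap.ker (cycLin A hσ) ↔ ∃ b : A, (a : A) = ∑ g : G, A.ρ g b := by
  rw [LinearMap.mem_ker]
  exact cycLin_eq_zero_iff A hσ a

/-- `H²(G, A) ≅ A^G / N A` for a finite cyclic group `G` with generator `σ`. -/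
noncomputable def cycEquiv :
    (Representation.invariants A.ρ ⧸ LinearMap.ker (cycLin A hσ)) ≃ₗ[k] H2 A :=
  (cycLin A hσ).quotKerEquivOfSurjective (cycLin_surjective A hσ)

theorem cycEquiv_mk (a : Representation.invariants A.ρ) :
    cycEquiv A hσ (Submodule.Quotient.mk a) = H2π A (cycCocycle A hσ a) := rfl

end H2

/-! ### Variants phrased with `Nat.card` -/

section Card

variable {G : Type*} [Group G] [Finite G] {M : Type*} [Zero M]

/-- `cyc σ a` in terms of `n = Nat.card G`. -/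
theorem cyc_apply_card {σ : G} (hσ : ∀ g : G, g ∈ Subgroup.zpowers σ) (a : M) (g h : G) :
    cyc σ a (g, h) = if Nat.card G ≤ idx σ g + idx σ h then a else 0 := by
  rw [cyc_apply, orderOf_eq_card hσ]

theorem idx_lt_card {σ : G} (hσ : ∀ g : G, g ∈ Subgroup.zpowers σ) (g : G) :
    idx σ g < Nat.card G :=
  orderOf_eq_card hσ ▸ idx_lt (orderOf_pos σ) g

omit [Finite G] in
/-- uniqueness of the index -/
theorem idx_eq_of_pow_eq {σ : G} {i : ℕ} (hi : i < orderOf σ) {g : G} (h : σ ^ i = g) :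
    idx σ g = i := by
  rw [← h]
  exact idx_pow_of_lt hi

end Card

section InflationCard

universe u

variable {k G' : Type u} [CommRing k] [Group G'] [Finite G'] (B : Rep k G')
variable {G : Type*} [Group G] [Finite G]

/-- **(f)** with the hypothesis `Nat.card G' = m * Nat.card G`. -/
theorem inflation_sub_mem_coboundaries₂_card {σ' : G'}
    (hσ' : ∀ g : G', g ∈ Subgroup.zpowers σ') {σ : G} (hσ : ∀ g : G, g ∈ Subgroup.zpowers σ)
    (φ : G' →* G) (hφ : φ σ' = σ) {m : ℕ} (hm : Nat.card G' = m * Nat.card G)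
    {a : B} (ha : B.ρ σ' a = a) :
    (fun p : G' × G' => cyc σ a (φ p.1, φ p.2) - cyc σ' (m • a) p) ∈ coboundaries₂ B :=
  inflation_sub_mem_coboundaries₂ B hσ' φ hφ
    (by rw [orderOf_eq_card hσ', orderOf_eq_card hσ, hm]) ha

end InflationCard

end Fermat.Agent.S55.Local.CyclicCocycleB
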