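/-
S55 / LOCAL block (helper59): the arithmetic of `N = Q ^ n - 1`, `Q = #κ_K`, used by the Brauer
glue (row L9) when instantiating `BrauerUnramBlocks.CycloUnram` with `N = Q ^ n - 1`.

* `two_le_resCard K : 2 ≤ resCard K`;
* `norm_resCard_lt_one K : ‖(resCard K : K)‖ < 1` (the residue characteristic divides `Q`);
* `norm_pow_sub_one K hn : ‖((resCard K ^ n - 1 : ℕ) : K)‖ = 1`;
* `pow_modEq_one_iff hQ hn k : Q ^ k ≡ 1 [MOD Q ^ n - 1] ↔ n ∣ k`;
* `finrank_eq_of_forall_iff` : a degree `d` with `∀ k, Q ^ k ≡ 1 [MOD Q ^ n - 1] ↔ d ∣ k` is `n`;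
* `dvd_of_pow_eq_pow` : `(Q_E) ^ e = Q ^ n` and `∀ k, Q_E ^ k ≡ 1 [MOD Q ^ n - 1] ↔ r ∣ k` give
  `r ∣ e`.
-/
import Mathlib
import Fermat.Agent.S55.Local.Basic
import Fermat.Agent.S55.Local.Blocks
import Fermat.Agent.S55.Local.BrauerUnramBlocks

set_option autoImplicit false

open scoped NormedField NNReal

namespace Fermat.Agent.S55.Local.CycloArith

open Valued Fermat.Agent.S55.Local Fermat.Agent.S55.Local.BrauerUnramBlocks

section Nat

theorem one_lt_pow_of {Q m : ℕ} (hQ : 2 ≤ Q) (hm : 0 < m) : 1 < Q ^ m :=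
  Nat.one_lt_pow hm.ne' hQ

/-- `Q ^ n ≡ 1 [MOD Q ^ n - 1]`. -/
theorem pow_modEq_one {Q n : ℕ} (hQ : 2 ≤ Q) : Q ^ n ≡ 1 [MOD Q ^ n - 1] := by
  have h1 : 1 ≤ Q ^ n := Nat.one_le_pow _ _ (by omega)
  exact (Nat.modEq_sub h1).symm.symm

/-- The order of `Q` modulo `Q ^ n - 1` is `n`. -/
theorem pow_modEq_one_iff {Q n : ℕ} (hQ : 2 ≤ Q) (hn : 0 < n) (k : ℕ) :
    Q ^ k ≡ 1 [MOD Q ^ n - 1] ↔ n ∣ k := by
  have hbase : Q ^ n ≡ 1 [MOD Q ^ n - 1] := pow_modEq_one hQ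
  constructor
  · intro h
    -- write `k = n * j + r`
    have hk : k = n * (k / n) + k % n := (Nat.div_add_mod k n).symm
    have hr : k % n < n := Nat.mod_lt _ hn
    have h2 : Q ^ k ≡ Q ^ (k % n) [MOD Q ^ n - 1] := by
      conv_lhs => rw [hk, pow_add, pow_mul]
      have := (hbase.pow (k / n)).mul_right (Q ^ (k % n))
      simpa using this
    have h3 : Q ^ (k % n) ≡ 1 [MOD Q ^ n - 1] := h2.symm.trans h
    by_contra hnd
    have hr0 : 0 < k % n := Nat.pos_of_ne_zero fun h0 => hnd (Nat.dvd_of_mod_eq_zero h0)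
    have h4 : 1 < Q ^ (k % n) := one_lt_pow_of hQ hr0
    have h5 : Q ^ (k % n) < Q ^ n := Nat.pow_lt_pow_right (by omega) hr
    have h6 := (Nat.modEq_iff_dvd' h4.le).1 h3.symm
    have h7 : Q ^ n - 1 ≤ Q ^ (k % n) - 1 := Nat.le_of_dvd (by omega) h6
    omega
  · rintro ⟨j, rfl⟩
    rw [pow_mul]
    simpa using hbase.pow j

/-- A number `d` with `∀ k, Q ^ k ≡ 1 [MOD Q ^ n - 1] ↔ d ∣ k` equals `n`. -/
theorem eq_of_forall_iff {Q n d : ℕ} (hQ : 2 ≤ Q) (hn : 0 < n)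
    (h : ∀ k : ℕ, Q ^ k ≡ 1 [MOD Q ^ n - 1] ↔ d ∣ k) : d = n := by
  apply Nat.dvd_antisymm
  · exact (h n).1 ((pow_modEq_one_iff hQ hn n).2 dvd_rfl)
  · exact (pow_modEq_one_iff hQ hn d).1 ((h d).2 dvd_rfl)

/-- If `QE ^ e = Q ^ n` and `r` is the order of `QE` modulo `Q ^ n - 1`, then `r ∣ e`. -/
theorem dvd_of_pow_eq_pow {Q QE n e r : ℕ} (hQ : 2 ≤ Q) (hpow : QE ^ e = Q ^ n)
    (h : ∀ k : ℕ, QE ^ k ≡ 1 [MOD Q ^ n - 1] ↔ r ∣ k) : r ∣ e := by
  rw [← h e, hpow]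
  exact pow_modEq_one hQ

end Nat

section Field

variable (K : Type) [NontriviallyNormedField K] [IsUltrametricDist K] [ProperSpace K]

theorem two_le_resCard : 2 ≤ resCard K := by
  unfold resCard
  have : Nontrivial 𝓀[K] := inferInstance
  exact Finite.one_lt_card

theorem resCard_pos : 0 < resCard K := by
  have := two_le_resCard K
  omega

/-- An integer with vanishing residue has norm `< 1`. -/
theorem norm_lt_one_of_residue_eq_zero (y : 𝒪[K]) (hy : IsLocalRing.residue 𝒪[K] y = 0) :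
    ‖(y : K)‖ < 1 := by
  rw [IsLocalRing.residue_eq_zero_iff, IsLocalRing.mem_maximalIdeal, mem_nonunits_iff,
    Valued.integer.isUnit_iff_norm_eq_one] at hy
  exact lt_of_le_of_ne (Valued.integer.norm_le_one y) hy

/-- The cardinality of the residue field has norm `< 1`. -/
theorem norm_resCard_lt_one : ‖((resCard K : ℕ) : K)‖ < 1 := by
  have h0 : ((resCard K : ℕ) : 𝓀[K]) = 0 := by
    unfold resCard
    rw [← nsmul_one]
    exact card_nsmul_eq_zero'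
  have h1 : IsLocalRing.residue 𝒪[K] ((resCard K : ℕ) : 𝒪[K]) = 0 := by
    rw [map_natCast]; exact h0
  have := norm_lt_one_of_residue_eq_zero K _ h1
  simpa using this

/-- `N = Q ^ n - 1` is a unit of the valuation ring. -/
theorem norm_pow_sub_one {n : ℕ} (hn : 0 < n) : ‖((resCard K ^ n - 1 : ℕ) : K)‖ = 1 := by
  have hQ := two_le_resCard K
  have h1 : 1 ≤ resCard K ^ n := Nat.one_le_pow _ _ (by omega)
  rw [Nat.cast_sub h1, Nat.cast_pow, Nat.cast_one]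
  have hlt : ‖((resCard K : ℕ) : K) ^ n‖ < 1 := by
    rw [norm_pow]
    exact pow_lt_one₀ (norm_nonneg _) (norm_resCard_lt_one K) hn.ne'
  have hne : ‖((resCard K : ℕ) : K) ^ n‖ ≠ ‖(-1 : K)‖ := by
    rw [norm_neg, norm_one]; exact hlt.ne
  rw [sub_eq_add_neg, IsUltrametricDist.norm_add_eq_max_of_norm_ne_norm hne, norm_neg, norm_one]
  exact max_eq_right hlt.le

/-- `N = Q ^ n - 1` is nonzero. -/
theorem pow_sub_one_pos {n : ℕ} (hn : 0 < n) : 0 < resCard K ^ n - 1 := by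
  have := one_lt_pow_of (two_le_resCard K) hn
  omega

end Field

end Fermat.Agent.S55.Local.CycloArith
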