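import Mathlib
import Fermat.Agent.S55.Local.Basic
import Fermat.Agent.S55.Local.Blocks
import Fermat.Agent.S55.Local.BrauerUnramBlocks

/-!
# S55 / Local: half (a) of the fundamental identity (FI)

For a local field `E` in the (LF) setting, with chosen uniformiser `unif E` and residue field `𝓀[E]`:

* `relIndex_normBall_unif : [𝒪_E : ϖ 𝒪_E] = #𝓀[E]`;
* `relIndex_normBall_unif_pow : [𝒪_E : ϖ ^ e 𝒪_E] = (#𝓀[E]) ^ e` (filtration by the powers of `ϖ`);
* `relIndex_normBall_of_norm_eq : ‖a‖ = ‖ϖ‖ ^ e → [𝒪_E : a 𝒪_E] = (#𝓀[E]) ^ e`;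
* `fundIdentity_of_relIndex` : (FI) for `K ⊆ E` follows from half (b)
  `[𝒪_E : π_K 𝒪_E] = (#𝓀[K]) ^ [E : K]`.

Balls are `Blocks.normBall E a = {x | ‖x‖ ≤ ‖a‖}` (additive subgroups), indices are `relIndex`.
-/

set_option autoImplicit false
set_option linter.unusedSectionVars false

open scoped NormedField Valued
open IsLocalRing

namespace Fermat.Agent.S55.Local.FundIdentityA

open Fermat.Agent.S55.Local Fermat.Agent.S55.Local.Blocks
open Fermat.Agent.S55.Local.BrauerUnramBlocks

section OneField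

variable (E : Type) [NontriviallyNormedField E] [IsUltrametricDist E]

theorem mem_normBall {a x : E} : x ∈ normBall E a ↔ ‖x‖ ≤ ‖a‖ := Iff.rfl

theorem normBall_eq_of_norm_eq {a b : E} (h : ‖a‖ = ‖b‖) : normBall E a = normBall E b := by
  ext x
  rw [mem_normBall, mem_normBall, h]

theorem normBall_le_of_norm_le {a b : E} (h : ‖a‖ ≤ ‖b‖) : normBall E a ≤ normBall E b :=
  fun _ hx => le_trans hx h

/-- multiplication by `a` maps the ball of radius `‖b‖` onto the ball of radius `‖a * b‖` -/
theorem map_mulLeft_normBall {a : E} (ha : a ≠ 0) (b : E) :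
    (normBall E b).map (AddMonoidHom.mulLeft a) = normBall E (a * b) := by
  ext x
  constructor
  · rintro ⟨y, hy, rfl⟩
    rw [SetLike.mem_coe, mem_normBall] at hy
    rw [mem_normBall, AddMonoidHom.coe_mulLeft, norm_mul, norm_mul]
    exact mul_le_mul_of_nonneg_left hy (norm_nonneg _)
  · intro hx
    rw [mem_normBall, norm_mul] at hx
    refine ⟨a⁻¹ * x, ?_, ?_⟩
    · rw [SetLike.mem_coe, mem_normBall, norm_mul, norm_inv]
      have ha0 : 0 < ‖a‖ := norm_pos_iff.2 ha
      rw [inv_mul_le_iff₀ ha0]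
      exact hx
    · rw [AddMonoidHom.coe_mulLeft, ← mul_assoc, mul_inv_cancel₀ ha, one_mul]

theorem mulLeft_injective {a : E} (ha : a ≠ 0) :
    Function.Injective (AddMonoidHom.mulLeft a : E →+ E) := fun x y h =>
  mul_left_cancel₀ ha (by simpa using h)

/-- scaling invariance of the relative index of balls -/
theorem relIndex_normBall_mul {a : E} (ha : a ≠ 0) (b c : E) :
    (normBall E (a * b)).relIndex (normBall E (a * c)) =
      (normBall E b).relIndex (normBall E c) := by
  rw [← map_mulLeft_normBall E ha b, ← map_mulLeft_normBall E ha c]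
  exact AddSubgroup.relIndex_map_map_of_injective _ _ (mulLeft_injective E ha)

/-- the inclusion of the unit ball into the valuation ring, as an additive map -/
noncomputable def toInteger : ↥(normBall E 1) →+ 𝒪[E] :=
  AddMonoidHom.mk' (fun x => ⟨(x : E), by
    rw [Valued.integer.mem_iff]
    have := x.2
    rw [mem_normBall, norm_one] at this
    exact this⟩) (fun _ _ => rfl)

@[simp] theorem coe_toInteger (x : ↥(normBall E 1)) : ((toInteger E x : 𝒪[E]) : E) = x := rfl

/-- reduction modulo the maximal ideal on the unit ball -/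
noncomputable def resHom : ↥(normBall E 1) →+ 𝓀[E] :=
  (residue 𝒪[E]).toAddMonoidHom.comp (toInteger E)

theorem resHom_apply (x : ↥(normBall E 1)) : resHom E x = residue 𝒪[E] (toInteger E x) := rfl

theorem resHom_surjective : Function.Surjective (resHom E) := by
  intro k
  obtain ⟨a, rfl⟩ := residue_surjective k
  have ha : (a : E) ∈ normBall E 1 := by
    rw [mem_normBall, norm_one]
    exact Valued.integer.norm_le_one a
  exact ⟨⟨(a : E), ha⟩, rfl⟩

end OneField

section LF

variable (E : Type) [NontriviallyNormedField E] [IsUltrametricDist E] [ProperSpace E]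

/-- Discreteness: `‖y‖ < 1` implies `‖y‖ ≤ ‖unif E‖`. -/
theorem norm_le_unif_of_lt_one {y : E} (hy : ‖y‖ < 1) : ‖y‖ ≤ ‖unif E‖ := by
  by_cases hy0 : y = 0
  · rw [hy0, norm_zero]; exact (norm_unif_pos E).le
  obtain ⟨m, hm⟩ := exists_norm_eq_zpow E hy0
  rw [hm] at hy ⊢
  have hm0 : 0 < m := by
    by_contra hcon
    have hle : m ≤ 0 := not_lt.mp hcon
    have : (1 : ℝ) ≤ ‖unif E‖ ^ m := by
      have := zpow_le_zpow_right_of_le_one₀ (norm_unif_pos E) (norm_unif_lt_one E).le hle
      rwa [zpow_zero] at this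
    exact absurd hy (not_lt.mpr this)
  have := zpow_le_zpow_right_of_le_one₀ (norm_unif_pos E) (norm_unif_lt_one E).le
    (show (1 : ℤ) ≤ m by omega)
  rwa [zpow_one] at this

theorem ker_resHom :
    (resHom E).ker = (normBall E (unif E)).addSubgroupOf (normBall E 1) := by
  ext x
  rw [AddMonoidHom.mem_ker, AddSubgroup.mem_addSubgroupOf, resHom_apply, residue_eq_zero_iff,
    mem_maximalIdeal, mem_nonunits_iff, Valued.integer.isUnit_iff_norm_eq_one, mem_normBall]
  have hx1 : ‖(x : E)‖ ≤ 1 := by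
    have := x.2
    rwa [mem_normBall, norm_one] at this
  change ¬ ‖(x : E)‖ = 1 ↔ _
  constructor
  · intro h
    exact norm_le_unif_of_lt_one E (lt_of_le_of_ne hx1 h)
  · intro h h1
    rw [h1] at h
    exact absurd (norm_unif_lt_one E) (not_lt.mpr h)

/-- `[𝒪_E : ϖ 𝒪_E] = #𝓀[E]` -/
theorem relIndex_normBall_unif :
    (normBall E (unif E)).relIndex (normBall E 1) = resCard E := by
  rw [AddSubgroup.relIndex, ← ker_resHom, AddSubgroup.index_ker,
    AddMonoidHom.range_eq_top.mpr (resHom_surjective E),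
    Nat.card_congr (AddSubgroup.topEquiv (G := 𝓀[E])).toEquiv]
  rfl

/-- `[𝒪_E : ϖ ^ e 𝒪_E] = (#𝓀[E]) ^ e` -/
theorem relIndex_normBall_unif_pow (e : ℕ) :
    (normBall E (unif E ^ e)).relIndex (normBall E 1) = resCard E ^ e := by
  induction e with
  | zero =>
    rw [pow_zero, pow_zero]
    exact AddSubgroup.relIndex_self _
  | succ e ih =>
    have hne : unif E ^ e ≠ 0 := pow_ne_zero e (unif_ne_zero E)
    have hstep : (normBall E (unif E ^ (e + 1))).relIndex (normBall E (unif E ^ e)) =
        resCard E := by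
      have := relIndex_normBall_mul E hne (unif E) 1
      rw [mul_one, ← pow_succ] at this
      rw [this, relIndex_normBall_unif]
    have h1 : normBall E (unif E ^ (e + 1)) ≤ normBall E (unif E ^ e) := by
      apply normBall_le_of_norm_le
      rw [pow_succ, norm_mul]
      exact mul_le_of_le_one_right (norm_nonneg _) (norm_unif_lt_one E).le
    have h2 : normBall E (unif E ^ e) ≤ normBall E 1 := by
      apply normBall_le_of_norm_le
      rw [norm_pow, norm_one]
      exact pow_le_one₀ (norm_nonneg _) (norm_unif_lt_one E).le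
    have := AddSubgroup.relIndex_mul_relIndex _ _ _ h1 h2
    rw [← this, hstep, ih, pow_succ, mul_comm]

/-- `‖a‖ = ‖ϖ‖ ^ e → [𝒪_E : a 𝒪_E] = (#𝓀[E]) ^ e` -/
theorem relIndex_normBall_of_norm_eq {a : E} {e : ℕ} (h : ‖a‖ = ‖unif E‖ ^ e) :
    (normBall E a).relIndex (normBall E 1) = resCard E ^ e := by
  rw [normBall_eq_of_norm_eq E (a := a) (b := unif E ^ e) (by rw [h, norm_pow]),
    relIndex_normBall_unif_pow]

end LF

section Ext

variable (K E : Type) [NontriviallyNormedField K] [IsUltrametricDist K] [ProperSpace K]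
  [NontriviallyNormedField E] [IsUltrametricDist E] [ProperSpace E]
  [NormedAlgebra K E] [FiniteDimensional K E]

/-- **(FI) from half (b)**: if `[𝒪_E : π_K 𝒪_E] = (#𝓀[K]) ^ [E : K]` then
`(#𝓀[E]) ^ e = (#𝓀[K]) ^ [E : K]` whenever `‖π_K‖ = ‖π_E‖ ^ e`. -/
theorem fundIdentity_of_relIndex
    (hb : (normBall E (algebraMap K E (unif K))).relIndex (normBall E 1) =
      resCard K ^ Module.finrank K E)
    (e : ℕ) (he : ‖algebraMap K E (unif K)‖ = ‖unif E‖ ^ e) :
    resCard E ^ e = resCard K ^ Module.finrank K E := by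
  rw [← hb, relIndex_normBall_of_norm_eq E he]

end Ext

end Fermat.Agent.S55.Local.FundIdentityA
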