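/-
S55 / Local block — RELATIVE LATTICE INDEX (helper11; half (b) of the fundamental identity (FI),
row Local.FundIdentity.latticeRel; generalises `Local/LocalDegreeIndex.lean` from `ℚ_p` to any base).

(LF) setting for both `K` and `E`, `[NormedAlgebra K E] [FiniteDimensional K E]`, `a : K`, `a ≠ 0`,
`‖a‖ ≤ 1`:

  `relIndex_normBall_algebraMap :
     (normBall E (algebraMap K E a)).relIndex (normBall E 1)
        = ((normBall K a).relIndex (normBall K 1)) ^ finrank K E`

i.e. `[𝒪_E : a 𝒪_E] = [𝒪_K : a 𝒪_K] ^ [E : K]`.  Proof: the `𝒪_K`-lattice `Λ` spanned by a `K`-basis of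
vectors of norm `≤ 1` is open in `E` (coordinates are continuous), `𝒪_E` is compact, so
`[𝒪_E : Λ] < ∞`; multiplication by `a` is injective, hence `[𝒪_E : a𝒪_E] = [Λ : aΛ] = #(𝒪_K/a)^n`.
-/
import Mathlib
import Fermat.Agent.S55.Local.Blocks

set_option autoImplicit false
set_option linter.unusedSectionVars false
set_option linter.unusedVariables false

open Module

namespace Fermat.Agent.S55.Local.LatticeIndexRel

open Fermat.Agent.S55.Local.Blocks

section abstract

variable {A : Type*} [AddCommGroup A]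

/-- Commensurable subgroups have the same index of their images under an injective endomorphism. -/
theorem relIndex_map_eq_of_le' (f : A →+ A) (hf : Function.Injective f) (Λ O : AddSubgroup A)
    (hΛO : Λ ≤ O) (hfO : O.map f ≤ O) (hfΛ : Λ.map f ≤ Λ) (hfin : Λ.relIndex O ≠ 0) :
    (O.map f).relIndex O = (Λ.map f).relIndex Λ := by
  have h1 : (Λ.map f).relIndex Λ * Λ.relIndex O = (Λ.map f).relIndex O :=
    AddSubgroup.relIndex_mul_relIndex _ _ _ hfΛ hΛO
  have h2 : (Λ.map f).relIndex (O.map f) * (O.map f).relIndex O = (Λ.map f).relIndex O :=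
    AddSubgroup.relIndex_mul_relIndex _ _ _ (AddSubgroup.map_mono hΛO) hfO
  have h3 : (Λ.map f).relIndex (O.map f) = Λ.relIndex O :=
    AddSubgroup.relIndex_map_map_of_injective Λ O hf
  rw [h3] at h2
  have h4 : Λ.relIndex O * (O.map f).relIndex O = Λ.relIndex O * (Λ.map f).relIndex Λ := by
    rw [h2, ← h1, mul_comm]
  exact Nat.eq_of_mul_eq_mul_left (Nat.pos_of_ne_zero hfin) h4

end abstract

section rel

variable (K E : Type) [NontriviallyNormedField K] [IsUltrametricDist K] [ProperSpace K]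
  [NontriviallyNormedField E] [IsUltrametricDist E] [ProperSpace E]
  [NormedAlgebra K E] [FiniteDimensional K E]

/-- multiplication by `a ∈ K` on `E` -/
noncomputable def amul (a : K) : E →+ E := AddMonoidHom.mulLeft (algebraMap K E a)

variable {K E} in
@[simp] theorem amul_apply (a : K) (x : E) : amul K E a x = algebraMap K E a * x := rfl

variable {K E} in
theorem amul_eq_smul (a : K) (x : E) : amul K E a x = a • x := by
  rw [amul_apply, Algebra.smul_def]

variable {K E} in
theorem amul_injective {a : K} (ha : a ≠ 0) : Function.Injective (amul K E a) := fun x y h =>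
  mul_left_cancel₀ ((map_ne_zero (algebraMap K E)).mpr ha) h

variable {K E} in
theorem normBall_algebraMap_eq_map {a : K} (ha : a ≠ 0) :
    normBall E (algebraMap K E a) = (normBall E 1).map (amul K E a) := by
  have ha' : algebraMap K E a ≠ 0 := (map_ne_zero (algebraMap K E)).mpr ha
  ext x
  constructor
  · intro hx
    refine ⟨x / algebraMap K E a, ?_, ?_⟩
    · show ‖x / algebraMap K E a‖ ≤ ‖(1 : E)‖
      rw [norm_div, norm_one]
      exact div_le_one_of_le₀ hx (norm_nonneg _)
    · rw [amul_apply, mul_div_cancel₀ _ ha']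
  · rintro ⟨y, hy, rfl⟩
    show ‖algebraMap K E a * y‖ ≤ ‖algebraMap K E a‖
    have hy' : ‖y‖ ≤ ‖(1 : E)‖ := hy
    rw [norm_one] at hy'
    rw [norm_mul]
    exact mul_le_of_le_one_right (norm_nonneg _) hy'

theorem compactSpace_normBall_one : CompactSpace ↥(normBall E 1) := by
  have : ((normBall E 1 : AddSubgroup E) : Set E) = Metric.closedBall 0 1 := by
    ext x
    simp [normBall]
  have hc : IsCompact ((normBall E 1 : AddSubgroup E) : Set E) := by
    rw [this]
    exact isCompact_closedBall 0 1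
  exact isCompact_iff_compactSpace.mp hc

/-- A `K`-basis of `E` consisting of vectors of norm `≤ 1`. -/
theorem exists_basis_norm_le_one :
    ∃ b : Basis (Fin (finrank K E)) K E, ∀ i, ‖b i‖ ≤ 1 := by
  set b₀ := Module.finBasis K E with hb₀
  obtain ⟨c, hc0, hc1⟩ := NormedField.exists_norm_lt_one K
  have hk : ∀ i, ∃ k : ℕ, ‖(c ^ k) • b₀ i‖ ≤ 1 := by
    intro i
    have hpos : (0 : ℝ) < 1 / (‖b₀ i‖ + 1) := by positivity
    obtain ⟨k, hk⟩ := exists_pow_lt_of_lt_one hpos hc1
    refine ⟨k, ?_⟩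
    rw [norm_smul, norm_pow]
    have h1 : ‖c‖ ^ k * ‖b₀ i‖ ≤ ‖c‖ ^ k * (‖b₀ i‖ + 1) :=
      mul_le_mul_of_nonneg_left (by linarith) (pow_nonneg (norm_nonneg _) k)
    have h2 : ‖c‖ ^ k * (‖b₀ i‖ + 1) ≤ 1 := by
      have := mul_le_mul_of_nonneg_right hk.le (by positivity : (0 : ℝ) ≤ ‖b₀ i‖ + 1)
      rwa [one_div, inv_mul_cancel₀ (by positivity)] at this
    linarith
  choose k hk using hk
  have hu : ∀ i, IsUnit (c ^ k i) := fun i =>
    IsUnit.pow _ (isUnit_iff_ne_zero.mpr (norm_pos_iff.mp hc0))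
  refine ⟨b₀.isUnitSMul hu, fun i => ?_⟩
  rw [Basis.isUnitSMul_apply]
  exact hk i

variable {K E} in
/-- The `𝒪_K`-lattice spanned by a basis: vectors with integral coordinates. -/
def lat (b : Basis (Fin (finrank K E)) K E) : AddSubgroup E where
  carrier := {x | ∀ i, ‖b.repr x i‖ ≤ 1}
  zero_mem' := by simp
  add_mem' := fun {x y} hx hy i => by
    rw [map_add, Finsupp.add_apply]
    exact (IsUltrametricDist.norm_add_le_max _ _).trans (max_le (hx i) (hy i))
  neg_mem' := fun {x} hx i => by
    rw [map_neg, Finsupp.neg_apply, norm_neg]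
    exact hx i

variable {K E} in
theorem lat_le_normBall {b : Basis (Fin (finrank K E)) K E} (hb : ∀ i, ‖b i‖ ≤ 1) :
    lat b ≤ normBall E 1 := by
  intro x hx
  show ‖x‖ ≤ ‖(1 : E)‖
  rw [norm_one, ← b.sum_repr x]
  refine IsUltrametricDist.norm_sum_le_of_forall_le_of_nonneg zero_le_one (fun i _ => ?_)
  rw [norm_smul]
  exact mul_le_one₀ (hx i) (norm_nonneg _) (hb i)

variable {K E} in
theorem isOpen_lat (b : Basis (Fin (finrank K E)) K E) :
    IsOpen ((lat b : AddSubgroup E) : Set E) := by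
  have : ((lat b : AddSubgroup E) : Set E) =
      ⋂ i, (fun x => b.coord i x) ⁻¹' Metric.closedBall (0 : K) 1 := by
    ext x
    simp [lat, Basis.coord_apply]
  rw [this]
  refine isOpen_iInter_of_finite fun i => ?_
  exact (IsUltrametricDist.isOpen_closedBall (0 : K) one_ne_zero).preimage
    (LinearMap.continuous_of_finiteDimensional (b.coord i))

variable {K E} in
theorem relIndex_lat_ne_zero {b : Basis (Fin (finrank K E)) K E} :
    (lat b).relIndex (normBall E 1) ≠ 0 := by
  have := compactSpace_normBall_one E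
  have : Finite (↥(normBall E 1) ⧸ (lat b).addSubgroupOf (normBall E 1)) :=
    AddSubgroup.quotient_finite_of_isOpen _
      (AddSubgroup.addSubgroupOf_isOpen (normBall E 1) (lat b) (isOpen_lat b))
  exact AddSubgroup.index_ne_zero_of_finite


/-- the quotient `𝒪_K / a 𝒪_K` -/
abbrev QuotA (a : K) : Type :=
  ↥(normBall K 1) ⧸ (normBall K a).addSubgroupOf (normBall K 1)

theorem card_quotA (a : K) : Nat.card (QuotA K a) = (normBall K a).relIndex (normBall K 1) := rfl

variable {K} in
/-- an element of `𝒪_K` from an element of norm `≤ 1` -/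
def mkO (y : K) (h : ‖y‖ ≤ 1) : ↥(normBall K 1) := ⟨y, by show ‖y‖ ≤ ‖(1 : K)‖; rwa [norm_one]⟩

variable {K} in
@[simp] theorem coe_mkO (y : K) (h : ‖y‖ ≤ 1) : ((mkO y h : ↥(normBall K 1)) : K) = y := rfl

variable {K E} in
/-- reduction mod `a` of the coordinates of a lattice vector -/
noncomputable def redHom (b : Basis (Fin (finrank K E)) K E) (a : K) :
    ↥(lat b) →+ (Fin (finrank K E) → QuotA K a) where
  toFun x := fun i => QuotientAddGroup.mk (mkO (b.repr (x : E) i) (x.2 i))
  map_zero' := by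
    funext i
    have : mkO (b.repr ((0 : ↥(lat b)) : E) i) ((0 : ↥(lat b)).2 i) = 0 := by
      apply Subtype.ext
      simp
    rw [this]
    rfl
  map_add' x y := by
    funext i
    have : mkO (b.repr ((x + y : ↥(lat b)) : E) i) ((x + y).2 i) =
        mkO (b.repr (x : E) i) (x.2 i) + mkO (b.repr (y : E) i) (y.2 i) := by
      apply Subtype.ext
      simp
    rw [this]
    rfl

variable {K E} in
theorem redHom_apply (b : Basis (Fin (finrank K E)) K E) (a : K) (x : ↥(lat b))
    (i : Fin (finrank K E)) :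
    redHom b a x i = QuotientAddGroup.mk (mkO (b.repr (x : E) i) (x.2 i)) := rfl

variable {K E} in
theorem redHom_surjective (b : Basis (Fin (finrank K E)) K E) (a : K) :
    Function.Surjective (redHom b a) := by
  intro c
  have hrep : ∀ i, ∃ r : ↥(normBall K 1), (QuotientAddGroup.mk r : QuotA K a) = c i :=
    fun i => QuotientAddGroup.mk_surjective (c i)
  choose r hr using hrep
  have hr1 : ∀ i, ‖((r i : ↥(normBall K 1)) : K)‖ ≤ 1 := by
    intro i
    have := (r i).2
    have h2 : ‖((r i : ↥(normBall K 1)) : K)‖ ≤ ‖(1 : K)‖ := this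
    rwa [norm_one] at h2
  have hmem : (∑ i, ((r i : ↥(normBall K 1)) : K) • b i) ∈ lat b := by
    intro i
    rw [b.repr_sum_self]
    exact hr1 i
  refine ⟨⟨_, hmem⟩, ?_⟩
  funext i
  rw [redHom_apply, ← hr i]
  congr 1
  apply Subtype.ext
  rw [coe_mkO, b.repr_sum_self]

variable {K E} in
theorem repr_amul (b : Basis (Fin (finrank K E)) K E) (a : K) (y : E)
    (i : Fin (finrank K E)) : b.repr (amul K E a y) i = a * b.repr y i := by
  rw [amul_eq_smul, map_smul, Finsupp.smul_apply, smul_eq_mul]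

variable {K E} in
theorem map_amul_lat_le (b : Basis (Fin (finrank K E)) K E) {a : K} (ha1 : ‖a‖ ≤ 1) :
    (lat b).map (amul K E a) ≤ lat b := by
  rintro _ ⟨y, hy, rfl⟩ i
  rw [repr_amul, norm_mul]
  exact mul_le_one₀ ha1 (norm_nonneg _) (hy i)

variable {K E} in
theorem ker_redHom (b : Basis (Fin (finrank K E)) K E) {a : K} (ha : a ≠ 0) :
    (redHom b a).ker = ((lat b).map (amul K E a)).addSubgroupOf (lat b) := by
  have hna : 0 < ‖a‖ := norm_pos_iff.mpr ha
  ext x
  rw [AddMonoidHom.mem_ker, AddSubgroup.mem_addSubgroupOf]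
  have key : ∀ i, (redHom b a x i = 0 ↔ ‖b.repr (x : E) i‖ ≤ ‖a‖) := by
    intro i
    rw [redHom_apply, QuotientAddGroup.eq_zero_iff, AddSubgroup.mem_addSubgroupOf]
    rfl
  constructor
  · intro hx
    have hx' : ∀ i, ‖b.repr (x : E) i‖ ≤ ‖a‖ := fun i => (key i).mp (by rw [hx]; rfl)
    refine ⟨a⁻¹ • (x : E), ?_, ?_⟩
    · intro i
      rw [map_smul, Finsupp.smul_apply, smul_eq_mul, norm_mul, norm_inv]
      rw [inv_mul_le_iff₀ hna, mul_one]
      exact hx' i
    · rw [amul_eq_smul, smul_smul, mul_inv_cancel₀ ha, one_smul]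
  · rintro ⟨y, hy, hyx⟩
    funext i
    show redHom b a x i = 0
    rw [key i, ← hyx, repr_amul, norm_mul]
    exact mul_le_of_le_one_right (norm_nonneg _) (hy i)

variable {K E} in
theorem relIndex_map_amul_lat (b : Basis (Fin (finrank K E)) K E) {a : K} (ha : a ≠ 0) :
    ((lat b).map (amul K E a)).relIndex (lat b) =
      ((normBall K a).relIndex (normBall K 1)) ^ finrank K E := by
  rw [AddSubgroup.relIndex, ← ker_redHom b ha, AddSubgroup.index_ker,
    AddMonoidHom.range_eq_top.mpr (redHom_surjective b a)]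
  rw [Nat.card_congr (AddSubgroup.topEquiv (G := Fin (finrank K E) → QuotA K a)).toEquiv]
  rw [Nat.card_fun, Nat.card_eq_fintype_card (α := Fin (finrank K E)), Fintype.card_fin, card_quotA]

/-- **Relative lattice index**: `[𝒪_E : a 𝒪_E] = [𝒪_K : a 𝒪_K] ^ [E : K]` for `a ∈ K`, `0 < ‖a‖ ≤ 1`. -/
theorem relIndex_normBall_algebraMap (a : K) (ha : a ≠ 0) (ha1 : ‖a‖ ≤ 1) :
    (normBall E (algebraMap K E a)).relIndex (normBall E 1) =
      ((normBall K a).relIndex (normBall K 1)) ^ finrank K E := by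
  obtain ⟨b, hb⟩ := exists_basis_norm_le_one K E
  rw [normBall_algebraMap_eq_map ha, ← relIndex_map_amul_lat b ha]
  refine relIndex_map_eq_of_le' (amul K E a) (amul_injective ha) (lat b) (normBall E 1)
    (lat_le_normBall hb) ?_ (map_amul_lat_le b ha1) relIndex_lat_ne_zero
  rw [← normBall_algebraMap_eq_map ha]
  intro x hx
  have h1 : ‖x‖ ≤ ‖algebraMap K E a‖ := hx
  show ‖x‖ ≤ ‖(1 : E)‖
  rw [norm_one]
  rw [norm_algebraMap'] at h1
  exact h1.trans ha1

end rel

end Fermat.Agent.S55.Local.LatticeIndexRel
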