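import Mathlib
import Fermat.Agent.S55.Local.LocalDatum

/-!
# S55 / Local (D5): the unit filtration of a discretely normed ultrametric field

`K` a normed field with ultrametric distance, `r : ℝ`.  `ballUnits K r` is the subgroup of `Kˣ`
of norm-one elements `x` with `‖x - 1‖ ≤ r`; `U hπ i := ballUnits K (‖π‖ ^ i)`.
-/

set_option autoImplicit false

namespace Fermat.Agent.S55.Local.UnitFiltration

open Fermat.Agent.S55.Local.LocalDatum

section Ball

variable (K : Type*) [NormedField K] [IsUltrametricDist K]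

/-- Units of norm one congruent to `1` modulo the closed ball of radius `r`. -/
def ballUnits (r : ℝ) (hr : 0 ≤ r) : Subgroup Kˣ where
  carrier := {x | ‖(x : K)‖ = 1 ∧ ‖(x : K) - 1‖ ≤ r}
  one_mem' := by simp [hr]
  mul_mem' := by
    rintro x y ⟨hx1, hx⟩ ⟨hy1, hy⟩
    refine ⟨by simp [hx1, hy1], ?_⟩
    have : ((x * y : Kˣ) : K) - 1 = ((x : K) - 1) * y + ((y : K) - 1) := by push_cast; ring
    rw [this]
    refine (IsUltrametricDist.norm_add_le_max _ _).trans (max_le ?_ hy)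
    rw [norm_mul, hy1, mul_one]; exact hx
  inv_mem' := by
    rintro x ⟨hx1, hx⟩
    refine ⟨by simp [hx1], ?_⟩
    have : ((x⁻¹ : Kˣ) : K) - 1 = (1 - (x : K)) * ((x⁻¹ : Kˣ) : K) := by
      rw [sub_mul, one_mul, Units.mul_inv]
    rw [this, norm_mul, norm_sub_rev]
    simp [hx1, hx]

variable {K}

theorem mem_ballUnits {r : ℝ} {hr : 0 ≤ r} {x : Kˣ} :
    x ∈ ballUnits K r hr ↔ ‖(x : K)‖ = 1 ∧ ‖(x : K) - 1‖ ≤ r := Iff.rfl

theorem ballUnits_mono {r s : ℝ} {hr : 0 ≤ r} {hs : 0 ≤ s} (h : r ≤ s) :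
    ballUnits K r hr ≤ ballUnits K s hs := fun _ hx => ⟨hx.1, hx.2.trans h⟩

/-- If `‖x - 1‖ < 1` then `‖x‖ = 1`. -/
theorem norm_eq_one_of_norm_sub_one_lt {x : K} (h : ‖x - 1‖ < 1) : ‖x‖ = 1 := by
  have h1 : ‖x - 1‖ ≠ ‖(1 : K)‖ := by rw [norm_one]; exact h.ne
  have := IsUltrametricDist.norm_add_eq_max_of_norm_ne_norm h1
  rw [sub_add_cancel, norm_one, max_eq_right h.le] at this
  exact this

/-- For norm-one `x y`: `x / y ∈ ballUnits r` iff `‖x - y‖ ≤ r`. -/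
theorem div_mem_ballUnits_iff {r : ℝ} {hr : 0 ≤ r} {x y : Kˣ} (hx : ‖(x : K)‖ = 1)
    (hy : ‖(y : K)‖ = 1) : x / y ∈ ballUnits K r hr ↔ ‖(x : K) - y‖ ≤ r := by
  rw [mem_ballUnits]
  have h1 : ‖((x / y : Kˣ) : K)‖ = 1 := by
    rw [Units.val_div_eq_div_val, norm_div, hx, hy, div_one]
  have h2 : ((x / y : Kˣ) : K) - 1 = ((x : K) - y) / y := by
    rw [Units.val_div_eq_div_val, sub_div, div_self (Units.ne_zero y)]
  rw [h2, norm_div, hy, div_one]
  exact ⟨fun h => h.2, fun h => ⟨h1, h⟩⟩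

/-- The norm-one units. -/
theorem mem_ballUnits_one {x : Kˣ} : x ∈ ballUnits K 1 zero_le_one ↔ ‖(x : K)‖ = 1 := by
  rw [mem_ballUnits]
  refine ⟨fun h => h.1, fun h => ⟨h, ?_⟩⟩
  have h2 := IsUltrametricDist.norm_add_le_max (x : K) (-1)
  rw [← sub_eq_add_neg, norm_neg, norm_one, h, max_self] at h2
  exact h2

end Ball

section Filtration

variable {K : Type*} [NormedField K] [IsUltrametricDist K] {π : K} (hπ : IsUniformizer π)

/-- The unit filtration: `U 0` = norm-one units, `U i = 1 + π^i 𝒪` for `i ≥ 1`. -/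
def U (i : ℕ) : Subgroup Kˣ := ballUnits K (‖π‖ ^ i) (pow_nonneg (norm_nonneg π) i)

theorem mem_U {i : ℕ} {x : Kˣ} : x ∈ U (π := π) i ↔ ‖(x : K)‖ = 1 ∧ ‖(x : K) - 1‖ ≤ ‖π‖ ^ i := Iff.rfl

theorem mem_U_zero {x : Kˣ} : x ∈ U (π := π) 0 ↔ ‖(x : K)‖ = 1 := by
  have : U (π := π) 0 = ballUnits K 1 zero_le_one := by
    simp only [U, pow_zero]
  rw [this, mem_ballUnits_one]

include hπ in
theorem U_zero_eq_ker_ord : U (π := π) 0 = hπ.ord.ker := by
  ext x; rw [mem_U_zero, hπ.mem_ker_ord_iff]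

include hπ in
theorem U_anti {i j : ℕ} (h : i ≤ j) : U (π := π) j ≤ U (π := π) i :=
  ballUnits_mono (pow_le_pow_of_le_one hπ.pos.le hπ.lt_one.le h)

include hπ in
theorem mem_U_succ_iff {i : ℕ} {x : Kˣ} : x ∈ U (π := π) (i + 1) ↔ ‖(x : K) - 1‖ ≤ ‖π‖ ^ (i + 1) := by
  refine ⟨fun h => h.2, fun h => ⟨norm_eq_one_of_norm_sub_one_lt (h.trans_lt ?_), h⟩⟩
  exact pow_lt_one₀ hπ.pos.le hπ.lt_one (Nat.succ_ne_zero i)

include hπ in
/-- **Separatedness.** -/
theorem eq_one_of_forall_mem_U {x : Kˣ} (h : ∀ i, x ∈ U (π := π) i) : x = 1 := by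
  have h0 : ‖(x : K) - 1‖ ≤ 0 := by
    have hlim : Filter.Tendsto (fun i : ℕ => ‖π‖ ^ i) Filter.atTop (nhds 0) :=
      tendsto_pow_atTop_nhds_zero_of_lt_one hπ.pos.le hπ.lt_one
    exact ge_of_tendsto' hlim (fun i => (h i).2)
  have : (x : K) - 1 = 0 := norm_le_zero_iff.1 h0
  exact Units.ext (by simpa [sub_eq_zero] using this)

theorem div_mem_U_iff {i : ℕ} {x y : Kˣ} (hx : ‖(x : K)‖ = 1) (hy : ‖(y : K)‖ = 1) :
    x / y ∈ U (π := π) i ↔ ‖(x : K) - y‖ ≤ ‖π‖ ^ i :=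
  div_mem_ballUnits_iff hx hy

/-- Elements of `U i` are `1 + π^i m` with `‖m‖ ≤ 1`. -/
theorem exists_eq_one_add_of_mem_U {i : ℕ} {x : Kˣ} (hx : x ∈ U (π := π) i) (hπ0 : π ≠ 0) :
    ∃ m : K, ‖m‖ ≤ 1 ∧ (x : K) = 1 + π ^ i * m := by
  refine ⟨((x : K) - 1) / π ^ i, ?_, ?_⟩
  · rw [norm_div, norm_pow]
    exact div_le_one_of_le₀ hx.2 (pow_nonneg (norm_nonneg _) _)
  · field_simp; ring

include hπ in
/-- Conversely `1 + π^(i+1) m` is in `U (i+1)`. -/
theorem one_add_mem_U_succ {i : ℕ} {m : K} (hm : ‖m‖ ≤ 1) (x : Kˣ)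
    (hx : (x : K) = 1 + π ^ (i + 1) * m) : x ∈ U (π := π) (i + 1) := by
  rw [mem_U_succ_iff hπ, hx, add_sub_cancel_left, norm_mul, norm_pow]
  exact mul_le_of_le_one_right (pow_nonneg (norm_nonneg _) _) hm

end Filtration

section Complete

variable {K : Type*} [NormedField K] [IsUltrametricDist K] [CompleteSpace K] {π : K}
  (hπ : IsUniformizer π)

include hπ

/-- **Completeness** of the unit filtration, in the multiplicative shape of
`CohTrivialApprox.hcomplete`. -/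
theorem exists_prod_limit (a : ℕ → Kˣ) (ha : ∀ i, a i ∈ U (π := π) i) :
    ∃ s ∈ U (π := π) 0, ∀ i, s / ∏ j ∈ Finset.range i, a j ∈ U (π := π) i := by
  set P : ℕ → Kˣ := fun i => ∏ j ∈ Finset.range i, a j with hP
  have hP1 : ∀ i, ‖((P i : Kˣ) : K)‖ = 1 := by
    intro i
    have : P i ∈ U (π := π) 0 :=
      Subgroup.prod_mem _ (fun j _ => U_anti hπ (Nat.zero_le j) (ha j))
    exact mem_U_zero.1 this
  have hstep : ∀ i, ‖((P (i + 1) : Kˣ) : K) - (P i : Kˣ)‖ ≤ ‖π‖ ^ i := by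
    intro i
    have : ((P (i + 1) : Kˣ) : K) - (P i : Kˣ) = (P i : Kˣ) * (((a i : Kˣ) : K) - 1) := by
      simp only [hP, Finset.prod_range_succ, Units.val_mul]; ring
    rw [this, norm_mul, hP1, one_mul]
    exact (ha i).2
  have hcauchy : CauchySeq (fun i => ((P i : Kˣ) : K)) := by
    refine cauchySeq_of_le_geometric ‖π‖ 1 hπ.lt_one (fun n => ?_)
    rw [one_mul, dist_eq_norm, norm_sub_rev]
    exact hstep n
  obtain ⟨s₀, hs₀⟩ := cauchySeq_tendsto_of_complete hcauchy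
  have hball : ∀ i m, i ≤ m → ‖((P m : Kˣ) : K) - (P i : Kˣ)‖ ≤ ‖π‖ ^ i := by
    intro i m him
    induction m, him using Nat.le_induction with
    | base => simp [pow_nonneg (norm_nonneg π)]
    | succ m him ih =>
      have : ((P (m + 1) : Kˣ) : K) - (P i : Kˣ) =
          (((P (m + 1) : Kˣ) : K) - (P m : Kˣ)) + (((P m : Kˣ) : K) - (P i : Kˣ)) := by ring
      rw [this]
      refine (IsUltrametricDist.norm_add_le_max _ _).trans (max_le ?_ ih)
      exact (hstep m).trans (pow_le_pow_of_le_one hπ.pos.le hπ.lt_one.le him)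
  have hlim : ∀ i, ‖s₀ - (P i : Kˣ)‖ ≤ ‖π‖ ^ i := by
    intro i
    have hcl : IsClosed (Metric.closedBall (((P i : Kˣ) : K)) (‖π‖ ^ i)) :=
      Metric.isClosed_closedBall
    have := hcl.mem_of_tendsto hs₀ (Filter.eventually_atTop.2 ⟨i, fun m hm => by
      rw [Metric.mem_closedBall, dist_eq_norm]; exact hball i m hm⟩)
    rwa [Metric.mem_closedBall, dist_eq_norm] at this
  have hs1 : ‖s₀‖ = 1 := by
    have h1 := hlim 1
    rw [pow_one] at h1
    have h2 : ‖s₀ - (P 1 : Kˣ)‖ ≠ ‖((P 1 : Kˣ) : K)‖ := by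
      rw [hP1]; exact (h1.trans_lt hπ.lt_one).ne
    have := IsUltrametricDist.norm_add_eq_max_of_norm_ne_norm h2
    rw [sub_add_cancel, hP1, max_eq_right ((h1.trans_lt hπ.lt_one).le)] at this
    exact this
  have hs0 : s₀ ≠ 0 := by
    intro h; rw [h, norm_zero] at hs1; exact zero_ne_one hs1
  refine ⟨Units.mk0 s₀ hs0, mem_U_zero.2 (by simpa using hs1), fun i => ?_⟩
  rw [div_mem_U_iff (by simpa using hs1) (hP1 i)]
  simpa using hlim i

end Complete

section Graded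

variable {K : Type*} [NormedField K] [IsUltrametricDist K] {π : K} (hπ : IsUniformizer π)

include hπ

/-- Discreteness: `‖z‖ < ‖π‖ ^ i ↔ ‖z‖ ≤ ‖π‖ ^ (i + 1)` (integer exponents). -/
theorem norm_lt_zpow_iff (z : K) (i : ℤ) : ‖z‖ < ‖π‖ ^ i ↔ ‖z‖ ≤ ‖π‖ ^ (i + 1) := by
  by_cases hz : z = 0
  · subst hz
    simp only [norm_zero]
    exact ⟨fun _ => (zpow_pos hπ.pos _).le, fun _ => zpow_pos hπ.pos _⟩
  obtain ⟨n, hn⟩ := hπ.exists_zpow z hz
  rw [hn]
  have hanti := zpow_right_strictAnti₀ hπ.pos hπ.lt_one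
  rw [hanti.lt_iff_gt, hanti.le_iff_ge]
  omega

theorem norm_lt_one_iff (z : K) : ‖z‖ < 1 ↔ ‖z‖ ≤ ‖π‖ := by
  have := norm_lt_zpow_iff hπ z 0
  simpa using this

theorem norm_lt_pow_iff (z : K) (i : ℕ) : ‖z‖ < ‖π‖ ^ i ↔ ‖z‖ ≤ ‖π‖ ^ (i + 1) := by
  have := norm_lt_zpow_iff hπ z i
  rw [zpow_natCast] at this
  rw [this]
  norm_cast

/-- `U 0 / U 1 = κˣ`: two norm-one units are congruent mod `U 1` iff they are congruent
mod the maximal ideal. -/
theorem div_mem_U_one_iff {x y : Kˣ} (hx : ‖(x : K)‖ = 1) (hy : ‖(y : K)‖ = 1) :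
    x / y ∈ U (π := π) 1 ↔ ‖(x : K) - y‖ < 1 := by
  rw [div_mem_U_iff hx hy, pow_one, norm_lt_one_iff hπ]

omit hπ in
/-- `U i / U (i+1) = κ⁺` (`i ≥ 1`): the map `x ↦ (x - 1) / π^i mod π` is additive. -/
theorem norm_mul_sub_one_sub_le {i : ℕ} {x y : Kˣ} (hx : x ∈ U (π := π) i)
    (hy : y ∈ U (π := π) i) :
    ‖(((x * y : Kˣ) : K) - 1) - ((x : K) - 1) - ((y : K) - 1)‖ ≤ ‖π‖ ^ (2 * i) := by
  have : (((x * y : Kˣ) : K) - 1) - ((x : K) - 1) - ((y : K) - 1) =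
      ((x : K) - 1) * ((y : K) - 1) := by push_cast; ring
  rw [this, norm_mul, two_mul, pow_add]
  exact mul_le_mul hx.2 hy.2 (norm_nonneg _) (pow_nonneg (norm_nonneg _) _)

end Graded

section FiniteIndex

variable {K : Type*} [NormedField K] [IsUltrametricDist K] {π : K} (hπ : IsUniformizer π)

include hπ

/-- `[U 0 : U i]` is finite as soon as the closed unit ball has finite `ε`-nets. -/
theorem relIndex_U_ne_zero
    (hfin : ∀ ε : ℝ, 0 < ε → ∃ R : Finset K, ∀ x : K, ‖x‖ ≤ 1 → ∃ r ∈ R, ‖x - r‖ < ε) (i : ℕ) :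
    (U (π := π) i).relIndex (U (π := π) 0) ≠ 0 := by
  classical
  obtain ⟨R, hR⟩ := hfin (‖π‖ ^ i) (pow_pos hπ.pos i)
  set H : Subgroup ↥(U (π := π) 0) := (U (π := π) i).subgroupOf (U (π := π) 0) with hH
  let g : R → ↥(U (π := π) 0) ⧸ H := fun r =>
    if h : ∃ x : ↥(U (π := π) 0), ‖((x : Kˣ) : K) - r‖ < ‖π‖ ^ i then
      QuotientGroup.mk h.choose else 1
  have hsurj : Function.Surjective g := by
    intro y
    obtain ⟨x, rfl⟩ := QuotientGroup.mk_surjective y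
    have hx1 : ‖((x : Kˣ) : K)‖ = 1 := mem_U_zero.1 x.2
    obtain ⟨r, hr, hxr⟩ := hR ((x : Kˣ) : K) hx1.le
    have hex : ∃ x' : ↥(U (π := π) 0), ‖((x' : Kˣ) : K) - r‖ < ‖π‖ ^ i := ⟨x, hxr⟩
    refine ⟨⟨r, hr⟩, ?_⟩
    simp only [g, dif_pos hex]
    rw [QuotientGroup.eq, hH, Subgroup.mem_subgroupOf]
    have hx'1 : ‖((hex.choose : Kˣ) : K)‖ = 1 := mem_U_zero.1 hex.choose.2
    have : (((hex.choose)⁻¹ * x : ↥(U (π := π) 0)) : Kˣ) = (x : Kˣ) / (hex.choose : Kˣ) := by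
      push_cast; rw [div_eq_mul_inv, mul_comm]
    rw [this, div_mem_U_iff hx1 hx'1]
    have h3 : ((x : Kˣ) : K) - (hex.choose : Kˣ) =
        (((x : Kˣ) : K) - r) + ((r : K) - (hex.choose : Kˣ)) := by ring
    rw [h3]
    refine (IsUltrametricDist.norm_add_le_max _ _).trans (max_le hxr.le ?_)
    rw [norm_sub_rev]; exact hex.choose_spec.le
  haveI : Finite (↥(U (π := π) 0) ⧸ H) := Finite.of_surjective g hsurj
  exact Subgroup.index_ne_zero_of_finite

end FiniteIndex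

section Padic

variable (q : ℕ) [Fact q.Prime] (K : Type*) [NormedField K] [NormedAlgebra ℚ_[q] K]
  [FiniteDimensional ℚ_[q] K] {π : K} (hπ : IsUniformizer π)

include q hπ in
/-- For finite extensions of `ℚ_q`: `[U 0 : U i]` is finite. -/
theorem relIndex_U_ne_zero_padic (i : ℕ) :
    haveI := isUltrametricDist q K
    (U (π := π) i).relIndex (U (π := π) 0) ≠ 0 := by
  have := isUltrametricDist q K
  refine relIndex_U_ne_zero hπ (fun ε hε => ?_) i
  obtain ⟨R, _, hR⟩ := exists_finite_system q K ε hε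
  exact ⟨R, hR⟩

include q hπ in
/-- For finite extensions of `ℚ_q`: completeness of the unit filtration. -/
theorem exists_prod_limit_padic :
    haveI := isUltrametricDist q K
    ∀ (a : ℕ → Kˣ), (∀ i, a i ∈ U (π := π) i) →
      ∃ s ∈ U (π := π) 0, ∀ i, s / ∏ j ∈ Finset.range i, a j ∈ U (π := π) i := by
  have := isUltrametricDist q K
  have := completeSpace q K
  exact exists_prod_limit hπ

end Padic

end Fermat.Agent.S55.Local.UnitFiltration
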