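/-
S55 / LOCAL block (helper59): the UNIT DATA `(T)` in (LF) form, `Reduction.UnitDataLF`, via the
normal basis lattice (Serre, Local Fields XII.3 Lemma 3 / Cassels–Fröhlich VI.1.4), on plain norms.

Setting: `K`, `E` local fields in the sense of `Local/Basic.lean`, `E/K` finite Galois with group
`G`, `b = IsGalois.normalBasis K E` (`b τ = τ θ`), `r = ‖ϖ_K‖`.
`W j = {x : E | all coordinates of x in the normal basis have norm ≤ r ^ j}` (`= ϖ^j M`,
`M = ⊕ 𝒪_K · τθ ≅ 𝒪_K[G]`), `V i = {u ∈ Eˣ | u - 1 ∈ W (N₀ + i)}`.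
-/
import Mathlib
import Fermat.Agent.S55.Local.Basic
import Fermat.Agent.S55.Local.UnitFiltration

set_option autoImplicit false
set_option linter.unusedSectionVars false

namespace Fermat.Agent.S55.Local.LatticeUnits

open Fermat.Agent.S55.Local Fermat.Agent.S55.Local.UnitFiltration Fermat.Agent.S55.Local.LocalDatum

variable (K E : Type) [NontriviallyNormedField K] [IsUltrametricDist K] [ProperSpace K]
  [NontriviallyNormedField E] [IsUltrametricDist E] [ProperSpace E]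
  [NormedAlgebra K E] [FiniteDimensional K E] [IsGalois K E]

/-- The normal basis. -/
noncomputable abbrev nb : Module.Basis (E ≃ₐ[K] E) K E := IsGalois.normalBasis K E

/-- `r = ‖ϖ_K‖`. -/
noncomputable abbrev rr : ℝ := ‖unif K‖

lemma rr_pos : 0 < rr K := norm_unif_pos K
lemma rr_lt_one : rr K < 1 := norm_unif_lt_one K

variable {K E}

lemma nb_apply (τ : E ≃ₐ[K] E) : nb K E τ = τ (nb K E 1) := IsGalois.normalBasis_apply τ

lemma map_nb (ρ τ : E ≃ₐ[K] E) : ρ (nb K E τ) = nb K E (ρ * τ) := by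
  rw [nb_apply τ, nb_apply (ρ * τ)]; rfl

/-- Coordinates. -/
noncomputable abbrev co (x : E) (τ : E ≃ₐ[K] E) : K := (nb K E).repr x τ

lemma sum_co (x : E) : ∑ τ : E ≃ₐ[K] E, co x τ • nb K E τ = x := (nb K E).sum_repr x

lemma co_sum_smul (c : (E ≃ₐ[K] E) → K) (τ : E ≃ₐ[K] E) :
    co (∑ ρ : E ≃ₐ[K] E, c ρ • nb K E ρ) τ = c τ := by
  have := (nb K E).repr_sum_self c
  exact congrFun this τ

/-- Galois equivariance of the coordinates. -/
lemma co_map (ρ : E ≃ₐ[K] E) (x : E) (τ : E ≃ₐ[K] E) : co (ρ x) τ = co x (ρ⁻¹ * τ) := by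
  have h1 : ρ x = ∑ τ : E ≃ₐ[K] E, co x (ρ⁻¹ * τ) • nb K E τ := by
    conv_lhs => rw [← sum_co (K := K) x]
    rw [map_sum]
    simp only [map_smul, map_nb]
    exact Fintype.sum_bijective (fun τ => ρ * τ) (Group.mulLeft_bijective ρ) _ _
      (fun τ => by simp)
  rw [h1, co_sum_smul]

variable (K E)

/-- The lattice `ϖ^j M`: all normal-basis coordinates have norm `≤ r^j`. -/
def W (j : ℕ) : AddSubgroup E where
  carrier := {x | ∀ τ : E ≃ₐ[K] E, ‖co x τ‖ ≤ rr K ^ j}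
  zero_mem' := fun τ => by
    have : co (0 : E) τ = 0 := by simp [co]
    rw [this, norm_zero]; exact pow_nonneg (rr_pos K).le j
  add_mem' := fun {x y} hx hy τ => by
    have : co (x + y) τ = co x τ + co y τ := by simp [co]
    rw [this]
    exact (IsUltrametricDist.norm_add_le_max _ _).trans (max_le (hx τ) (hy τ))
  neg_mem' := fun {x} hx τ => by
    have : co (-x) τ = -co x τ := by simp [co]
    rw [this, norm_neg]; exact hx τ

variable {K E}

lemma mem_W {j : ℕ} {x : E} : x ∈ W K E j ↔ ∀ τ : E ≃ₐ[K] E, ‖co x τ‖ ≤ rr K ^ j := Iff.rfl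

lemma W_anti {i j : ℕ} (h : i ≤ j) : W K E j ≤ W K E i := fun x hx τ =>
  (hx τ).trans (pow_le_pow_of_le_one (rr_pos K).le (rr_lt_one K).le h)

/-- `W j` is Galois stable. -/
lemma map_mem_W {j : ℕ} {x : E} (hx : x ∈ W K E j) (ρ : E ≃ₐ[K] E) : ρ x ∈ W K E j := fun τ => by
  rw [co_map]; exact hx _

/-- `a • b τ ∈ W j` when `‖a‖ ≤ r^j`. -/
lemma smul_nb_mem_W {j : ℕ} {a : K} (ha : ‖a‖ ≤ rr K ^ j) (τ : E ≃ₐ[K] E) :
    a • nb K E τ ∈ W K E j := fun ρ => by
  classical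
  have : co (a • nb K E τ) ρ = if τ = ρ then a else 0 := by
    simp only [co, map_smul, Module.Basis.repr_self, Finsupp.smul_single, smul_eq_mul, mul_one,
      Finsupp.single_apply]
  rw [this]
  split_ifs
  · exact ha
  · simp [pow_nonneg (rr_pos K).le]

/-- The norm of the normal basis element. -/
noncomputable abbrev BB : ℝ := ‖nb K E (1 : E ≃ₐ[K] E)‖

variable (K E) in
lemma BB_pos : 0 < BB (K := K) (E := E) := norm_pos_iff.mpr ((nb K E).ne_zero 1)

lemma norm_nb (τ : E ≃ₐ[K] E) : ‖nb K E τ‖ = BB (K := K) (E := E) := by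
  rw [nb_apply τ, norm_algEquiv_apply]

/-- (A) boundedness. -/
lemma norm_le_of_mem_W {j : ℕ} {x : E} (hx : x ∈ W K E j) : ‖x‖ ≤ BB (K := K) (E := E) * rr K ^ j := by
  rw [← sum_co (K := K) x]
  apply IsUltrametricDist.norm_sum_le_of_forall_le_of_nonneg
    (mul_nonneg (BB_pos K E).le (pow_nonneg (rr_pos K).le j))
  intro τ _
  rw [norm_smul, norm_nb, mul_comm]
  exact mul_le_mul_of_nonneg_left (hx τ) (BB_pos K E).le

variable (K E) in
/-- Continuity of the coordinates: a uniform bound. -/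
lemma exists_co_bound : ∃ C : ℝ, 0 < C ∧ ∀ (z : E) (τ : E ≃ₐ[K] E), ‖co z τ‖ ≤ C * ‖z‖ := by
  classical
  let f : (E ≃ₐ[K] E) → (E →L[K] K) := fun τ => LinearMap.toContinuousLinearMap ((nb K E).coord τ)
  refine ⟨1 + ∑ τ : E ≃ₐ[K] E, ‖f τ‖, by positivity, fun x τ => ?_⟩
  have h1 : ‖co x τ‖ ≤ ‖f τ‖ * ‖x‖ := (f τ).le_opNorm x
  refine h1.trans (mul_le_mul_of_nonneg_right ?_ (norm_nonneg x))
  have : ‖f τ‖ ≤ ∑ ρ : E ≃ₐ[K] E, ‖f ρ‖ :=
    Finset.single_le_sum (f := fun ρ => ‖f ρ‖) (fun _ _ => norm_nonneg _) (Finset.mem_univ τ)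
  linarith

/-- The bound `δ_i = B r^(N+i)` for elements of `W (N+i)`. -/
noncomputable abbrev dl (N i : ℕ) : ℝ := BB (K := K) (E := E) * rr K ^ (N + i)

variable (K E) in
/-- The constant `N₀`: (B) openness in product form, and `δ_i ≤ r^(i+1)`. -/
lemma exists_N0 : ∃ N : ℕ,
    (∀ (i j : ℕ) (z : E), ‖z‖ ≤ dl (K := K) (E := E) N i * dl (K := K) (E := E) N j →
      z ∈ W K E (N + i + j + 1)) ∧
    (∀ i : ℕ, dl (K := K) (E := E) N i ≤ rr K ^ (i + 1)) := by
  obtain ⟨C, hC0, hC⟩ := exists_co_bound K E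
  set B := BB (K := K) (E := E) with hB
  have hB0 : 0 < B := BB_pos K E
  have hr0 : 0 < rr K := rr_pos K
  have hr1 : rr K < 1 := rr_lt_one K
  -- choose `k` with `(C B² + B) r^k ≤ 1`
  have hpos : 0 < C * B ^ 2 + B := by positivity
  obtain ⟨k, hk⟩ := exists_pow_lt_of_lt_one (show 0 < (C * B ^ 2 + B)⁻¹ by positivity) hr1
  have hk' : (C * B ^ 2 + B) * rr K ^ k ≤ 1 := by
    have := mul_le_mul_of_nonneg_left hk.le hpos.le
    rwa [mul_inv_cancel₀ hpos.ne'] at this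
  have hk1 : C * B ^ 2 * rr K ^ k ≤ 1 := by
    have : 0 ≤ B * rr K ^ k := by positivity
    nlinarith
  have hk2 : B * rr K ^ k ≤ 1 := by
    have : 0 ≤ C * B ^ 2 * rr K ^ k := by positivity
    nlinarith
  refine ⟨k + 1, fun i j z hz τ => ?_, fun i => ?_⟩
  · have h1 : ‖co z τ‖ ≤ C * ‖z‖ := hC z τ
    have h2 : C * ‖z‖ ≤ C * (dl (K := K) (E := E) (k + 1) i * dl (K := K) (E := E) (k + 1) j) :=
      mul_le_mul_of_nonneg_left hz hC0.le
    have h3 : C * (dl (K := K) (E := E) (k + 1) i * dl (K := K) (E := E) (k + 1) j)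
        = (C * B ^ 2 * rr K ^ k) * rr K ^ (k + 1 + i + j + 1) := by
      simp only [dl, ← hB]
      ring
    have h4 : (C * B ^ 2 * rr K ^ k) * rr K ^ (k + 1 + i + j + 1) ≤ rr K ^ (k + 1 + i + j + 1) := by
      have : 0 ≤ rr K ^ (k + 1 + i + j + 1) := by positivity
      nlinarith
    linarith
  · have h3 : dl (K := K) (E := E) (k + 1) i = (B * rr K ^ k) * rr K ^ (i + 1) := by
      simp only [dl, ← hB]
      ring
    rw [h3]
    have : 0 ≤ rr K ^ (i + 1) := by positivity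
    nlinarith

variable (K E) in
/-- The chosen constant `N₀`. -/
noncomputable def N0 : ℕ := (exists_N0 K E).choose

/-- (B) -/
lemma mem_W_of_norm_le_mul {i j : ℕ} {z : E}
    (hz : ‖z‖ ≤ dl (K := K) (E := E) (N0 K E) i * dl (K := K) (E := E) (N0 K E) j) :
    z ∈ W K E (N0 K E + i + j + 1) :=
  (exists_N0 K E).choose_spec.1 i j z hz

lemma dl_le (i : ℕ) : dl (K := K) (E := E) (N0 K E) i ≤ rr K ^ (i + 1) :=
  (exists_N0 K E).choose_spec.2 i

lemma dl_nonneg (i : ℕ) : 0 ≤ dl (K := K) (E := E) (N0 K E) i := by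
  have := BB_pos K E
  have := rr_pos K
  positivity

lemma dl_lt_one (i : ℕ) : dl (K := K) (E := E) (N0 K E) i < 1 :=
  (dl_le i).trans_lt (pow_lt_one₀ (rr_pos K).le (rr_lt_one K) (Nat.succ_ne_zero i))

/-- (A) in the `N₀`-indexed form. -/
lemma norm_le_dl {i : ℕ} {x : E} (hx : x ∈ W K E (N0 K E + i)) :
    ‖x‖ ≤ dl (K := K) (E := E) (N0 K E) i := norm_le_of_mem_W hx

/-- Products: `W (N₀+i) · W (N₀+j) ⊆ W (N₀+i+j+1)`. -/
lemma mul_mem_W {i j : ℕ} {x y : E} (hx : x ∈ W K E (N0 K E + i)) (hy : y ∈ W K E (N0 K E + j)) :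
    x * y ∈ W K E (N0 K E + i + j + 1) := by
  apply mem_W_of_norm_le_mul
  rw [norm_mul]
  exact mul_le_mul (norm_le_dl hx) (norm_le_dl hy) (norm_nonneg _) (dl_nonneg i)

/-! ## The unit groups `V i` -/

lemma norm_eq_one_of_sub_one_mem {i : ℕ} {u : E} (hu : u - 1 ∈ W K E (N0 K E + i)) : ‖u‖ = 1 :=
  norm_eq_one_of_norm_sub_one_lt ((norm_le_dl hu).trans_lt (dl_lt_one i))

lemma W_le_of_le {i j : ℕ} (h : i ≤ j) : W K E (N0 K E + j) ≤ W K E (N0 K E + i) :=
  W_anti (Nat.add_le_add_left h _)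

variable (K E) in
/-- `V i = {u : Eˣ | u - 1 ∈ W (N₀ + i)}`. -/
def V (i : ℕ) : Subgroup Eˣ where
  carrier := {u | (u : E) - 1 ∈ W K E (N0 K E + i)}
  one_mem' := by simp
  mul_mem' := fun {u v} hu hv => by
    have h : ((u * v : Eˣ) : E) - 1 = ((u : E) - 1) + ((v : E) - 1) + ((u : E) - 1) * ((v : E) - 1) := by
      push_cast; ring
    show ((u * v : Eˣ) : E) - 1 ∈ W K E (N0 K E + i)
    rw [h]
    refine (W K E _).add_mem ((W K E _).add_mem hu hv) ?_
    exact W_anti (by omega) (mul_mem_W hu hv)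
  inv_mem' := fun {u} hu => by
    have hu' : (u : E) - 1 ∈ W K E (N0 K E + i) := hu
    have h1 : ‖(u : E)‖ = 1 := norm_eq_one_of_sub_one_mem hu'
    have h : ((u⁻¹ : Eˣ) : E) - 1 = -((u : E) - 1) + ((u : E) - 1) ^ 2 * ((u⁻¹ : Eˣ) : E) := by
      have : (u : E) ≠ 0 := u.ne_zero
      rw [Units.val_inv_eq_inv_val]
      field_simp
      ring
    show ((u⁻¹ : Eˣ) : E) - 1 ∈ W K E (N0 K E + i)
    rw [h]
    refine (W K E _).add_mem ((W K E _).neg_mem hu') ?_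
    have h2 : (u : E)⁻¹ * 1 = (u : E)⁻¹ := mul_one _
    have hz : ((u : E) - 1) ^ 2 * ((u⁻¹ : Eˣ) : E) ∈ W K E (N0 K E + i + i + 1) := by
      apply mem_W_of_norm_le_mul
      rw [norm_mul, norm_pow, Units.val_inv_eq_inv_val, norm_inv, h1, inv_one, mul_one, sq]
      exact mul_le_mul (norm_le_dl hu') (norm_le_dl hu') (norm_nonneg _) (dl_nonneg i)
    exact W_anti (by omega) hz

lemma mem_V {i : ℕ} {u : Eˣ} : u ∈ V K E i ↔ (u : E) - 1 ∈ W K E (N0 K E + i) := Iff.rfl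

lemma norm_eq_one_of_mem_V {i : ℕ} {u : Eˣ} (hu : u ∈ V K E i) : ‖(u : E)‖ = 1 :=
  norm_eq_one_of_sub_one_mem hu

lemma V_anti {i j : ℕ} (h : i ≤ j) : V K E j ≤ V K E i := fun _ hu => W_le_of_le h hu

/-- (Q): if `v ∈ V i` and `u - v ∈ W (N₀ + j)` then `u / v ∈ V j`. -/
lemma div_mem_V {i j : ℕ} {u v : Eˣ} (hv : v ∈ V K E i) (huv : (u : E) - v ∈ W K E (N0 K E + j)) :
    u / v ∈ V K E j := by
  have hv' : ((v⁻¹ : Eˣ) : E) - 1 ∈ W K E (N0 K E + i) := (V K E i).inv_mem hv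
  have h : ((u / v : Eˣ) : E) - 1 = ((u : E) - v) + ((u : E) - v) * (((v⁻¹ : Eˣ) : E) - 1) := by
    have : (v : E) ≠ 0 := v.ne_zero
    rw [Units.val_div_eq_div_val, Units.val_inv_eq_inv_val]
    field_simp
    ring
  rw [mem_V, h]
  refine (W K E _).add_mem huv ?_
  exact W_anti (by omega) (mul_mem_W huv hv')

/-- Galois stability. -/
lemma smul_mem_V {i : ℕ} (τ : E ≃ₐ[K] E) {u : Eˣ} (hu : u ∈ V K E i) : τ • u ∈ V K E i := by
  rw [mem_V] at hu ⊢
  have : ((τ • u : Eˣ) : E) - 1 = τ ((u : E) - 1) := by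
    simp [AlgEquiv.smul_units_def]
  rw [this]
  exact map_mem_W hu τ

/-- Separatedness. -/
lemma eq_one_of_forall_mem_V {u : Eˣ} (h : ∀ i, u ∈ V K E i) : u = 1 := by
  have h0 : ‖(u : E) - 1‖ ≤ 0 := by
    have hlim : Filter.Tendsto (fun i : ℕ => rr K ^ (i + 1)) Filter.atTop (nhds 0) :=
      (tendsto_pow_atTop_nhds_zero_of_lt_one (rr_pos K).le (rr_lt_one K)).comp
        (Filter.tendsto_add_atTop_nat 1)
    exact ge_of_tendsto' hlim (fun i => (norm_le_dl (h i)).trans (dl_le i))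
  have : (u : E) - 1 = 0 := norm_le_zero_iff.1 h0
  exact Units.ext (by simpa [sub_eq_zero] using this)

/-! ## Openness, finite index, completeness -/

variable (K E) in
lemma isUniformizer_unif : IsUniformizer (unif E) :=
  ⟨norm_unif_pos E, norm_unif_lt_one E, fun _ hx => exists_norm_eq_zpow E hx⟩

variable (K E) in
/-- `W j` contains a ball. -/
lemma exists_pow_unif_le_imp_mem_W (j : ℕ) :
    ∃ k : ℕ, ∀ z : E, ‖z‖ ≤ ‖unif E‖ ^ k → z ∈ W K E j := by
  obtain ⟨C, hC0, hC⟩ := exists_co_bound K E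
  have hε : 0 < rr K ^ j / C := div_pos (pow_pos (rr_pos K) j) hC0
  obtain ⟨k, hk⟩ := exists_pow_lt_of_lt_one hε (norm_unif_lt_one E)
  refine ⟨k, fun z hz τ => ?_⟩
  have h1 : ‖co z τ‖ ≤ C * ‖z‖ := hC z τ
  have h2 : C * ‖z‖ ≤ C * (rr K ^ j / C) :=
    mul_le_mul_of_nonneg_left (hz.trans hk.le) hC0.le
  rw [mul_div_cancel₀ _ hC0.ne'] at h2
  exact h1.trans h2

variable (K E) in
/-- `U k ≤ V i` for `k` large. -/
lemma exists_U_le_V (i : ℕ) : ∃ k : ℕ, i ≤ k ∧ U (π := unif E) k ≤ V K E i := by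
  obtain ⟨k, hk⟩ := exists_pow_unif_le_imp_mem_W K E (N0 K E + i)
  refine ⟨max i k, le_max_left _ _, fun u hu => ?_⟩
  rw [mem_V]
  apply hk
  exact hu.2.trans (pow_le_pow_of_le_one (norm_unif_pos E).le (norm_unif_lt_one E).le
    (le_max_right _ _))

variable (K E) in
/-- `‖ϖ_K‖ ≤ ‖ϖ_E‖`. -/
lemma rr_le_norm_unif : rr K ≤ ‖unif E‖ := by
  have h1 : ‖algebraMap K E (unif K)‖ = rr K := norm_algebraMap' E (unif K)
  have hne : algebraMap K E (unif K) ≠ 0 := by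
    rw [← norm_pos_iff, h1]; exact rr_pos K
  obtain ⟨n, hn⟩ := exists_norm_eq_zpow E hne
  rw [h1] at hn
  have hn1 : 1 ≤ n := by
    by_contra hcon
    rw [not_le] at hcon
    have : n ≤ 0 := by omega
    have h2 : 1 ≤ ‖unif E‖ ^ n := by
      obtain ⟨m, rfl⟩ : ∃ m : ℕ, n = -(m : ℤ) := ⟨(-n).toNat, by omega⟩
      rw [zpow_neg, zpow_natCast]
      exact (one_le_inv₀ (pow_pos (norm_unif_pos E) m)).mpr
        (pow_le_one₀ (norm_unif_pos E).le (norm_unif_lt_one E).le)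
    have := rr_lt_one K
    linarith
  rw [hn]
  calc ‖unif E‖ ^ n ≤ ‖unif E‖ ^ (1 : ℤ) :=
        zpow_le_zpow_right_of_le_one₀ (norm_unif_pos E) (norm_unif_lt_one E).le hn1
    _ = ‖unif E‖ := zpow_one _

/-- `V i ≤ U i`. -/
lemma V_le_U (i : ℕ) : V K E i ≤ U (π := unif E) i := fun u hu => by
  refine ⟨norm_eq_one_of_mem_V hu, ?_⟩
  calc ‖(u : E) - 1‖ ≤ rr K ^ (i + 1) := (norm_le_dl hu).trans (dl_le i)
    _ ≤ rr K ^ i := pow_le_pow_of_le_one (rr_pos K).le (rr_lt_one K).le (Nat.le_succ i)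
    _ ≤ ‖unif E‖ ^ i := pow_le_pow_left₀ (rr_pos K).le (rr_le_norm_unif K E) i

variable (K E) in
lemma ker_ordHom_eq : (ordHom E).ker = U (π := unif E) 0 := by
  ext x
  rw [MonoidHom.mem_ker, ordHom_eq_one_iff, mem_U_zero]

variable (K E) in
/-- Finite index in the norm-one units. -/
lemma relIndex_V_ne_zero : (V K E 0).relIndex (ordHom E).ker ≠ 0 := by
  obtain ⟨k, -, hk⟩ := exists_U_le_V K E 0
  rw [ker_ordHom_eq E]
  have hfin : ∀ ε : ℝ, 0 < ε → ∃ R : Finset E, ∀ x : E, ‖x‖ ≤ 1 → ∃ r ∈ R, ‖x - r‖ < ε := by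
    intro ε hε
    have hc : IsCompact (Metric.closedBall (0 : E) 1) := isCompact_closedBall 0 1
    obtain ⟨t, -, ht, hcov⟩ := hc.finite_cover_balls hε
    refine ⟨ht.toFinset, fun x hx => ?_⟩
    have hx' : x ∈ Metric.closedBall (0 : E) 1 := by simpa using hx
    obtain ⟨r, hr, hxr⟩ := Set.mem_iUnion₂.mp (hcov hx')
    exact ⟨r, ht.mem_toFinset.mpr hr, by simpa [dist_eq_norm] using hxr⟩
  have h1 := relIndex_U_ne_zero (isUniformizer_unif E) hfin k
  have h2 : (V K E 0).relIndex (U (π := unif E) 0) ∣ (U (π := unif E) k).relIndex (U (π := unif E) 0) :=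
    Subgroup.relIndex_dvd_of_le_left _ hk
  intro h
  rw [h] at h2
  exact h1 (Nat.eq_zero_of_zero_dvd h2)

/-- Completeness of the filtration `V`. -/
lemma exists_prod_limit_V (a : ℕ → Eˣ) (ha : ∀ i, a i ∈ V K E i) :
    ∃ s ∈ V K E 0, ∀ i, s / ∏ j ∈ Finset.range i, a j ∈ V K E i := by
  obtain ⟨s, -, hs⟩ := exists_prod_limit (isUniformizer_unif E) a (fun i => V_le_U i (ha i))
  have key : ∀ i, s / ∏ j ∈ Finset.range i, a j ∈ V K E i := by
    intro i
    obtain ⟨k, hik, hk⟩ := exists_U_le_V K E i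
    have h1 : s / ∏ j ∈ Finset.range k, a j ∈ V K E i := hk (hs k)
    have h2 : ∏ j ∈ Finset.Ico i k, a j ∈ V K E i :=
      Subgroup.prod_mem _ (fun j hj => V_anti (Finset.mem_Ico.mp hj).1 (ha j))
    have h3 : s / ∏ j ∈ Finset.range i, a j
        = (s / ∏ j ∈ Finset.range k, a j) * ∏ j ∈ Finset.Ico i k, a j := by
      rw [← Finset.prod_range_mul_prod_Ico a hik, div_mul_eq_mul_div, mul_div_mul_right_eq_div]
    rw [h3]
    exact (V K E i).mul_mem h1 h2
  refine ⟨s, ?_, key⟩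
  simpa using key 0

/-! ## The expansion of a product `∏ (1 + z)` -/

omit [ProperSpace E] in
lemma norm_prod_one_add_sub_le {ι : Type*} (S : Finset ι) (z : ι → E) {δ : ℝ} (hδ0 : 0 ≤ δ)
    (hδ1 : δ ≤ 1) (hz : ∀ i ∈ S, ‖z i‖ ≤ δ) :
    ‖∏ i ∈ S, (1 + z i) - 1 - ∑ i ∈ S, z i‖ ≤ δ ^ 2 := by
  classical
  induction S using Finset.induction_on with
  | empty => simp [sq_nonneg]
  | insert a S ha ih =>
    have hzS : ∀ i ∈ S, ‖z i‖ ≤ δ := fun i hi => hz i (Finset.mem_insert_of_mem hi)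
    have hza : ‖z a‖ ≤ δ := hz a (Finset.mem_insert_self a S)
    have ihS := ih hzS
    set P := ∏ i ∈ S, (1 + z i) with hP
    set Sg := ∑ i ∈ S, z i with hSg
    set R := P - 1 - Sg with hR
    have hSgn : ‖Sg‖ ≤ δ := IsUltrametricDist.norm_sum_le_of_forall_le_of_nonneg hδ0 hzS
    rw [Finset.prod_insert ha, Finset.sum_insert ha]
    have e : (1 + z a) * P - 1 - (z a + Sg) = R + z a * Sg + z a * R := by
      rw [hR]; ring
    rw [e]
    have hδ2 : δ * δ ≤ δ ^ 2 := by rw [sq]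
    have h1 : ‖z a * Sg‖ ≤ δ ^ 2 := by
      rw [norm_mul]
      exact (mul_le_mul hza hSgn (norm_nonneg _) hδ0).trans hδ2
    have h2 : ‖z a * R‖ ≤ δ ^ 2 := by
      rw [norm_mul]
      have : ‖z a‖ * ‖R‖ ≤ δ * δ ^ 2 := mul_le_mul hza ihS (norm_nonneg _) hδ0
      have h3 : δ * δ ^ 2 ≤ δ ^ 2 := by
        have : 0 ≤ δ ^ 2 := sq_nonneg δ
        nlinarith
      linarith
    refine (IsUltrametricDist.norm_add_le_max _ _).trans (max_le ?_ h2)
    exact (IsUltrametricDist.norm_add_le_max _ _).trans (max_le ihS h1)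

/-! ## Cyclic bookkeeping -/

omit [NontriviallyNormedField K] [IsUltrametricDist K] [ProperSpace K]
  [NontriviallyNormedField E] [IsUltrametricDist E] [ProperSpace E] [NormedAlgebra K E]
  [FiniteDimensional K E] [IsGalois K E] in
/-- A function on a cyclic group invariant under the generator is constant. -/
lemma const_of_mul_left_invariant {G α : Type*} [Group G] (σ : G)
    (hσ : ∀ τ, τ ∈ Subgroup.zpowers σ) (f : G → α) (hf : ∀ τ, f (σ⁻¹ * τ) = f τ) (τ : G) :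
    f τ = f 1 := by
  let S : Subgroup G :=
    { carrier := {ρ | ∀ τ, f (ρ * τ) = f τ}
      one_mem' := fun τ => by simp
      mul_mem' := fun {a b} ha hb τ => by rw [mul_assoc, ha, hb]
      inv_mem' := fun {a} ha τ => by
        have := ha (a⁻¹ * τ)
        rw [mul_inv_cancel_left] at this
        exact this.symm }
  have h1 : σ⁻¹ ∈ S := hf
  have h2 : σ ∈ S := by simpa using S.inv_mem h1
  have h3 : τ ∈ S := (Subgroup.zpowers_le.mpr h2) (hσ τ)
  simpa using h3 1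

omit [NontriviallyNormedField K] [IsUltrametricDist K] [ProperSpace K]
  [NontriviallyNormedField E] [IsUltrametricDist E] [ProperSpace E] [NormedAlgebra K E]
  [FiniteDimensional K E] [IsGalois K E] in
/-- Sums over a finite cyclic group as sums over the powers of a generator. -/
lemma sum_eq_sum_range_pow {G M : Type*} [Group G] [Fintype G] [AddCommMonoid M] (σ : G)
    (hσ : ∀ τ, τ ∈ Subgroup.zpowers σ) (f : G → M) :
    ∑ τ : G, f τ = ∑ k ∈ Finset.range (orderOf σ), f (σ ^ k) := by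
  classical
  have hinj : Set.InjOn (fun k : ℕ => σ ^ k) (Finset.range (orderOf σ) : Set ℕ) := by
    intro a ha b hb hab
    exact pow_injOn_Iio_orderOf (by simpa using ha) (by simpa using hb) hab
  have himg : (Finset.range (orderOf σ)).image (fun k : ℕ => σ ^ k) = Finset.univ := by
    apply Finset.eq_univ_of_card
    rw [Finset.card_image_of_injOn hinj, Finset.card_range, ← Nat.card_eq_fintype_card]
    exact orderOf_eq_card_of_forall_mem_zpowers hσ
  rw [← himg, Finset.sum_image hinj]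

/-! ## The two cohomological steps -/

lemma coe_prod_smul (y : Eˣ) :
    ((∏ τ : E ≃ₐ[K] E, τ • y : Eˣ) : E) = ∏ τ : E ≃ₐ[K] E, τ (y : E) := by
  rw [Units.coe_prod]
  rfl

lemma prod_smul_mem_V {i : ℕ} {y : Eˣ} (hy : y ∈ V K E i) :
    (∏ τ : E ≃ₐ[K] E, τ • y) ∈ V K E i :=
  Subgroup.prod_mem _ (fun τ _ => smul_mem_V τ hy)

/-- **Step `Ĥ⁰`**: `σ x = x`, `x ∈ V i` ⇒ `x ≡ N y` modulo `V (i+1)` with `y ∈ V i`. -/
theorem stepDN (σ : E ≃ₐ[K] E) (hσ : ∀ τ, τ ∈ Subgroup.zpowers σ) (i : ℕ) (x : Eˣ)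
    (hx : x ∈ V K E i) (hfix : σ • x = x) :
    ∃ y ∈ V K E i, x / (∏ τ : E ≃ₐ[K] E, τ • y) ∈ V K E (i + 1) := by
  set m : E := (x : E) - 1 with hm
  have hmW : m ∈ W K E (N0 K E + i) := hx
  have hσm : σ m = m := by
    have h1 : σ (x : E) = x := by
      have := congrArg (fun u : Eˣ => (u : E)) hfix
      simpa [AlgEquiv.smul_units_def] using this
    rw [hm, map_sub, map_one, h1]
  -- all coordinates of `m` are equal
  have hconst : ∀ τ, co m τ = co m (1 : E ≃ₐ[K] E) := by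
    apply const_of_mul_left_invariant σ hσ (fun τ => co m τ)
    intro τ
    have := co_map σ m τ
    rw [hσm] at this
    exact this.symm
  set a : K := co m (1 : E ≃ₐ[K] E) with ha
  have haN : ‖a‖ ≤ rr K ^ (N0 K E + i) := hmW 1
  have hmsum : m = ∑ τ : E ≃ₐ[K] E, a • nb K E τ := by
    conv_lhs => rw [← sum_co (K := K) m]
    exact Finset.sum_congr rfl (fun τ _ => by rw [hconst τ])
  -- the element `y`
  have hy0W : a • nb K E (1 : E ≃ₐ[K] E) ∈ W K E (N0 K E + i) := smul_nb_mem_W haN 1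
  set y0 : E := 1 + a • nb K E (1 : E ≃ₐ[K] E) with hy0
  have hy0sub : y0 - 1 = a • nb K E (1 : E ≃ₐ[K] E) := by rw [hy0]; ring
  have hy0n : ‖y0‖ = 1 := norm_eq_one_of_sub_one_mem (i := i) (by rw [hy0sub]; exact hy0W)
  have hy0ne : y0 ≠ 0 := by
    intro h; rw [h, norm_zero] at hy0n; exact zero_ne_one hy0n
  set y : Eˣ := Units.mk0 y0 hy0ne with hy
  have hyV : y ∈ V K E i := by
    rw [mem_V]; show y0 - 1 ∈ _; rw [hy0sub]; exact hy0W
  refine ⟨y, hyV, ?_⟩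
  apply div_mem_V (prod_smul_mem_V hyV)
  -- estimate `x - N y`
  have hNy : ((∏ τ : E ≃ₐ[K] E, τ • y : Eˣ) : E) = ∏ τ : E ≃ₐ[K] E, (1 + a • nb K E τ) := by
    rw [coe_prod_smul]
    refine Finset.prod_congr rfl (fun τ _ => ?_)
    show τ y0 = _
    rw [hy0, map_add, map_one, map_smul, map_nb, mul_one]
  have hz : ∀ τ ∈ (Finset.univ : Finset (E ≃ₐ[K] E)),
      ‖a • nb K E τ‖ ≤ dl (K := K) (E := E) (N0 K E) i := fun τ _ =>
    norm_le_dl (smul_nb_mem_W haN τ)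
  have hexp := norm_prod_one_add_sub_le (Finset.univ : Finset (E ≃ₐ[K] E))
    (fun τ => a • nb K E τ) (dl_nonneg i) (dl_lt_one i).le hz
  have hdiff : (x : E) - ((∏ τ : E ≃ₐ[K] E, τ • y : Eˣ) : E)
      = -(∏ τ : E ≃ₐ[K] E, (1 + a • nb K E τ) - 1 - ∑ τ : E ≃ₐ[K] E, a • nb K E τ) := by
    rw [hNy, ← hmsum, hm]; ring
  rw [hdiff]
  refine (W K E _).neg_mem ?_
  have : (∏ τ : E ≃ₐ[K] E, (1 + a • nb K E τ) - 1 - ∑ τ : E ≃ₐ[K] E, a • nb K E τ)
      ∈ W K E (N0 K E + i + i + 1) := by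
    apply mem_W_of_norm_le_mul
    rw [← sq]; exact hexp
  exact W_anti (by omega) this

/-- **Step `Ĥ⁻¹`**: `N x = 1`, `x ∈ V i` ⇒ `x ≡ σ y / y` modulo `V (i+1)` with `y ∈ V i`. -/
theorem stepND (σ : E ≃ₐ[K] E) (hσ : ∀ τ, τ ∈ Subgroup.zpowers σ) (i : ℕ) (x : Eˣ)
    (hx : x ∈ V K E i) (hN : (∏ τ : E ≃ₐ[K] E, τ • x) = 1) :
    ∃ y ∈ V K E i, x / (σ • y / y) ∈ V K E (i + 1) := by
  classical
  set m : E := (x : E) - 1 with hm
  have hmW : m ∈ W K E (N0 K E + i) := hx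
  have hxm : (x : E) = 1 + m := by rw [hm]; ring
  -- the trace of `m` is small
  have hprod : ∏ τ : E ≃ₐ[K] E, (1 + τ m) = 1 := by
    have h1 := congrArg (fun u : Eˣ => (u : E)) hN
    simp only [Units.val_one] at h1
    rw [coe_prod_smul] at h1
    have h2 : ∏ τ : E ≃ₐ[K] E, (1 + τ m) = ∏ τ : E ≃ₐ[K] E, τ (x : E) :=
      Finset.prod_congr rfl (fun τ _ => by rw [hxm, map_add, map_one])
    exact h2.trans h1
  have hz : ∀ τ ∈ (Finset.univ : Finset (E ≃ₐ[K] E)),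
      ‖τ m‖ ≤ dl (K := K) (E := E) (N0 K E) i := fun τ _ => by
    rw [norm_algEquiv_apply]; exact norm_le_dl hmW
  have hexp := norm_prod_one_add_sub_le (Finset.univ : Finset (E ≃ₐ[K] E))
    (fun τ => τ m) (dl_nonneg i) (dl_lt_one i).le hz
  set T : E := ∑ τ : E ≃ₐ[K] E, τ m with hT
  have hTW : T ∈ W K E (N0 K E + i + i + 1) := by
    apply mem_W_of_norm_le_mul
    rw [hprod, sub_self, zero_sub, norm_neg] at hexp
    rw [← sq]; exact hexp
  set s : K := ∑ τ : E ≃ₐ[K] E, co m τ with hs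
  have hcoT : ∀ ρ : E ≃ₐ[K] E, co T ρ = s := by
    intro ρ
    have h1 : co T ρ = ∑ τ : E ≃ₐ[K] E, co (τ m) ρ := by
      simp only [co, hT, map_sum, Finsupp.coe_finsetSum, Finset.sum_apply]
    rw [h1]
    simp only [co_map]
    exact Fintype.sum_bijective (fun τ : E ≃ₐ[K] E => τ⁻¹ * ρ)
      ((Group.mulRight_bijective ρ).comp inv_involutive.bijective) _ _ (fun τ => rfl)
  have hsn : ‖s‖ ≤ rr K ^ (N0 K E + i + i + 1) := by
    have := hTW 1
    rwa [hcoT 1] at this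
  -- cyclic bookkeeping
  set n := orderOf σ with hn
  have hσn : σ ^ n = 1 := pow_orderOf_eq_one σ
  set a : ℕ → K := fun k => co m (σ ^ k) with ha
  have han : a n = a 0 := by simp only [ha, hσn, pow_zero]
  have haN : ∀ k, ‖a k‖ ≤ rr K ^ (N0 K E + i) := fun k => hmW _
  set c : ℕ → K := fun k => -∑ j ∈ Finset.range k, a (j + 1) with hc
  have hc0 : c 0 = 0 := by simp [hc]
  have hcsucc : ∀ k, c k = c (k + 1) + a (k + 1) := fun k => by
    simp only [hc, Finset.sum_range_succ]; ring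
  have hcN : ∀ k, ‖c k‖ ≤ rr K ^ (N0 K E + i) := fun k => by
    simp only [hc, norm_neg]
    exact IsUltrametricDist.norm_sum_le_of_forall_le_of_nonneg
      (pow_nonneg (rr_pos K).le _) (fun j _ => haN (j + 1))
  have hsum_shift : ∀ f : ℕ → E, f n = f 0 →
      ∑ k ∈ Finset.range n, f (k + 1) = ∑ k ∈ Finset.range n, f k := by
    intro f hf
    have h1 := Finset.sum_range_succ' f n
    have h2 := Finset.sum_range_succ f n
    rw [h2, hf] at h1
    exact (add_right_cancel h1).symm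
  have hsum_shiftK : ∑ k ∈ Finset.range n, a (k + 1) = ∑ k ∈ Finset.range n, a k := by
    have h1 := Finset.sum_range_succ' a n
    have h2 := Finset.sum_range_succ a n
    rw [h2, han] at h1
    exact (add_right_cancel h1).symm
  have hs' : s = ∑ k ∈ Finset.range n, a k :=
    sum_eq_sum_range_pow σ hσ (fun τ => co m τ)
  have hcn : c n = -s := by simp only [hc]; rw [hsum_shiftK, hs']
  set A : ℕ → E := fun k => a k • nb K E (σ ^ k) with hA
  set F : ℕ → E := fun k => c k • nb K E (σ ^ k) with hF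
  have hm' : m = ∑ k ∈ Finset.range n, A k := by
    conv_lhs => rw [← sum_co (K := K) m]
    exact sum_eq_sum_range_pow σ hσ (fun τ => co m τ • nb K E τ)
  have hAn : A n = A 0 := by simp only [hA, han, hσn, pow_zero]
  set w : E := ∑ k ∈ Finset.range n, F k with hw
  have hwW : w ∈ W K E (N0 K E + i) :=
    AddSubgroup.sum_mem _ (fun k _ => smul_nb_mem_W (hcN k) _)
  have hσw : σ w = ∑ k ∈ Finset.range n, (F (k + 1) + A (k + 1)) := by
    rw [hw, map_sum]
    refine Finset.sum_congr rfl (fun k _ => ?_)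
    simp only [hF, hA, map_smul, map_nb]
    rw [← pow_succ', hcsucc k, add_smul]
  have hkey : σ w - w - m = -(s • nb K E (1 : E ≃ₐ[K] E)) := by
    rw [hσw, Finset.sum_add_distrib, hsum_shift A hAn, ← hm', hw]
    have htel : ∑ k ∈ Finset.range n, F (k + 1) - ∑ k ∈ Finset.range n, F k = F n - F 0 := by
      rw [← Finset.sum_sub_distrib]; exact Finset.sum_range_sub F n
    have hF0 : F 0 = 0 := by simp only [hF, hc0, zero_smul]
    have hFn : F n = -(s • nb K E (1 : E ≃ₐ[K] E)) := by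
      simp only [hF, hcn, hσn, neg_smul]
    calc ∑ k ∈ Finset.range n, F (k + 1) + m - ∑ k ∈ Finset.range n, F k - m
        = (∑ k ∈ Finset.range n, F (k + 1) - ∑ k ∈ Finset.range n, F k) := by ring
      _ = F n - F 0 := htel
      _ = -(s • nb K E (1 : E ≃ₐ[K] E)) := by rw [hF0, hFn, sub_zero]
  -- the element `y`
  set y0 : E := 1 + w with hy0
  have hy0sub : y0 - 1 = w := by rw [hy0]; ring
  have hy0n : ‖y0‖ = 1 := norm_eq_one_of_sub_one_mem (i := i) (by rw [hy0sub]; exact hwW)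
  have hy0ne : y0 ≠ 0 := by
    intro h; rw [h, norm_zero] at hy0n; exact zero_ne_one hy0n
  set y : Eˣ := Units.mk0 y0 hy0ne with hy
  have hyV : y ∈ V K E i := by
    rw [mem_V]; show y0 - 1 ∈ _; rw [hy0sub]; exact hwW
  refine ⟨y, hyV, ?_⟩
  rw [div_div_eq_mul_div]
  apply div_mem_V (smul_mem_V σ hyV)
  have hdiff : ((x * y : Eˣ) : E) - ((σ • y : Eˣ) : E)
      = s • nb K E (1 : E ≃ₐ[K] E) + m * w := by
    have h1 : ((σ • y : Eˣ) : E) = 1 + σ w := by
      show σ y0 = _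
      rw [hy0, map_add, map_one]
    have h2 : ((x * y : Eˣ) : E) = (1 + m) * (1 + w) := by
      rw [Units.val_mul, hxm]; rfl
    rw [h1, h2]
    have : σ w = w + m - s • nb K E (1 : E ≃ₐ[K] E) := by
      have := hkey
      linear_combination this
    rw [this]; ring
  rw [hdiff]
  refine (W K E _).add_mem ?_ ?_
  · exact W_anti (by omega) (smul_nb_mem_W hsn 1)
  · exact W_anti (by omega) (mul_mem_W hmW hwW)

/-! ## The packaged unit data `(T)` -/

/-- **(T), (LF) form** — literally the body of `Reduction.UnitDataLF`. -/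
theorem exists_unitData (σ : E ≃ₐ[K] E) (hσ : ∀ τ, τ ∈ Subgroup.zpowers σ) :
    ∃ V : ℕ → Subgroup Eˣ,
      V 0 ≤ (ordHom E).ker ∧ (V 0).relIndex (ordHom E).ker ≠ 0 ∧
      (∀ i (τ : E ≃ₐ[K] E), ∀ x ∈ V i, τ • x ∈ V i) ∧
      (∀ x, (∀ i, x ∈ V i) → x = 1) ∧
      (∀ a : ℕ → Eˣ, (∀ i, a i ∈ V i) →
        ∃ s ∈ V 0, ∀ i, s / ∏ j ∈ Finset.range i, a j ∈ V i) ∧
      (∀ i, ∀ x ∈ V i, σ • x = x →
        ∃ y ∈ V i, x / (∏ τ : E ≃ₐ[K] E, τ • y) ∈ V (i + 1)) ∧
      (∀ i, ∀ x ∈ V i, (∏ τ : E ≃ₐ[K] E, τ • x) = 1 →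
        ∃ y ∈ V i, x / (σ • y / y) ∈ V (i + 1)) := by
  refine ⟨V K E, ?_, relIndex_V_ne_zero K E, fun i τ x hx => smul_mem_V τ hx,
    fun x hx => eq_one_of_forall_mem_V hx, exists_prod_limit_V,
    fun i x hx hfix => stepDN σ hσ i x hx hfix, fun i x hx hN => stepND σ hσ i x hx hN⟩
  intro u hu
  rw [MonoidHom.mem_ker, ordHom_eq_one_iff]
  exact norm_eq_one_of_mem_V hu

end Fermat.Agent.S55.Local.LatticeUnits
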