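/-
S55 / LOCAL block (helper59): "sums over Galois groups are field norms", in the language of
`Rep.ofAlgebraAutOnUnits K M` (Mathlib: `Gal(M/K)` acting on `Additive Mˣ`).

`M/K` a finite Galois extension of fields (`K M : Type`), `G = M ≃ₐ[K] M`,
`A = Rep.ofAlgebraAutOnUnits K M`.

* `sum_subgroup_eq_norm H y` : `∑ s : H, A.ρ s y = N_{M/M^H}(y)` (as an element of `Additive Mˣ`)
  — the shape of hypothesis (ii) of `BrauerUnramAbs.exists_class`;
* `sum_quotient_eq_norm N y` : for `N` normal and `y : (M^N)ˣ`,
  `∑ g : G ⧸ N, (A.quotientToInvariants N).ρ g y = N_{M^N/K}(y)`;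
* `exists_sum_quotient_eq_norm N b` : every `b ∈ (Mˣ)^N` is such a `y`, and the sum, read in
  `Additive Mˣ`, is the image of `N_{M^N/K}(y) ∈ Kˣ` — the shape of hypothesis (i) of
  `BrauerUnramAbs.exists_class`.
-/
import Mathlib
import Fermat.Agent.S55.Local.Transport

set_option autoImplicit false

namespace Fermat.Agent.S55.Local.NormPlumbing

open CategoryTheory groupCohomology Rep IntermediateField
open Fermat.Agent.S55.Local.Transport

variable (K M : Type) [Field K] [Field M] [Algebra K M] [FiniteDimensional K M]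

/-- The norm map on units. -/
noncomputable abbrev unitsNorm' (K E : Type) [Field K] [Field E] [Algebra K E] : Eˣ →* Kˣ :=
  Units.map (Algebra.norm K : E →* K)

omit [FiniteDimensional K M] in
/-- `ρ` of `Rep.ofAlgebraAutOnUnits`, on elements. -/
theorem rho_apply (σ : M ≃ₐ[K] M) (y : Additive Mˣ) :
    ((Additive.toMul ((Rep.ofAlgebraAutOnUnits K M).ρ σ y) : Mˣ) : M) =
      σ ((Additive.toMul y : Mˣ) : M) := rfl

variable {K} in
omit [Field K] [Algebra K M] [FiniteDimensional K M] in
/-- Coercion of a finite sum in `Additive Mˣ` to `M` is the product. -/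
theorem coe_sum {ι : Type*} (s : Finset ι) (f : ι → Additive Mˣ) :
    ((Additive.toMul (∑ i ∈ s, f i) : Mˣ) : M) = ∏ i ∈ s, ((Additive.toMul (f i) : Mˣ) : M) := by
  classical
  induction s using Finset.induction_on with
  | empty => simp
  | insert a s ha ih =>
    rw [Finset.sum_insert ha, Finset.prod_insert ha, ← ih]
    rfl

variable [IsGalois K M]

/-- **Sums over a subgroup are norms to the fixed field.** -/
theorem sum_subgroup_eq_norm (H : Subgroup (M ≃ₐ[K] M)) [Fintype H] (y : Mˣ) :
    (∑ s : H, (Rep.ofAlgebraAutOnUnits K M).ρ (s : M ≃ₐ[K] M) (Additive.ofMul y)) =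
      Additive.ofMul (Units.map (algebraMap (fixedField H) M : fixedField H →* M)
        (unitsNorm' (fixedField H) M y)) := by
  classical
  apply Additive.toMul.injective
  apply Units.ext
  refine (coe_sum M Finset.univ
    (fun s : H => (Rep.ofAlgebraAutOnUnits K M).ρ (s : M ≃ₐ[K] M) (Additive.ofMul y))).trans ?_
  change ∏ s : H, (s : M ≃ₐ[K] M) (y : M) = algebraMap (fixedField H) M (Algebra.norm _ (y : M))
  rw [Algebra.norm_eq_prod_automorphisms]
  exact Fintype.prod_equiv (subgroupEquivAlgEquiv H).toEquiv _ _ (fun s => rfl)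

/-- **Sums over the quotient by a normal subgroup are norms from the fixed field.** -/
theorem sum_quotient_eq_norm (N : Subgroup (M ≃ₐ[K] M)) [N.Normal]
    [Fintype ((M ≃ₐ[K] M) ⧸ N)] (y : (fixedField N)ˣ) :
    (∑ g : (M ≃ₐ[K] M) ⧸ N, ((Rep.ofAlgebraAutOnUnits K M).quotientToInvariants N).ρ g
        (invariantsEquiv K M N (Additive.ofMul y))) =
      invariantsEquiv K M N (Additive.ofMul
        (Units.map (algebraMap K (fixedField N) : K →* fixedField N)
          (unitsNorm' K (fixedField N) y))) := by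
  classical
  have hstep : ∀ g : (M ≃ₐ[K] M) ⧸ N,
      ((Rep.ofAlgebraAutOnUnits K M).quotientToInvariants N).ρ g
        (invariantsEquiv K M N (Additive.ofMul y)) =
      invariantsEquiv K M N ((Rep.ofAlgebraAutOnUnits K (fixedField N)).ρ
        (IsGalois.normalAutEquivQuotient N g) (Additive.ofMul y)) := by
    intro g
    induction g using QuotientGroup.induction_on with
    | H σ => exact invariantsEquiv_smul K M N σ (Additive.ofMul y)
  rw [Finset.sum_congr rfl fun g _ => hstep g]
  refine (map_sum (invariantsEquiv K M N)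
    (fun g : (M ≃ₐ[K] M) ⧸ N => ((Rep.ofAlgebraAutOnUnits K (fixedField N)).ρ
      (IsGalois.normalAutEquivQuotient N g) (Additive.ofMul y) : Additive (fixedField N)ˣ))
    Finset.univ).symm.trans ?_
  congr 1
  refine (Fintype.sum_equiv (IsGalois.normalAutEquivQuotient N).toEquiv
    (fun g => ((Rep.ofAlgebraAutOnUnits K (fixedField N)).ρ
      (IsGalois.normalAutEquivQuotient N g) (Additive.ofMul y) : Additive (fixedField N)ˣ))
    (fun τ => ((Rep.ofAlgebraAutOnUnits K (fixedField N)).ρ τ (Additive.ofMul y) :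
      Additive (fixedField N)ˣ))
    (fun g => rfl)).trans ?_
  apply Additive.toMul.injective
  apply Units.ext
  refine (coe_sum (fixedField N) Finset.univ
    (fun τ : (fixedField N) ≃ₐ[K] (fixedField N) =>
      (Rep.ofAlgebraAutOnUnits K (fixedField N)).ρ τ (Additive.ofMul y))).trans ?_
  change ∏ τ : (fixedField N) ≃ₐ[K] (fixedField N), τ (y : fixedField N) =
    algebraMap K (fixedField N) (Algebra.norm K (y : fixedField N))
  rw [Algebra.norm_eq_prod_automorphisms]

/-- Consumer form of `sum_quotient_eq_norm`: hypothesis (i) of `BrauerUnramAbs.exists_class`. -/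
theorem exists_sum_quotient_eq_norm (N : Subgroup (M ≃ₐ[K] M)) [N.Normal]
    [Fintype ((M ≃ₐ[K] M) ⧸ N)]
    (b : ((Rep.ofAlgebraAutOnUnits K M).quotientToInvariants N).V) :
    ∃ y : (fixedField N)ˣ,
      ((∑ g : (M ≃ₐ[K] M) ⧸ N, ((Rep.ofAlgebraAutOnUnits K M).quotientToInvariants N).ρ g b :
          ((Rep.ofAlgebraAutOnUnits K M).quotientToInvariants N).V) :
        (Rep.ofAlgebraAutOnUnits K M).V) =
      Additive.ofMul (Units.map (algebraMap K M : K →* M) (unitsNorm' K (fixedField N) y)) := by
  obtain ⟨y, rfl⟩ := (invariantsEquiv K M N).surjective b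
  refine ⟨Additive.toMul y, ?_⟩
  have h := sum_quotient_eq_norm K M N (Additive.toMul y)
  rw [show Additive.ofMul (Additive.toMul y) = y from rfl] at h
  rw [h]
  apply Additive.toMul.injective
  apply Units.ext
  rfl

end Fermat.Agent.S55.Local.NormPlumbing
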