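/-
S55 / LOCAL block (owner helper59, co-architect helper43): ASSEMBLY of the exported Props of
`Local/Blocks.lean` (helper43) from leaf Props, in the abstract (LF) setting
`[NontriviallyNormedField] [IsUltrametricDist] [ProperSpace]`.

Part 1 (this file, now): the UNIT DATA `(T)` in (LF) form (`UnitDataLF`, target of
`Local/Concrete.lean`) gives the local norm index for cyclic extensions (`Blocks.NormIndexCyclic`)
and `#H²(Gal(E/K), Eˣ) = [E : K]` for cyclic extensions (`H2CardCyclic`).
-/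
import Mathlib
import Fermat.Agent.S55.Local.Basic
import Fermat.Agent.S55.Local.Blocks
import Fermat.Agent.S55.Local.NormIndexGlue

set_option autoImplicit false

namespace Fermat.Agent.S55.Local.Reduction

open Fermat.Agent.S55.Local Fermat.Agent.S55.Local.Blocks Fermat.Agent.S55.Local.NormIndexGlue

/-- **(T), (LF) form**: for a cyclic extension `E/K` of local fields with generator `σ` there is a
filtration `V` of an open subgroup `V 0` of the units of `E` (finite index in the norm-one units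
`ker (ordHom E)`), `Gal`-stable, separated, complete, and with *cohomologically trivial layers* in
the two Tate degrees (`σ x = x ⇒ x ≡ N y`, `N x = 1 ⇒ x ≡ σ y / y` modulo the next step). -/
def UnitDataLF : Prop :=
  ∀ (K E : Type) [NontriviallyNormedField K] [IsUltrametricDist K] [ProperSpace K]
    [NontriviallyNormedField E] [IsUltrametricDist E] [ProperSpace E]
    [NormedAlgebra K E] [FiniteDimensional K E] [IsGalois K E]
    (σ : E ≃ₐ[K] E) (_hσ : ∀ τ, τ ∈ Subgroup.zpowers σ),
    ∃ V : ℕ → Subgroup Eˣ,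
      V 0 ≤ (ordHom E).ker ∧ (V 0).relIndex (ordHom E).ker ≠ 0 ∧
      (∀ i (τ : E ≃ₐ[K] E), ∀ x ∈ V i, τ • x ∈ V i) ∧
      (∀ x, (∀ i, x ∈ V i) → x = 1) ∧
      (∀ a : ℕ → Eˣ, (∀ i, a i ∈ V i) →
        ∃ s ∈ V 0, ∀ i, s / ∏ j ∈ Finset.range i, a j ∈ V i) ∧
      (∀ i, ∀ x ∈ V i, σ • x = x →
        ∃ y ∈ V i, x / (∏ τ : E ≃ₐ[K] E, τ • y) ∈ V (i + 1)) ∧
      (∀ i, ∀ x ∈ V i, (∏ τ : E ≃ₐ[K] E, τ • x) = 1 →
        ∃ y ∈ V i, x / (σ • y / y) ∈ V (i + 1))

/-- `#H²(Gal(E/K), Eˣ) = [E : K]` for cyclic extensions of local fields. -/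
def H2CardCyclic : Prop :=
  ∀ (K E : Type) [NontriviallyNormedField K] [IsUltrametricDist K] [ProperSpace K]
    [NontriviallyNormedField E] [IsUltrametricDist E] [ProperSpace E]
    [NormedAlgebra K E] [FiniteDimensional K E] [IsGalois K E] [IsCyclic (E ≃ₐ[K] E)],
    Nat.card (groupCohomology (Rep.ofAlgebraAutOnUnits K E) 2) = Module.finrank K E

section

variable {K E : Type} [NontriviallyNormedField K] [IsUltrametricDist K] [ProperSpace K]
  [NontriviallyNormedField E] [IsUltrametricDist E] [ProperSpace E]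
  [NormedAlgebra K E] [FiniteDimensional K E]

/-- The valuation of `E` is Galois invariant (unit form). -/
lemma ordHom_smul (τ : E ≃ₐ[K] E) (x : Eˣ) : ordHom E (τ • x) = ordHom E x := by
  have h := ord_map_algEquiv (K := K) τ x
  exact congrArg Multiplicative.ofAdd h

end

theorem normIndexCyclic_of_unitData (h : UnitDataLF) : NormIndexCyclic := by
  intro K E _ _ _ _ _ _ _ _ _ hcyc
  obtain ⟨σ, hσ⟩ := hcyc.exists_zpow_surjective
  have hσ' : ∀ τ, τ ∈ Subgroup.zpowers σ := fun τ => hσ τ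
  obtain ⟨V, hVU, hfin, hstab, hsep, hcomplete, hDN, hND⟩ := h K E σ hσ'
  exact index_norm_range σ hσ' (ordHom E) (ordHom_surjective E) (ordHom_smul (K := K)) V hVU hfin
    hstab hsep hcomplete hDN hND

theorem h2CardCyclic_of_unitData (h : UnitDataLF) : H2CardCyclic := by
  intro K E _ _ _ _ _ _ _ _ _ hcyc
  obtain ⟨σ, hσ⟩ := hcyc.exists_zpow_surjective
  have hσ' : ∀ τ, τ ∈ Subgroup.zpowers σ := fun τ => hσ τ
  obtain ⟨V, hVU, hfin, hstab, hsep, hcomplete, hDN, hND⟩ := h K E σ hσ'
  exact card_H2_units σ hσ' (ordHom E) (ordHom_surjective E) (ordHom_smul (K := K)) V hVU hfin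
    hstab hsep hcomplete hDN hND

end Fermat.Agent.S55.Local.Reduction
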