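import Mathlib
import Fermat.Agent.S55.Local.LocalDatum

/-!
# S55 / Local (D, relative part): an extension `E / K` of finite extensions of `ℚ_q`

* `norm_algebraMap_tower` : the norm of `E` extends the norm of `K`;
* `ramIdx` and `ordInt_map` : `v_E|_K = e · v_K`;
* `card_mul_ramIdx_le_finrank` : the easy inequality `e · f ≤ [E : K]` in explicit form;
* adapters for `K : IntermediateField ℚ_[q] Ω`, `E : IntermediateField K Ω`.
-/

set_option autoImplicit false

namespace Fermat.Agent.S55.Local.Relative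

open Fermat.Agent.S55.Local.LocalDatum

section Tower

variable (q : ℕ) [Fact q.Prime]
variable (K E : Type*) [NormedField K] [NormedAlgebra ℚ_[q] K] [FiniteDimensional ℚ_[q] K]
  [NormedField E] [NormedAlgebra ℚ_[q] E] [FiniteDimensional ℚ_[q] E]
  [Algebra K E] [IsScalarTower ℚ_[q] K E]

include q in
/-- The norm on `E` extends the norm on `K`. -/
theorem norm_algebraMap_tower (x : K) : ‖algebraMap K E x‖ = ‖x‖ := by
  rw [norm_eq_spectralNorm q E, norm_eq_spectralNorm q K]
  exact (spectralNorm.eq_of_tower (K := ℚ_[q]) (L := E) (E := K) x).symm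

variable {K E} {πK : K} {πE : E} (hK : IsUniformizer πK) (hE : IsUniformizer πE)

/-- `algebraMap K E` on units. -/
noncomputable def unitsMap : Kˣ →* Eˣ := Units.map (algebraMap K E : K →* E)

omit [NormedAlgebra ℚ_[q] K] [FiniteDimensional ℚ_[q] K] [NormedAlgebra ℚ_[q] E]
  [FiniteDimensional ℚ_[q] E] [IsScalarTower ℚ_[q] K E] in
theorem unitsMap_coe (x : Kˣ) : ((unitsMap (K := K) (E := E) x : Eˣ) : E) = algebraMap K E x := rfl

/-- The ramification index `e(E/K)`, as the `E`-valuation of a uniformiser of `K`. -/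
noncomputable def ramIdx : ℤ := hE.ordInt (unitsMap (K := K) (E := E) (Units.mk0 πK hK.ne_zero))

include q in
theorem norm_uniformizer_eq : ‖πK‖ = ‖πE‖ ^ ramIdx hK hE := by
  rw [← norm_algebraMap_tower q K E πK]
  exact hE.norm_eq_zpow_ordInt (unitsMap (K := K) (E := E) (Units.mk0 πK hK.ne_zero))

include q in
theorem ramIdx_pos : 0 < ramIdx hK hE := by
  by_contra hcon
  have h0 : ramIdx hK hE ≤ 0 := not_lt.1 hcon
  have h1 : ‖πK‖ = ‖πE‖ ^ ramIdx hK hE := norm_uniformizer_eq q hK hE
  have h2 : (1 : ℝ) ≤ ‖πE‖ ^ ramIdx hK hE := by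
    have := (zpow_right_strictAnti₀ hE.pos hE.lt_one).antitone h0
    simpa using this
  have := hK.lt_one
  linarith

include q in
/-- `v_E(x) = e · v_K(x)` for `x ∈ Kˣ`. -/
theorem ordInt_map (x : Kˣ) :
    hE.ordInt (unitsMap (K := K) (E := E) x) = ramIdx hK hE * hK.ordInt x := by
  apply hE.ordInt_eq_of_norm_eq
  rw [unitsMap_coe, norm_algebraMap_tower q K E, hK.norm_eq_zpow_ordInt x,
    norm_uniformizer_eq q hK hE, ← zpow_mul]

end Tower

section Ultra

variable {M : Type*} [NormedAddCommGroup M] [IsUltrametricDist M]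

/-- In an ultrametric group, a finite sum whose nonzero terms have pairwise distinct norms
vanishes only if all terms vanish. -/
theorem eq_zero_of_sum_eq_zero_of_pairwise_ne {ι : Type*} (s : Finset ι) (t : ι → M)
    (hsum : ∑ j ∈ s, t j = 0)
    (hne : ∀ j ∈ s, ∀ j' ∈ s, j ≠ j' → t j ≠ 0 → t j' ≠ 0 → ‖t j‖ ≠ ‖t j'‖) :
    ∀ j ∈ s, t j = 0 := by
  classical
  set s' := s.filter (fun j => t j ≠ 0) with hs'
  have hsum' : ∑ j ∈ s', t j = 0 := by rw [hs', Finset.sum_filter_ne_zero, hsum]
  have hpair : Set.Pairwise (s' : Set ι) (fun i j => ‖t i‖₊ ≠ ‖t j‖₊) := by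
    intro i hi j hj hij
    rw [Finset.mem_coe, hs', Finset.mem_filter] at hi hj
    intro h
    exact hne i hi.1 j hj.1 hij hi.2 hj.2 (by simpa [← NNReal.coe_inj] using h)
  have hsup := IsUltrametricDist.nnnorm_sum_eq_sup_of_pairwise_ne hpair
  rw [hsum', nnnorm_zero] at hsup
  intro j hj
  by_contra hcon
  have hj' : j ∈ s' := by rw [hs', Finset.mem_filter]; exact ⟨hj, hcon⟩
  have : ‖t j‖₊ ≤ 0 := by rw [hsup]; exact Finset.le_sup (f := fun i => ‖t i‖₊) hj'
  exact hcon (by simpa using this)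

end Ultra

section EF

variable (q : ℕ) [Fact q.Prime]
variable {K E : Type*} [NormedField K] [NormedAlgebra ℚ_[q] K] [FiniteDimensional ℚ_[q] K]
  [NormedField E] [NormedAlgebra ℚ_[q] E] [FiniteDimensional ℚ_[q] E]
  [Algebra K E] [IsScalarTower ℚ_[q] K E]
  {πK : K} {πE : E} (hK : IsUniformizer πK) (hE : IsUniformizer πE)

/-- A finite family of `E` whose residues are linearly independent over the residue field of `K`
(explicit form). -/
def ResidueIndep {ι : Type*} [Fintype ι] (ω : ι → E) : Prop :=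
  ∀ c : ι → K, (∀ i, ‖c i‖ ≤ 1) → (∃ i, ‖c i‖ = 1) → ‖∑ i, c i • ω i‖ = 1

include q in
theorem norm_smul_tower (k : K) (x : E) : ‖k • x‖ = ‖k‖ * ‖x‖ := by
  rw [Algebra.smul_def, norm_mul, norm_algebraMap_tower q K E]

include q in
/-- For a residually independent family, `‖∑ c i • ω i‖ = max ‖c i‖`. -/
theorem exists_norm_sum_smul_eq {ι : Type*} [Fintype ι] {ω : ι → E}
    (hω : ResidueIndep (K := K) ω) (c : ι → K) (hc : c ≠ 0) :
    ∃ i₀, c i₀ ≠ 0 ∧ ‖∑ i, c i • ω i‖ = ‖c i₀‖ := by
  classical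
  obtain ⟨i₁, hi₁⟩ : ∃ i, c i ≠ 0 := by
    by_contra h
    exact hc (funext fun i => by simpa using not_exists.1 h i)
  obtain ⟨i₀, -, hmax⟩ := Finset.exists_max_image Finset.univ (fun i => ‖c i‖)
    ⟨i₁, Finset.mem_univ _⟩
  have hi₀ : c i₀ ≠ 0 := by
    intro h
    have := hmax i₁ (Finset.mem_univ _)
    rw [h, norm_zero] at this
    exact hi₁ (norm_le_zero_iff.1 this)
  have hpos : 0 < ‖c i₀‖ := norm_pos_iff.2 hi₀
  refine ⟨i₀, hi₀, ?_⟩
  have h1 := hω (fun i => c i / c i₀)
    (fun i => by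
      rw [norm_div]; exact div_le_one_of_le₀ (hmax i (Finset.mem_univ _)) hpos.le)
    ⟨i₀, by rw [div_self hi₀, norm_one]⟩
  have h2 : ∑ i, c i • ω i = c i₀ • ∑ i, (c i / c i₀) • ω i := by
    rw [Finset.smul_sum]
    refine Finset.sum_congr rfl (fun i _ => ?_)
    rw [smul_smul, mul_div_cancel₀ _ hi₀]
  rw [h2, norm_smul_tower q, h1, mul_one]

include q in
/-- **The easy inequality `e · f ≤ [E : K]`**, explicit form: for a residually independent
family `ω : ι → E`, `card ι * e ≤ [E : K]`. -/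
theorem card_mul_ramIdx_le_finrank {ι : Type*} [Fintype ι] {ω : ι → E}
    (hω : ResidueIndep (K := K) ω) :
    (Fintype.card ι : ℤ) * ramIdx hK hE ≤ Module.finrank K E := by
  classical
  have := isUltrametricDist q E
  have he := ramIdx_pos q hK hE
  obtain ⟨e, he'⟩ := Int.eq_ofNat_of_zero_le he.le
  have hπE0 : πE ≠ 0 := hE.ne_zero
  -- the family `ω i * πE ^ j`
  have hli : LinearIndependent K (fun p : ι × Fin e => ω p.1 * πE ^ (p.2 : ℕ)) := by
    rw [Fintype.linearIndependent_iff]
    intro g hg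
    rw [Fintype.sum_prod_type_right] at hg
    set t : Fin e → E := fun j => (∑ i, g (i, j) • ω i) * πE ^ (j : ℕ) with ht
    have hsum : ∑ j ∈ Finset.univ, t j = 0 := by
      rw [← hg]
      refine Finset.sum_congr rfl (fun j _ => ?_)
      rw [ht]
      simp only
      rw [Finset.sum_mul]
      refine Finset.sum_congr rfl (fun i _ => ?_)
      rw [smul_mul_assoc]
    -- norms of the nonzero terms
    have hnorm : ∀ j : Fin e, t j ≠ 0 → ∃ k : ℤ, ‖t j‖ = ‖πE‖ ^ (ramIdx hK hE * k + (j : ℕ)) := by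
      intro j hj
      have hs : (∑ i, g (i, j) • ω i) ≠ 0 := fun h => hj (by rw [ht]; simp only [h, zero_mul])
      have hc : (fun i => g (i, j)) ≠ 0 := by
        intro h
        apply hs
        have : ∀ i, g (i, j) = 0 := fun i => congrFun h i
        simp [this]
      obtain ⟨i₀, hi₀, hn⟩ := exists_norm_sum_smul_eq q hω (fun i => g (i, j)) hc
      refine ⟨hK.ordInt (Units.mk0 _ hi₀), ?_⟩
      rw [ht]
      simp only
      rw [norm_mul, hn, norm_pow]
      have := hK.norm_eq_zpow_ordInt (Units.mk0 _ hi₀)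
      rw [Units.val_mk0] at this
      rw [this, norm_uniformizer_eq q hK hE, ← zpow_mul, zpow_add₀ hE.pos.ne', zpow_natCast]
    have hall : ∀ j ∈ Finset.univ, t j = 0 := by
      refine eq_zero_of_sum_eq_zero_of_pairwise_ne Finset.univ t hsum ?_
      intro j _ j' _ hjj' hj hj' heq
      obtain ⟨k, hk⟩ := hnorm j hj
      obtain ⟨k', hk'⟩ := hnorm j' hj'
      rw [hk, hk'] at heq
      have h3 := hE.zpow_injective heq
      rw [he'] at h3
      have hjlt : ((j : ℕ) : ℤ) < e := by exact_mod_cast j.2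
      have hj'lt : ((j' : ℕ) : ℤ) < e := by exact_mod_cast j'.2
      have hj0 : (0 : ℤ) ≤ ((j : ℕ) : ℤ) := Int.natCast_nonneg _
      have hj'0 : (0 : ℤ) ≤ ((j' : ℕ) : ℤ) := Int.natCast_nonneg _
      have hkk : k = k' := by
        by_contra hkk
        rcases lt_or_gt_of_ne hkk with h | h
        · have : (e : ℤ) * k + e ≤ e * k' := by nlinarith
          omega
        · have : (e : ℤ) * k' + e ≤ e * k := by nlinarith
          omega
      subst hkk
      have : ((j : ℕ) : ℤ) = (j' : ℕ) := by omega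
      exact hjj' (Fin.ext (by exact_mod_cast this))
    rintro ⟨i, j⟩
    have hs : (∑ i, g (i, j) • ω i) = 0 := by
      have := hall j (Finset.mem_univ _)
      rw [ht] at this
      simp only at this
      rcases mul_eq_zero.1 this with h | h
      · exact h
      · exact absurd (pow_eq_zero_iff'.1 h).1 hπE0
    by_contra hne
    have hc : (fun i => g (i, j)) ≠ 0 := fun h => hne (congrFun h i)
    obtain ⟨i₀, hi₀, hn⟩ := exists_norm_sum_smul_eq q hω (fun i => g (i, j)) hc
    rw [hs, norm_zero] at hn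
    exact hi₀ (norm_eq_zero.1 hn.symm)
  have : FiniteDimensional K E := FiniteDimensional.right ℚ_[q] K E
  have hcard := hli.fintype_card_le_finrank
  rw [Fintype.card_prod, Fintype.card_fin] at hcard
  rw [he']
  exact_mod_cast hcard

end EF

section Adapter

variable (q : ℕ) [Fact q.Prime] (K : IntermediateField ℚ_[q] (PadicAlgCl q))
  (E : IntermediateField K (PadicAlgCl q))

/-- The `NormedAlgebra ℚ_[q]` structure on the top field of a tower
`ℚ_[q] ≤ K ≤ E ≤ PadicAlgCl q` (norm = subfield norm). -/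
@[reducible] noncomputable def normedAlgebraTop : NormedAlgebra ℚ_[q] ↥E where
  norm_smul_le r x := by
    have h : (((r • x : ↥E) : ↥E) : PadicAlgCl q) = algebraMap ℚ_[q] (PadicAlgCl q) r * (x : PadicAlgCl q) := by
      rw [Algebra.smul_def]; rfl
    change ‖(((r • x : ↥E) : ↥E) : PadicAlgCl q)‖ ≤ ‖r‖ * ‖((x : ↥E) : PadicAlgCl q)‖
    rw [h, norm_mul, norm_algebraMap']

theorem finiteDimensionalTop [FiniteDimensional ℚ_[q] K] [FiniteDimensional K E] :
    FiniteDimensional ℚ_[q] ↥E := FiniteDimensional.trans ℚ_[q] K E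

noncomputable example : NormedAlgebra ℚ_[q] ↥K := inferInstance

example [FiniteDimensional ℚ_[q] K] [FiniteDimensional K E] : True := by
  let _ := normedAlgebraTop q K E
  have := finiteDimensionalTop q K E
  have := exists_uniformizer q ↥E
  have := norm_algebraMap_tower q ↥K ↥E
  trivial

end Adapter

end Fermat.Agent.S55.Local.Relative
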