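/-
S55 / LOCAL block (helper59): restriction kills exactly the `[G : H]`-torsion of `H²` — the
inv-free form of "restriction multiplies the invariant by the degree".

ABSTRACT (pure group cohomology, same hypotheses as `Local/FundClass.lean`): `G` finite,
`C : Rep ℤ G`, `H²(G, C)` cyclic of order `|G|`, `#H²(H, C) = |H|` for every `H ≤ G`.  Then for
`x ∈ H²(G, C)`:  `res_H x = 0 ↔ [G : H] • x = 0`  (`res_eq_zero_iff`).

LOCAL FIELDS ((LF) setting of `Local/Blocks.lean`): under `Blocks.H2Card` and `Blocks.H2Cyclic`,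
for every finite Galois extension `E/K` of local fields, every subgroup `H ≤ Gal(E/K)` and every
`x ∈ H²(Gal(E/K), Eˣ)`:  `res_H x = 0 ↔ [G : H] • x = 0`  (`resKills_iff`, `resKills`).
With inflation: a class of `H²(Gal(E/K), Eˣ)` killed by `m` dies in `H²(Gal(E/F), Eˣ)` for every
intermediate field `F` with `m ∣ [F : K]`  (`resKills_of_dvd`).
-/
import Mathlib
import Fermat.Agent.S55.Local.FundClass
import Fermat.Agent.S55.Local.Reduction2

set_option autoImplicit false
set_option linter.unusedSectionVars false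

namespace Fermat.Agent.S55.Local.ResKills

open CategoryTheory CategoryTheory.Limits groupCohomology Rep
open Fermat.Agent.S55.Tate.Blocks

section Abstract

variable {G : Type} [Group G] [Finite G] (C : Rep ℤ G)

/-- **Restriction kills the index-torsion.** -/
theorem res_eq_zero_of_index_nsmul
    (hcycG : IsAddCyclic (groupCohomology C 2))
    (hcardG : Nat.card (groupCohomology C 2) = Nat.card G)
    (hcard : ∀ H : Subgroup G, Nat.card (groupCohomology (resSub H C) 2) = Nat.card H)
    (H : Subgroup G) (x : groupCohomology C 2) (hx : H.index • x = 0) :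
    resMap H C 2 x = 0 := by
  classical
  obtain ⟨u, hu⟩ := hcycG.exists_generator
  have hfinG : Finite (groupCohomology C 2) := by
    apply Nat.finite_of_card_ne_zero
    rw [hcardG]; exact Nat.card_pos.ne'
  have hordu : addOrderOf u = Nat.card G := by
    rw [← hcardG]
    exact addOrderOf_eq_card_of_forall_mem_zmultiples hu
  have hfinH : Finite (groupCohomology (resSub H C) 2) := by
    apply Nat.finite_of_card_ne_zero
    rw [hcard H]; exact Nat.card_pos.ne'
  obtain ⟨k, hk⟩ := AddSubgroup.mem_zmultiples_iff.mp (hu x)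
  -- `|G| ∣ [G:H] * k`
  have h1 : ((H.index : ℤ) * k) • u = 0 := by
    rw [mul_smul, hk, natCast_zsmul]; exact hx
  have h2 : (Nat.card G : ℤ) ∣ (H.index : ℤ) * k := by
    rw [← hordu]; exact (addOrderOf_dvd_iff_zsmul_eq_zero).mpr h1
  have hidx : (H.index : ℤ) ≠ 0 := by
    exact_mod_cast (Subgroup.FiniteIndex.index_ne_zero (H := H))
  have h3 : (Nat.card H : ℤ) ∣ k := by
    rw [← H.card_mul_index, Nat.cast_mul, mul_comm] at h2
    exact Int.dvd_of_mul_dvd_mul_left hidx h2
  -- `res x = k • res u` and `|H|` kills `H²(H, C)`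
  rw [← hk, map_zsmul]
  obtain ⟨j, rfl⟩ := h3
  rw [mul_smul, natCast_zsmul, ← hcard H]
  exact card_nsmul_eq_zero'

/-- `res_H x = 0 ↔ [G : H] • x = 0`. -/
theorem res_eq_zero_iff
    (hcycG : IsAddCyclic (groupCohomology C 2))
    (hcardG : Nat.card (groupCohomology C 2) = Nat.card G)
    (hcard : ∀ H : Subgroup G, Nat.card (groupCohomology (resSub H C) 2) = Nat.card H)
    (H : Subgroup G) (x : groupCohomology C 2) :
    resMap H C 2 x = 0 ↔ H.index • x = 0 :=
  ⟨fun h => Fermat.Agent.S55.Tate.ResCor.index_smul_eq_zero_of_res_eq_zero₂ C H x h,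
    res_eq_zero_of_index_nsmul C hcycG hcardG hcard H x⟩

end Abstract

section LF

variable (K E : Type) [NontriviallyNormedField K] [IsUltrametricDist K] [ProperSpace K]
  [NontriviallyNormedField E] [IsUltrametricDist E] [ProperSpace E]
  [NormedAlgebra K E] [FiniteDimensional K E] [IsGalois K E]

/-- The order of `H²(H, Eˣ)` for a subgroup `H ≤ Gal(E/K)`. -/
theorem card_H2_resSub (hcard : Blocks.H2Card) (H : Subgroup (E ≃ₐ[K] E)) :
    Nat.card (groupCohomology (resSub H (Rep.ofAlgebraAutOnUnits K E)) 2) = Nat.card H := by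
  set F : IntermediateField K E := IntermediateField.fixedField H with hF
  have hFprop : ProperSpace F := UglyLF.properSpace_intermediateField F
  let _ : NormedAlgebra F E := UglyLF.normedAlgebraIntermediateField F
  have hFE : Module.finrank F E = Nat.card H := IntermediateField.finrank_fixedField_eq_card H
  have h1 := Transport.card_resSub K E H 2
  have h2 := hcard F E
  show Nat.card (groupCohomology (Rep.res H.subtype (Rep.ofAlgebraAutOnUnits K E)) 2) = _
  rw [h1, h2, hFE]

/-- **Local fields: `res_H x = 0 ↔ [G : H] • x = 0`** on `H²(Gal(E/K), Eˣ)`. -/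
theorem resKills_iff (hcard : Blocks.H2Card) (hcyc : Blocks.H2Cyclic)
    (H : Subgroup (E ≃ₐ[K] E)) (x : groupCohomology (Rep.ofAlgebraAutOnUnits K E) 2) :
    resMap H (Rep.ofAlgebraAutOnUnits K E) 2 x = 0 ↔ H.index • x = 0 := by
  have hcardG : Nat.card (E ≃ₐ[K] E) = Module.finrank K E := IsGalois.card_aut_eq_finrank K E
  exact res_eq_zero_iff (Rep.ofAlgebraAutOnUnits K E) (hcyc K E)
    (by rw [hcardG]; exact hcard K E) (fun H => card_H2_resSub K E hcard H) H x

/-- **Local fields: restriction kills the index-torsion.** -/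
theorem resKills (hcard : Blocks.H2Card) (hcyc : Blocks.H2Cyclic)
    (H : Subgroup (E ≃ₐ[K] E)) (x : groupCohomology (Rep.ofAlgebraAutOnUnits K E) 2)
    (hx : H.index • x = 0) : resMap H (Rep.ofAlgebraAutOnUnits K E) 2 x = 0 :=
  (resKills_iff K E hcard hcyc H x).2 hx

/-- A class killed by `m` dies after restriction to any subgroup whose index is a multiple of
`m` (e.g. `H = Gal(E/F)` with `m ∣ [F : K]`). -/
theorem resKills_of_dvd (hcard : Blocks.H2Card) (hcyc : Blocks.H2Cyclic)
    (H : Subgroup (E ≃ₐ[K] E)) (x : groupCohomology (Rep.ofAlgebraAutOnUnits K E) 2)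
    (m : ℕ) (hm : m • x = 0) (hdvd : m ∣ H.index) :
    resMap H (Rep.ofAlgebraAutOnUnits K E) 2 x = 0 := by
  apply resKills K E hcard hcyc H x
  obtain ⟨j, hj⟩ := hdvd
  rw [hj, mul_nsmul, hm, nsmul_zero]

/-- Field form of the index: `[Gal(E/K) : Gal(E/F)] = [F : K]` for `H = F.fixingSubgroup`. -/
theorem index_fixingSubgroup (F : IntermediateField K E) :
    F.fixingSubgroup.index = Module.finrank K F := by
  have h1 := F.fixingSubgroup.card_mul_index
  have h2 : Nat.card F.fixingSubgroup = Module.finrank F E :=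
    IntermediateField.finrank_fixedField_eq_card F.fixingSubgroup ▸ by
      rw [IsGalois.fixedField_fixingSubgroup]
  have h3 : Nat.card (E ≃ₐ[K] E) = Module.finrank K E := IsGalois.card_aut_eq_finrank K E
  have h4 := Module.finrank_mul_finrank K F E
  have hpos : 0 < Module.finrank F E := Module.finrank_pos
  rw [h2, h3, ← h4, mul_comm] at h1
  exact Nat.eq_of_mul_eq_mul_right hpos h1

end LF

end Fermat.Agent.S55.Local.ResKills
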