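/-
S55 / LOCAL block (helper59): UNCONDITIONAL form of `Local/ResKills.lean` now that the Local block
is closed (`CycloTower.h2Card`, `CycloTower.h2Cyclic`).

For every finite Galois extension `E/K` of local fields ((LF) setting of `Local/Blocks.lean`),
every subgroup `H ≤ Gal(E/K)` and every `x ∈ H²(Gal(E/K), Eˣ)`:
  `res_H x = 0 ↔ [Gal(E/K) : H] • x = 0`.
-/
import Mathlib
import Fermat.Agent.S55.Local.ResKills
import Fermat.Agent.S55.Local.CycloTower

set_option autoImplicit false
set_option linter.unusedSectionVars false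

namespace Fermat.Agent.S55.Local.ResKillsFinal

open CategoryTheory groupCohomology Rep
open Fermat.Agent.S55.Tate.Blocks

variable (K E : Type) [NontriviallyNormedField K] [IsUltrametricDist K] [ProperSpace K]
  [NontriviallyNormedField E] [IsUltrametricDist E] [ProperSpace E]
  [NormedAlgebra K E] [FiniteDimensional K E] [IsGalois K E]

/-- `#H²(H, Eˣ) = |H|` for every subgroup `H ≤ Gal(E/K)`. -/
theorem card_H2_resSub (H : Subgroup (E ≃ₐ[K] E)) :
    Nat.card (groupCohomology (resSub H (Rep.ofAlgebraAutOnUnits K E)) 2) = Nat.card H :=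
  ResKills.card_H2_resSub K E CycloTower.h2Card H

/-- **`res_H x = 0 ↔ [G : H] • x = 0`** on `H²(Gal(E/K), Eˣ)`. -/
theorem resKills_iff (H : Subgroup (E ≃ₐ[K] E))
    (x : groupCohomology (Rep.ofAlgebraAutOnUnits K E) 2) :
    resMap H (Rep.ofAlgebraAutOnUnits K E) 2 x = 0 ↔ H.index • x = 0 :=
  ResKills.resKills_iff K E CycloTower.h2Card CycloTower.h2Cyclic H x

/-- Restriction kills the index-torsion. -/
theorem resKills (H : Subgroup (E ≃ₐ[K] E))
    (x : groupCohomology (Rep.ofAlgebraAutOnUnits K E) 2) (hx : H.index • x = 0) :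
    resMap H (Rep.ofAlgebraAutOnUnits K E) 2 x = 0 :=
  (resKills_iff K E H x).2 hx

/-- A class killed by `m` dies after restriction to any subgroup whose index is a multiple of
`m`. -/
theorem resKills_of_dvd (H : Subgroup (E ≃ₐ[K] E))
    (x : groupCohomology (Rep.ofAlgebraAutOnUnits K E) 2) (m : ℕ) (hm : m • x = 0)
    (hdvd : m ∣ H.index) : resMap H (Rep.ofAlgebraAutOnUnits K E) 2 x = 0 :=
  ResKills.resKills_of_dvd K E CycloTower.h2Card CycloTower.h2Cyclic H x m hm hdvd

/-- Every class of `H²(Gal(E/K), Eˣ)` is killed by `[E : K]`. -/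
theorem finrank_nsmul_eq_zero (x : groupCohomology (Rep.ofAlgebraAutOnUnits K E) 2) :
    Module.finrank K E • x = 0 := by
  rw [← CycloTower.h2Card K E]
  exact card_nsmul_eq_zero'

end Fermat.Agent.S55.Local.ResKillsFinal
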