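/-
S55 / LOCAL block (helper59): transport of Galois cohomology of units along an isomorphism of
extensions.

For a `K`-algebra isomorphism `e : E ≃ₐ[K] E'` of fields the groups
`Hⁿ(Gal(E/K), Eˣ)` and `Hⁿ(Gal(E'/K), E'ˣ)` (Mathlib: `groupCohomology (Rep.ofAlgebraAutOnUnits K E) n`)
are isomorphic (`algEquivIso`), by conjugation `σ ↦ e σ e⁻¹` on the groups and `Units.map e` on the
modules.  Consequences: cardinalities, elements of given additive order (`exists_addOrderOf_eq`).

Used by the Brauer glue: a class of order `[E : K]` found in `H²(Gal(E'/K), E'ˣ)` for the copy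
`E' = fixedField N ⊆ M` of `E` inside an overfield `M` moves to the abstract `E`.
-/
import Mathlib

set_option autoImplicit false

namespace Fermat.Agent.S55.Local.TransportAlgEquiv

open CategoryTheory groupCohomology Rep

variable (K : Type) {E E' : Type} [Field K] [Field E] [Field E'] [Algebra K E] [Algebra K E']

/-- `Units.map e` as an additive (ℤ-linear) equivalence `Additive Eˣ ≃ Additive E'ˣ`. -/
noncomputable def unitsLinearEquiv (e : E ≃ₐ[K] E') : Additive Eˣ ≃ₗ[ℤ] Additive E'ˣ :=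
  (MulEquiv.toAdditive (Units.mapEquiv (e : E ≃* E'))).toIntLinearEquiv

@[simp] theorem unitsLinearEquiv_apply (e : E ≃ₐ[K] E') (x : Additive Eˣ) :
    ((Additive.toMul (unitsLinearEquiv K e x) : E'ˣ) : E') = e ((Additive.toMul x : Eˣ) : E) := rfl

/-- `Hⁿ(Gal(E/K), Eˣ) ≅ Hⁿ(Gal(E'/K), E'ˣ)` for `E ≃ₐ[K] E'`. -/
noncomputable def algEquivIso (e : E ≃ₐ[K] E') (n : ℕ) :
    groupCohomology (Rep.ofAlgebraAutOnUnits K E) n ≅
      groupCohomology (Rep.ofAlgebraAutOnUnits K E') n :=
  groupCohomology.mapIso (A := Rep.ofAlgebraAutOnUnits K E')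
    (B := Rep.ofAlgebraAutOnUnits K E)
    (AlgEquiv.autCongr e) (unitsLinearEquiv K e) (by
      intro g
      ext x
      apply Additive.toMul.injective
      apply Units.ext
      change e (g ((Additive.toMul x : Eˣ) : E)) =
        (AlgEquiv.autCongr e g) (e ((Additive.toMul x : Eˣ) : E))
      simp [AlgEquiv.autCongr_apply]) n

theorem card_algEquiv (e : E ≃ₐ[K] E') (n : ℕ) :
    Nat.card (groupCohomology (Rep.ofAlgebraAutOnUnits K E) n) =
      Nat.card (groupCohomology (Rep.ofAlgebraAutOnUnits K E') n) :=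
  Nat.card_congr (algEquivIso K e n).toLinearEquiv.toEquiv

/-- The additive equivalence underlying `algEquivIso`. -/
noncomputable def algEquivAddEquiv (e : E ≃ₐ[K] E') (n : ℕ) :
    groupCohomology (Rep.ofAlgebraAutOnUnits K E) n ≃+
      groupCohomology (Rep.ofAlgebraAutOnUnits K E') n :=
  (algEquivIso K e n).toLinearEquiv.toAddEquiv

/-- An element of additive order `m` in `Hⁿ(Gal(E'/K), E'ˣ)` gives one in `Hⁿ(Gal(E/K), Eˣ)`. -/
theorem exists_addOrderOf_eq (e : E ≃ₐ[K] E') (n m : ℕ)
    (h : ∃ x : groupCohomology (Rep.ofAlgebraAutOnUnits K E') n, addOrderOf x = m) :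
    ∃ x : groupCohomology (Rep.ofAlgebraAutOnUnits K E) n, addOrderOf x = m := by
  obtain ⟨x, hx⟩ := h
  refine ⟨(algEquivAddEquiv K e n).symm x, ?_⟩
  rw [← hx]
  exact (algEquivAddEquiv K e n).symm.addOrderOf_eq x

/-- Same with the "order is a multiple of `m`" formulation used by `BrauerUnramAbs.exists_class`. -/
theorem exists_forall_nsmul (e : E ≃ₐ[K] E') (n m : ℕ)
    (h : ∃ x : groupCohomology (Rep.ofAlgebraAutOnUnits K E') n, ∀ j : ℕ, j • x = 0 → m ∣ j) :
    ∃ x : groupCohomology (Rep.ofAlgebraAutOnUnits K E) n, ∀ j : ℕ, j • x = 0 → m ∣ j := by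
  obtain ⟨x, hx⟩ := h
  refine ⟨(algEquivAddEquiv K e n).symm x, fun j hj => hx j ?_⟩
  have := congrArg (algEquivAddEquiv K e n) hj
  rwa [map_nsmul, AddEquiv.apply_symm_apply, map_zero] at this

end Fermat.Agent.S55.Local.TransportAlgEquiv
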