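/-
S55 / Local block: the two transport facts consumed by `Local/UglyLF.h2CardDvd` (row L8).

For a finite Galois extension `E/K` (abstract fields, `Type`), `S ≤ Gal(E/K)`, `F := E^S`:
* `(T1)`  `Hⁿ(S, Res Eˣ) ≅ Hⁿ(Gal(E/F), Eˣ)`;
* `(T2)`  for `S` normal: `Hⁿ(Gal(E/K) ⧸ S, (Eˣ)^S) ≅ Hⁿ(Gal(F/K), Fˣ)`.
Both via Mathlib's `groupCohomology.mapIso`.
-/
import Mathlib
import Fermat.Agent.S55.Local.UglyLF

set_option autoImplicit false

namespace Fermat.Agent.S55.Local.TransportGal

open groupCohomology CategoryTheory

variable (K E : Type) [Field K] [Field E] [Algebra K E] [FiniteDimensional K E]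

section Res

variable (S : Subgroup (E ≃ₐ[K] E))

/-- `S ≃* Gal(E / E^S)`. -/
noncomputable def subgroupEquivGal :
    S ≃* (E ≃ₐ[IntermediateField.fixedField S] E) :=
  (MulEquiv.subgroupCongr (IntermediateField.fixingSubgroup_fixedField S).symm).trans
    (IntermediateField.fixingSubgroupEquiv (IntermediateField.fixedField S))

theorem subgroupEquivGal_apply (s : S) (x : E) :
    subgroupEquivGal K E S s x = (s : E ≃ₐ[K] E) x := rfl

/-- `(T1)` in all degrees: restriction to a subgroup computes the cohomology of `E / E^S`. -/
noncomputable def resIso (n : ℕ) :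
    groupCohomology (Rep.res S.subtype (Rep.ofAlgebraAutOnUnits K E)) n ≅
      groupCohomology (Rep.ofAlgebraAutOnUnits (IntermediateField.fixedField S) E) n :=
  groupCohomology.mapIso (subgroupEquivGal K E S) (LinearEquiv.refl ℤ (Additive Eˣ))
    (fun g => by
      apply LinearMap.ext
      intro x
      rfl) n

end Res

section Quot

variable [IsGalois K E] (S : Subgroup (E ≃ₐ[K] E)) [S.Normal]

/-- The units of `E^S`, embedded into the `S`-invariants of `Eˣ`. -/
noncomputable def unitsToInvariants :
    Additive (IntermediateField.fixedField S)ˣ →+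
      Representation.invariants ((Rep.ofAlgebraAutOnUnits K E).ρ.comp S.subtype) where
  toFun y := ⟨Additive.ofMul (Units.map
      (algebraMap (IntermediateField.fixedField S) E : IntermediateField.fixedField S →* E)
      (Additive.toMul y)), fun s => by
    apply congrArg Additive.ofMul
    apply Units.ext
    exact ((Additive.toMul y : (IntermediateField.fixedField S)ˣ) :
      IntermediateField.fixedField S).2 s⟩
  map_zero' := by
    apply Subtype.ext
    simp
    rfl
  map_add' x y := by
    apply Subtype.ext
    simp
    rfl

omit [FiniteDimensional K E] [IsGalois K E] [S.Normal] in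
theorem unitsToInvariants_coe (y : Additive (IntermediateField.fixedField S)ˣ) :
    (((Additive.toMul ((unitsToInvariants K E S y).1 : Additive Eˣ)) : Eˣ) : E) =
      ((Additive.toMul y : (IntermediateField.fixedField S)ˣ) :
        IntermediateField.fixedField S) := rfl

omit [FiniteDimensional K E] [IsGalois K E] [S.Normal] in
theorem unitsToInvariants_bijective : Function.Bijective (unitsToInvariants K E S) := by
  constructor
  · intro x y hxy
    have h1 := congrArg (fun v => (((Additive.toMul (v.1 : Additive Eˣ)) : Eˣ) : E)) hxy
    simp only [unitsToInvariants_coe] at h1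
    have h2 : (Additive.toMul x : (IntermediateField.fixedField S)ˣ) = Additive.toMul y :=
      Units.ext (Subtype.ext h1)
    exact Additive.toMul.injective h2
  · rintro ⟨v, hv⟩
    set u : Eˣ := Additive.toMul (v : Additive Eˣ) with hu
    have hmem : (u : E) ∈ IntermediateField.fixedField S := by
      intro s
      have := hv s
      have h2 := congrArg (fun w : Additive Eˣ => ((Additive.toMul w : Eˣ) : E)) this
      exact h2
    have hne : (⟨(u : E), hmem⟩ : IntermediateField.fixedField S) ≠ 0 := by
      intro h0
      exact u.ne_zero (congrArg Subtype.val h0)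
    refine ⟨Additive.ofMul (Units.mk0 ⟨(u : E), hmem⟩ hne), ?_⟩
    apply Subtype.ext
    apply congrArg Additive.ofMul
    apply Units.ext
    rfl

/-- The `ℤ`-linear equivalence `(Eˣ)^S ≃ (E^S)ˣ`. -/
noncomputable def invariantsEquivUnits :
    ((Rep.ofAlgebraAutOnUnits K E).quotientToInvariants S).V ≃ₗ[ℤ]
      (Rep.ofAlgebraAutOnUnits K (IntermediateField.fixedField S)).V :=
  (AddEquiv.ofBijective (unitsToInvariants K E S)
    (unitsToInvariants_bijective K E S)).symm.toIntLinearEquiv

theorem invariantsEquivUnits_unitsToInvariants
    (y : Additive (IntermediateField.fixedField S)ˣ) :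
    invariantsEquivUnits K E S (unitsToInvariants K E S y) = y :=
  (AddEquiv.ofBijective (unitsToInvariants K E S)
    (unitsToInvariants_bijective K E S)).symm_apply_apply y

/-- Equivariance of `unitsToInvariants`: the action of `σ` on `(Eˣ)^S` corresponds to the action
of the restriction of `σ` on `(E^S)ˣ`. -/
theorem quotient_ρ_unitsToInvariants (σ : E ≃ₐ[K] E)
    (y : Additive (IntermediateField.fixedField S)ˣ) :
    ((Rep.ofAlgebraAutOnUnits K E).quotientToInvariants S).ρ (σ : (E ≃ₐ[K] E) ⧸ S)
        (unitsToInvariants K E S y) =
      unitsToInvariants K E S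
        ((Rep.ofAlgebraAutOnUnits K (IntermediateField.fixedField S)).ρ
          (IsGalois.normalAutEquivQuotient S (σ : (E ≃ₐ[K] E) ⧸ S)) y) := by
  apply Subtype.ext
  apply Additive.toMul.injective
  apply Units.ext
  exact (AlgEquiv.restrictNormal_commutes σ (IntermediateField.fixedField S) _).symm

/-- `(T2)` in all degrees: the invariants under a normal subgroup compute the cohomology of
`E^S / K`. -/
noncomputable def quotIso (n : ℕ) :
    groupCohomology ((Rep.ofAlgebraAutOnUnits K E).quotientToInvariants S) n ≅
      groupCohomology (Rep.ofAlgebraAutOnUnits K (IntermediateField.fixedField S)) n :=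
  groupCohomology.mapIso (IsGalois.normalAutEquivQuotient S) (invariantsEquivUnits K E S)
    (fun g => by
      induction g using QuotientGroup.induction_on with | H σ =>
      apply LinearMap.ext
      intro x
      obtain ⟨y, rfl⟩ := (unitsToInvariants_bijective K E S).2 x
      have h1 := quotient_ρ_unitsToInvariants K E S σ y
      have h2 := invariantsEquivUnits_unitsToInvariants K E S
      exact (congrArg (invariantsEquivUnits K E S) h1).trans
        ((h2 _).trans (congrArg _ (h2 y).symm))) n

end Quot

/-- `(T1)`, in the literal shape consumed by `UglyLF.h2CardDvd`. -/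
theorem transportRes : UglyLF.TransportRes := by
  intro K E _ _ _ _ _ S
  exact ⟨(resIso K E S 2).toLinearEquiv.toEquiv⟩

/-- `(T2)`, in the literal shape consumed by `UglyLF.h2CardDvd`. -/
theorem transportQuot : UglyLF.TransportQuot := by
  intro K E _ _ _ _ _ S _
  exact ⟨(quotIso K E S 2).toLinearEquiv.toEquiv⟩

/-- **Row L8, modulo only the prime-degree case**: if `#H²(Gal(E/K), Eˣ) ∣ [E : K]` for all
Galois extensions of (LF) fields of prime degree, then for all finite Galois extensions of (LF)
fields. -/
theorem h2CardDvd_of_primeDegreeBound (C : UglyLF.PrimeDegreeBound) : UglyLF.H2CardDvd :=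
  UglyLF.h2CardDvd transportRes transportQuot C

end Fermat.Agent.S55.Local.TransportGal
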