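/-
S55 / Local block: consequences of the unit data `(T)` in (LF) form (`Local/UnitDataLFProof.lean`,
helper30) for the order of `H²`: the prime-degree bound and ROW L8, unconditionally:
`#H²(Gal(E/K), Eˣ)` is finite and divides `[E : K]` for every finite Galois extension of (LF)
fields.
-/
import Mathlib
import Fermat.Agent.S55.Local.Reduction
import Fermat.Agent.S55.Local.UnitDataLFProof
import Fermat.Agent.S55.Local.TransportGal

set_option autoImplicit false

namespace Fermat.Agent.S55.Local.UnitDataLF

open Fermat.Agent.S55.Local

/-- The prime-degree case of the order bound. -/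
theorem primeDegreeBound : UglyLF.PrimeDegreeBound := by
  intro K E _ _ _ _ _ _ _ _ _ hp
  have hcard : Nat.card (E ≃ₐ[K] E) = Module.finrank K E := IsGalois.card_aut_eq_finrank K E
  have hcyc : IsCyclic (E ≃ₐ[K] E) := isCyclic_of_prime_card (hp := ⟨hp⟩) hcard
  have h := UnitDataLFProof.h2CardCyclic K E
  refine ⟨?_, h ▸ dvd_rfl⟩
  apply Nat.finite_of_card_ne_zero
  rw [h]
  exact hp.ne_zero

/-- **Row L8, unconditional**: `#H²(Gal(E/K), Eˣ)` is finite and divides `[E : K]` for every
finite Galois extension of (LF) fields. -/
theorem h2CardDvd : UglyLF.H2CardDvd :=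
  TransportGal.h2CardDvd_of_primeDegreeBound primeDegreeBound

end Fermat.Agent.S55.Local.UnitDataLF
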