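/-
S55 / local class formation, piece `Local.Concrete` (helper30).

`E` a finite extension of `ℚ_[q]` inside `PadicAlgCl q`, `σ` an automorphism of `E`,
`K = E^⟨σ⟩`.  We construct the normal-basis lattices `Lat k = ⊕ q^k O_K σ^j θ` and the unit groups
`1 + Lat k`, and prove that `1 + Lat k` (k large) is a subgroup of finite index of the units of `E`
which is cohomologically trivial (`qa D N = qa N D = 1` in the language of
`S14/HerbrandPrime`), by successive approximation (`S55/CohTrivialApprox`).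
-/
import Mathlib
import Fermat.Agent.S55.Local.Concrete
import Fermat.Agent.S55.Local.NormalBasisCyclic
import Fermat.Agent.S55.CohTrivialApprox

set_option autoImplicit false

namespace Fermat.Agent.S55.Local.UnitLattice

open Fermat.Agent.S55.Local.Concrete Fermat.Agent.S55.Local.NormalBasisCyclic

variable {q : ℕ} [Fact q.Prime]
variable (E : IntermediateField ℚ_[q] (PadicAlgCl q)) [FiniteDimensional ℚ_[q] E]
variable (σ : E ≃ₐ[ℚ_[q]] E)

/-- `ρ = ‖q‖ = q⁻¹`. -/
noncomputable def rho (q : ℕ) : ℝ := (q : ℝ)⁻¹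

theorem rho_pos : 0 < rho q := inv_pos.mpr q_pos

theorem rho_lt_one : rho q < 1 := inv_lt_one_of_one_lt₀ one_lt_q

theorem norm_q : ‖((q : ℕ) : E)‖ = rho q := norm_natCast_q E

theorem norm_q_pow (a : ℕ) : ‖((q : ℕ) : E) ^ a‖ = rho q ^ a := by
  rw [norm_pow, norm_q]

theorem q_ne_zero : ((q : ℕ) : E) ≠ 0 := by
  have h : (0 : ℝ) < ‖((q : ℕ) : E)‖ := by rw [norm_q]; exact rho_pos
  exact norm_pos_iff.mp h

theorem sigma_q : σ ((q : ℕ) : E) = ((q : ℕ) : E) := map_natCast σ q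

theorem sigma_q_pow (a : ℕ) : σ (((q : ℕ) : E) ^ a) = ((q : ℕ) : E) ^ a := by
  rw [map_pow, sigma_q]

theorem norm_pow_sigma (j : ℕ) (x : E) : ‖(σ ^ j) x‖ = ‖x‖ := norm_algEquiv E (σ ^ j) x

/-- A scaling exponent making the normal basis generator integral. -/
theorem exists_scale : ∃ a : ℕ, ‖((q : ℕ) : E) ^ a * theta σ‖ ≤ 1 := by
  obtain ⟨a, ha⟩ := exists_pow_lt_of_lt_one (show (0 : ℝ) < 1 / (‖theta σ‖ + 1) by positivity)
    (rho_lt_one (q := q))
  refine ⟨a, ?_⟩
  rw [norm_mul, norm_q_pow]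
  have h1 : 0 < ‖theta σ‖ + 1 := by positivity
  have h2 : rho q ^ a * (‖theta σ‖ + 1) < 1 := by
    rwa [lt_div_iff₀ h1] at ha
  have h3 : rho q ^ a * ‖theta σ‖ ≤ rho q ^ a * (‖theta σ‖ + 1) :=
    mul_le_mul_of_nonneg_left (by linarith) (pow_nonneg rho_pos.le a)
  linarith

/-- The scaling exponent. -/
noncomputable def sc : ℕ := (exists_scale E σ).choose

/-- The scaled normal basis generator, of norm `≤ 1`. -/
noncomputable def theta1 : E := ((q : ℕ) : E) ^ sc E σ * theta σ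

theorem norm_theta1_le : ‖theta1 E σ‖ ≤ 1 := (exists_scale E σ).choose_spec

/-- The scaling unit of `K`. -/
noncomputable def scUnit : (fixedK σ)ˣ :=
  Units.mk0 (⟨((q : ℕ) : E) ^ sc E σ, (mem_fixedK_iff σ _).mpr (sigma_q_pow E σ _)⟩ : fixedK σ)
    (by
      intro h
      have := congrArg Subtype.val h
      exact pow_ne_zero _ (q_ne_zero E) this)

/-- The scaled normal basis. -/
noncomputable def bas : Module.Basis (Fin (orderOf σ)) (fixedK σ) E :=
  (cycBasis σ).unitsSMul (fun _ => scUnit E σ)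

theorem bas_apply (j : Fin (orderOf σ)) : bas E σ j = (σ ^ (j : ℕ)) (theta1 E σ) := by
  unfold bas theta1
  rw [Module.Basis.unitsSMul_apply, cycBasis_apply, map_mul]
  have : (σ ^ (j : ℕ)) (((q : ℕ) : E) ^ sc E σ) = ((q : ℕ) : E) ^ sc E σ := by
    rw [map_pow, map_natCast]
  rw [this]
  rfl

theorem norm_bas_le (j : Fin (orderOf σ)) : ‖bas E σ j‖ ≤ 1 := by
  rw [bas_apply, norm_pow_sigma]
  exact norm_theta1_le E σ

theorem pow_sigma_theta1 (i : ℕ) :
    ∃ l : Fin (orderOf σ), (σ ^ i) (theta1 E σ) = bas E σ l := by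
  refine ⟨⟨i % orderOf σ, Nat.mod_lt _ (orderOf_pos' σ)⟩, ?_⟩
  rw [bas_apply]
  simp only
  rw [pow_mod_orderOf]

/-! ### Coordinates -/

/-- The `j`-th coordinate of `x` with respect to the scaled normal basis, as an element of `E`. -/
noncomputable def co (x : E) (j : Fin (orderOf σ)) : E := (((bas E σ).repr x j : fixedK σ) : E)

theorem sigma_co (x : E) (j : Fin (orderOf σ)) : σ (co E σ x j) = co E σ x j :=
  (mem_fixedK_iff σ _).mp ((bas E σ).repr x j).2

theorem sum_co (x : E) : ∑ j, co E σ x j * bas E σ j = x := by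
  conv_rhs => rw [← (bas E σ).sum_repr x]
  rfl

theorem co_unique {x : E} {c : Fin (orderOf σ) → E} (hc : ∀ j, σ (c j) = c j)
    (hx : x = ∑ j, c j * bas E σ j) (j : Fin (orderOf σ)) : co E σ x j = c j := by
  have hcK : ∀ j, c j ∈ fixedK σ := fun j => (mem_fixedK_iff σ _).mpr (hc j)
  have h1 : x = ∑ j, (⟨c j, hcK j⟩ : fixedK σ) • bas E σ j := by
    rw [hx]; rfl
  have h2 : ⇑((bas E σ).repr x) = fun j => (⟨c j, hcK j⟩ : fixedK σ) := by
    rw [h1]
    exact (bas E σ).repr_sum_self _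
  unfold co
  rw [h2]

theorem co_add (x y : E) (j : Fin (orderOf σ)) : co E σ (x + y) j = co E σ x j + co E σ y j := by
  unfold co
  rw [map_add]
  rfl

theorem co_neg (x : E) (j : Fin (orderOf σ)) : co E σ (-x) j = -co E σ x j := by
  unfold co
  rw [map_neg]
  rfl

theorem co_zero (j : Fin (orderOf σ)) : co E σ 0 j = 0 := by
  unfold co
  rw [map_zero]
  rfl

theorem co_mul_fixed {a : E} (ha : σ a = a) (x : E) (j : Fin (orderOf σ)) :
    co E σ (a * x) j = a * co E σ x j := by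
  apply co_unique E σ (c := fun j => a * co E σ x j)
  · intro j
    rw [map_mul, ha, sigma_co]
  · conv_lhs => rw [← sum_co E σ x, Finset.mul_sum]
    refine Finset.sum_congr rfl fun j _ => ?_
    ring

/-- Coordinates of a multiple of a basis vector. -/
theorem co_mul_bas {a : E} (ha : σ a = a) (l j : Fin (orderOf σ)) :
    co E σ (a * bas E σ l) j = if j = l then a else 0 := by
  classical
  apply co_unique E σ (c := fun j => if j = l then a else 0)
  · intro j
    split_ifs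
    · exact ha
    · exact map_zero σ
  · simp

theorem norm_le_of_co {x : E} {r : ℝ} (hr : 0 ≤ r) (h : ∀ j, ‖co E σ x j‖ ≤ r) : ‖x‖ ≤ r := by
  rw [← sum_co E σ x]
  apply IsUltrametricDist.norm_sum_le_of_forall_le_of_nonneg hr
  intro j _
  rw [norm_mul]
  calc ‖co E σ x j‖ * ‖bas E σ j‖ ≤ r * 1 :=
        mul_le_mul (h j) (norm_bas_le E σ j) (norm_nonneg _) hr
    _ = r := mul_one r

/-- The `j`-th coordinate as a `ℚ_[q]`-linear map. -/
noncomputable def coLin (j : Fin (orderOf σ)) : E →ₗ[ℚ_[q]] E where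
  toFun x := co E σ x j
  map_add' x y := co_add E σ x y j
  map_smul' c x := by
    simp only [RingHom.id_apply]
    rw [Algebra.smul_def, Algebra.smul_def]
    exact co_mul_fixed E σ (σ.commutes c) x j

theorem coLin_apply (j : Fin (orderOf σ)) (x : E) : coLin E σ j x = co E σ x j := rfl

theorem continuous_co (j : Fin (orderOf σ)) : Continuous fun x => co E σ x j :=
  (coLin E σ j).continuous_of_finiteDimensional

/-- Boundedness of the coordinates. -/
theorem exists_co_bound : ∃ c₀ : ℕ, ∀ (x : E) (j : Fin (orderOf σ)),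
    ‖co E σ x j‖ ≤ (q : ℝ) ^ c₀ * ‖x‖ := by
  classical
  let f : Fin (orderOf σ) → (E →L[ℚ_[q]] E) := fun j => LinearMap.toContinuousLinearMap (coLin E σ j)
  obtain ⟨C, hC⟩ : ∃ C : ℝ, ∀ j, ‖f j‖ ≤ C := by
    refine ⟨∑ j, ‖f j‖, fun j => ?_⟩
    exact Finset.single_le_sum (f := fun j => ‖f j‖) (fun _ _ => norm_nonneg _) (Finset.mem_univ j)
  obtain ⟨c₀, hc₀⟩ := pow_unbounded_of_one_lt C (one_lt_q (q := q))
  refine ⟨c₀, fun x j => ?_⟩
  have h1 : ‖f j x‖ ≤ ‖f j‖ * ‖x‖ := (f j).le_opNorm x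
  have h2 : f j x = co E σ x j := rfl
  rw [h2] at h1
  refine h1.trans (mul_le_mul_of_nonneg_right ((hC j).trans hc₀.le) (norm_nonneg _))

/-! ### The lattices -/

/-- The coordinate bound exponent `c₀`. -/
noncomputable def c0 : ℕ := (exists_co_bound E σ).choose

theorem co_bound (x : E) (j : Fin (orderOf σ)) : ‖co E σ x j‖ ≤ (q : ℝ) ^ c0 E σ * ‖x‖ :=
  (exists_co_bound E σ).choose_spec x j

/-- `Lat k = ⊕_j q^k O_K · σ^j θ₁`. -/
def Lat (k : ℕ) : AddSubgroup E where
  carrier := {x | ∀ j, ‖co E σ x j‖ ≤ rho q ^ k}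
  zero_mem' := fun j => by
    rw [co_zero, norm_zero]
    exact pow_nonneg rho_pos.le k
  add_mem' := fun {x y} hx hy j => by
    rw [co_add]
    exact (IsUltrametricDist.norm_add_le_max _ _).trans (max_le (hx j) (hy j))
  neg_mem' := fun {x} hx j => by
    rw [co_neg, norm_neg]
    exact hx j

theorem mem_Lat_iff (k : ℕ) (x : E) : x ∈ Lat E σ k ↔ ∀ j, ‖co E σ x j‖ ≤ rho q ^ k := Iff.rfl

theorem norm_le_of_mem_Lat {k : ℕ} {x : E} (hx : x ∈ Lat E σ k) : ‖x‖ ≤ rho q ^ k :=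
  norm_le_of_co E σ (pow_nonneg rho_pos.le k) hx

theorem rho_pow_mul_q_pow (k c : ℕ) : (q : ℝ) ^ c * rho q ^ (k + c) = rho q ^ k := by
  unfold rho
  rw [pow_add, inv_pow, inv_pow]
  have : ((q : ℝ) ^ c) ≠ 0 := pow_ne_zero _ q_pos.ne'
  field_simp

/-- Small elements lie in the lattice. -/
theorem mem_Lat_of_norm_le {k : ℕ} {x : E} (hx : ‖x‖ ≤ rho q ^ (k + c0 E σ)) :
    x ∈ Lat E σ k := by
  intro j
  refine (co_bound E σ x j).trans ?_
  calc (q : ℝ) ^ c0 E σ * ‖x‖ ≤ (q : ℝ) ^ c0 E σ * rho q ^ (k + c0 E σ) :=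
        mul_le_mul_of_nonneg_left hx (pow_nonneg q_pos.le _)
    _ = rho q ^ k := rho_pow_mul_q_pow k _

theorem Lat_antitone {k l : ℕ} (h : k ≤ l) : Lat E σ l ≤ Lat E σ k := by
  intro x hx j
  exact (hx j).trans (pow_le_pow_of_le_one rho_pos.le rho_lt_one.le h)

theorem isClosed_Lat (k : ℕ) : IsClosed (Lat E σ k : Set E) := by
  have : (Lat E σ k : Set E) = ⋂ j, (fun x => co E σ x j) ⁻¹' Metric.closedBall 0 (rho q ^ k) := by
    ext x
    simp only [Set.mem_iInter, Set.mem_preimage, mem_closedBall_zero_iff]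
    rfl
  rw [this]
  exact isClosed_iInter fun j => Metric.isClosed_closedBall.preimage (continuous_co E σ j)

/-- A fixed multiple of a basis vector lies in the lattice. -/
theorem mul_bas_mem_Lat {k : ℕ} {a : E} (ha : σ a = a) (hak : ‖a‖ ≤ rho q ^ k)
    (l : Fin (orderOf σ)) : a * bas E σ l ∈ Lat E σ k := by
  intro j
  rw [co_mul_bas E σ ha]
  split_ifs
  · exact hak
  · rw [norm_zero]; exact pow_nonneg rho_pos.le k

/-- The lattices are stable under `σ`. -/
theorem sigma_mem_Lat {k : ℕ} {x : E} (hx : x ∈ Lat E σ k) : σ x ∈ Lat E σ k := by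
  have h1 : σ x = ∑ j, co E σ x j * σ (bas E σ j) := by
    conv_lhs => rw [← sum_co E σ x, map_sum]
    refine Finset.sum_congr rfl fun j _ => ?_
    rw [map_mul, sigma_co]
  rw [h1]
  refine AddSubgroup.sum_mem _ fun j _ => ?_
  have h2 : σ (bas E σ j) = (σ ^ ((j : ℕ) + 1)) (theta1 E σ) := by
    rw [bas_apply, pow_succ', AlgEquiv.mul_apply]
  obtain ⟨l, hl⟩ := pow_sigma_theta1 E σ ((j : ℕ) + 1)
  rw [h2, hl]
  exact mul_bas_mem_Lat E σ (sigma_co E σ x j) (hx j) l

theorem pow_sigma_mem_Lat {k : ℕ} {x : E} (hx : x ∈ Lat E σ k) (i : ℕ) :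
    (σ ^ i) x ∈ Lat E σ k := by
  induction i with
  | zero => simpa using hx
  | succ i ih =>
    rw [pow_succ', AlgEquiv.mul_apply]
    exact sigma_mem_Lat E σ ih

/-- Products: `Lat k · (elements of norm ≤ ρ^l) ⊆ Lat (k + l - c₀)`. -/
theorem mul_mem_Lat {k l m : ℕ} {x y : E} (hx : ‖x‖ ≤ rho q ^ k) (hy : ‖y‖ ≤ rho q ^ l)
    (hm : m + c0 E σ ≤ k + l) : x * y ∈ Lat E σ m := by
  apply mem_Lat_of_norm_le
  rw [norm_mul]
  calc ‖x‖ * ‖y‖ ≤ rho q ^ k * rho q ^ l :=
        mul_le_mul hx hy (norm_nonneg _) (pow_nonneg rho_pos.le _)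
    _ = rho q ^ (k + l) := (pow_add _ _ _).symm
    _ ≤ rho q ^ (m + c0 E σ) := pow_le_pow_of_le_one rho_pos.le rho_lt_one.le hm

/-! ### The unit groups `1 + Lat k` -/

/-- The level of the `i`-th filtration step. -/
noncomputable def lev (i : ℕ) : ℕ := c0 E σ + 1 + i

theorem lev_succ (i : ℕ) : lev E σ (i + 1) = lev E σ i + 1 := by unfold lev; ring

theorem one_le_lev (i : ℕ) : 1 ≤ lev E σ i := by unfold lev; omega

theorem rho_pow_lev_lt_one (i : ℕ) : rho q ^ lev E σ i < 1 :=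
  pow_lt_one₀ rho_pos.le rho_lt_one (by have := one_le_lev E σ i; omega)

/-- The value of a unit (written additively) in `E`. -/
def uval (u : Additive Eˣ) : E := ((u.toMul : Eˣ) : E)

theorem uval_zero : uval E (0 : Additive Eˣ) = 1 := rfl

theorem uval_add (u v : Additive Eˣ) : uval E (u + v) = uval E u * uval E v := rfl

theorem uval_neg (u : Additive Eˣ) : uval E (-u) = (uval E u)⁻¹ := by
  unfold uval
  rw [toMul_neg, Units.val_inv_eq_inv_val]

theorem uval_sub (u v : Additive Eˣ) : uval E (u - v) = uval E u / uval E v := by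
  rw [sub_eq_add_neg, uval_add, uval_neg, div_eq_mul_inv]

theorem uval_ne_zero (u : Additive Eˣ) : uval E u ≠ 0 := (u.toMul).ne_zero

/-- The filtration `V i = 1 + Lat (c₀ + 1 + i)` of the unit group. -/
def V (i : ℕ) : AddSubgroup (Additive Eˣ) where
  carrier := {u | uval E u - 1 ∈ Lat E σ (lev E σ i)}
  zero_mem' := by
    change uval E 0 - 1 ∈ Lat E σ (lev E σ i)
    rw [uval_zero, sub_self]
    exact (Lat E σ _).zero_mem
  add_mem' := by
    intro u v hu hv
    change uval E (u + v) - 1 ∈ Lat E σ (lev E σ i)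
    have hu' : uval E u - 1 ∈ Lat E σ (lev E σ i) := hu
    have hv' : uval E v - 1 ∈ Lat E σ (lev E σ i) := hv
    have h1 : uval E (u + v) - 1 =
        (uval E u - 1) + (uval E v - 1) + (uval E u - 1) * (uval E v - 1) := by
      rw [uval_add]; ring
    rw [h1]
    refine (Lat E σ _).add_mem ((Lat E σ _).add_mem hu' hv') ?_
    exact mul_mem_Lat E σ (norm_le_of_mem_Lat E σ hu') (norm_le_of_mem_Lat E σ hv')
      (by unfold lev; omega)
  neg_mem' := by
    intro u hu
    change uval E (-u) - 1 ∈ Lat E σ (lev E σ i)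
    have hu' : uval E u - 1 ∈ Lat E σ (lev E σ i) := hu
    set a := uval E u - 1 with ha
    have hnorm : ‖a‖ ≤ rho q ^ lev E σ i := norm_le_of_mem_Lat E σ hu'
    have hu1 : ‖uval E u‖ = 1 :=
      norm_eq_one_of_norm_sub_one_lt E (lt_of_le_of_lt hnorm (rho_pow_lev_lt_one E σ i))
    have hu0 : uval E u ≠ 0 := uval_ne_zero E u
    have h1 : uval E (-u) - 1 = -a + a * (a * (uval E u)⁻¹) := by
      rw [uval_neg, ha]; field_simp; ring
    rw [h1]
    refine (Lat E σ _).add_mem ((Lat E σ _).neg_mem hu') ?_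
    refine mul_mem_Lat E σ hnorm (l := lev E σ i) ?_ (by unfold lev; omega)
    rw [norm_mul, norm_inv, hu1, inv_one, mul_one]
    exact hnorm

theorem mem_V_iff (i : ℕ) (u : Additive Eˣ) :
    u ∈ V E σ i ↔ uval E u - 1 ∈ Lat E σ (lev E σ i) := Iff.rfl

theorem norm_sub_one_le_of_mem_V {i : ℕ} {u : Additive Eˣ} (hu : u ∈ V E σ i) :
    ‖uval E u - 1‖ ≤ rho q ^ lev E σ i := norm_le_of_mem_Lat E σ hu

theorem norm_uval_of_mem_V {i : ℕ} {u : Additive Eˣ} (hu : u ∈ V E σ i) : ‖uval E u‖ = 1 :=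
  norm_eq_one_of_norm_sub_one_lt E
    (lt_of_le_of_lt (norm_sub_one_le_of_mem_V E σ hu) (rho_pow_lev_lt_one E σ i))

theorem V_antitone {i j : ℕ} (h : i ≤ j) : V E σ j ≤ V E σ i := by
  intro u hu
  exact Lat_antitone E σ (by unfold lev; omega) hu

/-- Elements close to `1` lie in `V i`. -/
theorem mem_V_of_norm_le {i : ℕ} {u : Additive Eˣ}
    (hu : ‖uval E u - 1‖ ≤ rho q ^ (lev E σ i + c0 E σ)) : u ∈ V E σ i :=
  mem_Lat_of_norm_le E σ hu

theorem V_le_ker (i : ℕ) : V E σ i ≤ (ordHom E).ker := by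
  intro u hu
  rw [mem_ker_ordHom_iff]
  exact norm_uval_of_mem_V E σ hu

/-- `V i` has finite index in the unit group. -/
theorem relIndex_V_ne_zero (i : ℕ) : (V E σ i).relIndex (ordHom E).ker ≠ 0 := by
  have hr0 : 0 < rho q ^ (lev E σ i + c0 E σ) := pow_pos rho_pos _
  have hr1 : rho q ^ (lev E σ i + c0 E σ) < 1 :=
    pow_lt_one₀ rho_pos.le rho_lt_one (by have := one_le_lev E σ i; omega)
  have h1 := relIndex_ballSubgroup_ne_zero E hr0 hr1
  have hle : ballSubgroup E _ hr0.le hr1 ≤ V E σ i := fun u hu => mem_V_of_norm_le E σ hu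
  exact fun h => h1 (AddSubgroup.relIndex_eq_zero_of_le_left hle h)

/-! ### The operators `σ`, `D = σ - 1`, `N = 1 + σ + ⋯ + σ^(n-1)` on units -/

/-- `σ` acting on units, in additive notation. -/
noncomputable def sig : AddMonoid.End (Additive Eˣ) :=
  MonoidHom.toAdditive (Units.map ((σ : E →+* E) : E →* E))

theorem uval_sig (u : Additive Eˣ) : uval E (sig E σ u) = σ (uval E u) := rfl

theorem uval_sig_pow (j : ℕ) (u : Additive Eˣ) :
    uval E ((sig E σ ^ j) u) = (σ ^ j) (uval E u) := by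
  induction j generalizing u with
  | zero => simp
  | succ j ih =>
    rw [pow_succ', pow_succ', AlgEquiv.mul_apply, ← ih]
    rfl

theorem uval_injective : Function.Injective (uval E) := by
  intro u v h
  have : (u.toMul : Eˣ) = v.toMul := Units.ext h
  exact Additive.toMul.injective this

theorem sig_pow_orderOf : sig E σ ^ orderOf σ = 1 := by
  refine AddMonoid.End.ext (h := fun u => ?_)
  apply uval_injective E
  rw [uval_sig_pow, pow_orderOf_eq_one]
  rfl

/-- `D = σ - 1`. -/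
noncomputable def Dm : AddMonoid.End (Additive Eˣ) := sig E σ - 1

/-- `N = ∑_{j < n} σ^j`. -/
noncomputable def Nm : AddMonoid.End (Additive Eˣ) :=
  ∑ j ∈ Finset.range (orderOf σ), sig E σ ^ j

theorem Dm_mul_Nm : Dm E σ * Nm E σ = 0 := by
  have h := mul_geom_sum (sig E σ) (orderOf σ)
  rw [sig_pow_orderOf, sub_self] at h
  exact h

theorem Nm_mul_Dm : Nm E σ * Dm E σ = 0 := by
  have h := geom_sum_mul (sig E σ) (orderOf σ)
  rw [sig_pow_orderOf, sub_self] at h
  exact h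

theorem end_sum_apply {X ι : Type*} [AddCommGroup X] (t : Finset ι) (f : ι → AddMonoid.End X)
    (u : X) : (∑ j ∈ t, f j) u = ∑ j ∈ t, f j u := by
  classical
  induction t using Finset.induction_on with
  | empty => simp
  | insert a t ha ih =>
    rw [Finset.sum_insert ha, Finset.sum_insert ha, ← ih]
    rfl

theorem Dm_Nm_apply (u : Additive Eˣ) : Dm E σ (Nm E σ u) = 0 := by
  have := congrArg (fun f : AddMonoid.End (Additive Eˣ) => f u) (Dm_mul_Nm E σ)
  simpa using this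

theorem Nm_Dm_apply (u : Additive Eˣ) : Nm E σ (Dm E σ u) = 0 := by
  have := congrArg (fun f : AddMonoid.End (Additive Eˣ) => f u) (Nm_mul_Dm E σ)
  simpa using this

theorem Dm_apply (u : Additive Eˣ) : Dm E σ u = sig E σ u - u := rfl

theorem Nm_apply (u : Additive Eˣ) :
    Nm E σ u = ∑ j ∈ Finset.range (orderOf σ), (sig E σ ^ j) u := by
  unfold Nm
  exact end_sum_apply _ _ u

theorem uval_Dm (u : Additive Eˣ) : uval E (Dm E σ u) = σ (uval E u) / uval E u := by
  rw [Dm_apply, uval_sub, uval_sig]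

theorem uval_sum {ι : Type*} (s : Finset ι) (f : ι → Additive Eˣ) :
    uval E (∑ j ∈ s, f j) = ∏ j ∈ s, uval E (f j) := by
  classical
  induction s using Finset.induction_on with
  | empty => simp [uval_zero]
  | insert a s ha ih => rw [Finset.sum_insert ha, Finset.prod_insert ha, uval_add, ih]

theorem uval_Nm (u : Additive Eˣ) :
    uval E (Nm E σ u) = ∏ j ∈ Finset.range (orderOf σ), (σ ^ j) (uval E u) := by
  rw [Nm_apply, uval_sum]
  exact Finset.prod_congr rfl fun j _ => uval_sig_pow E σ j u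

theorem ordHom_sig (u : Additive Eˣ) : ordHom E (sig E σ u) = ordHom E u :=
  ord_map_algEquiv E σ u.toMul

theorem ordHom_sig_pow (j : ℕ) (u : Additive Eˣ) : ordHom E ((sig E σ ^ j) u) = ordHom E u := by
  induction j with
  | zero => simp
  | succ j ih =>
    rw [pow_succ']
    change ordHom E (sig E σ ((sig E σ ^ j) u)) = _
    rw [ordHom_sig, ih]

theorem ordHom_Dm (u : Additive Eˣ) : ordHom E (Dm E σ u) = 0 := by
  rw [Dm_apply, map_sub, ordHom_sig, sub_self]

theorem ordHom_Nm (u : Additive Eˣ) : ordHom E (Nm E σ u) = (orderOf σ : ℤ) * ordHom E u := by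
  rw [Nm_apply, map_sum]
  simp only [ordHom_sig_pow]
  simp

/-! ### Stability, separatedness -/

theorem sig_mem_V {i : ℕ} {u : Additive Eˣ} (hu : u ∈ V E σ i) : sig E σ u ∈ V E σ i := by
  rw [mem_V_iff, uval_sig]
  have : σ (uval E u) - 1 = σ (uval E u - 1) := by rw [map_sub, map_one]
  rw [this]
  exact sigma_mem_Lat E σ hu

theorem sig_pow_mem_V {i : ℕ} {u : Additive Eˣ} (hu : u ∈ V E σ i) (j : ℕ) :
    (sig E σ ^ j) u ∈ V E σ i := by
  induction j with
  | zero => simpa using hu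
  | succ j ih =>
    rw [pow_succ']
    exact sig_mem_V E σ ih

theorem map_Dm_le (i : ℕ) : (V E σ i).map (Dm E σ) ≤ V E σ i := by
  rintro _ ⟨u, hu, rfl⟩
  change Dm E σ u ∈ V E σ i
  rw [Dm_apply]
  exact (V E σ i).sub_mem (sig_mem_V E σ hu) hu

theorem map_Nm_le (i : ℕ) : (V E σ i).map (Nm E σ) ≤ V E σ i := by
  rintro _ ⟨u, hu, rfl⟩
  change Nm E σ u ∈ V E σ i
  rw [Nm_apply]
  exact AddSubgroup.sum_mem _ fun j _ => sig_pow_mem_V E σ hu j

theorem V_sep (u : Additive Eˣ) (h : ∀ i, u ∈ V E σ i) : u = 0 := by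
  apply uval_injective E
  rw [uval_zero]
  have h0 : ‖uval E u - 1‖ = 0 := by
    apply le_antisymm _ (norm_nonneg _)
    apply le_of_forall_pos_lt_add
    intro ε hε
    obtain ⟨k, hk⟩ := exists_pow_lt_of_lt_one hε (rho_lt_one (q := q))
    have h1 := norm_sub_one_le_of_mem_V E σ (h k)
    have h2 : rho q ^ lev E σ k ≤ rho q ^ k :=
      pow_le_pow_of_le_one rho_pos.le rho_lt_one.le (by unfold lev; omega)
    linarith
  exact sub_eq_zero.mp (norm_eq_zero.mp h0)

/-! ### Completeness -/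

/-- `Lat (lev i)` is stable under multiplication by the units of `V 0`. -/
theorem mul_uval_mem_Lat {i : ℕ} {w : E} (hw : w ∈ Lat E σ (lev E σ i)) {v : Additive Eˣ}
    (hv : v ∈ V E σ 0) : w * uval E v ∈ Lat E σ (lev E σ i) := by
  have h1 : w * uval E v = w + w * (uval E v - 1) := by ring
  rw [h1]
  refine (Lat E σ _).add_mem hw ?_
  exact mul_mem_Lat E σ (norm_le_of_mem_Lat E σ hw) (norm_le_of_mem_Lat E σ hv)
    (by unfold lev; omega)

theorem V_complete (a : ℕ → Additive Eˣ) (ha : ∀ i, a i ∈ V E σ i) :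
    ∃ s ∈ V E σ 0, ∀ i, s - ∑ j ∈ Finset.range i, a j ∈ V E σ i := by
  set S : ℕ → Additive Eˣ := fun i => ∑ j ∈ Finset.range i, a j with hS
  set P : ℕ → E := fun i => uval E (S i) with hP
  have hS1 : ∀ i k, S (i + k) - S i ∈ V E σ i := by
    intro i k
    induction k with
    | zero => simp
    | succ k ih =>
      have : S (i + (k + 1)) - S i = (S (i + k) - S i) + a (i + k) := by
        simp only [hS, ← add_assoc, Finset.sum_range_succ]
        abel
      rw [this]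
      exact (V E σ i).add_mem ih (V_antitone E σ (Nat.le_add_right i k) (ha _))
  have hS0 : ∀ i, S i ∈ V E σ 0 := by
    intro i
    have := hS1 0 i
    simpa [hS] using this
  have hdiff : ∀ i k, P (i + k) - P i ∈ Lat E σ (lev E σ i) := by
    intro i k
    have h1 : P (i + k) - P i = (uval E (S (i + k) - S i) - 1) * P i := by
      simp only [hP]
      rw [uval_sub]
      have := uval_ne_zero E (S i)
      field_simp
    rw [h1]
    exact mul_uval_mem_Lat E σ (hS1 i k) (hS0 i)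
  -- Cauchy
  have hcauchy : CauchySeq P := by
    apply cauchySeq_of_le_geometric (rho q) 1 rho_lt_one
    intro i
    rw [dist_comm, dist_eq_norm, one_mul]
    have h1 := norm_le_of_mem_Lat E σ (hdiff i 1)
    refine h1.trans (pow_le_pow_of_le_one rho_pos.le rho_lt_one.le (by unfold lev; omega))
  obtain ⟨s₀, hs₀⟩ := cauchySeq_tendsto_of_complete hcauchy
  have hlim : ∀ i, s₀ - P i ∈ Lat E σ (lev E σ i) := by
    intro i
    have ht : Filter.Tendsto (fun m => P m - P i) Filter.atTop (nhds (s₀ - P i)) :=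
      hs₀.sub tendsto_const_nhds
    refine (isClosed_Lat E σ (lev E σ i)).mem_of_tendsto ht ?_
    filter_upwards [Filter.eventually_ge_atTop i] with m hm
    obtain ⟨k, rfl⟩ := Nat.exists_eq_add_of_le hm
    exact hdiff i k
  have hP0 : P 0 = 1 := by simp [hP, hS, uval_zero]
  have hs1 : s₀ - 1 ∈ Lat E σ (lev E σ 0) := by
    have := hlim 0
    rwa [hP0] at this
  have hs₀norm : ‖s₀‖ = 1 :=
    norm_eq_one_of_norm_sub_one_lt E
      (lt_of_le_of_lt (norm_le_of_mem_Lat E σ hs1) (rho_pow_lev_lt_one E σ 0))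
  have hs₀0 : s₀ ≠ 0 := fun h => by rw [h, norm_zero] at hs₀norm; exact zero_ne_one hs₀norm
  refine ⟨Additive.ofMul (Units.mk0 s₀ hs₀0), hs1, fun i => ?_⟩
  rw [mem_V_iff, uval_sub]
  have hval : uval E (Additive.ofMul (Units.mk0 s₀ hs₀0)) = s₀ := rfl
  rw [hval]
  change s₀ / P i - 1 ∈ _
  have hPi0 : P i ≠ 0 := uval_ne_zero E (S i)
  have h2 : s₀ / P i - 1 = (s₀ - P i) * uval E (-(S i)) := by
    rw [uval_neg]
    change _ = (s₀ - P i) * (P i)⁻¹
    field_simp
  rw [h2]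
  exact mul_uval_mem_Lat E σ (hlim i) ((V E σ 0).neg_mem (hS0 i))

/-! ### A product expansion -/

theorem norm_prod_one_add_sub {ι : Type*} (s : Finset ι) (a : ι → E) {r : ℝ} (hr0 : 0 ≤ r)
    (hr1 : r ≤ 1) (ha : ∀ j ∈ s, ‖a j‖ ≤ r) :
    ‖∏ j ∈ s, (1 + a j) - 1 - ∑ j ∈ s, a j‖ ≤ r ^ 2 := by
  classical
  induction s using Finset.induction_on with
  | empty => simp; positivity
  | insert k s hk ih =>
    have hak : ‖a k‖ ≤ r := ha k (Finset.mem_insert_self k s)
    have has : ∀ j ∈ s, ‖a j‖ ≤ r := fun j hj => ha j (Finset.mem_insert_of_mem hj)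
    have hR := ih has
    set R := ∏ j ∈ s, (1 + a j) - 1 - ∑ j ∈ s, a j with hRdef
    have hsum : ‖∑ j ∈ s, a j‖ ≤ r :=
      IsUltrametricDist.norm_sum_le_of_forall_le_of_nonneg hr0 has
    have h1 : ∏ j ∈ insert k s, (1 + a j) - 1 - ∑ j ∈ insert k s, a j =
        R + (a k * ∑ j ∈ s, a j + a k * R) := by
      rw [Finset.prod_insert hk, Finset.sum_insert hk, hRdef]
      ring
    rw [h1]
    refine (IsUltrametricDist.norm_add_le_max _ _).trans (max_le hR ?_)
    refine (IsUltrametricDist.norm_add_le_max _ _).trans (max_le ?_ ?_)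
    · rw [norm_mul, pow_two]
      exact mul_le_mul hak hsum (norm_nonneg _) hr0
    · rw [norm_mul]
      calc ‖a k‖ * ‖R‖ ≤ 1 * r ^ 2 :=
            mul_le_mul (hak.trans hr1) hR (norm_nonneg _) zero_le_one
        _ = r ^ 2 := one_mul _

/-! ### The trace -/

/-- `tr x = ∑_{j < n} σ^j x`. -/
noncomputable def tr (x : E) : E := ∑ j ∈ Finset.range (orderOf σ), (σ ^ j) x

theorem sigma_tr (x : E) : σ (tr E σ x) = tr E σ x := by
  unfold tr
  rw [map_sum]
  have h1 : ∀ j, σ ((σ ^ j) x) = (σ ^ (j + 1)) x := fun j => by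
    rw [pow_succ', AlgEquiv.mul_apply]
  simp only [h1]
  rw [Finset.sum_range_succ' (fun j => (σ ^ j) x) (orderOf σ) |>.symm.trans
    (Finset.sum_range_succ (fun j => (σ ^ j) x) (orderOf σ)) |> eq_sub_of_add_eq]
  rw [pow_orderOf_eq_one]
  simp

theorem tr_pow_sigma (l : ℕ) (x : E) : tr E σ ((σ ^ l) x) = tr E σ x := by
  have h1 : tr E σ ((σ ^ l) x) = (σ ^ l) (tr E σ x) := by
    unfold tr
    rw [map_sum]
    refine Finset.sum_congr rfl fun j _ => ?_
    rw [← AlgEquiv.mul_apply, ← AlgEquiv.mul_apply, ← pow_add, ← pow_add, add_comm]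
  rw [h1]
  exact pow_apply_of_fixed σ (sigma_tr E σ x) l

/-- `T = tr θ₁ = ∑_j bas j`. -/
noncomputable def T : E := tr E σ (theta1 E σ)

theorem T_eq_sum_bas : T E σ = ∑ j, bas E σ j := by
  unfold T tr
  rw [← Fin.sum_univ_eq_sum_range (fun j => (σ ^ j) (theta1 E σ))]
  exact Finset.sum_congr rfl fun j _ => (bas_apply E σ j).symm

theorem sigma_T : σ (T E σ) = T E σ := sigma_tr E σ _

theorem tr_bas (l : Fin (orderOf σ)) : tr E σ (bas E σ l) = T E σ := by
  rw [bas_apply, tr_pow_sigma]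
  rfl

theorem co_mul_T {c : E} (hc : σ c = c) (j : Fin (orderOf σ)) : co E σ (c * T E σ) j = c := by
  apply co_unique E σ (c := fun _ => c) (fun _ => hc)
  rw [T_eq_sum_bas, Finset.mul_sum]

theorem T_ne_zero : T E σ ≠ 0 := by
  intro h
  have h1 := co_mul_T E σ (c := 1) (map_one σ) ⟨0, orderOf_pos' σ⟩
  rw [one_mul, h, co_zero] at h1
  exact zero_ne_one h1

theorem tr_sum {ι : Type*} (t : Finset ι) (f : ι → E) :
    tr E σ (∑ l ∈ t, f l) = ∑ l ∈ t, tr E σ (f l) := by
  unfold tr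
  simp only [map_sum]
  exact Finset.sum_comm

theorem tr_mul_fixed {c : E} (hc : σ c = c) (x : E) : tr E σ (c * x) = c * tr E σ x := by
  unfold tr
  rw [Finset.mul_sum]
  refine Finset.sum_congr rfl fun j _ => ?_
  rw [map_mul, pow_apply_of_fixed σ hc]

theorem tr_eq_sum_co_mul_T (m : E) : tr E σ m = (∑ l, co E σ m l) * T E σ := by
  conv_lhs => rw [← sum_co E σ m]
  rw [tr_sum, Finset.sum_mul]
  refine Finset.sum_congr rfl fun l _ => ?_
  rw [tr_mul_fixed E σ (sigma_co E σ m l), tr_bas]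

/-! ### The approximation steps -/

theorem bas_zero : bas E σ ⟨0, orderOf_pos' σ⟩ = theta1 E σ := by
  rw [bas_apply]
  simp

theorem lev_ineq (i : ℕ) : lev E σ (i + 1) + c0 E σ ≤ lev E σ i * 2 := by
  unfold lev; omega

/-- Step for `Ĥ⁰`: a `σ`-fixed element of `V i` is a norm from `V i` modulo `V (i + 1)`. -/
theorem step_H0 (i : ℕ) (u : Additive Eˣ) (hu : u ∈ V E σ i) (hD : Dm E σ u = 0) :
    ∃ y ∈ V E σ i, u - Nm E σ y ∈ V E σ (i + 1) := by
  set m := uval E u - 1 with hm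
  have hmL : m ∈ Lat E σ (lev E σ i) := hu
  have hσu : σ (uval E u) = uval E u := by
    have h := congrArg (uval E) hD
    rw [uval_Dm, uval_zero] at h
    exact (div_eq_one_iff_eq (uval_ne_zero E u)).mp h
  have hσm : σ m = m := by rw [hm, map_sub, map_one, hσu]
  set c := m / T E σ with hc
  have hσc : σ c = c := by rw [hc, map_div₀, hσm, sigma_T]
  have hmc : m = c * T E σ := by
    rw [hc]; field_simp [T_ne_zero E σ]
  have hcnorm : ‖c‖ ≤ rho q ^ lev E σ i := by
    have := hmL ⟨0, orderOf_pos' σ⟩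
    rwa [hmc, co_mul_T E σ hσc] at this
  have hcθ : c * theta1 E σ ∈ Lat E σ (lev E σ i) := by
    rw [← bas_zero]; exact mul_bas_mem_Lat E σ hσc hcnorm _
  set y₀ := 1 + c * theta1 E σ with hy₀
  have hy₀1 : ‖y₀ - 1‖ ≤ rho q ^ lev E σ i := by
    rw [hy₀, add_sub_cancel_left]; exact norm_le_of_mem_Lat E σ hcθ
  have hy₀norm : ‖y₀‖ = 1 :=
    norm_eq_one_of_norm_sub_one_lt E (lt_of_le_of_lt hy₀1 (rho_pow_lev_lt_one E σ i))
  have hy₀0 : y₀ ≠ 0 := fun h => by rw [h, norm_zero] at hy₀norm; exact zero_ne_one hy₀norm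
  set y : Additive Eˣ := Additive.ofMul (Units.mk0 y₀ hy₀0) with hy
  have hyval : uval E y = y₀ := rfl
  have hyV : y ∈ V E σ i := by
    rw [mem_V_iff, hyval, hy₀, add_sub_cancel_left]; exact hcθ
  refine ⟨y, hyV, ?_⟩
  have hNy : uval E (Nm E σ y) =
      ∏ j ∈ Finset.range (orderOf σ), (1 + c * (σ ^ j) (theta1 E σ)) := by
    rw [uval_Nm]
    refine Finset.prod_congr rfl fun j _ => ?_
    rw [hyval, hy₀, map_add, map_one, map_mul, pow_apply_of_fixed σ hσc]
  have hr0 : 0 ≤ rho q ^ lev E σ i := pow_nonneg rho_pos.le _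
  have hr1 : rho q ^ lev E σ i ≤ 1 := (rho_pow_lev_lt_one E σ i).le
  have hexp := norm_prod_one_add_sub E (Finset.range (orderOf σ))
    (fun j => c * (σ ^ j) (theta1 E σ)) hr0 hr1 (fun j _ => by
      rw [norm_mul, norm_pow_sigma]
      calc ‖c‖ * ‖theta1 E σ‖ ≤ rho q ^ lev E σ i * 1 :=
            mul_le_mul hcnorm (norm_theta1_le E σ) (norm_nonneg _) hr0
        _ = rho q ^ lev E σ i := mul_one _)
  have hsum : ∑ j ∈ Finset.range (orderOf σ), c * (σ ^ j) (theta1 E σ) = m := by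
    rw [← Finset.mul_sum]; exact hmc.symm
  have hclose : ‖uval E (Nm E σ y) - uval E u‖ ≤ (rho q ^ lev E σ i) ^ 2 := by
    have h1 : uval E (Nm E σ y) - uval E u =
        ∏ j ∈ Finset.range (orderOf σ), (1 + c * (σ ^ j) (theta1 E σ)) - 1 -
          ∑ j ∈ Finset.range (orderOf σ), c * (σ ^ j) (theta1 E σ) := by
      rw [hNy, hsum, hm]; ring
    rw [h1]; exact hexp
  apply mem_V_of_norm_le
  rw [uval_sub]
  have hNnorm : ‖uval E (Nm E σ y)‖ = 1 :=
    norm_uval_of_mem_V E σ (map_Nm_le E σ i ⟨y, hyV, rfl⟩)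
  have hN0 : uval E (Nm E σ y) ≠ 0 := uval_ne_zero E _
  have h2 : uval E u / uval E (Nm E σ y) - 1 =
      (uval E u - uval E (Nm E σ y)) / uval E (Nm E σ y) := by field_simp
  rw [h2, norm_div, hNnorm, div_one, norm_sub_rev]
  refine hclose.trans ?_
  rw [← pow_mul]
  exact pow_le_pow_of_le_one rho_pos.le rho_lt_one.le (lev_ineq E σ i)

/-- Step for `Ĥ⁻¹`: an element of `V i` of norm `1` is of the form `σ y / y` with `y ∈ V i`,
modulo `V (i + 1)`. -/
theorem step_H1 (i : ℕ) (u : Additive Eˣ) (hu : u ∈ V E σ i) (hN : Nm E σ u = 0) :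
    ∃ y ∈ V E σ i, u - Dm E σ y ∈ V E σ (i + 1) := by
  set m := uval E u - 1 with hm
  have hmL : m ∈ Lat E σ (lev E σ i) := hu
  have hr0 : 0 ≤ rho q ^ lev E σ i := pow_nonneg rho_pos.le _
  have hr1 : rho q ^ lev E σ i ≤ 1 := (rho_pow_lev_lt_one E σ i).le
  have hum : uval E u = 1 + m := by rw [hm]; ring
  have hprod : ∏ j ∈ Finset.range (orderOf σ), (1 + (σ ^ j) m) = 1 := by
    have h := congrArg (uval E) hN
    rw [uval_Nm, uval_zero] at h
    refine Eq.trans (Finset.prod_congr rfl fun j _ => ?_) h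
    rw [hum, map_add, map_one]
  have hexp := norm_prod_one_add_sub E (Finset.range (orderOf σ)) (fun j => (σ ^ j) m) hr0 hr1
    (fun j _ => by rw [norm_pow_sigma]; exact norm_le_of_mem_Lat E σ hmL)
  rw [hprod, sub_self, zero_sub, norm_neg] at hexp
  set S := ∑ l, co E σ m l with hS
  have hσS : σ S = S := by
    rw [hS, map_sum]
    exact Finset.sum_congr rfl fun l _ => sigma_co E σ m l
  have htr : tr E σ m = S * T E σ := tr_eq_sum_co_mul_T E σ m
  have hSnorm : ‖S‖ ≤ rho q ^ lev E σ (i + 1) := by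
    have hmem : S * T E σ ∈ Lat E σ (lev E σ (i + 1)) := by
      apply mem_Lat_of_norm_le
      rw [← htr]
      refine hexp.trans ?_
      rw [← pow_mul]
      exact pow_le_pow_of_le_one rho_pos.le rho_lt_one.le (lev_ineq E σ i)
    have := hmem ⟨0, orderOf_pos' σ⟩
    rwa [co_mul_T E σ hσS] at this
  set g : ℕ → E := fun l => ∑ t ∈ Finset.range l, (σ ^ t) (theta1 E σ) with hg
  have hgσ : ∀ l, σ (g l) - g l = (σ ^ l) (theta1 E σ) - theta1 E σ := by
    intro l
    induction l with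
    | zero => simp [hg]
    | succ l ih =>
      have h1 : g (l + 1) = g l + (σ ^ l) (theta1 E σ) := Finset.sum_range_succ _ _
      have h2 : σ ((σ ^ l) (theta1 E σ)) = (σ ^ (l + 1)) (theta1 E σ) := by
        rw [pow_succ', AlgEquiv.mul_apply]
      rw [h1, map_add, h2]
      linear_combination ih
  set m' := ∑ l : Fin (orderOf σ), co E σ m l * g l with hm'
  have hm'L : m' ∈ Lat E σ (lev E σ i) := by
    refine AddSubgroup.sum_mem _ fun l _ => ?_
    simp only [hg]
    rw [Finset.mul_sum]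
    refine AddSubgroup.sum_mem _ fun t _ => ?_
    obtain ⟨l', hl'⟩ := pow_sigma_theta1 E σ t
    rw [hl']
    exact mul_bas_mem_Lat E σ (sigma_co E σ m l) (hmL l) l'
  have hσm' : σ m' - m' = m - S * theta1 E σ := by
    rw [hm', map_sum, ← Finset.sum_sub_distrib]
    have h1 : ∀ l : Fin (orderOf σ), σ (co E σ m l * g l) - co E σ m l * g l =
        co E σ m l * bas E σ l - co E σ m l * theta1 E σ := by
      intro l
      rw [map_mul, sigma_co, ← mul_sub, hgσ, bas_apply, mul_sub]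
    simp only [h1]
    rw [Finset.sum_sub_distrib, sum_co, ← Finset.sum_mul]
  set y₀ := 1 + m' with hy₀
  have hy₀1 : ‖y₀ - 1‖ ≤ rho q ^ lev E σ i := by
    rw [hy₀, add_sub_cancel_left]; exact norm_le_of_mem_Lat E σ hm'L
  have hy₀norm : ‖y₀‖ = 1 :=
    norm_eq_one_of_norm_sub_one_lt E (lt_of_le_of_lt hy₀1 (rho_pow_lev_lt_one E σ i))
  have hy₀0 : y₀ ≠ 0 := fun h => by rw [h, norm_zero] at hy₀norm; exact zero_ne_one hy₀norm
  set y : Additive Eˣ := Additive.ofMul (Units.mk0 y₀ hy₀0) with hy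
  have hyval : uval E y = y₀ := rfl
  have hyV : y ∈ V E σ i := by
    rw [mem_V_iff, hyval, hy₀, add_sub_cancel_left]; exact hm'L
  refine ⟨y, hyV, ?_⟩
  have hnum : uval E u * y₀ - σ y₀ = S * theta1 E σ + m * m' := by
    have h1 : σ m' = m' + (m - S * theta1 E σ) := by linear_combination hσm'
    rw [hy₀, map_add, map_one, h1, hum]
    ring
  have hnumL : uval E u * y₀ - σ y₀ ∈ Lat E σ (lev E σ (i + 1)) := by
    rw [hnum]
    refine (Lat E σ _).add_mem ?_ ?_
    · rw [← bas_zero]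
      exact mul_bas_mem_Lat E σ hσS hSnorm _
    · exact mul_mem_Lat E σ (norm_le_of_mem_Lat E σ hmL) (norm_le_of_mem_Lat E σ hm'L)
        (by have := lev_ineq E σ i; omega)
  rw [mem_V_iff, uval_sub, uval_Dm, hyval]
  have hσy₀ : σ y₀ ≠ 0 := by
    intro h
    exact hy₀0 (by simpa using h)
  have h3 : uval E u / (σ y₀ / y₀) - 1 =
      (uval E u * y₀ - σ y₀) * uval E (-(sig E σ y)) := by
    rw [uval_neg, uval_sig, hyval]
    field_simp
  rw [h3]
  exact mul_uval_mem_Lat E σ hnumL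
    ((V E σ 0).neg_mem (V_antitone E σ (Nat.zero_le i) (sig_mem_V E σ hyV)))

/-! ### Cohomological triviality of `V 0` and the local norm index -/

open Fermat.Agent.S14.HerbrandPrime in
/-- `Ĥ⁰(⟨σ⟩, V 0) = 0`. -/
theorem qa_Dm_Nm_V : qa (Dm E σ) (Nm E σ) (V E σ 0) = 1 :=
  Fermat.Agent.S55.CohTrivialApprox.qa_eq_one_of_filtration (Dm E σ) (Nm E σ) (Dm_Nm_apply E σ)
    (V E σ) (map_Nm_le E σ) (V_sep E σ) (V_complete E σ) (step_H0 E σ)

open Fermat.Agent.S14.HerbrandPrime in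
/-- `Ĥ⁻¹(⟨σ⟩, V 0) = 0`. -/
theorem qa_Nm_Dm_V : qa (Nm E σ) (Dm E σ) (V E σ 0) = 1 :=
  Fermat.Agent.S55.CohTrivialApprox.qa_eq_one_of_filtration (Nm E σ) (Dm E σ) (Nm_Dm_apply E σ)
    (V E σ) (map_Dm_le E σ) (V_sep E σ) (V_complete E σ) (step_H1 E σ)

open Fermat.Agent.S14.HerbrandPrime in
/-- **The cohomologically trivial open subgroup of the units** (hypothesis `(V)` of
`S55/LocalNormIndex`). -/
theorem exists_cohTrivial_subgroup :
    ∃ W : AddSubgroup (Additive Eˣ), W ≤ (ordHom E).ker ∧ W.relIndex (ordHom E).ker ≠ 0 ∧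
      W.map (Dm E σ) ≤ W ∧ W.map (Nm E σ) ≤ W ∧
      qa (Dm E σ) (Nm E σ) W = 1 ∧ qa (Nm E σ) (Dm E σ) W = 1 :=
  ⟨V E σ 0, V_le_ker E σ 0, relIndex_V_ne_zero E σ 0, map_Dm_le E σ 0, map_Nm_le E σ 0,
    qa_Dm_Nm_V E σ, qa_Nm_Dm_V E σ⟩

end Fermat.Agent.S55.Local.UnitLattice
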