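/-
S55 / Local (helper23): index of the `p`-th powers in the unit group of a complete discrete
valuation ring with finite residue field:
`[Oˣ : (Oˣ)^p] = |O / p O| * |μ_p(O)|`.
Elementary core: a domain `O`, an element `π` with `p = ε π^e`, `π`-adically separated and complete.
Mathlib only.
-/
import Mathlib

set_option autoImplicit false
set_option linter.unusedSectionVars false

namespace Fermat.Agent.S55.Local.UnitsPowerIndex

open Finset

section Core

variable {O : Type*} [CommRing O]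

/-- `(1 + x)^p - 1 = x * (p + x * t)`. -/
lemma one_add_pow_sub_one (p : ℕ) (x : O) : ∃ t : O, (1 + x) ^ p - 1 = x * ((p : O) + x * t) := by
  have h1 : (∑ i ∈ range p, (1 + x) ^ i) * ((1 + x) - 1) = (1 + x) ^ p - 1 := geom_sum_mul (1 + x) p
  have h2 : ∀ i : ℕ, x ∣ (1 + x) ^ i - 1 := by
    intro i
    have := sub_dvd_pow_sub_pow (1 + x) 1 i
    simpa using this
  have h3 : x ∣ ∑ i ∈ range p, ((1 + x) ^ i - 1) := Finset.dvd_sum fun i _ => h2 i
  obtain ⟨t, ht⟩ := h3
  refine ⟨t, ?_⟩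
  have h4 : ∑ i ∈ range p, (1 + x) ^ i = (p : O) + x * t := by
    rw [← ht, Finset.sum_sub_distrib]
    simp
  rw [← h1, h4]
  ring

variable (π : O) (p e : ℕ) (ε : Oˣ) (hpe : (p : O) = ε * π ^ e)

include hpe in
/-- Key expansion: for `π^(e+1) ∣ x`, `(1 + x)^p - 1 = x * π^e * (ε + π * b)`. -/
lemma key_expansion {x : O} (hx : π ^ (e + 1) ∣ x) :
    ∃ b : O, (1 + x) ^ p - 1 = x * π ^ e * ((ε : O) + π * b) := by
  obtain ⟨t, ht⟩ := one_add_pow_sub_one p x
  obtain ⟨a, ha⟩ := hx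
  refine ⟨a * t, ?_⟩
  rw [ht, hpe]
  conv_lhs => rw [show x * ((ε : O) * π ^ e + x * t) = x * ((ε : O) * π ^ e + (π ^ (e + 1) * a) * t) by
    rw [← ha]]
  ring

include hpe in
lemma pow_sub_one_dvd {m : ℕ} (hm : e + 1 ≤ m) {x : O} (hx : π ^ m ∣ x) :
    π ^ (m + e) ∣ (1 + x) ^ p - 1 := by
  obtain ⟨b, hb⟩ := key_expansion π p e ε hpe (dvd_trans (pow_dvd_pow π hm) hx)
  rw [hb, pow_add]
  exact Dvd.dvd.mul_right (mul_dvd_mul_right hx _) _

end Core

section Complete

variable {O : Type*} [CommRing O] [IsDomain O] (π : O) (hπ : π ≠ 0) (p e : ℕ) (ε : Oˣ)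
  (hpe : (p : O) = ε * π ^ e)
  (hH : ∀ x : O, (∀ m : ℕ, π ^ m ∣ x) → x = 0)
  (hC : ∀ f : ℕ → O, (∀ j, π ^ j ∣ f (j + 1) - f j) → ∃ L : O, ∀ j, π ^ j ∣ f j - L)

include hH in
lemma not_isUnit_pi : ¬ IsUnit π := by
  intro hu
  have : (1 : O) = 0 := hH 1 fun m => (hu.pow m).dvd
  exact one_ne_zero this

include hH in
/-- `ε + π b ≠ 0`. -/
lemma unit_add_ne_zero (b : O) : (ε : O) + π * b ≠ 0 := by
  intro h
  have h1 : π ∣ (ε : O) := ⟨-b, by linear_combination h⟩
  exact not_isUnit_pi π hH (isUnit_of_dvd_unit h1 ε.isUnit)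

include hπ hpe hH in
/-- injectivity of the `p`-power map near `1`. -/
lemma eq_zero_of_pow_eq_one {x : O} (hx : π ^ (e + 1) ∣ x) (h : (1 + x) ^ p = 1) : x = 0 := by
  obtain ⟨b, hb⟩ := key_expansion π p e ε hpe hx
  rw [h, sub_self] at hb
  have h1 := hb.symm
  rcases mul_eq_zero.mp h1 with h2 | h2
  · rcases mul_eq_zero.mp h2 with h3 | h3
    · exact h3
    · exact absurd h3 (pow_ne_zero e hπ)
  · exact absurd h2 (unit_add_ne_zero π ε hH b)

omit [IsDomain O] in
include hpe in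
/-- one step of successive approximation. -/
lemma approx_step {m : ℕ} (hm : e + 1 ≤ m) {y h : O} (hy : π ∣ y - 1)
    (hyh : π ^ (m + e) ∣ y ^ p - h) :
    ∃ d : O, π ^ (m + e + 1) ∣ (y * (1 + π ^ m * d)) ^ p - h := by
  obtain ⟨c, hc⟩ := hyh
  set d : O := -c * ((ε⁻¹ : Oˣ) : O) with hd
  refine ⟨d, ?_⟩
  have hx : π ^ (e + 1) ∣ π ^ m * d := Dvd.dvd.mul_right (pow_dvd_pow π hm) d
  obtain ⟨b, hb⟩ := key_expansion π p e ε hpe hx
  have hyp : π ∣ y ^ p - 1 := dvd_trans hy (by simpa using sub_dvd_pow_sub_pow y 1 p)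
  obtain ⟨r, hr⟩ := hyp
  have hεε : (ε : O) * ((ε⁻¹ : Oˣ) : O) = 1 := by
    rw [← Units.val_mul, mul_inv_cancel, Units.val_one]
  have e1 : (1 + π ^ m * d) ^ p = 1 + π ^ m * d * π ^ e * ((ε : O) + π * b) := by
    rw [← hb]; ring
  refine ⟨-(r * c) + y ^ p * d * b, ?_⟩
  rw [mul_pow, e1]
  have e2 : y ^ p = h + π ^ (m + e) * c := by rw [← hc]; ring
  have e3 : y ^ p * d * (ε : O) = -(y ^ p * c) := by
    rw [hd]
    calc y ^ p * (-c * ((ε⁻¹ : Oˣ) : O)) * (ε : O)
        = -(y ^ p * c) * ((ε : O) * ((ε⁻¹ : Oˣ) : O)) := by ring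
      _ = -(y ^ p * c) := by rw [hεε, mul_one]
  -- y^p (1 + π^(m+e) d (ε + π b)) - h = π^(m+e) (c + y^p d ε + π y^p d b)
  --   = π^(m+e) (c (1 - y^p) + π y^p d b) = π^(m+e+1) (- r c + y^p d b)
  have e4 : y ^ p * (1 + π ^ m * d * π ^ e * ((ε : O) + π * b)) - h
      = π ^ (m + e) * (c + y ^ p * d * (ε : O) + π * (y ^ p * d * b)) := by
    rw [pow_add]
    linear_combination (1 : O) * e2
  rw [e4, e3, pow_succ]
  linear_combination (-(π ^ (m + e) * c)) * hr

include hpe hH hC in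
/-- surjectivity of the `p`-power map `1 + π^n O → 1 + π^(n+e) O` for `n ≥ e + 1`. -/
lemma exists_root {n : ℕ} (hn : e + 1 ≤ n) {h : O} (hh : π ^ (n + e) ∣ h - 1) :
    ∃ y : O, π ^ n ∣ y - 1 ∧ y ^ p = h := by
  classical
  let Sj : ℕ → Type _ := fun j => {y : O // π ^ n ∣ y - 1 ∧ π ^ (n + j + e) ∣ y ^ p - h}
  have step : ∀ j (y : Sj j), ∃ y' : Sj (j + 1), π ^ (n + j) ∣ (y' : O) - (y : O) := by
    rintro j ⟨y, hy1, hy2⟩
    have hy : π ∣ y - 1 := dvd_trans (dvd_pow_self π (by omega)) hy1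
    obtain ⟨d, hd⟩ := approx_step π p e ε hpe (m := n + j) (by omega) hy hy2
    refine ⟨⟨y * (1 + π ^ (n + j) * d), ?_, ?_⟩, ?_⟩
    · have : y * (1 + π ^ (n + j) * d) - 1 = (y - 1) + π ^ (n + j) * (y * d) := by ring
      rw [this]
      exact dvd_add hy1 (Dvd.dvd.mul_right (pow_dvd_pow π (by omega)) _)
    · have : n + (j + 1) + e = n + j + e + 1 := by omega
      rw [this]
      exact hd
    · have : y * (1 + π ^ (n + j) * d) - y = π ^ (n + j) * (y * d) := by ring
      show π ^ (n + j) ∣ y * (1 + π ^ (n + j) * d) - y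
      rw [this]
      exact dvd_mul_right _ _
  choose nxt hnxt using step
  have base : π ^ n ∣ (1 : O) - 1 ∧ π ^ (n + 0 + e) ∣ (1 : O) ^ p - h := by
    refine ⟨by simp, ?_⟩
    rw [one_pow, add_zero, ← neg_sub, dvd_neg]
    exact hh
  let seq : ∀ j, Sj j := fun j => Nat.rec (motive := Sj) ⟨1, base⟩ (fun j y => nxt j y) j
  have hseq : ∀ j, seq (j + 1) = nxt j (seq j) := fun j => rfl
  obtain ⟨L, hL⟩ := hC (fun j => (seq j : O)) (fun j => by
    have := hnxt j (seq j)
    rw [← hseq] at this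
    exact dvd_trans (pow_dvd_pow π (by omega)) this)
  refine ⟨L, ?_, ?_⟩
  · have h1 := hL n
    have h2 := (seq n).2.1
    have : L - 1 = -((seq n : O) - L) + ((seq n : O) - 1) := by ring
    rw [this]
    exact dvd_add (by rw [dvd_neg]; exact h1) h2
  · have : L ^ p - h = 0 := by
      apply hH
      intro m
      have h1 : π ^ m ∣ (seq m : O) ^ p - L ^ p :=
        dvd_trans (hL m) (sub_dvd_pow_sub_pow _ _ p)
      have h2 : π ^ m ∣ (seq m : O) ^ p - h :=
        dvd_trans (pow_dvd_pow π (by omega)) (seq m).2.2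
      have : L ^ p - h = -((seq m : O) ^ p - L ^ p) + ((seq m : O) ^ p - h) := by ring
      rw [this]
      exact dvd_add (by rw [dvd_neg]; exact h1) h2
    exact sub_eq_zero.mp this

end Complete

section Groups

variable {O : Type*} [CommRing O] [IsDomain O] (π : O) (hπ : π ≠ 0) (p e : ℕ) (ε : Oˣ)
  (hpe : (p : O) = ε * π ^ e)
  (hH : ∀ x : O, (∀ m : ℕ, π ^ m ∣ x) → x = 0)
  (hC : ∀ f : ℕ → O, (∀ j, π ^ j ∣ f (j + 1) - f j) → ∃ L : O, ∀ j, π ^ j ∣ f j - L)
  (hJ : ∀ x : O, π ∣ x - 1 → IsUnit x)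

/-- principal units of level `m`: `u ≡ 1 mod π^m`. -/
def U (m : ℕ) : Subgroup Oˣ :=
  (Units.map (Ideal.Quotient.mk (Ideal.span {π ^ m})).toMonoidHom).ker

omit [IsDomain O] in
lemma mem_U {m : ℕ} {u : Oˣ} : u ∈ U π m ↔ π ^ m ∣ (u : O) - 1 := by
  rw [U, MonoidHom.mem_ker, Units.ext_iff, Units.coe_map, Units.val_one]
  show Ideal.Quotient.mk _ (u : O) = 1 ↔ _
  rw [← map_one (Ideal.Quotient.mk _), Ideal.Quotient.eq, Ideal.mem_span_singleton]

include hpe hH hC hJ in
lemma map_pow_U {n : ℕ} (hn : e + 1 ≤ n) :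
    (U π n).map (powMonoidHom p : Oˣ →* Oˣ) = U π (n + e) := by
  ext v
  constructor
  · rintro ⟨u, hu, rfl⟩
    rw [SetLike.mem_coe, mem_U] at hu
    rw [mem_U]
    have := pow_sub_one_dvd π p e ε hpe hn hu
    simpa using this
  · intro hv
    rw [mem_U] at hv
    obtain ⟨y, hy1, hy2⟩ := exists_root π p e ε hpe hH hC hn hv
    have hyu : IsUnit y := hJ y (dvd_trans (dvd_pow_self π (by omega)) hy1)
    refine ⟨hyu.unit, ?_, ?_⟩
    · rw [SetLike.mem_coe, mem_U]; simpa using hy1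
    · apply Units.ext
      simp [hy2]

include hπ hpe hH in
lemma ker_inf_U {n : ℕ} (hn : e + 1 ≤ n) :
    (powMonoidHom p : Oˣ →* Oˣ).ker ⊓ U π n = ⊥ := by
  rw [eq_bot_iff]
  intro u hu
  obtain ⟨hu1, hu2⟩ := Subgroup.mem_inf.mp hu
  rw [mem_U] at hu2
  rw [MonoidHom.mem_ker, powMonoidHom_apply] at hu1
  have h1 : (1 + ((u : O) - 1)) ^ p = 1 := by
    have := congrArg (fun v : Oˣ => (v : O)) hu1
    simpa using this
  have h2 := eq_zero_of_pow_eq_one π hπ p e ε hpe hH
    (dvd_trans (pow_dvd_pow π hn) hu2) h1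
  rw [Subgroup.mem_bot]
  apply Units.ext
  rw [Units.val_one]
  exact sub_eq_zero.mp h2

include hπ hJ in
/-- `[U_n : U_(n+e)] = |O / π^e O|`. -/
lemma relIndex_U {n : ℕ} (hn : 1 ≤ n) (e : ℕ) :
    (U π (n + e)).relIndex (U π n) = Nat.card (O ⧸ Ideal.span {π ^ e}) := by
  classical
  have hunit : ∀ a : O, IsUnit (1 + π ^ n * a) := fun a => hJ _ (by
    have : 1 + π ^ n * a - 1 = π ^ n * a := by ring
    rw [this]
    exact Dvd.dvd.mul_right (dvd_pow_self π (by omega)) a)
  have hGmem : ∀ a : O, (hunit a).unit ∈ U π n := fun a => by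
    rw [mem_U, IsUnit.unit_spec]
    exact ⟨a, by ring⟩
  let G : O → U π n := fun a => ⟨(hunit a).unit, hGmem a⟩
  let F : O → (U π n) ⧸ (U π (n + e)).subgroupOf (U π n) := fun a => QuotientGroup.mk (G a)
  have hFsurj : Function.Surjective F := by
    intro q
    obtain ⟨u, rfl⟩ := QuotientGroup.mk_surjective q
    obtain ⟨a, ha⟩ := (mem_U π).mp u.2
    refine ⟨a, ?_⟩
    show QuotientGroup.mk (G a) = QuotientGroup.mk u
    congr 1
    apply Subtype.ext
    apply Units.ext
    show ((hunit a).unit : O) = ((u : Oˣ) : O)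
    rw [IsUnit.unit_spec, ← ha]
    ring
  have hFeq : ∀ a b, F a = F b ↔ π ^ e ∣ a - b := by
    intro a b
    show (QuotientGroup.mk (G a) : (U π n) ⧸ (U π (n + e)).subgroupOf (U π n)) =
      QuotientGroup.mk (G b) ↔ _
    rw [QuotientGroup.eq, Subgroup.mem_subgroupOf, mem_U]
    have hval : (((G a)⁻¹ * G b : U π n) : Oˣ) = ((hunit a).unit)⁻¹ * (hunit b).unit := rfl
    rw [hval]
    -- multiply by the unit `1 + π^n a`
    have hua : ((hunit a).unit : O) = 1 + π ^ n * a := IsUnit.unit_spec _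
    have hub : ((hunit b).unit : O) = 1 + π ^ n * b := IsUnit.unit_spec _
    have hinv : ((hunit a).unit : O) * ((((hunit a).unit)⁻¹ : Oˣ) : O) = 1 := by
      rw [← Units.val_mul, mul_inv_cancel, Units.val_one]
    have key : ((hunit a).unit : O) *
        ((((hunit a).unit)⁻¹ * (hunit b).unit : Oˣ) : O) - ((hunit a).unit : O)
        = π ^ n * (b - a) := by
      rw [Units.val_mul, ← mul_assoc, hinv, one_mul, hua, hub]; ring
    constructor
    · intro h
      have h1 : π ^ (n + e) ∣ π ^ n * (b - a) := by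
        rw [← key]
        have : ((hunit a).unit : O) *
            ((((hunit a).unit)⁻¹ * (hunit b).unit : Oˣ) : O) - ((hunit a).unit : O)
            = ((hunit a).unit : O) *
              (((((hunit a).unit)⁻¹ * (hunit b).unit : Oˣ) : O) - 1) := by ring
        rw [this]
        exact Dvd.dvd.mul_left h _
      rw [pow_add] at h1
      have h2 := (mul_dvd_mul_iff_left (pow_ne_zero n hπ)).mp h1
      rw [← neg_sub, dvd_neg] at h2
      exact h2
    · intro h
      have h1 : π ^ (n + e) ∣ π ^ n * (b - a) := by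
        rw [pow_add]
        apply mul_dvd_mul_left
        rw [← neg_sub, dvd_neg]
        exact h
      rw [← key] at h1
      have : ((hunit a).unit : O) *
          ((((hunit a).unit)⁻¹ * (hunit b).unit : Oˣ) : O) - ((hunit a).unit : O)
          = ((hunit a).unit : O) *
            (((((hunit a).unit)⁻¹ * (hunit b).unit : Oˣ) : O) - 1) := by ring
      rw [this] at h1
      exact (Units.dvd_mul_left (u := (hunit a).unit)
        (b := ((((hunit a).unit)⁻¹ * (hunit b).unit : Oˣ) : O) - 1)).mp h1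
  -- the bijection `O ⧸ (π^e) ≃ U_n ⧸ U_(n+e)`
  let φ : (O ⧸ Ideal.span {π ^ e}) → (U π n) ⧸ (U π (n + e)).subgroupOf (U π n) :=
    Quotient.lift F (fun a b hab => (hFeq a b).mpr (by
      have : a - b ∈ Ideal.span {π ^ e} := (Submodule.quotientRel_def _).mp hab
      exact Ideal.mem_span_singleton.mp this))
  have hφ : ∀ a : O, φ (Ideal.Quotient.mk _ a) = F a := fun a => rfl
  have hbij : Function.Bijective φ := by
    constructor
    · intro x y hxy
      obtain ⟨a, rfl⟩ := Ideal.Quotient.mk_surjective x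
      obtain ⟨b, rfl⟩ := Ideal.Quotient.mk_surjective y
      rw [hφ, hφ, hFeq] at hxy
      exact (Ideal.Quotient.eq).mpr (Ideal.mem_span_singleton.mpr hxy)
    · intro q
      obtain ⟨a, ha⟩ := hFsurj q
      exact ⟨Ideal.Quotient.mk _ a, by rw [hφ, ha]⟩
  rw [Subgroup.relIndex, Subgroup.index]
  exact (Nat.card_congr (Equiv.ofBijective φ hbij)).symm

omit [IsDomain O] in
lemma U_antitone {m m' : ℕ} (h : m ≤ m') : U π m' ≤ U π m := by
  intro u hu
  rw [mem_U] at hu ⊢
  exact dvd_trans (pow_dvd_pow π h) hu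

omit [IsDomain O] in
lemma index_U_ne_zero (m : ℕ) [Finite (O ⧸ Ideal.span {π ^ m})] : (U π m).index ≠ 0 := by
  rw [U, Subgroup.index_ker]
  exact Nat.card_pos.ne'

include hπ hpe hH hC hJ in
/-- **Index of `p`-th powers**, elementary core form. -/
theorem index_range_pow_core (hfin : Finite (O ⧸ Ideal.span {π ^ (e + 1)})) :
    (powMonoidHom p : Oˣ →* Oˣ).range.index =
      Nat.card (O ⧸ Ideal.span {π ^ e}) * Nat.card (powMonoidHom p : Oˣ →* Oˣ).ker := by
  set φ : Oˣ →* Oˣ := powMonoidHom p with hφ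
  set B : Subgroup Oˣ := U π (e + 1) with hB
  have ha : (B.map φ).index = (B ⊔ φ.ker).index * φ.range.index := Subgroup.index_map B φ
  have hb : B.map φ = U π (e + 1 + e) := map_pow_U π p e ε hpe hH hC hJ le_rfl
  have hc : (U π (e + 1 + e)).relIndex B * B.index = (U π (e + 1 + e)).index :=
    Subgroup.relIndex_mul_index (U_antitone π (by omega))
  have hd : (U π (e + 1 + e)).relIndex B = Nat.card (O ⧸ Ideal.span {π ^ e}) :=
    relIndex_U π hπ hJ (by omega) e
  have he : B.relIndex (B ⊔ φ.ker) * (B ⊔ φ.ker).index = B.index :=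
    Subgroup.relIndex_mul_index le_sup_left
  have hf : B.relIndex (B ⊔ φ.ker) = B.relIndex φ.ker := Subgroup.relIndex_sup_left φ.ker B
  have hg : B.relIndex φ.ker = Nat.card φ.ker := by
    rw [← Subgroup.inf_relIndex_right, inf_comm, ker_inf_U π hπ p e ε hpe hH le_rfl,
      Subgroup.relIndex_bot_left]
  have hX : (B ⊔ φ.ker).index ≠ 0 := by
    intro h0
    have := Subgroup.index_dvd_of_le (le_sup_left : B ≤ B ⊔ φ.ker)
    rw [h0, zero_dvd_iff] at this
    exact index_U_ne_zero π (e + 1) this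
  have key : (B ⊔ φ.ker).index * φ.range.index =
      (B ⊔ φ.ker).index * (Nat.card (O ⧸ Ideal.span {π ^ e}) * Nat.card φ.ker) := by
    rw [← ha, hb, ← hc, hd, ← he, hf, hg]
    ring
  exact Nat.eq_of_mul_eq_mul_left (Nat.pos_of_ne_zero hX) key

end Groups

section DVR

open IsLocalRing

variable {O : Type*} [CommRing O] [IsDomain O] [IsDiscreteValuationRing O]
  [IsAdicComplete (maximalIdeal O) O] [Finite (ResidueField O)]

/-- **Index of `p`-th powers in the units of a complete discrete valuation ring with finite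
residue field**: `[Oˣ : (Oˣ)^p] = |O / p O| * |μ_p(O)|` for every natural number `p` with
`(p : O) ≠ 0`. -/
theorem index_range_pow (p : ℕ) (hp0 : (p : O) ≠ 0) :
    (powMonoidHom p : Oˣ →* Oˣ).range.index =
      Nat.card (O ⧸ Ideal.span {(p : O)}) * Nat.card (powMonoidHom p : Oˣ →* Oˣ).ker := by
  obtain ⟨π, hirr⟩ := IsDiscreteValuationRing.exists_irreducible O
  have hπ : π ≠ 0 := hirr.ne_zero
  obtain ⟨e, ε, hpe⟩ := IsDiscreteValuationRing.eq_unit_mul_pow_irreducible hp0 hirr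
  have hmax : maximalIdeal O = Ideal.span {π} := hirr.maximalIdeal_eq
  have hpow : ∀ m : ℕ, (maximalIdeal O ^ m • ⊤ : Submodule O O) = Ideal.span {π ^ m} := by
    intro m
    rw [smul_eq_mul, Ideal.mul_top, hmax, Ideal.span_singleton_pow]
  have hH : ∀ x : O, (∀ m : ℕ, π ^ m ∣ x) → x = 0 := by
    intro x hx
    apply IsHausdorff.haus (inferInstance : IsHausdorff (maximalIdeal O) O) x
    intro m
    rw [SModEq.zero, hpow]
    exact Ideal.mem_span_singleton.mpr (hx m)
  have hC : ∀ f : ℕ → O, (∀ j, π ^ j ∣ f (j + 1) - f j) → ∃ L : O, ∀ j, π ^ j ∣ f j - L := by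
    intro f hf
    have hmn : ∀ m n, m ≤ n → π ^ m ∣ f n - f m := by
      intro m n hmn
      induction n, hmn using Nat.le_induction with
      | base => simp
      | succ n hmn ih =>
        have : f (n + 1) - f m = (f (n + 1) - f n) + (f n - f m) := by ring
        rw [this]
        exact dvd_add (dvd_trans (pow_dvd_pow π hmn) (hf n)) ih
    obtain ⟨L, hL⟩ := IsPrecomplete.prec (inferInstance : IsPrecomplete (maximalIdeal O) O)
      (f := f) (by
        intro m n hmn'
        rw [SModEq.sub_mem, hpow]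
        apply Ideal.mem_span_singleton.mpr
        rw [← neg_sub, dvd_neg]
        exact hmn m n hmn')
    refine ⟨L, fun j => ?_⟩
    have := hL j
    rw [SModEq.sub_mem, hpow] at this
    exact Ideal.mem_span_singleton.mp this
  have hJ : ∀ x : O, π ∣ x - 1 → IsUnit x := by
    intro x hx
    rw [← IsLocalRing.notMem_maximalIdeal]
    intro hxm
    have h1 : x - 1 ∈ maximalIdeal O := by
      rw [hmax]; exact Ideal.mem_span_singleton.mpr hx
    have h2 : (1 : O) ∈ maximalIdeal O := by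
      have : (1 : O) = x - (x - 1) := by ring
      rw [this]
      exact (maximalIdeal O).sub_mem hxm h1
    exact (Ideal.ne_top_iff_one _).mp (maximalIdeal.isMaximal O).ne_top h2
  have hfin : Finite (O ⧸ Ideal.span {π ^ (e + 1)}) := by
    have h0 : Finite (O ⧸ maximalIdeal O) := inferInstanceAs (Finite (ResidueField O))
    have := Ideal.finite_quotient_pow (IsNoetherian.noetherian (maximalIdeal O)) (e + 1)
    rw [hmax, Ideal.span_singleton_pow] at this
    exact this
  have hspan : Ideal.span {(p : O)} = Ideal.span {π ^ e} := by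
    rw [Ideal.span_singleton_eq_span_singleton]
    exact ⟨ε⁻¹, by rw [hpe]; rw [mul_comm, ← mul_assoc]; simp⟩
  rw [hspan]
  exact index_range_pow_core π hπ p e ε hpe hH hC hJ hfin

end DVR

end Fermat.Agent.S55.Local.UnitsPowerIndex
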