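/-
S55 / local class formation (helper26): instantiation of helper25's valuation sequence
(`Local/UnramOrdCoh.lean`) with the cohomologically trivial units of an UNRAMIFIED extension
(`Local/UnramUnitsCoh.lean`): for `E/F` unramified, `ord_* : Hⁿ(Gal(E/F), Eˣ) → Hⁿ(Gal(E/F), ℤ)`
is bijective for every `n ≥ 1`.
-/
import Mathlib
import Fermat.Agent.S55.Local.UnramOrdCoh
import Fermat.Agent.S55.Local.UnramUnitsCoh2

set_option autoImplicit false
set_option linter.unusedSectionVars false

open CategoryTheory CategoryTheory.Limits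

namespace Fermat.Agent.S55.Local.UnramOrdCohInst

open Fermat.Agent.S55.Local Fermat.Agent.S55.Local.Blocks
open Fermat.Agent.S55.Local.UnramUnitsCoh Fermat.Agent.S55.Local.UnramUnitsCoh2
open Fermat.Agent.S55.Local.UnramOrdCoh

variable {F E : Type} [NontriviallyNormedField F] [IsUltrametricDist F] [ProperSpace F]
  [NontriviallyNormedField E] [IsUltrametricDist E] [ProperSpace E]
  [NormedAlgebra F E] [FiniteDimensional F E]

/-- The valuation sequence `0 → U_E → Eˣ → ℤ → 0` for the norm-one units `unitsRep F E`. -/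
noncomputable def unitsOrdSC : ShortComplex (Rep ℤ (E ≃ₐ[F] E)) :=
  ordSC (unitsIncl F E) (norm_unitsIncl (K := F) (E := E))

theorem unitsOrdSC_shortExact : (unitsOrdSC (F := F) (E := E)).ShortExact :=
  ordSC_shortExact (unitsIncl F E) (norm_unitsIncl (K := F) (E := E))
    (unitsIncl_injective (K := F) (E := E))
    (fun x hx => ⟨liftUnit x hx, rfl⟩)

variable [IsGalois F E]

/-- **(U3), local form, unramified case**: for `E/F` unramified the valuation induces a bijection
`Hⁿ(Gal(E/F), Eˣ) → Hⁿ(Gal(E/F), ℤ)` in every degree `n ≥ 1`. -/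
theorem bijective_ord_map_of_isUnram (hunr : IsUnram F E) (n : ℕ) (hn : 0 < n) :
    Function.Bijective (groupCohomology.map (A := Rep.ofAlgebraAutOnUnits F E)
      (B := Rep.trivial ℤ (E ≃ₐ[F] E) ℤ) (MonoidHom.id (E ≃ₐ[F] E)) (ordRepHom F E) n) :=
  bijective_ord_map (unitsIncl F E) (norm_unitsIncl (K := F) (E := E))
    (unitsIncl_injective (K := F) (E := E))
    (fun x hx => ⟨liftUnit x hx, rfl⟩) n
    (isZero_unitsRep hunr n hn) (isZero_unitsRep hunr (n + 1) (Nat.succ_pos n))

/-- Degree `2` (the case used for the Brauer group / `inv`). -/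
theorem bijective_ord_map₂_of_isUnram (hunr : IsUnram F E) :
    Function.Bijective (groupCohomology.map (A := Rep.ofAlgebraAutOnUnits F E)
      (B := Rep.trivial ℤ (E ≃ₐ[F] E) ℤ) (MonoidHom.id (E ≃ₐ[F] E)) (ordRepHom F E) 2) :=
  bijective_ord_map_of_isUnram hunr 2 (by norm_num)

/-- Class form: for `E/F` unramified, a class in `H²(Gal(E/F), Eˣ)` whose valuation class in
`H²(Gal(E/F), ℤ)` vanishes is zero. -/
theorem eq_zero_of_ord_map_eq_zero (hunr : IsUnram F E)
    (z : groupCohomology (Rep.ofAlgebraAutOnUnits F E) 2)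
    (hz : (groupCohomology.map (A := Rep.ofAlgebraAutOnUnits F E)
      (B := Rep.trivial ℤ (E ≃ₐ[F] E) ℤ) (MonoidHom.id (E ≃ₐ[F] E)) (ordRepHom F E) 2).hom z = 0) :
    z = 0 := by
  apply (bijective_ord_map₂_of_isUnram hunr).1
  rw [hz, map_zero]

end Fermat.Agent.S55.Local.UnramOrdCohInst
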